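import Fermat.Agent.Corollaries.Artin.Defs
import Fermat.Agent.Oldforms.Trace

/-!
# The Atkin-Lehner operator at `q ‖ N` in weight one with nebentypus `χ₋₃`

`w = (q x, y; N, q)`, `q x - M y = 1`, `N = q M`, `3 ∣ M`.  For `g` of level `N` and nebentypus
`χ = χ₋₃` the form `g ∣ w` is of the same kind, `g ∣ w ∣ w = (χ(q) / q) g`, the Hecke operators
outside `N` commute with `w`, and `U_q g + g ∣ w`, `U_q (g ∣ w) + (χ(q) / q) g` are of level `M`
(traces from `Γ₀(N)` to `Γ₀(M)`).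
-/

set_option autoImplicit false

noncomputable section

open CongruenceSubgroup Matrix.SpecialLinearGroup UpperHalfPlane EisensteinWeightOne
open scoped MatrixGroups ModularForm Manifold

namespace Fermat.Agent.Cor.Artin

open Fermat.Agent.X1 Fermat.Agent.HeckePar Fermat.Agent.Oldforms Fermat.Agent.Classic
open Fermat.Agent.Classic.Fri ModularFormClass

variable {N M q : ℕ} (D : ALData N M q)

include D in
theorem three_dvd_N (h3 : 3 ∣ M) : 3 ∣ N := h3.trans D.dvdMN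

include D in
theorem not_three_dvd_q (h3 : 3 ∣ M) : ¬ (3 : ℤ) ∣ (q : ℤ) := by
  intro h
  have h1 := D.h
  have h2 : (3 : ℤ) ∣ (M : ℤ) := by exact_mod_cast h3
  have h4 : (3 : ℤ) ∣ 1 := by
    rw [← h1]
    exact dvd_sub (h.mul_right _) (h2.mul_right _)
  omega

/-- `w` normalises `Γ₀(N)` and keeps the character. -/
theorem exists_W_mul3 (h3 : 3 ∣ M) (g : SL(2, ℤ)) (hg : g ∈ Gamma0 N) :
    ∃ g' ∈ Gamma0 N, chi3 (g' 1 1) = chi3 (g 1 1) ∧ D.W * mapGL ℝ g = mapGL ℝ g' * D.W := by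
  obtain ⟨g', hg', h⟩ := D.exists_W_mul g hg
  refine ⟨g', hg', ?_, h⟩
  rw [ALData.GL_eq_iff_int D.val_W (val_mapGL g) (val_mapGL g') D.val_W] at h
  have h1 := congrFun (congrFun h 1) 1
  simp only [Matrix.mul_apply, Fin.sum_univ_two, ALData.intW, Matrix.of_apply, Matrix.cons_val',
    Matrix.cons_val_zero, Matrix.cons_val_one, Matrix.cons_val_fin_one] at h1
  have h4 : (3 : ℤ) ∣ (N : ℤ) := by exact_mod_cast three_dvd_N D h3
  have h5 : (3 : ℤ) ∣ g' 1 0 := three_dvd_of_mem_Gamma0 (three_dvd_N D h3) hg'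
  have h6 : (3 : ℤ) ∣ (q : ℤ) * (g' 1 1 - g 1 1) := by
    have e : (q : ℤ) * (g' 1 1 - g 1 1) = N * g 0 1 - g' 1 0 * D.y := by
      linear_combination -h1
    rw [e]
    exact dvd_sub (h4.mul_right _) (h5.mul_right _)
  exact chi3_congr ((Int.prime_three.dvd_or_dvd h6).resolve_left (not_three_dvd_q D h3))

theorem σ_W : UpperHalfPlane.σ D.W = .refl ℝ ℂ := by
  rw [UpperHalfPlane.σ, if_pos D.det_W_pos]

theorem smul_slash_W (c : ℂ) (f : ℍ → ℂ) :
    (c • f) ∣[(1 : ℤ)] D.W = c • (f ∣[(1 : ℤ)] D.W) := by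
  rw [ModularForm.smul_slash, σ_W]
  rfl

theorem neb_W (h3 : 3 ∣ M) {F : ℍ → ℂ} (hF : Neb N F) : Neb N (F ∣[(1 : ℤ)] D.W) := by
  intro g hg
  obtain ⟨g', hg', h1, h2⟩ := exists_W_mul3 D h3 g hg
  rw [SL_slash', ← SlashAction.slash_mul, h2, SlashAction.slash_mul, ← SL_slash', hF g' hg',
    smul_slash_W, h1]

/-- the Atkin-Lehner transform of a cusp form of nebentypus `χ₋₃`. -/
def alCusp [NeZero N] (h3 : 3 ∣ M) (f : CuspForm (Gamma1 N) 1) (hf : Neb N f) : CuspForm (Gamma1 N) 1 where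
  toFun := ⇑f ∣[(1 : ℤ)] D.W
  slash_action_eq' := by
    rintro _ ⟨g, hg, rfl⟩
    have h0 : g ∈ Gamma0 N := Gamma1_in_Gamma0 N hg
    have h1 := neb_W D h3 hf g h0
    have h2 : chi3 (g 1 1) = 1 := chi3_11_of_Gamma1 (three_dvd_N D h3) hg
    rw [h2, Int.cast_one, one_smul] at h1
    exact h1
  holo' := (CuspFormClass.holo f).slash 1 D.W
  zero_at_cusps' := by
    intro c hc
    have hq : (q : ℤ) ≠ 0 := by exact_mod_cast D.hq.ne_zero
    have hA : D.intW.det = q := by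
      rw [ALData.intW, Matrix.det_fin_two_of, D.hNZ]
      linear_combination (q : ℤ) * D.h
    have h1 : D.W = toGLR hq D.intW hA := by
      rw [← Units.val_inj, val_toGLR, D.val_W]
    have h2 := isZeroAt_slash_toGLR f hq _ hA hc
    rw [← h1] at h2
    exact h2

theorem coe_alCusp [NeZero N] (h3 : 3 ∣ M) (f : CuspForm (Gamma1 N) 1) (hf : Neb N f) :
    ⇑(alCusp D h3 f hf) = ⇑f ∣[(1 : ℤ)] D.W := rfl

/-- weight one slash by a scalar matrix. -/
theorem slash_scal_one (hq : q ≠ 0) (f : ℍ → ℂ) :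
    f ∣[(1 : ℤ)] scal q hq = ((q : ℂ)⁻¹) • f := by
  funext τ
  have hq0 : (0 : ℝ) < q := by exact_mod_cast Nat.pos_of_ne_zero hq
  have hdet : 0 < ((scal q hq).det : ℝ) := by
    rw [Matrix.GeneralLinearGroup.val_det_apply, val_scal]
    simp [Matrix.det_fin_two]
    positivity
  have hτ : scal q hq • τ = τ := by
    ext
    rw [UpperHalfPlane.coe_smul_of_det_pos hdet]
    have : (q : ℂ) ≠ 0 := by exact_mod_cast hq
    simp [UpperHalfPlane.num, UpperHalfPlane.denom, val_scal]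
    field_simp
  have hden : UpperHalfPlane.denom (scal q hq) τ = (q : ℂ) := by
    simp [UpperHalfPlane.denom, val_scal]
  rw [ModularForm.slash_apply, hden, hτ, UpperHalfPlane.σ, if_pos hdet, sub_self, zpow_zero,
    mul_one, zpow_neg_one, mul_comm]
  rfl

/-- `g ∣ w ∣ w = (χ(q) / q) g`. -/
theorem slash_W_W (h3 : 3 ∣ M) {F : ℍ → ℂ} (hF : Neb N F) :
    (F ∣[(1 : ℤ)] D.W) ∣[(1 : ℤ)] D.W = (((chi3 q : ℤ) : ℂ) / q) • F := by
  have h := D.h
  have hN := D.hNZ
  set g : SL(2, ℤ) := ⟨!![q * D.x ^ 2 + D.y * M, D.y * (D.x + 1); (N : ℤ) * (D.x + 1),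
    M * D.y + q], by
      rw [Matrix.det_fin_two_of, hN]
      linear_combination ((1 : ℤ) + q * D.x - M * D.y) * h⟩ with hg
  have hgN : g ∈ Gamma0 N :=
    Gamma0_mem.mpr ((ZMod.intCast_zmod_eq_zero_iff_dvd _ _).mpr ⟨D.x + 1, rfl⟩)
  have hWW : D.W * D.W = scal q D.hq.ne_zero * mapGL ℝ g := by
    refine ALData.GL_eq_of_int D.val_W D.val_W (val_scal _) (val_mapGL _) ?_
    ext i j
    fin_cases i <;> fin_cases j <;>
      simp [ALData.intW, hg, Matrix.mul_apply, Fin.sum_univ_two] <;> try rw [hN]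
    · ring
    · ring
    · ring
    · ring
  have h11 : chi3 (g 1 1) = chi3 q := by
    refine chi3_congr ?_
    have e : g 1 1 - q = M * D.y := by
      rw [hg]
      simp
    rw [e]
    exact (by exact_mod_cast h3 : (3 : ℤ) ∣ (M : ℤ)).mul_right _
  rw [← SlashAction.slash_mul, hWW, SlashAction.slash_mul, slash_scal_one, ← SL_slash',
    ModularForm.SL_smul_slash, hF g hgN, h11, smul_smul]
  congr 1
  rw [div_eq_inv_mul]

/-! ### Hecke operators -/

/-- the weight of a Hecke coset. -/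
def wt (p : ℕ) : Option (ZMod p) → ℤ
  | none => chi3 p
  | some _ => 1

theorem tChi_eq_sum {p : ℕ} [hp : Fact p.Prime] (F : ℍ → ℂ) :
    tChi p F = ∑ x : Option (ZMod p), ((wt p x : ℤ) : ℂ) • (F ∣[(1 : ℤ)] hrep p x) := by
  rw [Fintype.sum_option, tChi, ModularForm.heckeU_def, sum_range_eq_sum_zmod, add_comm]
  congr 1
  refine Finset.sum_congr rfl fun j _ => ?_
  show _ = ((1 : ℤ) : ℂ) • _
  rw [Int.cast_one, one_smul]
  rfl

/-- the Hecke operators outside `N` commute with `w`. -/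
theorem tChi_W (h3 : 3 ∣ M) {F : ℍ → ℂ} (hF : Neb N F) {p : ℕ} [hp : Fact p.Prime]
    (hpN : ¬ p ∣ N) : tChi p (F ∣[(1 : ℤ)] D.W) = tChi p F ∣[(1 : ℤ)] D.W := by
  classical
  have h3N := three_dvd_N D h3
  have h3N' : (3 : ℤ) ∣ (N : ℤ) := by exact_mod_cast h3N
  have hpq : p ≠ q := fun h => hpN (h ▸ D.dvdqN)
  have hp3 : ¬ (3 : ℤ) ∣ (p : ℤ) := by
    intro h
    have h5 : 3 ∣ p := by exact_mod_cast h
    have h6 := (Nat.prime_dvd_prime_iff_eq Nat.prime_three hp.out).mp h5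
    exact hpN (h6 ▸ h3N)
  have key : ∀ x : Option (ZMod p), ∃ y : Option (ZMod p), ∃ g' ∈ Gamma0 N,
      hrep p x * D.W = mapGL ℝ g' * (D.W * hrep p y) ∧ wt p x * chi3 (g' 1 1) = wt p y := by
    intro x
    obtain ⟨y, g', hg', h⟩ := D.exists_hecke_W hp.out hpq ⟨x, fun h => absurd h hpN⟩
    refine ⟨y.1, g', hg', h, ?_⟩
    have hint : intRep p x * D.intW = (g' : Matrix (Fin 2) (Fin 2) ℤ) * (D.intW * intRep p y.1) := by
      have h2 := congrArg (fun A : GL (Fin 2) ℝ => (A : Matrix (Fin 2) (Fin 2) ℝ)) h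
      simp only [Units.val_mul] at h2
      rw [val_hrep hp.out.ne_zero, val_hrep hp.out.ne_zero, val_mapGL, D.val_W, ← map_intCast_mul,
        ← map_intCast_mul, ← map_intCast_mul] at h2
      exact map_intCast_injective h2
    have h5 : (3 : ℤ) ∣ g' 1 0 := three_dvd_of_mem_Gamma0 h3N hg'
    have hg3 : chi3 (g' 1 1) * chi3 (g' 1 1) = 1 := chi3_mul_self (not_three_dvd_of_mem h5)
    have hpp : chi3 p * chi3 p = 1 := chi3_mul_self hp3
    have h1 := congrFun (congrFun hint 1) 1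
    simp only [Matrix.mul_apply, Fin.sum_univ_two] at h1
    have e00 : D.intW 0 0 = q * D.x := rfl
    have e01 : D.intW 0 1 = D.y := rfl
    have e10 : D.intW 1 0 = N := rfl
    have e11 : D.intW 1 1 = q := rfl
    rw [e00, e01, e10, e11] at h1
    have hx10 : intRep p x 1 0 = 0 := by rcases x with _ | j <;> rfl
    rw [hx10, zero_mul, zero_add] at h1
    -- the congruence mod 3
    have h6 : (3 : ℤ) ∣ (q : ℤ) * (intRep p x 1 1 - g' 1 1 * intRep p y.1 1 1) := by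
      have e : (q : ℤ) * (intRep p x 1 1 - g' 1 1 * intRep p y.1 1 1) =
          g' 1 0 * (q * D.x * intRep p y.1 0 1 + D.y * intRep p y.1 1 1) +
            N * (g' 1 1 * intRep p y.1 0 1) := by
        linear_combination h1
      rw [e]
      exact dvd_add (h5.mul_right _) (h3N'.mul_right _)
    have h7 := (Int.prime_three.dvd_or_dvd h6).resolve_left (not_three_dvd_q D h3)
    have h8 : chi3 (intRep p x 1 1) = chi3 (g' 1 1) * chi3 (intRep p y.1 1 1) := by
      rw [← chi3_mul]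
      exact chi3_congr h7
    have hw : ∀ z : Option (ZMod p), wt p z = chi3 p * chi3 (intRep p z 1 1) := by
      intro z
      rcases z with _ | j
      · show chi3 p = chi3 p * chi3 1
        rw [chi3_one, mul_one]
      · show (1 : ℤ) = chi3 p * chi3 p
        rw [hpp]
    rw [hw x, hw y.1, h8]
    linear_combination (chi3 (p : ℤ) * chi3 (intRep p y.1 1 1)) * hg3
  choose σ g hg hσ hwt using key
  have hinj : Function.Injective σ := by
    intro x x' hxx'
    have h1 := hσ x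
    have h2 := hσ x'
    rw [hxx'] at h1
    apply ALData.hrep_unique hp.out (g := g x * (g x')⁻¹)
    apply mul_right_cancel (b := D.W)
    rw [h1, mul_assoc, h2, map_mul, map_inv]
    group
  have hbij : Function.Bijective σ := Finite.injective_iff_bijective.mp hinj
  rw [tChi_eq_sum, tChi_eq_sum, SlashAction.sum_slash, ← hbij.sum_comp]
  refine Finset.sum_congr rfl fun x _ => ?_
  have hdet : 0 < ((D.W * hrep p (σ x)).det : ℝ) := by
    rw [map_mul, Units.val_mul]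
    refine mul_pos D.det_W_pos ?_
    rcases σ x with _ | j
    · exact ModularForm.det_heckeDiagMatrix_pos _
    · exact ModularForm.det_heckeMatrix_pos _ _
  have e1 : (F ∣[(1 : ℤ)] hrep p x) ∣[(1 : ℤ)] D.W =
      ((chi3 (g x 1 1) : ℤ) : ℂ) • ((F ∣[(1 : ℤ)] D.W) ∣[(1 : ℤ)] hrep p (σ x)) := by
    rw [← SlashAction.slash_mul, hσ x, SlashAction.slash_mul, ← SL_slash', hF _ (hg x),
      ModularForm.smul_slash, UpperHalfPlane.σ, if_pos hdet, SlashAction.slash_mul]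
    rfl
  rw [smul_slash_W, e1, smul_smul, ← hwt x]
  push_cast
  rfl

/-! ### The trace -/

theorem chi3_mul_11 {a b : SL(2, ℤ)} (ha : (3 : ℤ) ∣ a 1 0) :
    chi3 ((a * b) 1 1) = chi3 (a 1 1) * chi3 (b 1 1) := by
  rw [← chi3_mul]
  refine chi3_congr ?_
  have e : (a * b) 1 1 - a 1 1 * b 1 1 = a 1 0 * b 0 1 := by
    rw [Matrix.SpecialLinearGroup.coe_mul, Matrix.mul_apply, Fin.sum_univ_two]
    ring
  rw [e]
  exact ha.mul_right _

/-- the trace from `Γ₀(N)` to `Γ₀(M)` with the character. -/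
def trF [NeZero q] (F : ℍ → ℂ) : ℍ → ℂ :=
  ∑ x : Option (ZMod q), ((chi3 (D.rep x 1 1) : ℤ) : ℂ) • (F ∣[(1 : ℤ)] D.rep x)

theorem neb_trF [NeZero q] (h3 : 3 ∣ M) {F : ℍ → ℂ} (hF : Neb N F) : Neb M (trF D F) := by
  classical
  intro g hg
  have h3N := three_dvd_N D h3
  rw [trF, SlashAction.sum_slash]
  choose σ c hc hσ using fun x : Option (ZMod q) =>
    D.exists_rep (D.rep x * g) (mul_mem (D.rep_mem x) hg)
  have hinj : Function.Injective σ := by
    intro x x' hxx'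
    have h1 := hσ x
    have h2 := hσ x'
    rw [hxx'] at h1
    apply D.rep_unique
    have : D.rep x * (D.rep x')⁻¹ = c x * (c x')⁻¹ := by
      have h3 : D.rep x = c x * D.rep (σ x') * g⁻¹ := by rw [← h1]; group
      have h4 : D.rep x' = c x' * D.rep (σ x') * g⁻¹ := by rw [← h2]; group
      rw [h3, h4]
      group
    rw [this]
    exact mul_mem (hc x) (inv_mem (hc x'))
  have hbij : Function.Bijective σ := Finite.injective_iff_bijective.mp hinj
  rw [← hbij.sum_comp (fun y => ((chi3 (D.rep y 1 1) : ℤ) : ℂ) • (F ∣[(1 : ℤ)] D.rep y)),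
    Finset.smul_sum]
  refine Finset.sum_congr rfl fun x _ => ?_
  have hrep3 : (3 : ℤ) ∣ (D.rep x) 1 0 := three_dvd_of_mem_Gamma0 h3 (D.rep_mem x)
  have hc3 : (3 : ℤ) ∣ (c x) 1 0 := three_dvd_of_mem_Gamma0 h3N (hc x)
  have hg3 : (3 : ℤ) ∣ g 1 0 := three_dvd_of_mem_Gamma0 h3 hg
  have hcc : chi3 (c x 1 1) * chi3 (c x 1 1) = 1 := chi3_mul_self (not_three_dvd_of_mem hc3)
  have hgg : chi3 (g 1 1) * chi3 (g 1 1) = 1 := chi3_mul_self (not_three_dvd_of_mem hg3)
  have e1 : chi3 (D.rep x 1 1) * chi3 (g 1 1) = chi3 (c x 1 1) * chi3 (D.rep (σ x) 1 1) := by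
    rw [← chi3_mul_11 hrep3, ← chi3_mul_11 hc3, hσ x]
  have e2 : chi3 (D.rep x 1 1) * chi3 (c x 1 1) = chi3 (g 1 1) * chi3 (D.rep (σ x) 1 1) := by
    linear_combination (chi3 (c x 1 1) * chi3 (g 1 1)) * e1 -
      (chi3 (D.rep x 1 1) * chi3 (c x 1 1)) * hgg +
      (chi3 (D.rep (σ x) 1 1) * chi3 (g 1 1)) * hcc
  have e3 : (F ∣[(1 : ℤ)] D.rep x) ∣[(1 : ℤ)] g =
      ((chi3 (c x 1 1) : ℤ) : ℂ) • (F ∣[(1 : ℤ)] D.rep (σ x)) := by
    rw [← SlashAction.slash_mul, hσ x, SlashAction.slash_mul, hF _ (hc x),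
      ModularForm.SL_smul_slash]
  rw [ModularForm.SL_smul_slash, e3, smul_smul, smul_smul]
  congr 1
  exact_mod_cast e2

theorem chi3_rep_some [NeZero q] (h3 : 3 ∣ M) (j : ZMod q) :
    chi3 (D.rep (some j) 1 1) = chi3 q := by
  refine chi3_congr ?_
  have e : D.rep (some j) 1 1 - q = M * j.val := by
    have h1 := congrFun (congrFun (D.rep_some_val j) 1) 1
    simp only [Matrix.of_apply, Matrix.cons_val', Matrix.cons_val_one,
      Matrix.cons_val_fin_one] at h1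
    rw [h1]
    ring
  rw [e]
  exact (by exact_mod_cast h3 : (3 : ℤ) ∣ (M : ℤ)).mul_right _

/-- `Tr F = F + χ(q) q U_q(F ∣ w)`. -/
theorem trF_eq [NeZero q] (h3 : 3 ∣ M) (F : ℍ → ℂ) :
    trF D F = F + (((chi3 q : ℤ) : ℂ) * q) • ModularForm.heckeU 1 q (F ∣[(1 : ℤ)] D.W) := by
  classical
  have hfq : Fact q.Prime := ⟨D.hq⟩
  have hq0 : (q : ℂ) ≠ 0 := by exact_mod_cast D.hq.ne_zero
  rw [trF, Fintype.sum_option, ALData.rep_none]
  congr 1
  · have h1 : ((1 : SL(2, ℤ)) 1 1) = 1 := rfl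
    rw [h1, chi3_one, Int.cast_one, one_smul, SlashAction.slash_one]
  · rw [ModularForm.heckeU_def, sum_range_eq_sum_zmod, Finset.smul_sum]
    refine Finset.sum_congr rfl fun j _ => ?_
    have hN := D.hNZ
    have h1 : D.W * ModularForm.heckeMatrix q j.val =
        scal q D.hq.ne_zero * mapGL ℝ (D.rep (some j)) := by
      refine ALData.GL_eq_of_int (b := !![1, (j.val : ℤ); 0, (q : ℤ)]) D.val_W ?_ (val_scal _)
        (val_mapGL _) ?_
      · rw [ModularForm.val_heckeMatrix D.hq.ne_zero]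
        ext i k
        fin_cases i <;> fin_cases k <;> simp
      · rw [D.rep_some_val]
        ext i k
        fin_cases i <;> fin_cases k <;>
          simp [ALData.intW, Matrix.mul_apply, Fin.sum_univ_two, -ZMod.natCast_val] <;>
          try rw [hN]
        · ring
        · ring
    have h2 : (F ∣[(1 : ℤ)] D.W) ∣[(1 : ℤ)] ModularForm.heckeMatrix q j.val =
        ((q : ℂ)⁻¹) • (F ∣[(1 : ℤ)] D.rep (some j)) := by
      rw [← SlashAction.slash_mul, h1, SlashAction.slash_mul, slash_scal_one, ← SL_slash',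
        ModularForm.SL_smul_slash]
    rw [chi3_rep_some D h3, h2, smul_smul]
    congr 1
    field_simp

/-! ### The statement -/

/-- a form of level `N` with the law of level `M` is of level `M`. -/
def lowerCusp [NeZero N] [NeZero M] (h3 : 3 ∣ M) (f : CuspForm (Gamma1 N) 1) (hf : Neb M f) :
    CuspForm (Gamma1 M) 1 where
  toFun := f
  slash_action_eq' := by
    rintro _ ⟨g, hg, rfl⟩
    have h1 := hf g (Gamma1_in_Gamma0 M hg)
    rw [chi3_11_of_Gamma1 h3 hg, Int.cast_one, one_smul] at h1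
    exact h1
  holo' := CuspFormClass.holo f
  zero_at_cusps' := fun {c} hc => by
    refine f.zero_at_cusps' ?_
    rw [Subgroup.IsArithmetic.isCusp_iff_isCusp_SL2Z] at hc ⊢
    exact hc

/-- `T_p` on coefficients and on functions. -/
theorem rel_iff [NeZero N] (h3 : 3 ∣ N) {f : CuspForm (Gamma1 N) 1} (hf : Neb N f) {p : ℕ}
    [hp : Fact p.Prime] (hpN : ¬ p ∣ N) (t : ℂ) : Rel f p t ↔ tChi p ⇑f = t • ⇑f := by
  constructor
  · intro h
    rw [← coe_tCusp_eq h3 f hf hpN, Z3.tCusp_of_rel h3 hf p hpN h]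
    rfl
  · intro h
    refine Z3.rel_of_tCusp h3 hf p hpN (DFunLike.coe_injective ?_)
    rw [coe_tCusp_eq h3 f hf hpN, h]
    rfl

/-- **Atkin-Lehner at `q ‖ N` in weight one.** -/
theorem exists_al {q M : ℕ} (hq : q.Prime) [NeZero M] [NeZero (q * M)] (h3 : 3 ∣ M)
    (hqM : ¬ q ∣ M) (g : CuspForm (Gamma1 (q * M)) 1) (hg : Z3.HasNeb (q * M) g) :
    ∃ (g' : CuspForm (Gamma1 (q * M)) 1) (G G' : CuspForm (Gamma1 M) 1),
      Z3.HasNeb (q * M) g' ∧ Z3.HasNeb M G ∧ Z3.HasNeb M G' ∧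
      (∀ n, qCoeff ⇑G n = qCoeff ⇑g (q * n) + qCoeff ⇑g' n) ∧
      (∀ n, qCoeff ⇑G' n = qCoeff ⇑g' (q * n) + ((chiNegThree q : ℤ) : ℂ) / q * qCoeff ⇑g n) ∧
      ∀ p : ℕ, p.Prime → ¬ p ∣ q * M → ∀ t : ℂ, Rel g p t → Rel g' p t := by
  obtain ⟨D⟩ := exists_ALData (N := q * M) hq rfl hqM
  have hfq : Fact q.Prime := ⟨hq⟩
  have : NeZero q := ⟨hq.ne_zero⟩
  have hgN : Neb (q * M) ⇑g := hg
  have h3N := three_dvd_N D h3
  have hq0 : (q : ℂ) ≠ 0 := by exact_mod_cast hq.ne_zero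
  have hqN : q ∣ q * M := dvd_mul_right q M
  have hcc : ((chi3 q : ℤ) : ℂ) * ((chi3 q : ℤ) : ℂ) = 1 := by
    exact_mod_cast chi3_mul_self (not_three_dvd_q D h3)
  have hU : ∀ f : CuspForm (Gamma1 (q * M)) 1,
      ⇑(tCusp (q * M) (Gamma1 (q * M)) 1 q f) = ModularForm.heckeU 1 q f := fun f => by
    rw [coe_tCusp, slashSum_hecke_of_dvd 1 q hqN]
  have hUq : ∀ (f : CuspForm (Gamma1 (q * M)) 1) (n : ℕ),
      qCoeff ⇑(tCusp (q * M) (Gamma1 (q * M)) 1 q f) n = qCoeff ⇑f (q * n) := fun f n => by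
    rw [mul_comm q n]
    exact qCoeff_tCusp_of_dvd (Gamma1 (q * M)) 1 q hqN f n
  set g' := alCusp D h3 g hgN with hg'
  have hg'N : Neb (q * M) ⇑g' := neb_W D h3 hgN
  -- `U_q g + g'`
  have hA : Neb M (⇑(tCusp (q * M) (Gamma1 (q * M)) 1 q g + g')) := by
    have h1 := neb_trF D h3 hg'N
    rw [trF_eq D h3, hg', coe_alCusp, slash_W_W D h3 hgN] at h1
    have h2 : ModularForm.heckeU 1 q ((((chi3 q : ℤ) : ℂ) / q) • (⇑g : ℍ → ℂ)) =
        (((chi3 q : ℤ) : ℂ) / q) • ModularForm.heckeU 1 q ⇑g := by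
      rw [ModularForm.heckeU_def, ModularForm.heckeU_def, Finset.smul_sum]
      refine Finset.sum_congr rfl fun j _ => ?_
      rw [ModularForm.smul_slash, ModularForm.σ_heckeMatrix, ContinuousAlgEquiv.refl_apply]
    rw [h2, smul_smul] at h1
    have h4 : ((chi3 q : ℤ) : ℂ) * q * (((chi3 q : ℤ) : ℂ) / q) = 1 := by
      field_simp
      linear_combination hcc
    rw [h4, one_smul, add_comm, ← hU] at h1
    exact h1
  -- `U_q g' + (χ(q) / q) g`
  have hB : Neb M (⇑(tCusp (q * M) (Gamma1 (q * M)) 1 q g' +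
      (((chi3 q : ℤ) : ℂ) / q) • g)) := by
    have h1 := neb_trF D h3 hgN
    have h2 : ⇑(tCusp (q * M) (Gamma1 (q * M)) 1 q g' + (((chi3 q : ℤ) : ℂ) / q) • g) =
        (((chi3 q : ℤ) : ℂ) / q) • trF D ⇑g := by
      rw [trF_eq D h3, smul_add, smul_smul, add_comm]
      have h4 : ((chi3 q : ℤ) : ℂ) / q * (((chi3 q : ℤ) : ℂ) * q) = 1 := by
        field_simp
        linear_combination hcc
      rw [h4, one_smul, ← coe_alCusp D h3 g hgN, ← hU]
      rfl
    intro γ hγ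
    rw [h2, ModularForm.SL_smul_slash, h1 γ hγ, smul_comm]
  refine ⟨g', lowerCusp h3 _ hA, lowerCusp h3 _ hB, hg'N, hA, hB, fun n => ?_, fun n => ?_, ?_⟩
  · show qCoeff ⇑(tCusp (q * M) (Gamma1 (q * M)) 1 q g + g') n = _
    rw [qCoeff_cusp_add (q * M) (Gamma1 (q * M)) 1, hUq]
  · show qCoeff ⇑(tCusp (q * M) (Gamma1 (q * M)) 1 q g' + (((chi3 q : ℤ) : ℂ) / q) • g) n = _
    rw [qCoeff_cusp_add (q * M) (Gamma1 (q * M)) 1, hUq,
      qCoeff_cusp_smul (q * M) (Gamma1 (q * M)) 1, chi3_natCast]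
  · intro p hp hpN t ht
    have : Fact p.Prime := ⟨hp⟩
    rw [rel_iff h3N hgN hpN] at ht
    rw [rel_iff h3N hg'N hpN, hg', coe_alCusp, tChi_W D h3 hgN hpN, ht, smul_slash_W]

end Fermat.Agent.Cor.Artin
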