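import Fermat.Agent.Corollaries.Artin.Defs
import Fermat.Agent.Classic.Level.EigB
import Fermat.Agent.Classic.Level.Disc.DetAt
import Mathlib.NumberTheory.EulerProduct.Basic
import Mathlib.NumberTheory.LSeries.Convolution
import Mathlib.NumberTheory.LSeries.Dirichlet

/-!
# The Euler product of an eigensystem, and the Euler factors of Artin

* `norm_le_card_divisors`, `hasProd_eigensystem`: for an eigensystem all of whose Hecke polynomials
  `1 - a_p X + e_p X²` are `(1 - z X)(1 - w X)` with `|z|, |w| ≤ 1`: `|a_n| ≤ d(n)`, and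
  `∑ a_n n^{-s} = ∏ (1 - a_p p^{-s} + e_p p^{-2s})⁻¹` for `1 < re s`.
* `norm_b_le`, `hasProd_start`: the case of a start.
* `eulerPoly_unr`, `eulerPoly_ram`: the Euler factor of Artin at an unramified prime, and at a
  ramified prime `p ≠ 3`.
-/

set_option autoImplicit false

noncomputable section

open CongruenceSubgroup UpperHalfPlane EisensteinWeightOne ModularFormClass WeierstrassCurve
open Fermat.Agent.Classic Fermat.Agent.LT.End FLT.ExplicitLift
open scoped MatrixGroups ModularForm Polynomial LSeries.notation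

namespace Fermat.Agent.Cor.Artin

local notation "Γℚ" => (AlgebraicClosure ℚ ≃ₐ[ℚ] AlgebraicClosure ℚ)

/-! ### Abstract eigensystems -/

section Abstract

variable {e a : ℕ → ℂ}

/-- the values at the powers of `p` -/
theorem apply_pow_succ (h : FormalHecke.IsEigensystem e a) {p : ℕ} (hp : p.Prime) {z w : ℂ}
    (h1 : a p = z + w) (h2 : e p = z * w) (k : ℕ) :
    a (p ^ (k + 1)) = z ^ (k + 1) + w * a (p ^ k) := by
  induction k with
  | zero => rw [zero_add, pow_one, pow_one, pow_zero, h.1, mul_one, h1]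
  | succ k ih =>
    rw [Zeta.eigensystem_pow h hp k, h1, h2]
    linear_combination z * ih

theorem norm_apply_pow_le (h : FormalHecke.IsEigensystem e a) {p : ℕ} (hp : p.Prime) {z w : ℂ}
    (hz : ‖z‖ ≤ 1) (hw : ‖w‖ ≤ 1) (h1 : a p = z + w) (h2 : e p = z * w) (k : ℕ) :
    ‖a (p ^ k)‖ ≤ k + 1 := by
  induction k with
  | zero => rw [pow_zero, h.1, norm_one]; norm_num
  | succ k ih =>
    rw [apply_pow_succ h hp h1 h2]
    refine (norm_add_le _ _).trans ?_
    rw [norm_pow, norm_mul]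
    have h3 : ‖z‖ ^ (k + 1) ≤ 1 := pow_le_one₀ (norm_nonneg _) hz
    have h4 : ‖w‖ * ‖a (p ^ k)‖ ≤ 1 * ((k : ℝ) + 1) :=
      mul_le_mul hw ih (norm_nonneg _) zero_le_one
    push_cast
    linarith

/-- **The bound `|a_n| ≤ d(n)`.** -/
theorem norm_le_card_divisors (h : FormalHecke.IsEigensystem e a) (h0 : a 0 = 0)
    (hzw : ∀ p : ℕ, p.Prime → ∃ z w : ℂ, ‖z‖ ≤ 1 ∧ ‖w‖ ≤ 1 ∧ a p = z + w ∧ e p = z * w) (n : ℕ) :
    ‖a n‖ ≤ n.divisors.card := by
  induction n using Nat.recOnPosPrimePosCoprime with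
  | zero => rw [h0, norm_zero]; exact Nat.cast_nonneg _
  | one => rw [h.1, norm_one]; simp
  | prime_pow p k hp hk =>
    obtain ⟨z, w, hz, hw, h1, h2⟩ := hzw p hp
    have h3 := norm_apply_pow_le h hp hz hw h1 h2 k
    rw [Nat.divisors_prime_pow hp, Finset.card_map, Finset.card_range]
    exact_mod_cast h3
  | coprime m n hm hn hmn ihm ihn =>
    rw [Zeta.eigensystem_mul h m (by omega) n hmn, norm_mul, hmn.card_divisors_mul, Nat.cast_mul]
    exact mul_le_mul ihm ihn (norm_nonneg _) (Nat.cast_nonneg _)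

/-- the number of divisors is summable against `n^{-s}` -/
theorem lseriesSummable_card_divisors {s : ℂ} (hs : 1 < s.re) :
    LSeriesSummable (fun n => ((n.divisors.card : ℕ) : ℂ)) s := by
  have h1 : LSeriesSummable ((1 : ℕ → ℂ) ⍟ 1) s :=
    (LSeriesSummable_one_iff.mpr hs).convolution (LSeriesSummable_one_iff.mpr hs)
  refine (LSeriesSummable_congr s fun {n} hn => ?_).mp h1
  rw [LSeries.convolution_def]
  simp only [Pi.one_apply, mul_one, Finset.sum_const, nsmul_eq_mul]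
  rw [← Nat.map_div_right_divisors, Finset.card_map]

theorem lseriesSummable_of_le (h : ∀ n, ‖a n‖ ≤ n.divisors.card) {s : ℂ} (hs : 1 < s.re) :
    LSeriesSummable a s := by
  refine Summable.of_norm_bounded (lseriesSummable_card_divisors hs).norm fun n => ?_
  refine LSeries.norm_term_le s ?_
  rw [Complex.norm_natCast]
  exact h n

/-- the local factor -/
theorem tsum_local (h : FormalHecke.IsEigensystem e a) {p : ℕ} (hp : p.Prime) {z w x : ℂ}
    (hz : ‖z‖ ≤ 1) (hw : ‖w‖ ≤ 1) (h1 : a p = z + w) (h2 : e p = z * w) (hx : ‖x‖ < 1)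
    (hsum : Summable fun k : ℕ => a (p ^ k) * x ^ k) :
    ∑' k : ℕ, a (p ^ k) * x ^ k = (1 - a p * x + e p * x ^ 2)⁻¹ := by
  have hzx : ‖z * x‖ < 1 := by
    rw [norm_mul]
    exact (mul_le_of_le_one_left (norm_nonneg _) hz).trans_lt hx
  have hwx : ‖w * x‖ < 1 := by
    rw [norm_mul]
    exact (mul_le_of_le_one_left (norm_nonneg _) hw).trans_lt hx
  have hz1 : 1 - z * x ≠ 0 := by
    intro h
    rw [← sub_eq_zero.mp h, norm_one] at hzx
    exact lt_irrefl _ hzx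
  have hw1 : 1 - w * x ≠ 0 := by
    intro h
    rw [← sub_eq_zero.mp h, norm_one] at hwx
    exact lt_irrefl _ hwx
  set S := ∑' k : ℕ, a (p ^ k) * x ^ k with hS
  have h3 : S = 1 + (z * x * (1 - z * x)⁻¹ + w * x * S) := by
    conv_lhs => rw [hS, hsum.tsum_eq_zero_add]
    rw [pow_zero, pow_zero, h.1, mul_one]
    congr 1
    have h4 : ∀ k : ℕ, a (p ^ (k + 1)) * x ^ (k + 1) =
        z * x * (z * x) ^ k + w * x * (a (p ^ k) * x ^ k) := by
      intro k
      rw [apply_pow_succ h hp h1 h2]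
      ring
    rw [tsum_congr h4, Summable.tsum_add ((summable_geometric_of_norm_lt_one hzx).mul_left _)
      (hsum.mul_left _), tsum_mul_left, tsum_mul_left, tsum_geometric_of_norm_lt_one hzx]
  have h5 : (1 - w * x) * (1 - z * x) * S = 1 := by
    have h6 : (1 - z * x) * (1 - z * x)⁻¹ = 1 := mul_inv_cancel₀ hz1
    linear_combination (1 - z * x) * h3 + z * x * h6
  refine eq_inv_of_mul_eq_one_right ?_
  rw [h1, h2]
  linear_combination h5

/-- **The Euler product of an eigensystem.** -/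
theorem hasProd_eigensystem (h : FormalHecke.IsEigensystem e a) (h0 : a 0 = 0)
    (hzw : ∀ p : ℕ, p.Prime → ∃ z w : ℂ, ‖z‖ ≤ 1 ∧ ‖w‖ ≤ 1 ∧ a p = z + w ∧ e p = z * w)
    {s : ℂ} (hs : 1 < s.re) :
    LSeriesSummable a s ∧
      HasProd (fun p : Nat.Primes => (1 - a p * (p : ℂ) ^ (-s) + e p * ((p : ℂ) ^ (-s)) ^ 2)⁻¹)
        (LSeries a s) := by
  have hsum := lseriesSummable_of_le (norm_le_card_divisors h h0 hzw) hs
  refine ⟨hsum, ?_⟩
  have ht : ∀ n : ℕ, LSeries.term a s n = a n * (n : ℂ) ^ (-s) := by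
    intro n
    rcases eq_or_ne n 0 with rfl | hn
    · rw [LSeries.term_zero, h0, zero_mul]
    · rw [LSeries.term_of_ne_zero hn, div_eq_mul_inv, Complex.cpow_neg]
  have h1 : LSeries.term a s 1 = 1 := by
    rw [ht, h.1, Nat.cast_one, Complex.one_cpow, one_mul]
  have hmul : ∀ {m n : ℕ}, m.Coprime n →
      LSeries.term a s (m * n) = LSeries.term a s m * LSeries.term a s n := by
    intro m n hmn
    rcases eq_or_ne m 0 with rfl | hm
    · rw [zero_mul, LSeries.term_zero, zero_mul]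
    · rw [ht, ht, ht, Zeta.eigensystem_mul h m hm n hmn, Nat.cast_mul, Complex.natCast_mul_natCast_cpow]
      ring
  have h2 := EulerProduct.eulerProduct_hasProd h1 hmul hsum.norm (LSeries.term_zero a s)
  have h3 : ∀ p : Nat.Primes, ∑' k : ℕ, LSeries.term a s ((p : ℕ) ^ k) =
      (1 - a p * (p : ℂ) ^ (-s) + e p * ((p : ℂ) ^ (-s)) ^ 2)⁻¹ := by
    intro p
    obtain ⟨z, w, hz, hw, hz1, hz2⟩ := hzw p p.2
    have hx : ‖((p : ℕ) : ℂ) ^ (-s)‖ < 1 := by
      rw [Complex.norm_natCast_cpow_of_pos p.2.pos, Complex.neg_re]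
      exact Real.rpow_lt_one_of_one_lt_of_neg (by exact_mod_cast p.2.one_lt) (by linarith)
    have h4 : ∀ k : ℕ, LSeries.term a s ((p : ℕ) ^ k) =
        a ((p : ℕ) ^ k) * (((p : ℕ) : ℂ) ^ (-s)) ^ k := by
      intro k
      rw [ht, Nat.cast_pow, ← Complex.natCast_cpow_natCast_mul, ← Complex.cpow_nat_mul]
    have h5 : Summable fun k : ℕ => a ((p : ℕ) ^ k) * (((p : ℕ) : ℂ) ^ (-s)) ^ k := by
      have h6 : Summable fun k : ℕ => LSeries.term a s ((p : ℕ) ^ k) :=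
        hsum.comp_injective (Nat.pow_right_injective p.2.two_le)
      exact h6.congr h4
    rw [tsum_congr h4, tsum_local h p.2 hz hw hz1 hz2 hx h5]
  exact h2.congr_fun fun p => (h3 p).symm

end Abstract

/-! ### The case of a start -/

section Start

variable {ρ : Γℚ →* GL (Fin 2) (ZMod 3)} {Ψ : GL (Fin 2) (ZMod 3) →* GL (Fin 2) (ℤ√(-2))}
  {N : ℕ} {ι : ℤ√(-2) →+* ℂ} {b : ℕ → ℤ√(-2)} {f : CuspForm (Gamma1 N) 1}

/-- the determinant of a Frobenius element -/
theorem det_frob (hdet : ∀ σ : Γℚ, Matrix.GeneralLinearGroup.det (ρ σ) = modThreeCyclotomicChar σ)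
    (hΨ : ∀ g, Matrix.GeneralLinearGroup.map red (Ψ g) = g) {p : ℕ} (hp : p.Prime) (hp3 : p ≠ 3)
    {A : ValuationSubring (AlgebraicClosure ℚ)} (hA : A.LiesOverPrime p) {σ : Γℚ}
    (hσ : A.IsFrobeniusAt σ p) :
    ((Ψ (ρ σ) : GL (Fin 2) (ℤ√(-2))) : Matrix (Fin 2) (Fin 2) (ℤ√(-2))).det =
      ((chiNegThree p : ℤ) : ℤ√(-2)) := by
  refine Zeta.det_section hΨ _ ?_
  have h2 := congrArg (fun u : (ZMod 3)ˣ => (u : ZMod 3)) (hdet σ)
  simp only [modThree_frobenius hp hp3 hA hσ] at h2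
  exact h2

/-- the eigenvalues of a complex representation of `GL₂(𝔽₃)` -/
theorem exists_eigenvalues_rep (ι : ℤ√(-2) →+* ℂ) (g : GL (Fin 2) (ZMod 3)) :
    ∃ z w : ℂ, ‖z‖ = 1 ∧ ‖w‖ = 1 ∧
      ι ((Ψ g : GL (Fin 2) (ℤ√(-2))) : Matrix (Fin 2) (Fin 2) (ℤ√(-2))).trace = z + w ∧
      ι ((Ψ g : GL (Fin 2) (ℤ√(-2))) : Matrix (Fin 2) (Fin 2) (ℤ√(-2))).det = z * w := by
  obtain ⟨n, hn, h1⟩ := finite_order (rep Ψ ι) g
  obtain ⟨z, w, hz, hw, ht, hd⟩ := exists_eigenvalues h1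
  refine ⟨z, w, Complex.norm_eq_one_of_pow_eq_one hz hn, Complex.norm_eq_one_of_pow_eq_one hw hn,
    ?_, ?_⟩
  · rw [← ht]
    exact (tr_rep Ψ ι g).symm
  · rw [← hd]
    change _ = ((Ψ g).1.map ι).det
    rw [← RingHom.mapMatrix_apply, RingHom.map_det]

/-- the Hecke polynomials of a start -/
theorem exists_roots_start
    (hdet : ∀ σ : Γℚ, Matrix.GeneralLinearGroup.det (ρ σ) = modThreeCyclotomicChar σ)
    (hΨ : ∀ g, Matrix.GeneralLinearGroup.map red (Ψ g) = g) (h : Level.Start ρ Ψ N ι b f)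
    (p : ℕ) (hp : p.Prime) :
    ∃ z w : ℂ, ‖z‖ ≤ 1 ∧ ‖w‖ ≤ 1 ∧ ι (b p) = z + w ∧
      ι (if p ∣ N then 0 else ((chiNegThree p : ℤ) : ℤ√(-2))) = z * w := by
  by_cases hpN : p ∣ N
  · refine ⟨0, 0, by simp, by simp, ?_, by rw [if_pos hpN]; simp⟩
    rw [h.dep p (fun hc => (hp.coprime_iff_not_dvd.mp hc) hpN), map_zero, add_zero]
  · obtain ⟨A, hA, σ, hσ⟩ := Frob.exists_frobenius p hp
    have hp3 : p ≠ 3 := fun h' => hpN (h' ▸ h.three)
    obtain ⟨z, w, hz, hw, ht, hd⟩ := exists_eigenvalues_rep (Ψ := Ψ) ι (ρ σ)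
    refine ⟨z, w, hz.le, hw.le, ?_, ?_⟩
    · rw [h.trace p hp hpN A hA σ hσ, ht]
    · rw [if_neg hpN, ← det_frob hdet hΨ hp hp3 hA hσ, hd]

theorem b_zero (h : Level.Start ρ Ψ N ι b f) : b 0 = 0 := by
  refine h.dep 0 ?_
  rw [Nat.coprime_zero_left]
  rintro rfl
  exact absurd h.three (by decide)

/-- **The coefficients of a start are bounded by the number of divisors.** -/
theorem norm_b_le (hdet : ∀ σ : Γℚ, Matrix.GeneralLinearGroup.det (ρ σ) = modThreeCyclotomicChar σ)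
    (hΨ : ∀ g, Matrix.GeneralLinearGroup.map red (Ψ g) = g) (h : Level.Start ρ Ψ N ι b f) (n : ℕ) :
    ‖ι (b n)‖ ≤ n.divisors.card :=
  norm_le_card_divisors (Ext.E46.isEigensystem_map ι h.eig) (by rw [b_zero h, map_zero])
    (exists_roots_start hdet hΨ h) n

/-- **The Euler product of a start.** -/
theorem hasProd_start
    (hdet : ∀ σ : Γℚ, Matrix.GeneralLinearGroup.det (ρ σ) = modThreeCyclotomicChar σ)
    (hΨ : ∀ g, Matrix.GeneralLinearGroup.map red (Ψ g) = g) (h : Level.Start ρ Ψ N ι b f)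
    {s : ℂ} (hs : 1 < s.re) :
    LSeriesSummable (fun n => ι (b n)) s ∧
      HasProd (fun p : Nat.Primes => (1 - ι (b p) * (p : ℂ) ^ (-s) +
        (if (p : ℕ) ∣ N then 0 else ((chiNegThree p : ℤ) : ℂ)) * ((p : ℂ) ^ (-s)) ^ 2)⁻¹)
        (LSeries (fun n => ι (b n)) s) := by
  obtain ⟨h1, h2⟩ := hasProd_eigensystem (Ext.E46.isEigensystem_map ι h.eig)
    (by rw [b_zero h, map_zero]) (exists_roots_start hdet hΨ h) hs
  refine ⟨h1, h2.congr_fun fun p => ?_⟩
  have h3 : ι (if (p : ℕ) ∣ N then 0 else ((chiNegThree p : ℤ) : ℤ√(-2))) =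
      if (p : ℕ) ∣ N then 0 else ((chiNegThree p : ℤ) : ℂ) := by
    split_ifs
    · exact map_zero ι
    · exact map_intCast ι _
  rw [h3]

end Start

/-! ### The Euler factors of Artin -/

section Factors

variable {ρ : Γℚ →* GL (Fin 2) (ZMod 3)} {Ψ : GL (Fin 2) (ZMod 3) →* GL (Fin 2) (ℤ√(-2))}

/-- The Euler factor when inertia acts trivially. -/
theorem eulerPoly_of_trivial (r : Γℚ →* GL (Fin 2) ℂ) {A : ValuationSubring (AlgebraicClosure ℚ)}
    {σ : Γℚ} (hσ : σ ∈ A.decompositionSubgroup ℚ) (hr : ∀ τ ∈ A.inertiaSubgroupIn ℚ, r τ = 1) :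
    eulerPoly r A σ = 1 - Polynomial.C (r σ).1.trace * Polynomial.X +
      Polynomial.C (r σ).1.det * Polynomial.X ^ 2 := by
  have htop : invI r A = ⊤ := by
    rw [eq_top_iff]
    intro v _ τ hτ
    rw [hr τ hτ, Units.val_one, Matrix.one_mulVec]
  rw [eulerPoly_eq r hσ]
  have h1 : ((Matrix.toLin' (r σ : Matrix (Fin 2) (Fin 2) ℂ)).restrict
      (fun _ hv => mulVec_mem_invI r hσ hv)).charpoly = (r σ).1.charpoly := by
    rw [← Matrix.charpoly_toLin', ← (LinearEquiv.ofTop _ htop).charpoly_conj]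
    congr 1
  rw [h1, Matrix.reverse_charpoly, Matrix.charpolyRev, Matrix.det_fin_two]
  simp only [Matrix.sub_apply, Matrix.smul_apply, Matrix.map_apply, smul_eq_mul,
    Matrix.one_apply_eq, Matrix.trace_fin_two, Matrix.det_fin_two, map_add, map_sub, map_mul,
    Matrix.one_apply_ne (show (0 : Fin 2) ≠ 1 by decide),
    Matrix.one_apply_ne (show (1 : Fin 2) ≠ 0 by decide)]
  ring

/-- The Euler factor when inertia has no fixed vector. -/
theorem eulerPoly_of_bot (r : Γℚ →* GL (Fin 2) ℂ) {A : ValuationSubring (AlgebraicClosure ℚ)}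
    {σ : Γℚ} (hσ : σ ∈ A.decompositionSubgroup ℚ) (hr : invI r A = ⊥) : eulerPoly r A σ = 1 := by
  rw [eulerPoly_eq r hσ]
  have h1 : ((Matrix.toLin' (r σ : Matrix (Fin 2) (Fin 2) ℂ)).restrict
      (fun _ hv => mulVec_mem_invI r hσ hv)).charpoly = 1 := by
    refine Polynomial.eq_one_of_monic_natDegree_zero (LinearMap.charpoly_monic _) ?_
    rw [LinearMap.charpoly_natDegree, hr, finrank_bot]
  rw [h1]
  rw [← Polynomial.C_1, Polynomial.reverse_C]

/-- **The Euler factor at an unramified prime.** -/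
theorem eulerPoly_unr
    (hdet : ∀ σ : Γℚ, Matrix.GeneralLinearGroup.det (ρ σ) = modThreeCyclotomicChar σ)
    (hΨ : ∀ g, Matrix.GeneralLinearGroup.map red (Ψ g) = g) (ι : ℤ√(-2) →+* ℂ)
    {p : ℕ} (hp : p.Prime) (hp3 : p ≠ 3) (hunr : Level.UnrAt ρ p)
    {A : ValuationSubring (AlgebraicClosure ℚ)} (hA : A.LiesOverPrime p) {σ : Γℚ}
    (hσ : A.IsFrobeniusAt σ p) :
    eulerPoly ((rep Ψ ι).comp ρ) A σ =
      1 - Polynomial.C (ι (Ψ (ρ σ)).1.trace) * Polynomial.X +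
        Polynomial.C ((chiNegThree p : ℤ) : ℂ) * Polynomial.X ^ 2 := by
  obtain ⟨hσ', -⟩ := id hσ
  rw [eulerPoly_of_trivial _ hσ' fun τ hτ => by
    rw [MonoidHom.comp_apply, hunr A hA τ hτ, map_one]]
  have h1 : (((rep Ψ ι).comp ρ) σ).1.trace = ι (Ψ (ρ σ)).1.trace := tr_rep Ψ ι (ρ σ)
  have h2 : (((rep Ψ ι).comp ρ) σ).1.det = ((chiNegThree p : ℤ) : ℂ) := by
    rw [← map_intCast ι, ← det_frob hdet hΨ hp hp3 hA hσ]
    change ((Ψ (ρ σ)).1.map ι).det = _
    rw [← RingHom.mapMatrix_apply, RingHom.map_det]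
  rw [h1, h2]

/-- the section is injective -/
theorem rep_injective (hΨ : ∀ g, Matrix.GeneralLinearGroup.map red (Ψ g) = g)
    (ι : ℤ√(-2) →+* ℂ) : Function.Injective (rep Ψ ι) := by
  intro g g' h
  have h1 : Ψ g = Ψ g' := by
    refine Units.ext (Matrix.ext fun i j => embedding_injective ι ?_)
    exact congrArg (fun x : GL (Fin 2) ℂ => x.1 i j) h
  rw [← hΨ g, h1, hΨ g']

/-- **The Euler factor at a ramified prime `p ≠ 3`.** -/
theorem eulerPoly_ram
    (hdet : ∀ σ : Γℚ, Matrix.GeneralLinearGroup.det (ρ σ) = modThreeCyclotomicChar σ)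
    (hΨ : ∀ g, Matrix.GeneralLinearGroup.map red (Ψ g) = g) (ι : ℤ√(-2) →+* ℂ)
    {p : ℕ} (hp : p.Prime) (hp3 : p ≠ 3) (hram : ¬ Level.UnrAt ρ p)
    {A : ValuationSubring (AlgebraicClosure ℚ)} (hA : A.LiesOverPrime p) {σ : Γℚ}
    (hσ : σ ∈ A.decompositionSubgroup ℚ) :
    eulerPoly ((rep Ψ ι).comp ρ) A σ = 1 := by
  refine eulerPoly_of_bot _ hσ ?_
  rw [eq_bot_iff]
  intro v hv
  by_contra hv0
  apply hram
  -- all inertia elements at `A` are in the kernel
  have key : ∀ τ ∈ A.inertiaSubgroupIn ℚ, ρ τ = 1 := by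
    intro τ hτ
    obtain ⟨ζ, hζ⟩ : ∃ ζ : AlgebraicClosure ℚ, IsPrimitiveRoot ζ 3 := by
      have : NeZero ((3 : ℕ) : AlgebraicClosure ℚ) := ⟨by norm_num⟩
      exact HasEnoughRootsOfUnity.exists_primitiveRoot (AlgebraicClosure ℚ) 3
    have h1 : τ ζ = ζ := GalRep.inertia_fix_rootOfUnity hA
      ((Nat.coprime_primes hp Nat.prime_three).mpr hp3) (by norm_num) hτ hζ.pow_eq_one
    have h2 := (LT.Tower.fix_omega_iff hdet hζ τ).mp h1
    have h3 : (Ψ (ρ τ)).1.det = 1 := by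
      have := Zeta.det_section hΨ (p := 1) (ρ τ) (by rw [h2, Nat.cast_one])
      rw [this]
      have h1 : chiNegThree 1 = 1 := by decide
      rw [h1, Int.cast_one]
    have h4 : (rep Ψ ι (ρ τ)).1.det = 1 := by
      rw [← map_one ι, ← h3]
      change ((Ψ (ρ τ)).1.map ι).det = _
      rw [← RingHom.mapMatrix_apply, RingHom.map_det]
    have h5 : (rep Ψ ι (ρ τ)).1.mulVec v = v := hv τ hτ
    -- the trace is `2`
    have h6 : ((rep Ψ ι (ρ τ)).1 - 1).det = 0 := by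
      refine Matrix.exists_mulVec_eq_zero_iff.mp ⟨v, hv0, ?_⟩
      rw [Matrix.sub_mulVec, h5, Matrix.one_mulVec, sub_self]
    have h7 : (rep Ψ ι (ρ τ)).1.trace = 2 := by
      rw [Matrix.det_fin_two] at h6 h4
      rw [Matrix.trace_fin_two]
      simp only [Matrix.sub_apply, Matrix.one_apply_eq,
        Matrix.one_apply_ne (show (0 : Fin 2) ≠ 1 by decide),
        Matrix.one_apply_ne (show (1 : Fin 2) ≠ 0 by decide), sub_zero] at h6
      linear_combination h4 - h6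
    obtain ⟨n, hn, h8⟩ := finite_order (rep Ψ ι) (ρ τ)
    have h9 : rep Ψ ι (ρ τ) = rep Ψ ι 1 := by
      rw [map_one]
      exact Units.ext (eq_one_of_trace_two hn h8 h7)
    exact rep_injective hΨ ι h9
  intro B hB τ hτ
  obtain ⟨g, rfl⟩ := Frob.exists_smul_eq hp hA hB
  have h2 := key _ (CFT.SKummer.conj_mem_inertia hτ)
  have h3 : ρ τ = ρ g * ρ (g⁻¹ * τ * g) * (ρ g)⁻¹ := by
    rw [map_mul, map_mul, map_inv]
    group
  rw [h3, h2, mul_one, mul_inv_cancel]

end Factors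

end Fermat.Agent.Cor.Artin

end
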