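import Fermat.Agent.Corollaries.Artin.Entire
import Fermat.Agent.Corollaries.Artin.Euler

/-!
# The `L`-function of Artin without the Euler factor at `3`

For `ρ : G_ℚ → GL₂(𝔽₃)` continuous and surjective with cyclotomic determinant and a lift `Ψ` of
`GL₂(𝔽₃)` to `GL₂(ℤ[√-2])`, `r = ι ∘ Ψ ∘ ρ`: the Euler product of the
`det (1 - p^{-s} r(Frob_p) | V^{I_p})⁻¹` over **all** primes `p ≠ 3` extends to an entire function,
and the same with the factor at `3` if `V^{I_3} = 0`.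
-/

set_option autoImplicit false

noncomputable section

open CongruenceSubgroup ModularFormClass EisensteinWeightOne UpperHalfPlane WeierstrassCurve
open Fermat.Agent.Classic Fermat.Agent.Classic.Level Fermat.Agent.X1 Fermat.Agent.LT.End
open scoped MatrixGroups ModularForm ComplexConjugate Topology

namespace Fermat.Agent.Cor.Artin

local notation "Γℚ" => (AlgebraicClosure ℚ ≃ₐ[ℚ] AlgebraicClosure ℚ)

variable {ρ : Γℚ →* GL (Fin 2) (ZMod 3)} {Ψ : GL (Fin 2) (ZMod 3) →* GL (Fin 2) (ℤ√(-2))}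
  {N : ℕ} {ι : ℤ√(-2) →+* ℂ} {b : ℕ → ℤ√(-2)} {f : CuspForm (Gamma1 N) 1}

/-- The Hecke polynomials of a start, for both embeddings. -/
theorem exists_roots_start₀
    (hdet : ∀ σ : Γℚ, Matrix.GeneralLinearGroup.det (ρ σ) = modThreeCyclotomicChar σ)
    (hΨ : ∀ g, Matrix.GeneralLinearGroup.map FLT.ExplicitLift.red (Ψ g) = g)
    (h : Start ρ Ψ N ι b f) (ι₀ : ℤ√(-2) →+* ℂ) (p : ℕ) (hp : p.Prime) :
    ∃ z w : ℂ, ‖z‖ ≤ 1 ∧ ‖w‖ ≤ 1 ∧ ι₀ (b p) = z + w ∧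
      ι₀ (if p ∣ N then 0 else ((chiNegThree p : ℤ) : ℤ√(-2))) = z * w := by
  by_cases hpN : p ∣ N
  · refine ⟨0, 0, by simp, by simp, ?_, by rw [if_pos hpN]; simp⟩
    rw [h.dep p (fun hc => (hp.coprime_iff_not_dvd.mp hc) hpN), map_zero, add_zero]
  · obtain ⟨A, hA, σ, hσ⟩ := Frob.exists_frobenius p hp
    have hp3 : p ≠ 3 := fun h' => hpN (h' ▸ h.three)
    obtain ⟨z, w, hz, hw, ht, hd⟩ := exists_eigenvalues_rep (Ψ := Ψ) ι₀ (ρ σ)
    refine ⟨z, w, hz.le, hw.le, ?_, ?_⟩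
    · rw [h.trace p hp hpN A hA σ hσ, ht]
    · rw [if_neg hpN, ← det_frob hdet hΨ hp hp3 hA hσ, hd]

/-- **The Euler product of a start, for both embeddings.** -/
theorem hasProd_start₀
    (hdet : ∀ σ : Γℚ, Matrix.GeneralLinearGroup.det (ρ σ) = modThreeCyclotomicChar σ)
    (hΨ : ∀ g, Matrix.GeneralLinearGroup.map FLT.ExplicitLift.red (Ψ g) = g)
    (h : Start ρ Ψ N ι b f) (ι₀ : ℤ√(-2) →+* ℂ) {s : ℂ} (hs : 1 < s.re) :
    LSeriesSummable (fun n => ι₀ (b n)) s ∧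
      HasProd (fun p : Nat.Primes => (1 - ι₀ (b p) * (p : ℂ) ^ (-s) +
        (if (p : ℕ) ∣ N then 0 else ((chiNegThree p : ℤ) : ℂ)) * ((p : ℂ) ^ (-s)) ^ 2)⁻¹)
        (LSeries (fun n => ι₀ (b n)) s) := by
  obtain ⟨h1, h2⟩ := hasProd_eigensystem (Ext.E46.isEigensystem_map ι₀ h.eig)
    (by rw [b_zero h, map_zero]) (exists_roots_start₀ hdet hΨ h ι₀) hs
  refine ⟨h1, ?_⟩
  convert h2 using 1
  funext p
  congr 4
  split_ifs
  · exact (map_zero ι₀).symm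
  · exact (map_intCast ι₀ _).symm

/-- `L(s)` of the conjugate series. -/
theorem LSeries_conj' (a : ℕ → ℂ) (s : ℂ) :
    LSeries (fun n => conj (a n)) s = conj (LSeries a (conj s)) := by
  rw [LSeries, LSeries, Complex.conj_tsum]
  refine tsum_congr fun n => ?_
  rcases eq_or_ne n 0 with rfl | hn
  · rw [LSeries.term_zero, LSeries.term_zero, map_zero]
  · rw [LSeries.term_of_ne_zero hn, LSeries.term_of_ne_zero hn, map_div₀]
    congr 1
    have harg : ((n : ℂ)).arg ≠ Real.pi := by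
      rw [Complex.natCast_arg]
      exact Real.pi_ne_zero.symm
    have h1 := Complex.cpow_conj (n : ℂ) s harg
    rw [Complex.conj_natCast] at h1
    rw [h1, Complex.conj_conj]

/-- The entire function of a start, for both embeddings. -/
theorem exists_entire_start [NeZero N]
    (hdet : ∀ σ : Γℚ, Matrix.GeneralLinearGroup.det (ρ σ) = modThreeCyclotomicChar σ)
    (hΨ : ∀ g, Matrix.GeneralLinearGroup.map FLT.ExplicitLift.red (Ψ g) = g)
    (h : Start ρ Ψ N ι b f) (ι₀ : ℤ√(-2) →+* ℂ) :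
    ∃ L : ℂ → ℂ, Differentiable ℂ L ∧
      ∀ s : ℂ, 1 < s.re → L s = LSeries (fun n => ι₀ (b n)) s := by
  have hf : qCoeff ⇑f = fun n => ι (b n) := funext h.coeff
  obtain ⟨L, hL, hLs⟩ := exists_entire f fun s hs => by
    rw [hf]
    exact (hasProd_start₀ hdet hΨ h ι hs).1
  rw [hf] at hLs
  rcases embedding_cases ι ι₀ with rfl | hι
  · exact ⟨L, hL, hLs⟩
  · refine ⟨fun s => conj (L (conj s)), differentiable_conj hL, fun s hs => ?_⟩
    have h1 : (fun n => ι₀ (b n)) = fun n => conj (ι (b n)) := funext fun n => hι (b n)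
    rw [h1, LSeries_conj', ← hLs (conj s) (by rwa [Complex.conj_re])]

/-- The Euler factors of a start whose level has exactly the ramified primes are those of Artin,
at `p ≠ 3`. -/
theorem local_factor
    (hdet : ∀ σ : Γℚ, Matrix.GeneralLinearGroup.det (ρ σ) = modThreeCyclotomicChar σ)
    (hΨ : ∀ g, Matrix.GeneralLinearGroup.map FLT.ExplicitLift.red (Ψ g) = g)
    (h : Start ρ Ψ N ι b f) (hram : ∀ p : ℕ, p.Prime → (p ∣ N ↔ ¬ UnrAt ρ p))
    (ι₀ : ℤ√(-2) →+* ℂ) {p : ℕ} (hp : p.Prime) (hp3 : p ≠ 3)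
    {A : ValuationSubring (AlgebraicClosure ℚ)} (hA : A.LiesOverPrime p) {σ : Γℚ}
    (hσ : A.IsFrobeniusAt σ p) (x : ℂ) :
    1 - ι₀ (b p) * x + (if p ∣ N then 0 else ((chiNegThree p : ℤ) : ℂ)) * x ^ 2 =
      (eulerPoly ((rep Ψ ι₀).comp ρ) A σ).eval x := by
  by_cases hpN : p ∣ N
  · obtain ⟨hσ', -⟩ := id hσ
    rw [eulerPoly_ram hdet hΨ ι₀ hp hp3 ((hram p hp).mp hpN) hA hσ', if_pos hpN,
      h.dep p (fun hc => (hp.coprime_iff_not_dvd.mp hc) hpN)]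
    simp
  · have hu : UnrAt ρ p := by
      by_contra hu
      exact hpN ((hram p hp).mpr hu)
    rw [eulerPoly_unr hdet hΨ ι₀ hp hp3 hu hA hσ, if_neg hpN, h.trace p hp hpN A hA σ hσ]
    simp

/-- **Artin's conjecture for `r = ι ∘ Ψ ∘ ρ`, without the Euler factor at `3`.** -/
theorem artin_away_three (hρ : Continuous ρ) (hs : Function.Surjective ρ)
    (hdet : ∀ σ : Γℚ, Matrix.GeneralLinearGroup.det (ρ σ) = modThreeCyclotomicChar σ)
    (hΨ : ∀ g, Matrix.GeneralLinearGroup.map FLT.ExplicitLift.red (Ψ g) = g)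
    (ι : ℤ√(-2) →+* ℂ) :
    ∃ L : ℂ → ℂ, Differentiable ℂ L ∧ ∀ s : ℂ, 1 < s.re →
      ∀ (A : Nat.Primes → ValuationSubring (AlgebraicClosure ℚ)) (σ : Nat.Primes → Γℚ),
        (∀ p : Nat.Primes, (A p).LiesOverPrime p ∧ (A p).IsFrobeniusAt (σ p) p) →
        HasProd (fun p : Nat.Primes => if (p : ℕ) = 3 then 1 else
          ((eulerPoly ((rep Ψ ι).comp ρ) (A p) (σ p)).eval ((p : ℂ) ^ (-s)))⁻¹) (L s) := by
  obtain ⟨N, hN, ι', b, f, hram, hst⟩ := exists_start hρ hs hdet hΨ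
  obtain ⟨L, hL, hLs⟩ := exists_entire_start hdet hΨ hst ι
  refine ⟨L, hL, fun s hs A σ hAσ => ?_⟩
  have h1 := (hasProd_start₀ hdet hΨ hst ι hs).2
  rw [← hLs s hs] at h1
  refine h1.congr_fun fun p => ?_
  by_cases hp3 : (p : ℕ) = 3
  · have h3 : (p : ℕ) ∣ N := by rw [hp3]; exact hst.three
    rw [if_pos hp3, if_pos h3, hst.dep p (fun hc => (p.2.coprime_iff_not_dvd.mp hc) h3)]
    simp
  · rw [if_neg hp3, local_factor hdet hΨ hst hram ι p.2 hp3 (hAσ p).1 (hAσ p).2]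

/-- **Artin's conjecture for `r = ι ∘ Ψ ∘ ρ`**, if the inertia groups at `3` have no invariants. -/
theorem artin_of_inertia_three (hρ : Continuous ρ) (hs : Function.Surjective ρ)
    (hdet : ∀ σ : Γℚ, Matrix.GeneralLinearGroup.det (ρ σ) = modThreeCyclotomicChar σ)
    (hΨ : ∀ g, Matrix.GeneralLinearGroup.map FLT.ExplicitLift.red (Ψ g) = g)
    (ι : ℤ√(-2) →+* ℂ)
    (h3 : ∀ A : ValuationSubring (AlgebraicClosure ℚ), A.LiesOverPrime 3 →
      invI ((rep Ψ ι).comp ρ) A = ⊥) :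
    ∃ L : ℂ → ℂ, Differentiable ℂ L ∧ ∀ s : ℂ, 1 < s.re →
      ∀ (A : Nat.Primes → ValuationSubring (AlgebraicClosure ℚ)) (σ : Nat.Primes → Γℚ),
        (∀ p : Nat.Primes, (A p).LiesOverPrime p ∧ (A p).IsFrobeniusAt (σ p) p) →
        HasProd (fun p : Nat.Primes =>
          ((eulerPoly ((rep Ψ ι).comp ρ) (A p) (σ p)).eval ((p : ℂ) ^ (-s)))⁻¹) (L s) := by
  obtain ⟨L, hL, h⟩ := artin_away_three hρ hs hdet hΨ ι
  refine ⟨L, hL, fun s hs A σ hAσ => (h s hs A σ hAσ).congr_fun fun p => ?_⟩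
  split_ifs with hp3
  · have hA := (hAσ p).1
    obtain ⟨hσ, -⟩ := (hAσ p).2
    rw [hp3] at hA
    rw [eulerPoly_of_bot _ hσ (h3 _ hA), Polynomial.eval_one, inv_one]
  · rfl

end Fermat.Agent.Cor.Artin

end
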