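import Fermat.Agent.Corollaries.Artin.SerreOne
import Fermat.Agent.Corollaries.Cheb.Good2
import Fermat.Agent.Classic.Level.Perm

/-!
# Rational class functions of Frobenius: the sum over the primes

`classLogStmt`: `r : Gal(ℚ̄/ℚ) → G` onto a finite group, `c` a class function with `c g = c h` if
`g` and `h` generate the same cyclic group: `∑_p c(r(Frob_p)) p^(-1-δ) + A log δ` has a limit for
`δ → 0+`, `A` the mean value of `c`.

The functions `f_C(g) = #{x : x⁻¹ g x generates C}` by induction on the subgroup `C`: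
`|C| π_C(g) = ∑_{D ≤ C} f_D(g)`.
-/

set_option autoImplicit false

noncomputable section

open CongruenceSubgroup UpperHalfPlane Filter Topology NumberField
open Fermat.Agent.X1 Fermat.Agent.HeckePar ModularFormClass Fermat.Agent.LT.End
open Fermat.Agent.Classic.Level
open scoped MatrixGroups ModularForm

namespace Fermat.Agent.Cor.Artin

local notation "Γℚ" => (AlgebraicClosure ℚ ≃ₐ[ℚ] AlgebraicClosure ℚ)

section

variable {G : Type} [Group G] [Fintype G]

open scoped Classical in
/-- the number of `x` such that `x⁻¹ g x` generates `C` -/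
def fC (C : Subgroup G) (g : G) : ℕ :=
  (Finset.univ.filter fun x : G => Subgroup.zpowers (x⁻¹ * g * x) = C).card

open scoped Classical in
/-- the number of generators of `C` -/
def gC (C : Subgroup G) : ℕ := (Finset.univ.filter fun x : G => Subgroup.zpowers x = C).card

open scoped Classical in
theorem card_mul_pH (C : Subgroup G) (g : G) :
    pH C g * Nat.card C = ∑ D ∈ Finset.univ.filter (fun D : Subgroup G => D ≤ C), fC D g := by
  rw [pH_mul_card]
  have h1 : Nat.card {x : G // x⁻¹ * g * x ∈ C} =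
      (Finset.univ.filter fun x : G => x⁻¹ * g * x ∈ C).card := by
    rw [Nat.card_eq_fintype_card, Fintype.card_subtype]
  rw [h1]
  simp only [fC]
  rw [← Finset.card_biUnion]
  · congr 1
    ext x
    simp only [Finset.mem_filter, Finset.mem_univ, true_and, Finset.mem_biUnion]
    constructor
    · intro h
      exact ⟨_, Subgroup.zpowers_le.mpr h, rfl⟩
    · rintro ⟨D, hD, rfl⟩
      exact hD (Subgroup.mem_zpowers _)
  · intro D _ D' _ hDD'
    rw [Function.onFun, Finset.disjoint_left]
    intro x hx hx'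
    rw [Finset.mem_filter] at hx hx'
    exact hDD' (hx.2.symm.trans hx'.2)

open scoped Classical in
theorem card_eq_sum_gC (C : Subgroup G) :
    Nat.card C = ∑ D ∈ Finset.univ.filter (fun D : Subgroup G => D ≤ C), gC D := by
  have h1 : Nat.card C = (Finset.univ.filter fun x : G => x ∈ C).card := by
    rw [Nat.card_eq_fintype_card, ← Fintype.card_subtype]
  rw [h1]
  simp only [gC]
  rw [← Finset.card_biUnion]
  · congr 1
    ext x
    simp only [Finset.mem_filter, Finset.mem_univ, true_and, Finset.mem_biUnion]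
    constructor
    · intro h
      exact ⟨_, Subgroup.zpowers_le.mpr h, rfl⟩
    · rintro ⟨D, hD, rfl⟩
      exact hD (Subgroup.mem_zpowers _)
  · intro D _ D' _ hDD'
    rw [Function.onFun, Finset.disjoint_left]
    intro x hx hx'
    rw [Finset.mem_filter] at hx hx'
    exact hDD' (hx.2.symm.trans hx'.2)

/-- a choice of Frobenius elements -/
structure FrobChoice (φ : ℕ → Γℚ) : Prop where
  spec : ∀ p : ℕ, p.Prime → ∃ A : ValuationSubring (AlgebraicClosure ℚ),
    A.LiesOverPrime p ∧ A.IsFrobeniusAt (φ p) p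

theorem exists_frobChoice : ∃ φ : ℕ → Γℚ, FrobChoice φ := by
  classical
  have h : ∀ p : ℕ, ∃ σ : Γℚ, p.Prime → ∃ A : ValuationSubring (AlgebraicClosure ℚ),
      A.LiesOverPrime p ∧ A.IsFrobeniusAt σ p := by
    intro p
    by_cases hp : p.Prime
    · obtain ⟨A, hA, σ, hσ⟩ := Frob.exists_frobenius p hp
      exact ⟨σ, fun _ => ⟨A, hA, hσ⟩⟩
    · exact ⟨1, fun h => absurd h hp⟩
  choose φ hφ using h
  exact ⟨φ, ⟨hφ⟩⟩

theorem HasLog.zero : HasLog (fun _ => 0) 0 :=
  HasLog.of_finset ∅ fun _ _ _ => rfl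

theorem HasLog.sum {ι : Type*} (s : Finset ι) {f : ι → ℕ → ℝ} {A : ι → ℝ}
    (h : ∀ i ∈ s, HasLog (f i) (A i)) : HasLog (fun n => ∑ i ∈ s, f i n) (∑ i ∈ s, A i) := by
  classical
  induction s using Finset.induction_on with
  | empty => simpa using HasLog.zero
  | insert i s hi ih =>
    simp only [Finset.sum_insert hi]
    exact (h i (Finset.mem_insert_self i s)).add
      (ih fun j hj => h j (Finset.mem_insert_of_mem hj))

variable {r : Γℚ →* G}

/-- the permutation character -/
theorem hasLog_pH (hsurj : Function.Surjective r) (hlev : GaloisFactorsThroughFiniteLevel r)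
    {φ : ℕ → Γℚ} (hφ : FrobChoice φ) (C : Subgroup G) :
    HasLog (fun p => (pH C (r (φ p)) : ℝ)) 1 := by
  obtain ⟨L, hL, hr⟩ := hlev
  obtain ⟨T⟩ := Cheb.exists_fixField_of_level (ρ := r) hr C
  obtain ⟨D, hD, H⟩ := exists_degOne_eq T hsurj
  have h1 : HasLog (fun p => (pH C (r (φ p)) : ℝ) - (degOne T.F p : ℝ)) 0 := by
    refine HasLog.of_finset D.primeFactors fun p hp hpD => ?_
    obtain ⟨A, hA, hσ⟩ := hφ.spec p hp
    rw [H p hp (fun h => hpD (Nat.mem_primeFactors.mpr ⟨hp, h, hD⟩)) A hA _ hσ, sub_self]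
  have h2 := (HasLog.degOne T.F).add h1
  rw [add_zero] at h2
  refine h2.congr fun p _ => ?_
  ring

open scoped Classical in
theorem hasLog_fC (hsurj : Function.Surjective r) (hlev : GaloisFactorsThroughFiniteLevel r)
    {φ : ℕ → Γℚ} (hφ : FrobChoice φ) (n : ℕ) : ∀ C : Subgroup G, Nat.card C = n →
    HasLog (fun p => (fC C (r (φ p)) : ℝ)) (gC C) := by
  induction n using Nat.strong_induction_on with
  | _ n ih =>
    intro C hC
    have hsplit : Finset.univ.filter (fun D : Subgroup G => D ≤ C) =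
        insert C (Finset.univ.filter fun D : Subgroup G => D < C) := by
      ext D
      simp only [Finset.mem_filter, Finset.mem_univ, true_and, Finset.mem_insert]
      exact le_iff_eq_or_lt
    have hnot : C ∉ Finset.univ.filter fun D : Subgroup G => D < C := by
      simp
    have h1 : HasLog (fun p => ∑ D ∈ Finset.univ.filter (fun D : Subgroup G => D < C),
        (fC D (r (φ p)) : ℝ)) (∑ D ∈ Finset.univ.filter (fun D : Subgroup G => D < C),
          (gC D : ℝ)) := by
      refine HasLog.sum _ fun D hD => ih (Nat.card D) ?_ D rfl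
      rw [← hC]
      have hlt : D < C := (Finset.mem_filter.mp hD).2
      have h2 : ((D : Set G)).ncard < ((C : Set G)).ncard :=
        Set.ncard_lt_ncard (SetLike.coe_ssubset_coe.mpr hlt) (Set.toFinite _)
      exact h2
    have h2 := ((hasLog_pH hsurj hlev hφ C).const_mul (Nat.card C : ℝ)).add (h1.const_mul (-1))
    have e1 : (Nat.card C : ℝ) * 1 + -1 * ∑ D ∈ Finset.univ.filter
        (fun D : Subgroup G => D < C), (gC D : ℝ) = gC C := by
      have h3 := card_eq_sum_gC C
      rw [hsplit, Finset.sum_insert hnot] at h3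
      rw [h3]
      push_cast
      ring
    rw [e1] at h2
    refine h2.congr fun p _ => ?_
    have h3 := card_mul_pH C (r (φ p))
    rw [hsplit, Finset.sum_insert hnot] at h3
    have h4 : (pH C (r (φ p)) : ℝ) * Nat.card C = (fC C (r (φ p)) : ℝ) +
        ∑ D ∈ Finset.univ.filter (fun D : Subgroup G => D < C), (fC D (r (φ p)) : ℝ) := by
      exact_mod_cast h3
    linear_combination -h4

end

/-- **The sum over the primes of a rational class function of Frobenius.** -/
theorem classLogStmt : ClassLogStmt := by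
  classical
  intro G _ _ r hsurj hlev c hc hc' B f hf
  obtain ⟨φ, hφ⟩ := exists_frobChoice
  -- the value of `c` at the generators of a cyclic group
  obtain ⟨v, hv⟩ : ∃ v : Subgroup G → ℝ, ∀ g : G, v (Subgroup.zpowers g) = c g := by
    have h : ∀ D : Subgroup G, ∃ y : ℝ, ∀ g : G, Subgroup.zpowers g = D → c g = y := by
      intro D
      by_cases hD : ∃ g : G, Subgroup.zpowers g = D
      · obtain ⟨g, hg⟩ := hD
        exact ⟨c g, fun g' hg' => hc' g' g (hg'.trans hg.symm)⟩
      · exact ⟨0, fun g hg => absurd ⟨g, hg⟩ hD⟩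
    choose v hv using h
    exact ⟨v, fun g => (hv _ g rfl).symm⟩
  have hsum := HasLog.sum Finset.univ fun (D : Subgroup G) _ =>
    (hasLog_fC hsurj hlev hφ (Nat.card D) D rfl).const_mul (v D)
  have h1 := hsum.const_mul ((Fintype.card G : ℝ)⁻¹)
  have hG : (Fintype.card G : ℝ) ≠ 0 := Nat.cast_ne_zero.mpr Fintype.card_ne_zero
  -- the mean value
  have e1 : (∑ D : Subgroup G, v D * (gC D : ℝ)) = ∑ g : G, c g := by
    rw [← Finset.sum_fiberwise_of_maps_to (s := Finset.univ) (t := Finset.univ)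
      (g := fun g : G => Subgroup.zpowers g) (f := c) (fun g _ => Finset.mem_univ _)]
    refine Finset.sum_congr rfl fun D _ => ?_
    rw [Finset.sum_congr rfl fun g hg => by
      rw [← hv g, (Finset.mem_filter.mp hg).2], Finset.sum_const, nsmul_eq_mul, gC, mul_comm]
  have e2 : ∀ g : G, (∑ D : Subgroup G, v D * (fC D g : ℝ)) = Fintype.card G * c g := by
    intro g
    have h0 : ∀ x : G, c (x⁻¹ * g * x) = c g := fun x => by
      have := hc g x⁻¹
      rwa [inv_inv] at this
    have h2 : (∑ x : G, c (x⁻¹ * g * x)) = Fintype.card G * c g := by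
      rw [Finset.sum_congr rfl fun x _ => h0 x, Finset.sum_const, Finset.card_univ, nsmul_eq_mul]
    rw [← h2, ← Finset.sum_fiberwise_of_maps_to (s := Finset.univ) (t := Finset.univ)
      (g := fun x : G => Subgroup.zpowers (x⁻¹ * g * x)) (f := fun x : G => c (x⁻¹ * g * x))
      (fun g _ => Finset.mem_univ _)]
    refine Finset.sum_congr rfl fun D _ => ?_
    rw [Finset.sum_congr rfl fun x hx => by
      rw [← hv (x⁻¹ * g * x), (Finset.mem_filter.mp hx).2], Finset.sum_const, nsmul_eq_mul, fC,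
      mul_comm]
  rw [e1, mul_comm, ← div_eq_mul_inv] at h1
  have h3 : HasLog (fun p => f p - c (r (φ p))) 0 := by
    refine HasLog.of_finset B fun p hp hpB => ?_
    obtain ⟨A, hA, hσ⟩ := hφ.spec p hp
    rw [hf p hp hpB A hA _ hσ, sub_self]
  have h4 := h1.add h3
  rw [add_zero] at h4
  refine h4.congr fun p _ => ?_
  rw [e2, inv_mul_cancel_left₀ hG]
  ring

open scoped Classical in
/-- **Multiplicative sets of integers given by Frobenius conditions** (Landau, Serre). -/
theorem card_frobenian {G : Type} [Group G] [Fintype G] (r : Γℚ →* G)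
    (hsurj : Function.Surjective r) (hlev : GaloisFactorsThroughFiniteLevel r) {T : Set G}
    (h1T : (1 : G) ∈ T) (hT : ∀ g x : G, x * g * x⁻¹ ∈ T ↔ g ∈ T)
    (hT' : ∀ g h : G, Subgroup.zpowers g = Subgroup.zpowers h → (g ∈ T ↔ h ∈ T))
    (B : Finset ℕ)
    (hun : ∀ p : ℕ, p.Prime → p ∉ B → ∀ A : ValuationSubring (AlgebraicClosure ℚ),
      A.LiesOverPrime p → ∀ σ ∈ A.inertiaSubgroupIn ℚ, r σ = 1)
    {S : Set ℕ} (h1 : 1 ∈ S) (hmul : ∀ m n : ℕ, m.Coprime n → (m * n ∈ S ↔ m ∈ S ∧ n ∈ S))
    (hS : ∀ p : ℕ, p.Prime → p ∉ B → ∀ A : ValuationSubring (AlgebraicClosure ℚ),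
      A.LiesOverPrime p → ∀ σ : Γℚ, A.IsFrobeniusAt σ p → (p ∈ S ↔ r σ ∈ T)) :
    HasNaturalDensity S ((Nat.card T : ℝ) / Nat.card G) ∧
    ∃ C : ℝ, 0 < C ∧ Tendsto (fun x : ℝ =>
      (((Finset.Ioc 0 ⌊x⌋₊).filter fun n => n ∈ S).card : ℝ) *
        Real.log x ^ (1 - (Nat.card T : ℝ) / Nat.card G) / x) atTop (𝓝 C) :=
  landau_class classLogStmt r hsurj hlev h1T hT hT' B hun h1 hmul hS

open scoped Classical in
/-- **Serre's asymptotic formula for the eigenforms of weight one**: `f` a normalised eigenform of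
weight one and level `N`, `α > 0` the density of the primes with `a_p(f) = 0`:
`#{n ≤ x : (n, N) = 1, a_n(f) ≠ 0} ~ C x / (log x)^α`, `C > 0`. -/
theorem serre_asymptotic {N : ℕ} [NeZero N] {ε : DirichletCharacter ℂ N}
    {f : CuspForm (Gamma1 N) 1} (hf : WtOne.IsNormEigen ε f) :
    ∃ α : ℚ, 0 < α ∧ α < 1 ∧ HasNaturalDensity {p | ¬ p ∣ N ∧ qCoeff f p = 0} α ∧
      ∃ C : ℝ, 0 < C ∧ Tendsto (fun x : ℝ =>
        (((Finset.Ioc 0 ⌊x⌋₊).filter fun n => n.Coprime N ∧ qCoeff f n ≠ 0).card : ℝ) *
          Real.log x ^ (α : ℝ) / x) atTop (𝓝 C) :=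
  serre_asymptotic_of classLogStmt hf

end Fermat.Agent.Cor.Artin

end
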