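import Fermat.Agent.Corollaries.Artin.ExplicitFE
import Fermat.Agent.Corollaries.ZetaK.ZetaOne

/-!
# The class number formula for the octahedral `L`-functions

`r = κ ∘ Ψ ∘ ρ`, `F₂₄, F₁₂, F₈, F₄` the fixed fields of the subgroups `C2, V4, S3, B3` of
`GL₂(𝔽₃)` (degrees `24, 12, 8, 4`). The complete identity
`ζ₂₄(s) ζ₄(s)² = ζ₁₂(s) ζ₈(s)² L(s, r) L(s, r̄)` gives at `s = 1`

`|L(1, r)|² = κ₂₄ κ₄² / (κ₁₂ κ₈²)`, `κ_F` the residue of `ζ_F`,

and with the functional equation at `s = 0` the class number formula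

`|L'(0, r)|² = (h₂₄ R₂₄ / w₂₄) (h₄ R₄ / w₄)² / ((h₁₂ R₁₂ / w₁₂) (h₈ R₈ / w₈)²)`.
-/

set_option autoImplicit false

noncomputable section

open NumberField NumberField.InfinitePlace NumberField.Units IsDedekindDomain WeierstrassCurve
open CongruenceSubgroup ModularFormClass EisensteinWeightOne
open Fermat.Agent.Classic Fermat.Agent.Classic.Level Fermat.Agent.X1 Fermat.Agent.LT.End
open scoped MatrixGroups ModularForm ComplexConjugate Topology

namespace Fermat.Agent.Cor.Artin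

local notation "Γℚ" => (AlgebraicClosure ℚ ≃ₐ[ℚ] AlgebraicClosure ℚ)

theorem hasSum_toAr {z : ℕ → ℂ} {s Z : ℂ} (h : LSeriesHasSum z s Z) :
    LSeriesHasSum (fun n => Lvl.toAr z n) s Z :=
  (LSeriesHasSum_congr s Z fun {_} hn => Lvl.toAr_apply z hn).mpr h

variable {ρ : Γℚ →* GL (Fin 2) (ZMod 3)} {Ψ : GL (Fin 2) (ZMod 3) →* GL (Fin 2) (ℤ√(-2))}
  {κ : ℤ√(-2) →+* ℂ} {L L' : ℂ → ℂ}

/-- The identity of the four zeta functions as an identity of entire functions. -/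
theorem prod_identity {F₁ F₂ F₃ F₄ : Type} [Field F₁] [NumberField F₁] [Field F₂] [NumberField F₂]
    [Field F₃] [NumberField F₃] [Field F₄] [NumberField F₄] {a : ℕ → ℂ}
    (hid : Lvl.toAr (zcF F₁) * (Lvl.toAr (zcF F₄) * Lvl.toAr (zcF F₄)) =
      Lvl.toAr (zcF F₂) * (Lvl.toAr (zcF F₃) * Lvl.toAr (zcF F₃)) *
        (Lvl.toAr a * Lvl.toAr fun n => conj (a n)))
    (hL : Differentiable ℂ L) (hL' : Differentiable ℂ L')
    (ha : ∀ s : ℂ, 1 < s.re → LSeriesHasSum a s (L s))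
    (ha' : ∀ s : ℂ, 1 < s.re → LSeriesHasSum (fun n => conj (a n)) s (L' s)) (s : ℂ) :
    wF F₁ s * (wF F₄ s * wF F₄ s) = wF F₂ s * (wF F₃ s * wF F₃ s) * (L s * L' s) := by
  obtain ⟨σ1, h1, H1⟩ := exists_hasSum_zeta F₁
  obtain ⟨σ2, h2, H2⟩ := exists_hasSum_zeta F₂
  obtain ⟨σ3, h3, H3⟩ := exists_hasSum_zeta F₃
  obtain ⟨σ4, h4, H4⟩ := exists_hasSum_zeta F₄
  refine Zeta.eq_of_eq_re_large (σ := max (max σ1 σ2) (max σ3 σ4))
    (f := fun s => wF F₁ s * (wF F₄ s * wF F₄ s))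
    (g := fun s => wF F₂ s * (wF F₃ s * wF F₃ s) * (L s * L' s)) ?_ ?_ (fun s hs' => ?_) s
  · exact (differentiable_wF _).mul ((differentiable_wF _).mul (differentiable_wF _))
  · exact ((differentiable_wF _).mul ((differentiable_wF _).mul (differentiable_wF _))).mul
      (hL.mul hL')
  · simp only [max_lt_iff] at hs'
    obtain ⟨⟨hs1, hs2⟩, hs3, hs4⟩ := hs'
    have hs1' : 1 < s.re := lt_of_le_of_lt h1 hs1
    obtain ⟨ζ1, e1, w1⟩ := H1 s hs1
    obtain ⟨ζ2, e2, w2⟩ := H2 s hs2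
    obtain ⟨ζ3, e3, w3⟩ := H3 s hs3
    obtain ⟨ζ4, e4, w4⟩ := H4 s hs4
    have l4 := ArithmeticFunction.LSeriesHasSum_mul (hasSum_toAr e4) (hasSum_toAr e4)
    have l3 := ArithmeticFunction.LSeriesHasSum_mul (hasSum_toAr e3) (hasSum_toAr e3)
    have left := ArithmeticFunction.LSeriesHasSum_mul (hasSum_toAr e1) l4
    have right := ArithmeticFunction.LSeriesHasSum_mul
      (ArithmeticFunction.LSeriesHasSum_mul (hasSum_toAr e2) l3)
      (ArithmeticFunction.LSeriesHasSum_mul (hasSum_toAr (ha s hs1'))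
        (hasSum_toAr (ha' s hs1')))
    rw [hid] at left
    have heq := left.unique right
    rw [w1, w2, w3, w4]
    linear_combination (s - 1) ^ 3 * heq

theorem wF_one (F : Type) [Field F] [NumberField F] :
    wF F 1 = (dedekindZeta_residue F : ℂ) := by
  rw [wF, WK, residue_eq_XiF]

/-- The newform and its conjugate, with the complete identity. -/
theorem IsArtinL.exists_complete (hρ : Continuous ρ) (hs : Function.Surjective ρ)
    (hdet : ∀ σ : Γℚ, Matrix.GeneralLinearGroup.det (ρ σ) = modThreeCyclotomicChar σ)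
    (hΨ : ∀ g, Matrix.GeneralLinearGroup.map FLT.ExplicitLift.red (Ψ g) = g)
    (h : IsArtinL ρ Ψ κ L) (h' : IsArtinL ρ Ψ ((starRingEnd ℂ).comp κ) L')
    (T24 : FixField ρ C2) (T12 : FixField ρ V4) (T8 : FixField ρ S3) (T4 : FixField ρ B3) :
    (∀ s : ℂ, wF T24.F s * (wF T4.F s * wF T4.F s) =
      wF T12.F s * (wF T8.F s * wF T8.F s) * (L s * L' s)) ∧ ∀ s : ℂ, L' s = conj (L (conj s)) := by
  obtain ⟨N₀, hN₀, ι, b, f₀, hram, hst⟩ := exists_start hρ hs hdet hΨ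
  obtain ⟨N, hN, lam, γ, g, k, hn⟩ := exists_new hρ hs hdet hΨ hst hram κ
  have hid := New.complete T24 T12 T8 T4 hρ hs hdet hΨ hst hn
  have hinv := New.inv_lam hρ hs hdet hΨ hst hn
  have hmu : ∀ (κ' : ℤ√(-2) →+* ℂ) (A : ValuationSubring (AlgebraicClosure ℚ)),
      A.LiesOverPrime 3 → ∀ φ : Γℚ, A.IsFrobeniusAt φ 3 →
      eulerPoly ((rep Ψ κ').comp ρ) A φ = 1 - Polynomial.C lam⁻¹ * Polynomial.X ∧
        (lam⁻¹ = 0 ∨ lam⁻¹ = 1 ∨ lam⁻¹ = -1) := fun κ' A hA φ hφ =>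
    eulerPoly_of_identity hρ hs hdet hΨ T24 T12 T8 T4 (NeZero.ne N₀) hst.three
      (New.identity T24 T12 T8 T4 hρ hs hdet hΨ hst hn) κ' hA hφ
  have hlam3 : lam⁻¹ = 0 ∨ lam⁻¹ = 1 ∨ lam⁻¹ = -1 := by
    obtain ⟨A, hA, φ, hφ⟩ := Frob.exists_frobenius 3 Nat.prime_three
    exact (hmu κ A hA φ hφ).2
  have hinv' : lam⁻¹ = lam := by
    rcases hlam3 with h1 | h1 | h1
    · rw [h1, inv_eq_zero.mp h1]
    · rw [h1, inv_eq_one.mp h1]
    · rw [h1, ← inv_inv lam, h1]
      norm_num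
  have hnorm : ‖lam‖ ≤ 1 := by
    rw [hinv'] at hlam3
    rcases hlam3 with h1 | h1 | h1 <;> rw [h1] <;> simp
  have hLg : L = ModularForm.L one_pos g := h.unique
    (isArtinL_of_coeff hdet hΨ hst hram hnorm (fun A hA φ hφ => by
      rw [(hmu κ A hA φ hφ).1, hinv']) g hn.coeff)
  have hA : ∀ s : ℂ, 1 < s.re → LSeriesHasSum (newA lam κ b) s (L s) := by
    intro s hs'
    have h1 := (hasProd_newA hdet hΨ hst κ hnorm hs').1
    have h2 : ModularForm.L one_pos g s = LSeries (newA lam κ b) s := by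
      refine eq_LSeries_of_two_lt (CuspForm.differentiable_L one_pos g)
        (fun s hs => (hasProd_newA hdet hΨ hst κ hnorm hs).1) (fun s hs' => ?_) hs'
      have hG' : qCoeff ⇑g = newA lam κ b := funext hn.coeff
      rw [← hG']
      exact (Z3.lsum g hs').2.symm
    rw [hLg, h2]
    exact h1.LSeriesHasSum
  have hconj : IsArtinL ρ Ψ ((starRingEnd ℂ).comp κ) fun s => conj (L (conj s)) := by
    obtain ⟨N₁, W, L₁, L₁', Λ, Λ', hN₁, -, -, hL₁, hL₁', hΛ, hΛ', e1, e2, e3, -, -⟩ :=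
      artin_functional_equation hρ hs hdet hΨ κ
    have hh : L = L₁ := h.unique hL₁
    have hpos : 0 < N₁ := Nat.pos_of_ne_zero hN₁
    have : L₁' = fun s => conj (L (conj s)) := by
      refine funext fun s => Zeta.eq_of_eq_re_large (σ := 1) hL₁'.entire
        (differentiable_conj h.entire) (fun s hs' => ?_) s
      have hne : ∀ n : ℕ, s ≠ -n := fun n => Fermat.Agent.Cor.ZetaK.ne_neg_natCast_of_re_pos
        (by linarith) n
      have hne' : ∀ n : ℕ, conj s ≠ -n := fun n =>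
        Fermat.Agent.Cor.ZetaK.ne_neg_natCast_of_re_pos (by rw [Complex.conj_re]; linarith) n
      have h3 := e3 s
      rw [e2 s hne, e1 _ hne', map_mul, map_mul, ← Zeta.Gammaℂ_conj, Complex.conj_conj] at h3
      have h4 : conj ((N₁ : ℂ) ^ (conj s / 2)) = (N₁ : ℂ) ^ (s / 2) := by
        have h5 := Complex.cpow_conj (N₁ : ℂ) (s / 2) (by
          rw [Complex.natCast_arg]; exact Real.pi_ne_zero.symm)
        rw [Complex.conj_natCast, map_div₀, Complex.conj_ofNat] at h5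
        rw [h5, Complex.conj_conj]
      rw [h4] at h3
      rw [hh]
      exact mul_left_cancel₀ (mul_ne_zero (natCast_cpow_ne_zero hpos _)
        (Fermat.Agent.Cor.ZetaK.Gammaℂ_ne_zero hne)) h3
    rw [← this]
    exact hL₁'
  have hL' : L' = fun s => conj (L (conj s)) := h'.unique hconj
  have hA' : ∀ s : ℂ, 1 < s.re → LSeriesHasSum (fun n => conj (newA lam κ b n)) s (L' s) := by
    intro s hs'
    have h1 := hA (conj s) (by rwa [Complex.conj_re])
    have h2 : LSeries (fun n => conj (newA lam κ b n)) s = L' s := by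
      rw [LSeries_conj', h1.LSeries_eq, hL']
    rw [← h2]
    have hsum : LSeriesSummable (fun n => conj (newA lam κ b n)) s := by
      have h3 := (hA s hs').LSeriesSummable
      refine (summable_norm_iff.mp (h3.norm.congr fun n => ?_))
      rcases eq_or_ne n 0 with rfl | hn0
      · simp
      · rw [LSeries.term_of_ne_zero hn0, LSeries.term_of_ne_zero hn0, norm_div, norm_div,
          Complex.norm_conj]
    exact hsum.LSeriesHasSum
  exact ⟨prod_identity hid h.entire h'.entire hA hA', fun s => by rw [hL']⟩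

/-- **The value at `1`**: `|L(1, r)|² κ₁₂ κ₈² = κ₂₄ κ₄²`, `κ_F` the residue of `ζ_F` at `1`. -/
theorem artin_norm_sq_one (hρ : Continuous ρ) (hs : Function.Surjective ρ)
    (hdet : ∀ σ : Γℚ, Matrix.GeneralLinearGroup.det (ρ σ) = modThreeCyclotomicChar σ)
    (hΨ : ∀ g, Matrix.GeneralLinearGroup.map FLT.ExplicitLift.red (Ψ g) = g)
    (h : IsArtinL ρ Ψ κ L)
    (T24 : FixField ρ C2) (T12 : FixField ρ V4) (T8 : FixField ρ S3) (T4 : FixField ρ B3) :
    ‖L 1‖ ^ 2 * (dedekindZeta_residue T12.F * dedekindZeta_residue T8.F ^ 2) =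
      dedekindZeta_residue T24.F * dedekindZeta_residue T4.F ^ 2 := by
  obtain ⟨L', h'⟩ := exists_isArtinL hρ hs hdet hΨ ((starRingEnd ℂ).comp κ)
  obtain ⟨h1, h2⟩ := h.exists_complete hρ hs hdet hΨ h' T24 T12 T8 T4
  have h3 := h1 1
  rw [h2 1, map_one, Complex.mul_conj, Complex.normSq_eq_norm_sq, wF_one, wF_one, wF_one,
    wF_one] at h3
  have h4 : dedekindZeta_residue T24.F * (dedekindZeta_residue T4.F * dedekindZeta_residue T4.F) =
      dedekindZeta_residue T12.F * (dedekindZeta_residue T8.F * dedekindZeta_residue T8.F) *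
        ‖L 1‖ ^ 2 := by exact_mod_cast h3
  linear_combination -h4

/-- `h R / w`: class number times regulator over the number of roots of unity. -/
def hRw (F : Type) [Field F] [NumberField F] : ℝ :=
  (classNumber F : ℝ) * regulator F / (torsionOrder F : ℝ)

theorem hRw_pos (F : Type) [Field F] [NumberField F] : 0 < hRw F :=
  div_pos (mul_pos (Nat.cast_pos.mpr (classNumber_pos F)) (regulator_pos F))
    (Nat.cast_pos.mpr (torsionOrder_pos F))

theorem residue_mul_sqrt (F : Type) [Field F] [NumberField F] {m n : ℕ}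
    (hr : nrRealPlaces F = m) (hc : nrComplexPlaces F = n) :
    dedekindZeta_residue F * Real.sqrt (discr F).natAbs =
      2 ^ m * (2 * Real.pi) ^ n * hRw F := by
  have hw : (torsionOrder F : ℝ) ≠ 0 := Nat.cast_ne_zero.mpr (torsionOrder_pos F).ne'
  have hd : Real.sqrt (discr F).natAbs ≠ 0 :=
    (Real.sqrt_pos.mpr (Nat.cast_pos.mpr (Int.natAbs_pos.mpr (discr_ne_zero F)))).ne'
  have e : ((|discr F| : ℤ) : ℝ) = ((discr F).natAbs : ℝ) := by
    rw [Int.abs_eq_natAbs]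
    rfl
  rw [dedekindZeta_residue_def, hRw, ← Int.cast_abs, e, hr, hc]
  field_simp

/-- **The class number formula**: `|L'(0, r)|² = (h₂₄R₂₄/w₂₄) (h₄R₄/w₄)² / ((h₁₂R₁₂/w₁₂)
(h₈R₈/w₈)²)` and `N |L(1, r)|² = (2π)² |L'(0, r)|²`, `N` the Artin conductor. -/
theorem artin_class_number (hρ : Continuous ρ) (hs : Function.Surjective ρ)
    (hdet : ∀ σ : Γℚ, Matrix.GeneralLinearGroup.det (ρ σ) = modThreeCyclotomicChar σ)
    (hΨ : ∀ g, Matrix.GeneralLinearGroup.map FLT.ExplicitLift.red (Ψ g) = g)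
    (h : IsArtinL ρ Ψ κ L)
    (T24 : FixField ρ C2) (T12 : FixField ρ V4) (T8 : FixField ρ S3) (T4 : FixField ρ B3) :
    ‖deriv L 0‖ ^ 2 = hRw T24.F * hRw T4.F ^ 2 / (hRw T12.F * hRw T8.F ^ 2) ∧
    ∃ N : ℕ, 0 < N ∧ (∀ p : ℕ, p.Prime → (p ∣ N ↔ ¬ UnrAt ρ p)) ∧
      (discr T24.F).natAbs * (discr T4.F).natAbs ^ 2 =
        (discr T12.F).natAbs * (discr T8.F).natAbs ^ 2 * N ^ 2 ∧
      ‖L 1‖ ^ 2 = (2 * Real.pi) ^ 2 / N *
        (hRw T24.F * hRw T4.F ^ 2 / (hRw T12.F * hRw T8.F ^ 2)) := by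
  obtain ⟨L', h'⟩ := exists_isArtinL hρ hs hdet hΨ ((starRingEnd ℂ).comp κ)
  obtain ⟨N, W, hN, hW, hram, hcond, -, hder, -⟩ := artin_one_sub hρ hs hdet hΨ h h'
  have hcond := hcond T24 T12 T8 T4
  have hconj := (h.exists_complete hρ hs hdet hΨ h' T24 T12 T8 T4).2 1
  have hval := artin_norm_sq_one hρ hs hdet hΨ h T24 T12 T8 T4
  have hNr : (0 : ℝ) < N := Nat.cast_pos.mpr hN
  have hpi : (0 : ℝ) < 2 * Real.pi := by positivity
  have hH := mul_pos (hRw_pos T12.F) (pow_pos (hRw_pos T8.F) 2)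
  -- the signatures
  have hsq : ρ complexConjugation * ρ complexConjugation = 1 := by
    rw [← map_mul, complexConjugation_mul_self, map_one]
  have hd := det_complexConjugation hdet
  obtain ⟨p24, p12, p8, p4⟩ := pH_refl hd (trace_of_sq hd hsq)
  obtain ⟨r24, t24⟩ := signature_two hs T24 p24
  obtain ⟨r12, t12⟩ := signature_two hs T12 p12
  obtain ⟨r8, t8⟩ := signature_two hs T8 p8
  obtain ⟨r4, t4⟩ := signature_two hs T4 p4
  rw [index_C2] at t24
  rw [index_V4] at t12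
  rw [index_S3] at t8
  rw [index_B3] at t4
  have e24 := residue_mul_sqrt T24.F r24 (show nrComplexPlaces T24.F = 11 by omega)
  have e12 := residue_mul_sqrt T12.F r12 (show nrComplexPlaces T12.F = 5 by omega)
  have e8 := residue_mul_sqrt T8.F r8 (show nrComplexPlaces T8.F = 3 by omega)
  have e4 := residue_mul_sqrt T4.F r4 (show nrComplexPlaces T4.F = 1 by omega)
  -- the discriminants
  have hq : ∀ (F : Type) [Field F] [NumberField F],
      0 < Real.sqrt (discr F).natAbs ∧ Real.sqrt (discr F).natAbs ^ 2 = (discr F).natAbs :=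
    fun F _ _ => ⟨Real.sqrt_pos.mpr (Nat.cast_pos.mpr (Int.natAbs_pos.mpr (discr_ne_zero F))),
      Real.sq_sqrt (Nat.cast_nonneg _)⟩
  obtain ⟨q24, s24⟩ := hq T24.F
  obtain ⟨q12, s12⟩ := hq T12.F
  obtain ⟨q8, s8⟩ := hq T8.F
  obtain ⟨q4, s4⟩ := hq T4.F
  set d24 := Real.sqrt (discr T24.F).natAbs
  set d12 := Real.sqrt (discr T12.F).natAbs
  set d8 := Real.sqrt (discr T8.F).natAbs
  set d4 := Real.sqrt (discr T4.F).natAbs
  have hdisc : d24 * d4 ^ 2 = d12 * d8 ^ 2 * N := by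
    have h1 : ((discr T24.F).natAbs : ℝ) * ((discr T4.F).natAbs : ℝ) ^ 2 =
        ((discr T12.F).natAbs : ℝ) * ((discr T8.F).natAbs : ℝ) ^ 2 * (N : ℝ) ^ 2 := by
      exact_mod_cast hcond
    rw [← s24, ← s12, ← s8, ← s4] at h1
    have h2 : (d24 * d4 ^ 2) ^ 2 = (d12 * d8 ^ 2 * N) ^ 2 := by linear_combination h1
    exact (pow_left_inj₀ (by positivity) (by positivity) two_ne_zero).mp h2
  -- the value at one
  have key : ‖L 1‖ ^ 2 * N * (hRw T12.F * hRw T8.F ^ 2) =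
      (2 * Real.pi) ^ 2 * (hRw T24.F * hRw T4.F ^ 2) := by
    have h1 : ‖L 1‖ ^ 2 * ((dedekindZeta_residue T12.F * d12) *
        (dedekindZeta_residue T8.F * d8) ^ 2) * N =
        (dedekindZeta_residue T24.F * d24) * (dedekindZeta_residue T4.F * d4) ^ 2 := by
      linear_combination (d12 * d8 ^ 2 * N) * hval -
        (dedekindZeta_residue T24.F * dedekindZeta_residue T4.F ^ 2) * hdisc
    rw [e24, e12, e8, e4] at h1
    have h3 : (0 : ℝ) < 2 ^ 6 * (2 * Real.pi) ^ 11 := by positivity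
    refine mul_left_cancel₀ h3.ne' ?_
    linear_combination h1
  have hone : ‖L 1‖ ^ 2 = (2 * Real.pi) ^ 2 / N *
      (hRw T24.F * hRw T4.F ^ 2 / (hRw T12.F * hRw T8.F ^ 2)) := by
    rw [div_mul_div_comm, eq_div_iff (mul_pos hNr hH).ne']
    linear_combination key
  refine ⟨?_, N, hN, hram, hcond, hone⟩
  have h1 : ‖L' 1‖ = ‖L 1‖ := by
    rw [hconj, map_one, Complex.norm_conj]
  have h2 : ‖(N : ℂ) ^ (1 / 2 : ℂ)‖ ^ 2 = N := by
    rw [Complex.norm_natCast_cpow_of_pos hN]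
    norm_num
    rw [← Real.sqrt_eq_rpow, Real.sq_sqrt hNr.le]
  have h4 : ‖(2 * Real.pi : ℂ)‖ = 2 * Real.pi := by
    have h5 : (2 * Real.pi : ℂ) = ((2 * Real.pi : ℝ) : ℂ) := by push_cast; rfl
    rw [h5, Complex.norm_real, Real.norm_of_nonneg hpi.le]
  rw [hder, norm_mul, norm_div, norm_mul, hW, one_mul, h1, h4, mul_pow, div_pow, h2, hone]
  field_simp

end Fermat.Agent.Cor.Artin

end
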