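import Fermat.Agent.Corollaries.Artin.FunEqMain

/-!
# The exponents of the conductor at the tame primes

`factorization_add_finrank`: at a prime `q` at which inertia acts tamely the exponent of `q` in the
level of the newform is `2 - dim V^{I_q}`, the exponent of Artin. In particular it is `2` at every
ramified prime `q ≥ 5`.
-/

set_option autoImplicit false

noncomputable section

open NumberField NumberField.InfinitePlace IsDedekindDomain WeierstrassCurve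
open CongruenceSubgroup ModularFormClass EisensteinWeightOne UpperHalfPlane
open Fermat.Agent.Classic Fermat.Agent.Classic.Level Fermat.Agent.X1 Fermat.Agent.LT.End
open Fermat.Agent.Frob Fermat.Agent.LT.Tower Fermat.Agent.Classic.Disc
open scoped MatrixGroups ModularForm ComplexConjugate Manifold

namespace Fermat.Agent.Cor.Artin

local notation "Γℚ" => (AlgebraicClosure ℚ ≃ₐ[ℚ] AlgebraicClosure ℚ)

variable {ρ : Γℚ →* GL (Fin 2) (ZMod 3)} {Ψ : GL (Fin 2) (ZMod 3) →* GL (Fin 2) (ℤ√(-2))}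

/-- Everything is tame at `q ≥ 5`: the group `GL₂(𝔽₃)` has order `48`. -/
theorem tameAt_of_five_le {q : ℕ} (hq : q.Prime) (h5 : 5 ≤ q) : TameAt ρ q := by
  refine ⟨48, fun h => ?_, fun A _ σ _ => ?_⟩
  · have h1 : q ∣ 2 ^ 4 * 3 := by norm_num; exact h
    rcases hq.dvd_mul.mp h1 with h2 | h2
    · have := (Nat.prime_dvd_prime_iff_eq hq Nat.prime_two).mp (hq.dvd_of_dvd_pow h2)
      omega
    · have := (Nat.prime_dvd_prime_iff_eq hq Nat.prime_three).mp h2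
      omega
  · have h1 := pow_card_eq_one' (x := ρ σ)
    rwa [card_G3] at h1

/-- **The exponent of a tame prime in the conductor**: `v_q(N) = 2 - dim V^{I_q}`. -/
theorem factorization_add_finrank (hρ : Continuous ρ) (hs : Function.Surjective ρ)
    (hΨ : ∀ g, Matrix.GeneralLinearGroup.map FLT.ExplicitLift.red (Ψ g) = g) {N : ℕ} (hN : N ≠ 0)
    (hc : ∀ (T24 : FixField ρ C2) (T12 : FixField ρ V4) (T8 : FixField ρ S3) (T4 : FixField ρ B3),
      (discr T24.F).natAbs * (discr T4.F).natAbs ^ 2 =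
        (discr T12.F).natAbs * (discr T8.F).natAbs ^ 2 * N ^ 2)
    (κ : ℤ√(-2) →+* ℂ) {q : ℕ} (hq : q.Prime) (ht : TameAt ρ q)
    {A : ValuationSubring (AlgebraicClosure ℚ)} (hA : A.LiesOverPrime q) :
    N.factorization q + Module.finrank ℂ (invI ((rep Ψ κ).comp ρ) A) = 2 := by
  have hqF : Fact q.Prime := ⟨hq⟩
  obtain ⟨T24⟩ := exists_fixField hρ C2
  obtain ⟨T12⟩ := exists_fixField hρ V4
  obtain ⟨T8⟩ := exists_fixField hρ S3
  obtain ⟨T4⟩ := exists_fixField hρ B3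
  have h1 := ht.four hρ hs T24 T12 T8 T4 hq (k := 4) (by
    rw [index_C2, index_B3, index_V4, index_S3])
  have h2 := fSum_four hs hΨ κ T24 T12 T8 T4 hq hA
  have h3 := congrArg (padicValNat q) (hc T24 T12 T8 T4)
  rw [padicValNat.mul (mul_ne_zero (natAbs_discr_ne_zero _)
    (pow_ne_zero 2 (natAbs_discr_ne_zero _))) (pow_ne_zero 2 hN), padicValNat.pow] at h3
  rw [Nat.factorization_def _ hq]
  omega

/-- The inertia group at a ramified prime `q ≠ 3` has no invariants. -/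
theorem invI_eq_bot_of_ram
    (hdet : ∀ σ : Γℚ, Matrix.GeneralLinearGroup.det (ρ σ) = modThreeCyclotomicChar σ)
    (hΨ : ∀ g, Matrix.GeneralLinearGroup.map FLT.ExplicitLift.red (Ψ g) = g)
    (κ : ℤ√(-2) →+* ℂ) {p : ℕ} (hp : p.Prime) (hp3 : p ≠ 3) (hram : ¬ UnrAt ρ p)
    {A : ValuationSubring (AlgebraicClosure ℚ)} (hA : A.LiesOverPrime p) :
    invI ((rep Ψ κ).comp ρ) A = ⊥ := by
  by_contra hbot
  obtain ⟨v, hv, hv0⟩ := (Submodule.ne_bot_iff _).mp hbot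
  apply hram
  have key : ∀ τ ∈ A.inertiaSubgroupIn ℚ, ρ τ = 1 := by
    intro τ hτ
    obtain ⟨ζ, hζ⟩ : ∃ ζ : AlgebraicClosure ℚ, IsPrimitiveRoot ζ 3 := by
      have : NeZero ((3 : ℕ) : AlgebraicClosure ℚ) := ⟨by norm_num⟩
      exact HasEnoughRootsOfUnity.exists_primitiveRoot (AlgebraicClosure ℚ) 3
    have h1 : τ ζ = ζ := GalRep.inertia_fix_rootOfUnity hA
      ((Nat.coprime_primes hp Nat.prime_three).mpr hp3) (by norm_num) hτ hζ.pow_eq_one
    exact eq_one_of_fixed hΨ κ ((LT.Tower.fix_omega_iff hdet hζ τ).mp h1) hv0 (hv τ hτ)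
  intro B hB τ hτ
  obtain ⟨g, rfl⟩ := Frob.exists_smul_eq hp hA hB
  have h2 := key _ (CFT.SKummer.conj_mem_inertia hτ)
  have h3 : ρ τ = ρ g * ρ (g⁻¹ * τ * g) * (ρ g)⁻¹ := by
    rw [map_mul, map_mul, map_inv]
    group
  rw [h3, h2, mul_one, mul_inv_cancel]

/-- The newform with its partner and its coefficients (`exists_newform_pair` with one conjunct more). -/
theorem exists_newform_full (hρ : Continuous ρ) (hs : Function.Surjective ρ)
    (hdet : ∀ σ : Γℚ, Matrix.GeneralLinearGroup.det (ρ σ) = modThreeCyclotomicChar σ)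
    (hΨ : ∀ g, Matrix.GeneralLinearGroup.map FLT.ExplicitLift.red (Ψ g) = g)
    (κ : ℤ√(-2) →+* ℂ) :
    ∃ (N : ℕ) (_ : NeZero N) (g g' : CuspForm (Gamma1 N) 1) (γ : ℂ),
      Z3.HasNeb N g ∧
      (∀ p : ℕ, p.Prime → (p ∣ N ↔ ¬ UnrAt ρ p)) ∧
      (∀ (T24 : FixField ρ C2) (T12 : FixField ρ V4) (T8 : FixField ρ S3) (T4 : FixField ρ B3),
        (discr T24.F).natAbs * (discr T4.F).natAbs ^ 2 =
          (discr T12.F).natAbs * (discr T8.F).natAbs ^ 2 * N ^ 2) ∧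
      qCoeff ⇑g 1 = 1 ∧
      (∀ p : ℕ, p.Prime → ¬ p ∣ N → ∀ A : ValuationSubring (AlgebraicClosure ℚ),
        A.LiesOverPrime p → ∀ σ : Γℚ, A.IsFrobeniusAt σ p →
          qCoeff ⇑g p = κ (Ψ (ρ σ)).1.trace) ∧
      (∀ n, qCoeff ⇑g' n = conj (qCoeff ⇑g n)) ∧
      IsArtinL ρ Ψ κ (ModularForm.L one_pos g) ∧
      IsArtinL ρ Ψ ((starRingEnd ℂ).comp κ) (ModularForm.L one_pos g') ∧
      (fun z : ℍ => γ * g' z) = ⇑g ∣[(1 : ℤ)] Z3.W N := by
  obtain ⟨N₀, hN₀, ι, b, f₀, hram, hst⟩ := exists_start hρ hs hdet hΨ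
  obtain ⟨N, hN, lam, γ, g, h, hn⟩ := exists_new hρ hs hdet hΨ hst hram κ
  obtain ⟨T24⟩ := exists_fixField hρ C2
  obtain ⟨T12⟩ := exists_fixField hρ V4
  obtain ⟨T8⟩ := exists_fixField hρ S3
  obtain ⟨T4⟩ := exists_fixField hρ B3
  have hid := New.identity T24 T12 T8 T4 hρ hs hdet hΨ hst hn
  have hmu : ∀ (κ' : ℤ√(-2) →+* ℂ) (A : ValuationSubring (AlgebraicClosure ℚ)),
      A.LiesOverPrime 3 → ∀ φ : Γℚ, A.IsFrobeniusAt φ 3 →
      eulerPoly ((rep Ψ κ').comp ρ) A φ = 1 - Polynomial.C lam⁻¹ * Polynomial.X ∧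
        (lam⁻¹ = 0 ∨ lam⁻¹ = 1 ∨ lam⁻¹ = -1) := fun κ' A hA φ hφ =>
    eulerPoly_of_identity hρ hs hdet hΨ T24 T12 T8 T4 (NeZero.ne N₀) hst.three hid κ' hA hφ
  have hlam3 : lam⁻¹ = 0 ∨ lam⁻¹ = 1 ∨ lam⁻¹ = -1 := by
    obtain ⟨A, hA, φ, hφ⟩ := Frob.exists_frobenius 3 Nat.prime_three
    exact (hmu κ A hA φ hφ).2
  have hinv : lam⁻¹ = lam := by
    rcases hlam3 with h1 | h1 | h1
    · rw [h1, inv_eq_zero.mp h1]
    · rw [h1, inv_eq_one.mp h1]
    · rw [h1, ← inv_inv lam, h1]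
      norm_num
  have hnorm : ‖lam‖ ≤ 1 := by
    rw [hinv] at hlam3
    rcases hlam3 with h1 | h1 | h1 <;> rw [h1] <;> simp
  have hnorm' : ‖lam⁻¹‖ ≤ 1 := by rwa [hinv]
  set g' : CuspForm (Gamma1 N) 1 := γ⁻¹ • h with hg'
  have hsm : ∀ (a : ℂ) (f : CuspForm (Gamma1 N) 1) (j : ℕ),
      qCoeff ⇑(a • f) j = a * qCoeff ⇑f j := fun a f j =>
    qCoeff_cusp_smul N (Gamma1 N) 1 a f j
  have hgc' : ∀ n, qCoeff ⇑g' n = newA lam⁻¹ ((starRingEnd ℂ).comp κ) b n := fun n => by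
    rw [hg', hsm, hn.partner, ← mul_assoc, inv_mul_cancel₀ hn.gamma_ne, one_mul]
  refine ⟨N, hN, g, g', γ, hn.neb, hn.prime_iff, fun T24 T12 T8 T4 => ?_, ?_,
    fun p hp hpN A hA σ hσ => ?_, fun n => ?_, ?_, ?_, ?_⟩
  · have h1 := New.conductor T24 T12 T8 T4 hρ hs hdet hΨ hst hn
    rw [pow_two, pow_two, pow_two]
    exact h1
  · rw [hn.coeff]
    exact (isEigensystem_newA lam κ hst.three hst.eig (b_zero hst)).1
  · have hp3 : ¬ 3 ∣ p := fun h =>
      hpN (((Nat.prime_dvd_prime_iff_eq Nat.prime_three hp).mp h) ▸ hn.three)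
    have hpN₀ : ¬ p ∣ N₀ := fun h => hpN ((hn.prime_iff p hp).mpr ((hram p hp).mp h))
    rw [hn.coeff, newA_of_not_dvd lam κ b hp3, hst.trace p hp hpN₀ A hA σ hσ]
  · rw [hg', hsm, New.partner_conj hρ hs hdet hΨ hst hn, ← mul_assoc,
      inv_mul_cancel₀ hn.gamma_ne, one_mul, hn.coeff]
  · refine isArtinL_of_coeff hdet hΨ hst hram hnorm (fun A hA φ hφ => ?_) g hn.coeff
    rw [(hmu κ A hA φ hφ).1, hinv]
  · exact isArtinL_of_coeff hdet hΨ hst hram hnorm' (fun A hA φ hφ =>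
      (hmu _ A hA φ hφ).1) g' hgc'
  · rw [← hn.slash]
    funext z
    have h1 : g' z = γ⁻¹ * h z := rfl
    rw [h1, ← mul_assoc, mul_inv_cancel₀ hn.gamma_ne, one_mul]

/-- **The newform of `r`** with its coefficients at the primes. -/
theorem exists_newform_trace (hρ : Continuous ρ) (hs : Function.Surjective ρ)
    (hdet : ∀ σ : Γℚ, Matrix.GeneralLinearGroup.det (ρ σ) = modThreeCyclotomicChar σ)
    (hΨ : ∀ g, Matrix.GeneralLinearGroup.map FLT.ExplicitLift.red (Ψ g) = g)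
    (κ : ℤ√(-2) →+* ℂ) :
    ∃ (N : ℕ) (_ : NeZero N) (g : CuspForm (Gamma1 N) 1),
      Z3.HasNeb N g ∧ qCoeff ⇑g 1 = 1 ∧
      (∀ p : ℕ, p.Prime → ¬ p ∣ N → ∀ A : ValuationSubring (AlgebraicClosure ℚ),
        A.LiesOverPrime p → ∀ σ : Γℚ, A.IsFrobeniusAt σ p →
          qCoeff ⇑g p = κ (Ψ (ρ σ)).1.trace) ∧
      IsArtinL ρ Ψ κ (ModularForm.L one_pos g) ∧
      (∀ p : ℕ, p.Prime → (p ∣ N ↔ ¬ UnrAt ρ p)) ∧
      ∀ (T24 : FixField ρ C2) (T12 : FixField ρ V4) (T8 : FixField ρ S3) (T4 : FixField ρ B3),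
        (discr T24.F).natAbs * (discr T4.F).natAbs ^ 2 =
          (discr T12.F).natAbs * (discr T8.F).natAbs ^ 2 * N ^ 2 := by
  obtain ⟨N, hN, g, -, -, h1, h2, h3, h4, h4', -, h5, -, -⟩ :=
    exists_newform_full hρ hs hdet hΨ κ
  exact ⟨N, hN, g, h1, h4, h4', h5, h2, h3⟩

/-- **The newform of `r` and its level, the conductor of Artin.** -/
theorem exists_newform_conductor (hρ : Continuous ρ) (hs : Function.Surjective ρ)
    (hdet : ∀ σ : Γℚ, Matrix.GeneralLinearGroup.det (ρ σ) = modThreeCyclotomicChar σ)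
    (hΨ : ∀ g, Matrix.GeneralLinearGroup.map FLT.ExplicitLift.red (Ψ g) = g)
    (κ : ℤ√(-2) →+* ℂ) :
    ∃ (N : ℕ) (_ : NeZero N) (g : CuspForm (Gamma1 N) 1),
      Z3.HasNeb N g ∧ qCoeff ⇑g 1 = 1 ∧
      (∀ p : ℕ, p.Prime → ¬ p ∣ N → ∀ A : ValuationSubring (AlgebraicClosure ℚ),
        A.LiesOverPrime p → ∀ σ : Γℚ, A.IsFrobeniusAt σ p →
          qCoeff ⇑g p = κ (Ψ (ρ σ)).1.trace) ∧
      -- all Euler factors
      IsArtinL ρ Ψ κ (ModularForm.L one_pos g) ∧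
      -- the primes of the level
      (∀ p : ℕ, p.Prime → (p ∣ N ↔ ¬ UnrAt ρ p)) ∧
      -- the exponents at the tame primes
      (∀ q : ℕ, q.Prime → TameAt ρ q → ∀ A : ValuationSubring (AlgebraicClosure ℚ),
        A.LiesOverPrime q →
        N.factorization q = 2 - Module.finrank ℂ (invI ((rep Ψ κ).comp ρ) A)) ∧
      (∀ q : ℕ, q.Prime → 5 ≤ q → ¬ UnrAt ρ q → N.factorization q = 2) ∧
      -- the conductor in terms of discriminants
      ∀ (T24 : FixField ρ C2) (T12 : FixField ρ V4) (T8 : FixField ρ S3) (T4 : FixField ρ B3),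
        (discr T24.F).natAbs * (discr T4.F).natAbs ^ 2 =
          (discr T12.F).natAbs * (discr T8.F).natAbs ^ 2 * N ^ 2 := by
  obtain ⟨N, hN, g, h1, h2, h2', h3, h4, h5⟩ := exists_newform_trace hρ hs hdet hΨ κ
  refine ⟨N, hN, g, h1, h2, h2', h3, h4, fun q hq ht A hA => ?_, fun q hq hq5 hr => ?_, h5⟩
  · have := factorization_add_finrank hρ hs hΨ (NeZero.ne N) h5 κ hq ht hA
    omega
  · obtain ⟨A, hA⟩ := Frob.exists_liesOverPrime q hq
    have h6 := factorization_add_finrank hρ hs hΨ (NeZero.ne N) h5 κ hq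
      (tameAt_of_five_le hq hq5) hA
    rw [invI_eq_bot_of_ram hdet hΨ κ hq (by omega) hr hA, finrank_bot] at h6
    exact h6

end Fermat.Agent.Cor.Artin

end
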