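import Fermat.Agent.Corollaries.Artin.Zeros
import Fermat.Agent.Classic.Main
import Fermat.Agent.Classic.Semi
import Fermat.Agent.Classic.Section

/-!
# The octahedral newform of weight one of an elliptic curve

`exists_newform_local`: the newform `g` of `r = κ ∘ Ψ ∘ ρ` has coefficients in `ℤ[√-2]` and at
**every** prime `p` the Euler factor of `g` is `det (1 - X r(Frob_p) | V^{I_p})`.

`exists_weightOne_curve`: for every elliptic curve `W` over `ℚ` with surjective mod `3`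
representation there is a newform `g` of weight one with `a_ℓ(g) ≡ a_ℓ(W)` modulo the prime
`(1 + √-2)` of `ℤ[√-2]` for all good primes `ℓ ≠ 3`, whose `L`-function is the `L`-function of
Artin of the complex representation `κ ∘ Ψ ∘ ρ_{W, 3}`.
-/

set_option autoImplicit false

noncomputable section

open NumberField NumberField.InfinitePlace IsDedekindDomain WeierstrassCurve
open CongruenceSubgroup ModularFormClass EisensteinWeightOne UpperHalfPlane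
open Fermat.Agent.Classic Fermat.Agent.Classic.Level Fermat.Agent.X1 Fermat.Agent.LT.End
open Fermat.Agent.Frob Fermat.Agent.Classic.Disc
open scoped MatrixGroups ModularForm ComplexConjugate

namespace Fermat.Agent.Cor.Artin

local notation "Γℚ" => (AlgebraicClosure ℚ ≃ₐ[ℚ] AlgebraicClosure ℚ)

variable {ρ : Γℚ →* GL (Fin 2) (ZMod 3)} {Ψ : GL (Fin 2) (ZMod 3) →* GL (Fin 2) (ℤ√(-2))}

/-- the integral coefficients of the newform -/
def bz (lz : ℤ√(-2)) (b : ℕ → ℤ√(-2)) (n : ℕ) : ℤ√(-2) :=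
  lz ^ (n.factorization 3) * b (n / 3 ^ n.factorization 3)

theorem newA_eq_bz (κ : ℤ√(-2) →+* ℂ) (lz : ℤ√(-2)) (b : ℕ → ℤ√(-2)) (n : ℕ) :
    newA (κ lz) κ b n = κ (bz lz b n) := by
  rw [newA, bz, map_mul, map_pow]

theorem bz_of_not_dvd (lz : ℤ√(-2)) (b : ℕ → ℤ√(-2)) {n : ℕ} (hn : ¬ 3 ∣ n) :
    bz lz b n = b n := by
  rw [bz, Nat.factorization_eq_zero_of_not_dvd hn, pow_zero, pow_zero, one_mul, Nat.div_one]

/-- **The newform of `r = κ ∘ Ψ ∘ ρ`**, with its coefficients and all its Euler factors. -/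
theorem exists_newform_local (hρ : Continuous ρ) (hs : Function.Surjective ρ)
    (hdet : ∀ σ : Γℚ, Matrix.GeneralLinearGroup.det (ρ σ) = modThreeCyclotomicChar σ)
    (hΨ : ∀ g, Matrix.GeneralLinearGroup.map FLT.ExplicitLift.red (Ψ g) = g)
    (κ : ℤ√(-2) →+* ℂ) :
    ∃ (N : ℕ) (_ : NeZero N) (g : CuspForm (Gamma1 N) 1) (b : ℕ → ℤ√(-2)),
      Z3.HasNeb N g ∧ b 1 = 1 ∧ (∀ n, qCoeff ⇑g n = κ (b n)) ∧
      IsArtinL ρ Ψ κ (ModularForm.L one_pos g) ∧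
      (∀ p : ℕ, p.Prime → (p ∣ N ↔ ¬ UnrAt ρ p)) ∧
      (∀ (T24 : FixField ρ C2) (T12 : FixField ρ V4) (T8 : FixField ρ S3) (T4 : FixField ρ B3),
        (discr T24.F).natAbs * (discr T4.F).natAbs ^ 2 =
          (discr T12.F).natAbs * (discr T8.F).natAbs ^ 2 * N ^ 2) ∧
      (∀ p : ℕ, p.Prime → ∀ A : ValuationSubring (AlgebraicClosure ℚ), A.LiesOverPrime p →
        ∀ σ : Γℚ, A.IsFrobeniusAt σ p → eulerPoly ((rep Ψ κ).comp ρ) A σ =
          1 - Polynomial.C (κ (b p)) * Polynomial.X +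
            Polynomial.C (if p ∣ N then 0 else ((chiNegThree p : ℤ) : ℂ)) * Polynomial.X ^ 2) ∧
      ∀ p : ℕ, p.Prime → ¬ p ∣ N → ∀ A : ValuationSubring (AlgebraicClosure ℚ),
        A.LiesOverPrime p → ∀ σ : Γℚ, A.IsFrobeniusAt σ p →
          b p = ((Ψ (ρ σ) : GL (Fin 2) (ℤ√(-2))) : Matrix (Fin 2) (Fin 2) (ℤ√(-2))).trace := by
  obtain ⟨N₀, hN₀, ι, b, f₀, hram, hst⟩ := exists_start hρ hs hdet hΨ
  obtain ⟨N, hN, lam, γ, g, h, hn⟩ := exists_new hρ hs hdet hΨ hst hram κ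
  obtain ⟨T24⟩ := exists_fixField hρ C2
  obtain ⟨T12⟩ := exists_fixField hρ V4
  obtain ⟨T8⟩ := exists_fixField hρ S3
  obtain ⟨T4⟩ := exists_fixField hρ B3
  have hid := New.identity T24 T12 T8 T4 hρ hs hdet hΨ hst hn
  have hmu : ∀ (A : ValuationSubring (AlgebraicClosure ℚ)),
      A.LiesOverPrime 3 → ∀ φ : Γℚ, A.IsFrobeniusAt φ 3 →
      eulerPoly ((rep Ψ κ).comp ρ) A φ = 1 - Polynomial.C lam⁻¹ * Polynomial.X ∧
        (lam⁻¹ = 0 ∨ lam⁻¹ = 1 ∨ lam⁻¹ = -1) := fun A hA φ hφ =>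
    eulerPoly_of_identity hρ hs hdet hΨ T24 T12 T8 T4 (NeZero.ne N₀) hst.three hid κ hA hφ
  have hlam3 : lam⁻¹ = 0 ∨ lam⁻¹ = 1 ∨ lam⁻¹ = -1 := by
    obtain ⟨A, hA, φ, hφ⟩ := Frob.exists_frobenius 3 Nat.prime_three
    exact (hmu A hA φ hφ).2
  have hinv : lam⁻¹ = lam := by
    rcases hlam3 with h1 | h1 | h1
    · rw [h1, inv_eq_zero.mp h1]
    · rw [h1, inv_eq_one.mp h1]
    · rw [h1, ← inv_inv lam, h1]
      norm_num
  have hnorm : ‖lam‖ ≤ 1 := by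
    rw [hinv] at hlam3
    rcases hlam3 with h1 | h1 | h1 <;> rw [h1] <;> simp
  obtain ⟨lz, hlz⟩ : ∃ lz : ℤ√(-2), κ lz = lam := by
    rw [hinv] at hlam3
    rcases hlam3 with h1 | h1 | h1
    · exact ⟨0, by rw [map_zero, h1]⟩
    · exact ⟨1, by rw [map_one, h1]⟩
    · exact ⟨((-1 : ℤ) : ℤ√(-2)), by rw [map_intCast, h1]; norm_num⟩
  have hL := isArtinL_of_coeff hdet hΨ hst hram hnorm (fun A hA φ hφ => by
    rw [(hmu A hA φ hφ).1, hinv]) g hn.coeff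
  have hprime : ∀ p : ℕ, p.Prime → (p ∣ N ↔ p ∣ N₀) := fun p hp =>
    (hn.prime_iff p hp).trans (hram p hp).symm
  have hnd : ∀ {p : ℕ}, p.Prime → p ≠ 3 → ¬ 3 ∣ p := fun {p} hp hp3 h =>
    hp3 ((Nat.prime_dvd_prime_iff_eq Nat.prime_three hp).mp h).symm
  refine ⟨N, hN, g, bz lz b, hn.neb, ?_, fun n => ?_, hL, hn.prime_iff,
    fun T24 T12 T8 T4 => ?_, fun p hp A hA σ hσ => ?_, fun p hp hpN A hA σ hσ => ?_⟩
  · rw [bz_of_not_dvd lz b (by norm_num), hst.eig.1]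
  · rw [hn.coeff, ← newA_eq_bz, hlz]
  · have h1 := New.conductor T24 T12 T8 T4 hρ hs hdet hΨ hst hn
    rw [pow_two, pow_two, pow_two]
    exact h1
  · by_cases hp3 : p = 3
    · subst hp3
      have h3N : 3 ∣ N := hn.three
      have h4 : bz lz b 3 = lz := by
        rw [bz, Nat.prime_three.factorization_self, pow_one, pow_one, Nat.div_self three_pos,
          hst.eig.1, mul_one]
      rw [(hmu A hA σ hσ).1, hinv, h4, hlz, if_pos h3N]
      simp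
    · rw [bz_of_not_dvd lz b (hnd hp hp3)]
      refine Polynomial.funext fun x => ?_
      rw [← local_factor hdet hΨ hst hram κ hp hp3 hA hσ x]
      simp only [Polynomial.eval_add, Polynomial.eval_sub, Polynomial.eval_one,
        Polynomial.eval_mul, Polynomial.eval_C, Polynomial.eval_X, Polynomial.eval_pow]
      simp only [hprime p hp]
  · have hp3 : p ≠ 3 := fun h => hpN (h ▸ hn.three)
    rw [bz_of_not_dvd lz b (hnd hp hp3)]
    exact hst.trace p hp (fun h => hpN ((hprime p hp).mpr h)) A hA σ hσ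

section Curve

variable {W : WeierstrassCurve ℤ} (hΔ : W.Δ ≠ 0)

/-- **The octahedral newform of weight one of an elliptic curve.** `W / ℚ` with surjective mod `3`
representation, `Ψ` a section of `GL₂(ℤ[√-2]) → GL₂(𝔽₃)`, `κ` an embedding of `ℤ[√-2]`. -/
theorem exists_weightOne_curve (hsurj : Function.Surjective (rep3 hΔ))
    (hΨ : ∀ g, Matrix.GeneralLinearGroup.map FLT.ExplicitLift.red (Ψ g) = g)
    (κ : ℤ√(-2) →+* ℂ) :
    ∃ (N : ℕ) (_ : NeZero N) (g : CuspForm (Gamma1 N) 1) (b : ℕ → ℤ√(-2)),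
      Z3.HasNeb N g ∧ b 1 = 1 ∧ (∀ n, qCoeff ⇑g n = κ (b n)) ∧
      IsArtinL (rep3 hΔ) Ψ κ (ModularForm.L one_pos g) ∧
      (∀ p : ℕ, p.Prime → (p ∣ N ↔ ¬ UnrAt (rep3 hΔ) p)) ∧
      (∀ ℓ : ℕ, ℓ.Prime → ℓ ∣ N → ℓ = 3 ∨ ¬ W.IsGoodPrimeFor ℓ) ∧
      ∀ ℓ : ℕ, ℓ.Prime → W.IsGoodPrimeFor ℓ → ℓ ≠ 3 →
        FLT.ExplicitLift.red (b ℓ) = ((W.apOfModel ℓ : ℤ) : ZMod 3) := by
  have : Fact (Nat.Prime 3) := ⟨Nat.prime_three⟩
  obtain ⟨N, hN, g, b, h1, h2, h3, h4, h5, -, -, h8⟩ :=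
    exists_newform_local (continuous_repP 3 hΔ) hsurj (det_rep3 hΔ) hΨ κ
  have hgood : ∀ ℓ : ℕ, ℓ.Prime → W.IsGoodPrimeFor ℓ → ℓ ≠ 3 → ¬ ℓ ∣ N := by
    intro ℓ hℓ hg hℓ3 hdvd
    exact (h5 ℓ hℓ).mp hdvd fun A hA σ hσ => repP_inertia hΔ hℓ hg hℓ3 hA hσ
  refine ⟨N, hN, g, b, h1, h2, h3, h4, h5, fun ℓ hℓ hdvd => ?_, fun ℓ hℓ hg hℓ3 => ?_⟩
  · by_contra hcon
    push Not at hcon
    exact hgood ℓ hℓ hcon.2 hcon.1 hdvd
  · obtain ⟨A, hA, σ, hσ⟩ := Frob.exists_frobenius ℓ hℓ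
    rw [h8 ℓ hℓ (hgood ℓ hℓ hg hℓ3) A hA σ hσ, red_trace hΨ]
    exact trace_repP_frobenius hΔ hℓ hg hℓ3 hA hσ

/-- **The octahedral newform of a semistable elliptic curve** with irreducible `W[3]` — the first
step of Wiles' proof, with the complete `L`-function. -/
theorem exists_weightOne_semistable (hW : W.IsSemistableModel) (h3 : W.ModRepIsIrreducible 3)
    (hΨ : ∀ g, Matrix.GeneralLinearGroup.map FLT.ExplicitLift.red (Ψ g) = g)
    (κ : ℤ√(-2) →+* ℂ) :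
    ∃ (N : ℕ) (_ : NeZero N) (g : CuspForm (Gamma1 N) 1) (b : ℕ → ℤ√(-2)),
      Z3.HasNeb N g ∧ b 1 = 1 ∧ (∀ n, qCoeff ⇑g n = κ (b n)) ∧
      IsArtinL (rep3 hΔ) Ψ κ (ModularForm.L one_pos g) ∧
      (∀ p : ℕ, p.Prime → (p ∣ N ↔ ¬ UnrAt (rep3 hΔ) p)) ∧
      (∀ ℓ : ℕ, ℓ.Prime → ℓ ∣ N → ℓ = 3 ∨ ¬ W.IsGoodPrimeFor ℓ) ∧
      ∀ ℓ : ℕ, ℓ.Prime → W.IsGoodPrimeFor ℓ → ℓ ≠ 3 →
        FLT.ExplicitLift.red (b ℓ) = ((W.apOfModel ℓ : ℤ) : ZMod 3) :=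
  exists_weightOne_curve hΔ (Semi.rep3_surjective hΔ hW h3) hΨ κ

/-- **Artin's conjecture and the zeros for the octahedral representations of the elliptic
curves** with surjective mod `3` representation: `L` is entire, has the Euler product over all
primes, no zero for `re s ≥ 1`, exactly the trivial zeros `0, -1, -2, …` (all simple) for
`re s ≤ 0`, and infinitely many zeros with `0 < re s < 1`. -/
theorem artin_curve (hsurj : Function.Surjective (rep3 hΔ))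
    (hΨ : ∀ g, Matrix.GeneralLinearGroup.map FLT.ExplicitLift.red (Ψ g) = g)
    (κ : ℤ√(-2) →+* ℂ) :
    ∃ L : ℂ → ℂ, IsArtinL (rep3 hΔ) Ψ κ L ∧ (∀ s : ℂ, 1 ≤ s.re → L s ≠ 0) ∧
      (∀ s : ℂ, s.re ≤ 0 → (L s = 0 ↔ ∃ n : ℕ, s = -n)) ∧
      (∀ n : ℕ, analyticOrderAt L (-(n : ℂ)) = 1) ∧
      {s : ℂ | 0 < s.re ∧ s.re < 1 ∧ L s = 0}.Infinite := by
  have : Fact (Nat.Prime 3) := ⟨Nat.prime_three⟩
  obtain ⟨L, hL⟩ := exists_isArtinL (continuous_repP 3 hΔ) hsurj (det_rep3 hΔ) hΨ κ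
  exact ⟨L, hL, fun s hs => artin_ne_zero (continuous_repP 3 hΔ) hsurj (det_rep3 hΔ) hΨ hL hs,
    fun s hs => artin_trivial_zeros (continuous_repP 3 hΔ) hsurj (det_rep3 hΔ) hΨ hL (Or.inl hs),
    fun n => artin_order_trivial (continuous_repP 3 hΔ) hsurj (det_rep3 hΔ) hΨ hL n,
    artin_infinite_zeros (continuous_repP 3 hΔ) hsurj (det_rep3 hΔ) hΨ hL⟩

end Curve

end Fermat.Agent.Cor.Artin

end
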