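import Fermat.Agent.Corollaries.Artin.Conductor
import Fermat.Agent.Classic.Main
import Fermat.Agent.Classic.Level.Disc.RepInertia

/-!
# The 3-torsion of an elliptic curve over `ℚ` and forms of weight one

For an elliptic curve `E` over `ℚ` (integral model `W`) with surjective representation on `E[3]`,
in particular for a semistable curve with irreducible `E[3]`, the complex lift `r` of `E[3]` has an
entire `L`-function with functional equation, and it is the `L`-function of a form `g` of weight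
one with `a_p(g) ≡ a_p(E)` modulo `1 + √-2`.
-/

set_option autoImplicit false

noncomputable section

open NumberField NumberField.InfinitePlace IsDedekindDomain WeierstrassCurve
open CongruenceSubgroup ModularFormClass EisensteinWeightOne UpperHalfPlane FLT.ExplicitLift
open Fermat.Agent.Classic Fermat.Agent.Classic.Level Fermat.Agent.X1 Fermat.Agent.LT.End
open Fermat.Agent.Frob Fermat.Agent.LT.Tower Fermat.Agent.Classic.Disc
open scoped MatrixGroups ModularForm ComplexConjugate Manifold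

namespace Fermat.Agent.Cor.Artin

local notation "Γℚ" => (AlgebraicClosure ℚ ≃ₐ[ℚ] AlgebraicClosure ℚ)

variable {W : WeierstrassCurve ℤ}

/-- The representation on `E[3]` is unramified at the good primes `p ≠ 3`. -/
theorem unrAt_rep3 (hΔ : W.Δ ≠ 0) {p : ℕ} (hp : p.Prime) (hgood : W.IsGoodPrimeFor p)
    (hp3 : p ≠ 3) : UnrAt (rep3 hΔ) p := fun _ hA _ hσ =>
  haveI : Fact (Nat.Prime 3) := ⟨Nat.prime_three⟩
  repP_inertia (p := 3) hΔ hp hgood hp3 hA hσ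

/-- **The form of weight one of `E[3]`.** -/
theorem exists_form_of_curve (hΔ : W.Δ ≠ 0) (hsurj : Function.Surjective (rep3 hΔ))
    (κ : ℤ√(-2) →+* ℂ) :
    ∃ (N : ℕ) (_ : NeZero N) (g : CuspForm (Gamma1 N) 1),
      Z3.HasNeb N g ∧ qCoeff ⇑g 1 = 1 ∧
      -- the congruence with the curve
      (∀ p : ℕ, p.Prime → ¬ p ∣ N → ∃ β : ℤ√(-2), qCoeff ⇑g p = κ β ∧
        (W.IsGoodPrimeFor p → red β = ((W.apOfModel p : ℤ) : ZMod 3))) ∧
      -- the complete `L`-function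
      IsArtinL (rep3 hΔ) secHom κ (ModularForm.L one_pos g) ∧
      -- the level
      3 ∣ N ∧ (∀ p : ℕ, p.Prime → p ≠ 3 → p ∣ N → ¬ W.IsGoodPrimeFor p) ∧
      (∀ p : ℕ, p.Prime → (p ∣ N ↔ ¬ UnrAt (rep3 hΔ) p)) ∧
      (∀ q : ℕ, q.Prime → 5 ≤ q → q ∣ N → N.factorization q = 2) := by
  have hρ : Continuous (rep3 hΔ) := continuous_repP 3 hΔ
  have hdet : ∀ σ : Γℚ, Matrix.GeneralLinearGroup.det (rep3 hΔ σ) = modThreeCyclotomicChar σ :=
    det_rep3 hΔ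
  obtain ⟨N, hN, g, h1, h2, h3, h4, h5, -, h7, -⟩ :=
    exists_newform_conductor hρ hsurj hdet map_red_secHom κ
  have h3N : 3 ∣ N := (h5 3 Nat.prime_three).mpr (not_unrAt_three hdet)
  refine ⟨N, hN, g, h1, h2, fun p hp hpN => ?_, h4, h3N, fun p hp hp3 hpN hgood => ?_, h5,
    fun q hq hq5 hqN => h7 q hq hq5 ((h5 q hq).mp hqN)⟩
  · obtain ⟨A, hA, σ, hσ⟩ := Frob.exists_frobenius p hp
    refine ⟨(secHom (rep3 hΔ σ)).1.trace, h3 p hp hpN A hA σ hσ, fun hgood => ?_⟩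
    have hp3 : p ≠ 3 := fun h => hpN (h ▸ h3N)
    rw [red_trace map_red_secHom]
    haveI : Fact (Nat.Prime 3) := ⟨Nat.prime_three⟩
    exact trace_repP_frobenius hΔ hp hgood hp3 hA hσ
  · exact ((h5 p hp).mp hpN) (unrAt_rep3 hΔ hp hgood hp3)

/-- **The functional equation for `E[3]`.** -/
theorem curve_functional_equation (hΔ : W.Δ ≠ 0) (hsurj : Function.Surjective (rep3 hΔ))
    (κ : ℤ√(-2) →+* ℂ) :
    ∃ (N : ℕ) (w : ℂ) (L L' Λ Λ' : ℂ → ℂ),
      N ≠ 0 ∧ (∀ p : ℕ, p.Prime → p ≠ 3 → p ∣ N → ¬ W.IsGoodPrimeFor p) ∧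
      IsArtinL (rep3 hΔ) secHom κ L ∧ IsArtinL (rep3 hΔ) secHom ((starRingEnd ℂ).comp κ) L' ∧
      Differentiable ℂ Λ ∧ Differentiable ℂ Λ' ∧
      (∀ s : ℂ, (∀ m : ℕ, s ≠ -m) → Λ s = (N : ℂ) ^ (s / 2) * Complex.Gammaℂ s * L s) ∧
      (∀ s : ℂ, (∀ m : ℕ, s ≠ -m) → Λ' s = (N : ℂ) ^ (s / 2) * Complex.Gammaℂ s * L' s) ∧
      ‖w‖ = 1 ∧ ∀ s : ℂ, Λ (1 - s) = w * Λ' s := by
  obtain ⟨N, w, L, L', Λ, Λ', h1, h2, -, h3, h4, h5, h6, h7, h8, -, h9, h10⟩ :=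
    artin_functional_equation (continuous_repP 3 hΔ) hsurj (det_rep3 hΔ) map_red_secHom κ
  exact ⟨N, w, L, L', Λ, Λ', h1, fun p hp hp3 hpN hgood =>
    ((h2 p hp).mp hpN) (unrAt_rep3 hΔ hp hgood hp3), h3, h4, h5, h6, h7, h8, h9, h10⟩

/-- **The form of weight one of a semistable curve**: the level is `3^a` times the square of a
squarefree number prime to `3`. -/
theorem exists_form_of_semistable (hΔ : W.Δ ≠ 0) (hW : W.IsSemistableModel)
    (hirr : W.ModRepIsIrreducible 3) (κ : ℤ√(-2) →+* ℂ) :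
    ∃ (N : ℕ) (_ : NeZero N) (g : CuspForm (Gamma1 N) 1),
      Z3.HasNeb N g ∧ qCoeff ⇑g 1 = 1 ∧
      (∀ p : ℕ, p.Prime → ¬ p ∣ N → ∃ β : ℤ√(-2), qCoeff ⇑g p = κ β ∧
        (W.IsGoodPrimeFor p → red β = ((W.apOfModel p : ℤ) : ZMod 3))) ∧
      IsArtinL (rep3 hΔ) secHom κ (ModularForm.L one_pos g) ∧
      3 ∣ N ∧ (∀ p : ℕ, p.Prime → (p ∣ N ↔ ¬ UnrAt (rep3 hΔ) p)) ∧
      ∀ q : ℕ, q.Prime → q ≠ 3 → q ∣ N → ¬ W.IsGoodPrimeFor q ∧ N.factorization q = 2 := by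
  have hρ : Continuous (rep3 hΔ) := continuous_repP 3 hΔ
  have hdet : ∀ σ : Γℚ, Matrix.GeneralLinearGroup.det (rep3 hΔ σ) = modThreeCyclotomicChar σ :=
    det_rep3 hΔ
  have hsurj : Function.Surjective (rep3 hΔ) := Semi.rep3_surjective hΔ hW hirr
  obtain ⟨N, hN, g, h1, h2, h3, h4, h5, h6, -, -⟩ :=
    exists_newform_conductor hρ hsurj hdet map_red_secHom κ
  have h3N : 3 ∣ N := (h5 3 Nat.prime_three).mpr (not_unrAt_three hdet)
  refine ⟨N, hN, g, h1, h2, fun p hp hpN => ?_, h4, h3N, h5, fun q hq hq3 hqN =>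
    ⟨fun hgood => ((h5 q hq).mp hqN) (unrAt_rep3 hΔ hq hgood hq3), ?_⟩⟩
  · obtain ⟨A, hA, σ, hσ⟩ := Frob.exists_frobenius p hp
    refine ⟨(secHom (rep3 hΔ σ)).1.trace, h3 p hp hpN A hA σ hσ, fun hgood => ?_⟩
    have hp3 : p ≠ 3 := fun h => hpN (h ▸ h3N)
    rw [red_trace map_red_secHom]
    haveI : Fact (Nat.Prime 3) := ⟨Nat.prime_three⟩
    exact trace_repP_frobenius hΔ hp hgood hp3 hA hσ
  · have ht : TameAt (rep3 hΔ) q := ⟨3, fun h =>
      hq3 ((Nat.prime_dvd_prime_iff_eq hq Nat.prime_three).mp h), fun A hA σ hσ =>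
        rep3_pow_three hΔ hW hq hq3 hA hσ⟩
    obtain ⟨A, hA⟩ := Frob.exists_liesOverPrime q hq
    rw [h6 q hq ht A hA, invI_eq_bot_of_ram hdet map_red_secHom κ hq hq3 ((h5 q hq).mp hqN) hA,
      finrank_bot]

end Fermat.Agent.Cor.Artin

end
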