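import Fermat.Agent.Corollaries.Artin.Unique

/-!
# The coefficients of an elliptic curve which are not divisible by `3`

`W` an elliptic curve over `ℚ` with surjective mod `3` representation, `a_n` its coefficients (any
`a : ℕ → ℤ` with `a_1 = 1`, `a_{mn} = a_m a_n` for coprime `m`, `n`, and `a_ℓ = a_ℓ(W)` for the good
primes `ℓ ≠ 3`):

`#{n ≤ x : 3 ∤ a_n} ~ C x / (log x)^(3/8)`, `C > 0`.
-/

set_option autoImplicit false

noncomputable section

open NumberField NumberField.InfinitePlace IsDedekindDomain WeierstrassCurve Filter Topology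
open CongruenceSubgroup ModularFormClass EisensteinWeightOne UpperHalfPlane
open Fermat.Agent.Classic Fermat.Agent.Classic.Level Fermat.Agent.X1 Fermat.Agent.LT.End
open Fermat.Agent.Frob Fermat.Agent.Classic.Disc
open scoped MatrixGroups ModularForm ComplexConjugate

namespace Fermat.Agent.Cor.Artin

local notation "Γℚ" => (AlgebraicClosure ℚ ≃ₐ[ℚ] AlgebraicClosure ℚ)

local notation "G3" => Matrix.GeneralLinearGroup (Fin 2) (ZMod 3)

variable {ρ : Γℚ →* GL (Fin 2) (ZMod 3)}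

/-- The sum over the primes with `tr ρ(Frob_p) ≠ 0`. -/
theorem hasLog_trace (hρ : Continuous ρ) (hs : Function.Surjective ρ) {N : ℕ} (hN : N ≠ 0)
    {f : ℕ → ℝ} (hf : ∀ p : ℕ, p.Prime → ¬ p ∣ N → ∀ A : ValuationSubring (AlgebraicClosure ℚ),
      A.LiesOverPrime p → ∀ σ : Γℚ, A.IsFrobeniusAt σ p →
        f p = 1 - if (ρ σ).1.trace = 0 then 1 else 0) :
    HasLog f (5 / 8) := by
  obtain ⟨T1⟩ := exists_fixField hρ V4
  obtain ⟨T2⟩ := exists_fixField hρ C4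
  obtain ⟨T3⟩ := exists_fixField hρ CZ
  obtain ⟨D1, hD1, H1⟩ := exists_degOne_eq T1 hs
  obtain ⟨D2, hD2, H2⟩ := exists_degOne_eq T2 hs
  obtain ⟨D3, hD3, H3⟩ := exists_degOne_eq T3 hs
  have hlog := ((HasLog.one.add ((HasLog.degOne T1.F).const_mul (-(1 / 2)))).add
    ((HasLog.degOne T2.F).const_mul (-(1 / 4)))).add ((HasLog.degOne T3.F).const_mul (3 / 8))
  set w : ℕ → ℝ := fun p => f p - (1 + -(1 / 2) * (degOne T1.F p : ℝ) +
    -(1 / 4) * (degOne T2.F p : ℝ) + 3 / 8 * (degOne T3.F p : ℝ)) with hw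
  have hfin : HasLog w 0 := by
    refine HasLog.of_finset (N * D1 * D2 * D3).primeFactors fun p hp hpE => ?_
    have hne : N * D1 * D2 * D3 ≠ 0 :=
      mul_ne_zero (mul_ne_zero (mul_ne_zero hN hD1) hD2) hD3
    have hnd : ¬ p ∣ N * D1 * D2 * D3 := fun h => hpE (Nat.mem_primeFactors.mpr ⟨hp, h, hne⟩)
    have d3 : ¬ p ∣ D3 := fun h => hnd (h.mul_left _)
    have d2 : ¬ p ∣ D2 := fun h => hnd ((h.mul_left _).mul_right _)
    have d1 : ¬ p ∣ D1 := fun h => hnd (((h.mul_left _).mul_right _).mul_right _)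
    have dN : ¬ p ∣ N := fun h => hnd (((h.mul_right _).mul_right _).mul_right _)
    obtain ⟨A, hA, σ, hσ⟩ := Frob.exists_frobenius p hp
    rw [hw]
    dsimp only
    rw [hf p hp dN A hA σ hσ, trace_zero_eq (ρ σ), H1 p hp d1 A hA σ hσ, H2 p hp d2 A hA σ hσ,
      H3 p hp d3 A hA σ hσ]
    ring
  have h := hlog.add hfin
  rw [show (1 : ℝ) + -(1 / 2) * 1 + -(1 / 4) * 1 + 3 / 8 * 1 + 0 = 5 / 8 by norm_num] at h
  refine h.congr fun p _ => ?_
  rw [hw]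
  ring

/-- The density of the primes with `tr ρ(Frob_p) ≠ 0`. -/
theorem density_trace (hρ : Continuous ρ) (hs : Function.Surjective ρ) {N : ℕ} (hN : N ≠ 0)
    (hun : ∀ p : ℕ, p.Prime → ¬ p ∣ N → UnrAt ρ p) {S : Set ℕ}
    (hS : ∀ p : ℕ, p.Prime → ¬ p ∣ N → ∀ A : ValuationSubring (AlgebraicClosure ℚ),
      A.LiesOverPrime p → ∀ σ : Γℚ, A.IsFrobeniusAt σ p → (p ∈ S ↔ (ρ σ).1.trace ≠ 0)) :
    HasNaturalDensity S (5 / 8) := by
  set C : Set G3 := {g : G3 | g.1.trace = 0} with hC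
  have hconj : ∀ g c : G3, c ∈ C → g * c * g⁻¹ ∈ C := by
    intro g c hc
    rw [hC, Set.mem_ofPred_eq] at hc ⊢
    rw [Units.val_mul, Matrix.trace_mul_comm, ← Units.val_mul]
    rwa [show g⁻¹ * (g * c) = c by group]
  have h := chebotarev_nat ρ hs (exists_level ρ hρ) C hconj
  have h48 : ((Nat.card G3 : ℕ) : ℝ) = 48 := by exact_mod_cast card_G3
  have h18 : Nat.card C = 18 := by
    have h1 := card_eq (fun q => q.1 + q.2.2.2 = 0)
    have h2 : (Finset.univ.filter fun q : Q4 => dq q ≠ 0 ∧ q.1 + q.2.2.2 = 0).card = 18 := by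
      decide +kernel
    rw [h2] at h1
    rw [← h1]
    refine Nat.card_congr (Equiv.subtypeEquivRight fun g => ?_)
    rw [hC, Set.mem_ofPred_eq, trace_eq g]
    rfl
  rw [h48, h18] at h
  have h3 := h.compl
  rw [show (1 : ℝ) - ((18 : ℕ) : ℝ) / 48 = 5 / 8 by norm_num] at h3
  refine h3.congr_of_finset N.primeFactors fun p hp hpT => ?_
  have hpN : ¬ p ∣ N := fun hd => hpT (Nat.mem_primeFactors.mpr ⟨hp, hd, hN⟩)
  obtain ⟨A, hA, σ, hσ⟩ := Frob.exists_frobenius p hp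
  rw [Set.mem_compl_iff, LT.Period.mem_FrobIn_iff ρ hconj hp hA
    (fun τ hτ => hun p hp hpN A hA τ hτ) hσ, hS p hp hpN A hA σ hσ]
  rfl

open scoped Classical in
/-- **The coefficients which are not divisible by `3`**, for a surjective `ρ : G_ℚ → GL₂(𝔽₃)`. -/
theorem landau_trace (hρ : Continuous ρ) (hs : Function.Surjective ρ) {N : ℕ} (hN : N ≠ 0)
    (hun : ∀ p : ℕ, p.Prime → ¬ p ∣ N → UnrAt ρ p) {a : ℕ → ℤ} (h1 : a 1 = 1)
    (hmul : ∀ m n : ℕ, m.Coprime n → a (m * n) = a m * a n)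
    (htr : ∀ p : ℕ, p.Prime → ¬ p ∣ N → ∀ A : ValuationSubring (AlgebraicClosure ℚ),
      A.LiesOverPrime p → ∀ σ : Γℚ, A.IsFrobeniusAt σ p →
        ((a p : ℤ) : ZMod 3) = (ρ σ).1.trace) :
    ∃ C : ℝ, 0 < C ∧ Tendsto (fun x : ℝ =>
        (((Finset.Ioc 0 ⌊x⌋₊).filter fun n => ¬ (3 : ℤ) ∣ a n).card : ℝ) *
          Real.log x ^ (3 / 8 : ℝ) / x) atTop (𝓝 C) := by
  set S : Set ℕ := {n | ¬ (3 : ℤ) ∣ a n} with hS
  set f : ℕ → ℝ := fun n => if n ∈ S then 1 else 0 with hf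
  have hmem : ∀ p : ℕ, p.Prime → ¬ p ∣ N → ∀ A : ValuationSubring (AlgebraicClosure ℚ),
      A.LiesOverPrime p → ∀ σ : Γℚ, A.IsFrobeniusAt σ p → (p ∈ S ↔ (ρ σ).1.trace ≠ 0) := by
    intro p hp hpN A hA σ hσ
    rw [← htr p hp hpN A hA σ hσ, Ne, ZMod.intCast_zmod_eq_zero_iff_dvd]
    rfl
  have hlog : HasLog f (5 / 8) := by
    refine hasLog_trace hρ hs hN fun p hp hpN A hA σ hσ => ?_
    have h2 := hmem p hp hpN A hA σ hσ
    rw [hf]
    dsimp only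
    by_cases h3 : (ρ σ).1.trace = 0
    · rw [if_pos h3, if_neg (fun h4 => h2.mp h4 h3), sub_self]
    · rw [if_neg h3, if_pos (h2.mpr h3), sub_zero]
  have hdS := density_trace hρ hs hN hun hmem
  have hp3 : Prime (3 : ℤ) := Int.prime_three
  have D : LR.MulF f (5 / 8) := by
    refine ⟨⟨fun n => ?_, fun n => ?_, ?_⟩, by norm_num, ?_, fun m n hmn => ?_⟩
    · rw [hf]; dsimp only; split_ifs <;> norm_num
    · rw [hf]; dsimp only; split_ifs <;> norm_num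
    · exact tendsto_theta_of_density hdS
    · rw [hf]
      dsimp only
      rw [if_pos]
      rw [hS, Set.mem_ofPred_eq, h1]
      norm_num
    · have h2 : m * n ∈ S ↔ m ∈ S ∧ n ∈ S := by
        rw [hS, Set.mem_ofPred_eq, Set.mem_ofPred_eq, Set.mem_ofPred_eq, hmul m n hmn,
          hp3.dvd_mul]
        tauto
      rw [hf]
      dsimp only
      by_cases hm : m ∈ S
      · by_cases hn : n ∈ S
        · rw [if_pos hm, if_pos hn, if_pos (h2.mpr ⟨hm, hn⟩), mul_one]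
        · rw [if_neg hn, if_neg (fun h => hn (h2.mp h).2), mul_zero]
      · rw [if_neg hm, if_neg (fun h => hm (h2.mp h).1), zero_mul]
  obtain ⟨-, c, hc⟩ := hlog
  obtain ⟨C, hC, hlim⟩ := exists_tendsto_mean D hc
  refine ⟨C, hC, hlim.congr' ?_⟩
  filter_upwards [eventually_gt_atTop 1] with x hx
  have hlx : 0 < Real.log x := Real.log_pos hx
  have e1 : (∑ n ∈ Finset.Ioc 0 ⌊x⌋₊, f n) =
      (((Finset.Ioc 0 ⌊x⌋₊).filter fun n => ¬ (3 : ℤ) ∣ a n).card : ℝ) := by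
    rw [hf, Finset.sum_boole]
    rfl
  rw [e1, show (5 / 8 - 1 : ℝ) = -(3 / 8) by norm_num, Real.rpow_neg hlx.le]
  field_simp

section Curve

variable {W : WeierstrassCurve ℤ} (hΔ : W.Δ ≠ 0)

open scoped Classical in
/-- **The coefficients of an elliptic curve which are not divisible by `3`** (Serre): `W` with
surjective mod `3` representation, `a` multiplicative on coprime integers with `a_1 = 1` and
`a_ℓ = a_ℓ(W)` for the good primes `ℓ ≠ 3`. Then `#{n ≤ x : 3 ∤ a_n} ~ C x / (log x)^(3/8)`. -/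
theorem landau_curve (hsurj : Function.Surjective (rep3 hΔ)) {a : ℕ → ℤ} (h1 : a 1 = 1)
    (hmul : ∀ m n : ℕ, m.Coprime n → a (m * n) = a m * a n)
    (ha : ∀ ℓ : ℕ, ℓ.Prime → W.IsGoodPrimeFor ℓ → ℓ ≠ 3 → a ℓ = W.apOfModel ℓ) :
    ∃ C : ℝ, 0 < C ∧ Tendsto (fun x : ℝ =>
        (((Finset.Ioc 0 ⌊x⌋₊).filter fun n => ¬ (3 : ℤ) ∣ a n).card : ℝ) *
          Real.log x ^ (3 / 8 : ℝ) / x) atTop (𝓝 C) := by
  have : Fact (Nat.Prime 3) := ⟨Nat.prime_three⟩
  have hN : 3 * W.Δ.natAbs ≠ 0 := mul_ne_zero (by norm_num) (Int.natAbs_ne_zero.mpr hΔ)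
  have hgood : ∀ p : ℕ, ¬ p ∣ 3 * W.Δ.natAbs → W.IsGoodPrimeFor p ∧ p ≠ 3 := by
    intro p hp
    refine ⟨fun h => hp (Dvd.dvd.mul_left (Int.natCast_dvd.mp h) 3), ?_⟩
    rintro rfl
    exact hp (dvd_mul_right 3 _)
  refine landau_trace (continuous_repP 3 hΔ) hsurj hN (fun p hp hpN => ?_) h1 hmul
    fun p hp hpN A hA σ hσ => ?_
  · obtain ⟨hg, h3⟩ := hgood p hpN
    exact fun A hA σ hσ => repP_inertia hΔ hp hg h3 hA hσ
  · obtain ⟨hg, h3⟩ := hgood p hpN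
    rw [ha p hp hg h3]
    exact (trace_repP_frobenius hΔ hp hg h3 hA hσ).symm

open scoped Classical in
include hΔ in
/-- The same for semistable curves with irreducible `W[3]`. -/
theorem landau_semistable (hW : W.IsSemistableModel) (h3 : W.ModRepIsIrreducible 3)
    {a : ℕ → ℤ} (h1 : a 1 = 1)
    (hmul : ∀ m n : ℕ, m.Coprime n → a (m * n) = a m * a n)
    (ha : ∀ ℓ : ℕ, ℓ.Prime → W.IsGoodPrimeFor ℓ → ℓ ≠ 3 → a ℓ = W.apOfModel ℓ) :
    ∃ C : ℝ, 0 < C ∧ Tendsto (fun x : ℝ =>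
        (((Finset.Ioc 0 ⌊x⌋₊).filter fun n => ¬ (3 : ℤ) ∣ a n).card : ℝ) *
          Real.log x ^ (3 / 8 : ℝ) / x) atTop (𝓝 C) :=
  landau_curve hΔ (Semi.rep3_surjective hΔ hW h3) h1 hmul ha

end Curve

end Fermat.Agent.Cor.Artin

end
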