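import Fermat.Agent.Classic.Level.Steps
import Fermat.Agent.Classic.Level.Z3.Final

/-!
# Artin's conjecture for the octahedral representations of S47: definitions

* `Rel g p t`: `T_p g = t g` on `q`-coefficients (weight one, nebentypus `χ₋₃`).
* `invI r A`: the vectors of the complex representation `r` of `G_ℚ` fixed by the inertia group
  of `A`; `eulerPoly r A σ`: `det (1 - X r(σ) | V^{I_A})`, the Euler factor of Artin for a Frobenius
  element `σ` at `A`.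
-/

set_option autoImplicit false

noncomputable section

open CongruenceSubgroup UpperHalfPlane EisensteinWeightOne ModularFormClass
open scoped MatrixGroups ModularForm Polynomial

namespace Fermat.Agent.Cor.Artin

local notation "Γℚ" => (AlgebraicClosure ℚ ≃ₐ[ℚ] AlgebraicClosure ℚ)

/-- `T_p g = t g` on coefficients -/
def Rel {M : ℕ} (g : CuspForm (Gamma1 M) 1) (p : ℕ) (t : ℂ) : Prop :=
  ∀ n : ℕ, qCoeff ⇑g (p * n) +
    ((chiNegThree p : ℤ) : ℂ) * (if p ∣ n then qCoeff ⇑g (n / p) else 0) = t * qCoeff ⇑g n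

/-- the vectors fixed by the inertia group of `A` -/
def invI (r : Γℚ →* GL (Fin 2) ℂ) (A : ValuationSubring (AlgebraicClosure ℚ)) :
    Submodule ℂ (Fin 2 → ℂ) where
  carrier := {v | ∀ τ ∈ A.inertiaSubgroupIn ℚ, (r τ : Matrix (Fin 2) (Fin 2) ℂ).mulVec v = v}
  add_mem' := fun ha hb τ hτ => by rw [Matrix.mulVec_add, ha τ hτ, hb τ hτ]
  zero_mem' := fun τ _ => Matrix.mulVec_zero _
  smul_mem' := fun c v hv τ hτ => by rw [Matrix.mulVec_smul, hv τ hτ]

theorem mem_invI {r : Γℚ →* GL (Fin 2) ℂ} {A : ValuationSubring (AlgebraicClosure ℚ)}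
    {v : Fin 2 → ℂ} : v ∈ invI r A ↔
      ∀ τ ∈ A.inertiaSubgroupIn ℚ, (r τ : Matrix (Fin 2) (Fin 2) ℂ).mulVec v = v := Iff.rfl

/-- The decomposition group preserves the vectors fixed by inertia. -/
theorem mulVec_mem_invI (r : Γℚ →* GL (Fin 2) ℂ) {A : ValuationSubring (AlgebraicClosure ℚ)}
    {σ : Γℚ} (hσ : σ ∈ A.decompositionSubgroup ℚ) {v : Fin 2 → ℂ} (hv : v ∈ invI r A) :
    (r σ : Matrix (Fin 2) (Fin 2) ℂ).mulVec v ∈ invI r A := by
  intro τ hτ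
  have h1 : σ⁻¹ * τ * σ ∈ A.inertiaSubgroupIn ℚ := by
    obtain ⟨τ', hτ', rfl⟩ := hτ
    refine ⟨(⟨σ, hσ⟩ : A.decompositionSubgroup ℚ)⁻¹ * τ' * ⟨σ, hσ⟩, ?_, rfl⟩
    have hn : (A.inertiaSubgroup ℚ).Normal := MonoidHom.normal_ker _
    exact hn.conj_mem' τ' hτ' ⟨σ, hσ⟩
  have h2 := hv _ h1
  have h3 : (r τ : Matrix (Fin 2) (Fin 2) ℂ) * (r σ : Matrix (Fin 2) (Fin 2) ℂ) =
      (r σ : Matrix (Fin 2) (Fin 2) ℂ) * (r (σ⁻¹ * τ * σ) : Matrix (Fin 2) (Fin 2) ℂ) := by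
    rw [← Units.val_mul, ← Units.val_mul, ← map_mul, ← map_mul]
    congr 2
    group
  rw [Matrix.mulVec_mulVec, h3, ← Matrix.mulVec_mulVec, h2]

open Classical in
/-- **The Euler factor of Artin**: `det (1 - X r(σ) | V^{I_A})`. -/
def eulerPoly (r : Γℚ →* GL (Fin 2) ℂ) (A : ValuationSubring (AlgebraicClosure ℚ)) (σ : Γℚ) :
    ℂ[X] :=
  if h : ∀ v ∈ invI r A, Matrix.toLin' (r σ : Matrix (Fin 2) (Fin 2) ℂ) v ∈ invI r A then
    ((Matrix.toLin' (r σ : Matrix (Fin 2) (Fin 2) ℂ)).restrict h).charpoly.reverse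
  else 0

theorem eulerPoly_eq (r : Γℚ →* GL (Fin 2) ℂ) {A : ValuationSubring (AlgebraicClosure ℚ)}
    {σ : Γℚ} (hσ : σ ∈ A.decompositionSubgroup ℚ) :
    eulerPoly r A σ = ((Matrix.toLin' (r σ : Matrix (Fin 2) (Fin 2) ℂ)).restrict
      (fun _ hv => mulVec_mem_invI r hσ hv)).charpoly.reverse :=
  dif_pos _

end Fermat.Agent.Cor.Artin

end
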