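import Fermat.Agent.Corollaries.Artin.Curve
import Fermat.Agent.Corollaries.Surj.NatDens

/-!
# The distribution of the coefficients of an octahedral newform

`g` the newform of weight one of `r = κ ∘ Ψ ∘ ρ`. For `p ∤ N` the coefficient `a_p(g)` is one of
`0, ±1, ±2, ±√-2`, and the natural densities of the primes are

| `a_p`     | `0`   | `1`   | `-1`  | `2`    | `-2`   | `√-2` | `-√-2` |
|-----------|-------|-------|-------|--------|--------|-------|--------|
| density   | `3/8` | `1/6` | `1/6` | `1/48` | `1/48` | `1/8` | `1/8`  |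
-/

set_option autoImplicit false

noncomputable section

open NumberField NumberField.InfinitePlace IsDedekindDomain WeierstrassCurve
open CongruenceSubgroup ModularFormClass EisensteinWeightOne UpperHalfPlane
open Fermat.Agent.Classic Fermat.Agent.Classic.Level Fermat.Agent.X1 Fermat.Agent.LT.End
open Fermat.Agent.Frob Fermat.Agent.Classic.Disc
open scoped MatrixGroups ModularForm ComplexConjugate

namespace Fermat.Agent.Cor.Artin

local notation "Γℚ" => (AlgebraicClosure ℚ ≃ₐ[ℚ] AlgebraicClosure ℚ)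

local notation "G3" => Matrix.GeneralLinearGroup (Fin 2) (ZMod 3)

/-- the trace of the section, as a function of the entries: `x + y √-2` -/
def tz (q : Q4) : ℤ × ℤ :=
  if q.1 + q.2.2.2 = 0 then (0, 0)
  else if dq q = 1 then
    if q.2.1 = 0 ∧ q.2.2.1 = 0 then (if q.1 + q.2.2.2 = 1 then (-2, 0) else (2, 0))
    else (if q.1 + q.2.2.2 = 1 then (1, 0) else (-1, 0))
  else (if q.1 + q.2.2.2 = 1 then (0, -1) else (0, 1))

variable {ρ : Γℚ →* GL (Fin 2) (ZMod 3)} {Ψ : GL (Fin 2) (ZMod 3) →* GL (Fin 2) (ℤ√(-2))}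

theorem eq_of_sq_eq {t : ℤ√(-2)} (h : t * t = ((-2 : ℤ) : ℤ√(-2))) :
    t.re = 0 ∧ (t.im = 1 ∨ t.im = -1) := by
  have h1 := congrArg Zsqrtd.re h
  have h2 := congrArg Zsqrtd.im h
  rw [Zsqrtd.re_mul, Zsqrtd.re_intCast] at h1
  rw [Zsqrtd.im_mul, Zsqrtd.im_intCast] at h2
  have h3 : t.re * t.im = 0 := by linarith
  have h4 : t.re = 0 := by
    rcases mul_eq_zero.mp h3 with h | h
    · exact h
    · rw [h] at h1
      nlinarith [mul_self_nonneg t.re]
  refine ⟨h4, ?_⟩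
  rw [h4] at h1
  have h5 : t.im * t.im = 1 := by linarith
  exact mul_self_eq_one_iff.mp h5

/-- **The trace table of the section.** -/
theorem trace_section (hΨ : ∀ g, Matrix.GeneralLinearGroup.map FLT.ExplicitLift.red (Ψ g) = g)
    (κ : ℤ√(-2) →+* ℂ) (g : G3) :
    ((Ψ g : GL (Fin 2) (ℤ√(-2))) : Matrix (Fin 2) (Fin 2) (ℤ√(-2))).trace =
      ⟨(tz (ent g)).1, (tz (ent g)).2⟩ := by
  have hinj := embedding_injective κ
  have hS := rep_neg_one Ψ hΨ κ
  have htr := tr_rep Ψ κ g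
  have hint : ∀ n : ℤ, tr (rep Ψ κ) g = n →
      ((Ψ g : GL (Fin 2) (ℤ√(-2))) : Matrix (Fin 2) (Fin 2) (ℤ√(-2))).trace = ⟨n, 0⟩ := by
    intro n hn
    apply hinj
    rw [← htr, hn, ← map_intCast κ]
    congr 1
  have ht0 : (ent g).1 + (ent g).2.2.2 = g.1.trace := (trace_eq g).symm
  have hd0 : dq (ent g) = g.1.det := dq_ent g
  have h01 : ((ent g).2.1 = 0 ∧ (ent g).2.2.1 = 0) ↔ (g.1 0 1 = 0 ∧ g.1 1 0 = 0) := Iff.rfl
  have hone : ∀ {h : G3}, h.1.trace = -1 → h.1.det = 1 → (h.1 0 1 = 0 ∧ h.1 1 0 = 0 ↔ h = 1) := by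
    intro h ht hd
    rw [eq_one_iff]
    rw [trace_eq] at ht
    rw [Fermat.Agent.LT.End.det_eq] at hd
    have key : ∀ a d : ZMod 3, a + d = -1 → a * d = 1 → a = 1 ∧ d = 1 := by decide
    constructor
    · rintro ⟨hb, hc⟩
      rw [hb, zero_mul, sub_zero] at hd
      obtain ⟨h1, h2⟩ := key _ _ ht hd
      exact ⟨h1, hb, hc, h2⟩
    · rintro ⟨-, hb, hc, -⟩
      exact ⟨hb, hc⟩
  rw [tz]
  simp only [ht0, hd0, h01]
  rcases fin5 g.1.trace with ht | ht | ht
  · rw [if_pos ht]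
    exact hint 0 (by rw [tr_of_trace_zero hS g ht, Int.cast_zero])
  · have ht0' : g.1.trace ≠ 0 := by rw [ht]; decide
    rw [if_neg ht0', if_pos ht, if_pos ht, if_pos ht]
    have hn1 : (-g : G3).1.trace = -1 := by rw [val_neg, Matrix.trace_neg, ht]
    rcases fin6 _ (Fermat.Agent.LT.End.det_ne_zero g) with hd | hd
    · rw [if_pos hd]
      have hn2 : (-g : G3).1.det = 1 := by
        rw [val_neg, Matrix.det_neg, Fintype.card_fin, hd]; norm_num
      have hn3 := hone hn1 hn2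
      have hn4 : ((-g : G3).1 0 1 = 0 ∧ (-g : G3).1 1 0 = 0) ↔ (g.1 0 1 = 0 ∧ g.1 1 0 = 0) := by
        rw [val_neg, Matrix.neg_apply, Matrix.neg_apply, neg_eq_zero, neg_eq_zero]
      by_cases hc : g.1 0 1 = 0 ∧ g.1 1 0 = 0
      · rw [if_pos hc]
        have h2 : g = -1 := by rw [← hn3.mp (hn4.mpr hc), neg_neg]
        exact hint (-2) (by rw [h2, tr_neg hS, tr_one]; norm_num)
      · rw [if_neg hc]
        have h1 : (-g : G3) ≠ 1 := fun h => hc (hn4.mp (hn3.mpr h))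
        have h4 := (tr_dt_of_order_three hS (-g) hn1 hn2 h1).1
        rw [tr_neg hS, neg_inj] at h4
        exact hint 1 (by rw [h4, Int.cast_one])
    · have hd1 : g.1.det ≠ 1 := by rw [hd]; decide
      rw [if_neg hd1]
      have h5 := tr_sq hS g ht0' hd
      obtain ⟨h6, h7⟩ := eq_of_sq_eq (t := (Ψ g).1.trace) (hinj (by
        rw [map_mul, map_intCast, ← htr, ← pow_two, h5]; norm_num))
      have h8 := red_trace hΨ g
      rw [red_eq, ht, h6] at h8
      rcases h7 with h7 | h7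
      · rw [h7] at h8
        exact absurd h8 (by decide)
      · exact Zsqrtd.ext h6 h7
  · have ht0' : g.1.trace ≠ 0 := by rw [ht]; decide
    have ht1' : g.1.trace ≠ 1 := by rw [ht]; decide
    rw [if_neg ht0', if_neg ht1', if_neg ht1', if_neg ht1']
    rcases fin6 _ (Fermat.Agent.LT.End.det_ne_zero g) with hd | hd
    · rw [if_pos hd]
      by_cases hc : g.1 0 1 = 0 ∧ g.1 1 0 = 0
      · rw [if_pos hc]
        have h2 : g = 1 := (hone ht hd).mp hc
        exact hint 2 (by rw [h2, tr_one]; norm_num)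
      · rw [if_neg hc]
        have h1 : g ≠ 1 := fun h => hc ((hone ht hd).mpr h)
        exact hint (-1) (by rw [(tr_dt_of_order_three hS g ht hd h1).1]; norm_num)
    · have hd1 : g.1.det ≠ 1 := by rw [hd]; decide
      rw [if_neg hd1]
      have h5 := tr_sq hS g ht0' hd
      obtain ⟨h6, h7⟩ := eq_of_sq_eq (t := (Ψ g).1.trace) (hinj (by
        rw [map_mul, map_intCast, ← htr, ← pow_two, h5]; norm_num))
      have h8 := red_trace hΨ g
      rw [red_eq, ht, h6] at h8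
      rcases h7 with h7 | h7
      · exact Zsqrtd.ext h6 h7
      · rw [h7] at h8
        exact absurd h8 (by decide)

theorem card_trace (hΨ : ∀ g, Matrix.GeneralLinearGroup.map FLT.ExplicitLift.red (Ψ g) = g)
    (κ : ℤ√(-2) →+* ℂ) (x y : ℤ) :
    Nat.card {g : G3 | ((Ψ g : GL (Fin 2) (ℤ√(-2))) :
      Matrix (Fin 2) (Fin 2) (ℤ√(-2))).trace = ⟨x, y⟩} =
      (Finset.univ.filter fun q : Q4 => dq q ≠ 0 ∧ tz q = (x, y)).card := by
  rw [← card_eq (fun q => tz q = (x, y))]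
  refine Nat.card_congr (Equiv.subtypeEquivRight fun g => ?_)
  rw [Set.mem_ofPred_eq, trace_section hΨ κ, Zsqrtd.ext_iff, Prod.ext_iff]

/-- The density of the primes with a given coefficient. -/
theorem dens_trace_eq (hρ : Continuous ρ) (hs : Function.Surjective ρ)
    (hΨ : ∀ g, Matrix.GeneralLinearGroup.map FLT.ExplicitLift.red (Ψ g) = g)
    (κ : ℤ√(-2) →+* ℂ) {N : ℕ} (hN : N ≠ 0) {b : ℕ → ℤ√(-2)}
    (hram : ∀ p : ℕ, p.Prime → ¬ p ∣ N → UnrAt ρ p)
    (htr : ∀ p : ℕ, p.Prime → ¬ p ∣ N → ∀ A : ValuationSubring (AlgebraicClosure ℚ),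
        A.LiesOverPrime p → ∀ σ : Γℚ, A.IsFrobeniusAt σ p →
          b p = ((Ψ (ρ σ) : GL (Fin 2) (ℤ√(-2))) : Matrix (Fin 2) (Fin 2) (ℤ√(-2))).trace)
    (x y : ℤ) : HasNaturalDensity {p | b p = ⟨x, y⟩}
      (((Finset.univ.filter fun q : Q4 => dq q ≠ 0 ∧ tz q = (x, y)).card : ℝ) / 48) := by
  set C : Set G3 := {g : G3 | ((Ψ g : GL (Fin 2) (ℤ√(-2))) :
      Matrix (Fin 2) (Fin 2) (ℤ√(-2))).trace = ⟨x, y⟩} with hC
  have hconj : ∀ g c : G3, c ∈ C → g * c * g⁻¹ ∈ C := by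
    intro g c hc
    rw [hC, Set.mem_ofPred_eq] at hc ⊢
    rw [← hc, map_mul, map_mul, map_inv]
    apply embedding_injective κ
    have h1 := tr_conj (S := rep Ψ κ) c g
    rw [tr_rep, tr_rep, map_mul, map_mul, map_inv] at h1
    exact h1
  have h := chebotarev_nat ρ hs (exists_level ρ hρ) C hconj
  have h48 : ((Nat.card G3 : ℕ) : ℝ) = 48 := by exact_mod_cast card_G3
  rw [h48, hC, card_trace hΨ κ] at h
  refine h.congr_of_finset N.primeFactors fun p hp hpT => ?_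
  have hpN : ¬ p ∣ N := fun hd => hpT (Nat.mem_primeFactors.mpr ⟨hp, hd, hN⟩)
  obtain ⟨A, hA, σ, hσ⟩ := Frob.exists_frobenius p hp
  rw [LT.Period.mem_FrobIn_iff ρ hconj hp hA (fun τ hτ => hram p hp hpN A hA τ hτ) hσ]
  rw [hC, Set.mem_ofPred_eq, Set.mem_ofPred_eq, htr p hp hpN A hA σ hσ]

/-- **The distribution of the coefficients of the newform of `r = κ ∘ Ψ ∘ ρ`**: the newform `g`
(level = conductor, `L(s, g) = L(s, r)`), the possible values of `a_p`, and the natural density of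
the primes for each value. -/
theorem exists_newform_density (hρ : Continuous ρ) (hs : Function.Surjective ρ)
    (hdet : ∀ σ : Γℚ, Matrix.GeneralLinearGroup.det (ρ σ) = modThreeCyclotomicChar σ)
    (hΨ : ∀ g, Matrix.GeneralLinearGroup.map FLT.ExplicitLift.red (Ψ g) = g)
    (κ : ℤ√(-2) →+* ℂ) :
    ∃ (N : ℕ) (_ : NeZero N) (g : CuspForm (Gamma1 N) 1) (b : ℕ → ℤ√(-2)),
      Z3.HasNeb N g ∧ b 1 = 1 ∧ (∀ n, qCoeff ⇑g n = κ (b n)) ∧
      IsArtinL ρ Ψ κ (ModularForm.L one_pos g) ∧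
      (∀ p : ℕ, p.Prime → (p ∣ N ↔ ¬ UnrAt ρ p)) ∧
      (∀ p : ℕ, p.Prime → ¬ p ∣ N → b p ∈
        ({0, 1, -1, 2, -2, ⟨0, 1⟩, ⟨0, -1⟩} : Set (ℤ√(-2)))) ∧
      HasNaturalDensity {p | b p = 0} (3 / 8) ∧
      HasNaturalDensity {p | b p = 1} (1 / 6) ∧
      HasNaturalDensity {p | b p = -1} (1 / 6) ∧
      HasNaturalDensity {p | b p = 2} (1 / 48) ∧
      HasNaturalDensity {p | b p = -2} (1 / 48) ∧
      HasNaturalDensity {p | b p = ⟨0, 1⟩} (1 / 8) ∧
      HasNaturalDensity {p | b p = ⟨0, -1⟩} (1 / 8) := by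
  obtain ⟨N, hN, g, b, h1, h2, h3, h4, h5, -, -, h8⟩ :=
    exists_newform_local hρ hs hdet hΨ κ
  have hun : ∀ p : ℕ, p.Prime → ¬ p ∣ N → UnrAt ρ p := fun p hp hpN => by
    by_contra hcon
    exact hpN ((h5 p hp).mpr hcon)
  have hd := dens_trace_eq hρ hs hΨ κ (NeZero.ne N) hun h8
  have hc : ∀ (x y : ℤ) (t : ℤ√(-2)) (d : ℝ) (n : ℕ), t = ⟨x, y⟩ →
      (Finset.univ.filter fun q : Q4 => dq q ≠ 0 ∧ tz q = (x, y)).card = n → (n : ℝ) / 48 = d →
      HasNaturalDensity {p | b p = t} d := by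
    intro x y t d n ht hn hnd
    have h := hd x y
    rw [hn, hnd, ← ht] at h
    exact h
  have hvals : ∀ q : Q4, tz q = (0, 0) ∨ tz q = (1, 0) ∨ tz q = (-1, 0) ∨ tz q = (2, 0) ∨
      tz q = (-2, 0) ∨ tz q = (0, 1) ∨ tz q = (0, -1) := by
    intro q
    rw [tz]
    split_ifs <;> simp
  refine ⟨N, hN, g, b, h1, h2, h3, h4, h5, fun p hp hpN => ?_, ?_, ?_, ?_, ?_, ?_, ?_, ?_⟩
  · obtain ⟨A, hA, σ, hσ⟩ := Frob.exists_frobenius p hp
    rw [h8 p hp hpN A hA σ hσ, trace_section hΨ κ]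
    rcases hvals (ent (ρ σ)) with h | h | h | h | h | h | h <;> rw [h]
    · left; rfl
    · right; left; rfl
    · right; right; left; rfl
    · right; right; right; left; rfl
    · right; right; right; right; left; rfl
    · right; right; right; right; right; left; rfl
    · right; right; right; right; right; right; rfl
  · exact hc 0 0 0 _ 18 rfl (by decide +kernel) (by norm_num)
  · exact hc 1 0 1 _ 8 rfl (by decide +kernel) (by norm_num)
  · exact hc (-1) 0 (-1) _ 8 rfl (by decide +kernel) (by norm_num)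
  · exact hc 2 0 2 _ 1 rfl (by decide +kernel) (by norm_num)
  · exact hc (-2) 0 (-2) _ 1 rfl (by decide +kernel) (by norm_num)
  · exact hc 0 1 ⟨0, 1⟩ _ 6 rfl (by decide +kernel) (by norm_num)
  · exact hc 0 (-1) ⟨0, -1⟩ _ 6 rfl (by decide +kernel) (by norm_num)

end Fermat.Agent.Cor.Artin

end
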