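import Fermat.Agent.Corollaries.Artin.Away
import Fermat.Agent.Classic.Zeta.Compare
import Fermat.Agent.LT.End.Deplete

/-!
# The Euler factor at `3` from an eigenvector of `U₃`

Piece (B2) of the last part of the corollary K7 (I) (Artin's conjecture, the prime `3`).

A non-zero form `G` of level `K` with `T_p G = conj (ι b_p) G` for all `p ∤ K` and `U₃ G = δ G`,
`δ = ± 1`, gives the entire function `(1 - δ 3^{-s})⁻¹ ∑ ι(b_n) n^{-s}`: apply `U_m`, `m` the least
index of a non-zero coefficient, and remove the Euler factors at the primes `≠ 3` of `K`.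
-/

set_option autoImplicit false

noncomputable section

open CongruenceSubgroup ModularFormClass EisensteinWeightOne UpperHalfPlane WeierstrassCurve
open Fermat.Agent.Classic Fermat.Agent.Classic.Level Fermat.Agent.X1 Fermat.Agent.HeckePar
open Fermat.Agent.LT.End
open scoped MatrixGroups ModularForm ComplexConjugate Topology

namespace Fermat.Agent.Cor.Artin

local notation "Γℚ" => (AlgebraicClosure ℚ ≃ₐ[ℚ] AlgebraicClosure ℚ)

/-- Coefficients at products. -/
theorem coeff_mul_of_rel {K : ℕ} {e c a : ℕ → ℂ} (ha1 : a 1 = 1)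
    (ha : ∀ p : ℕ, p.Prime → ¬ p ∣ K → ∀ n, a (p * n) + e p * (if p ∣ n then a (n / p) else 0) =
      a p * a n)
    (hc : ∀ p : ℕ, p.Prime → ¬ p ∣ K → ∀ n, c (p * n) + e p * (if p ∣ n then c (n / p) else 0) =
      a p * c n) (m : ℕ) (hmK : ∀ p : ℕ, p.Prime → p ∣ m → p ∣ K) :
    ∀ n : ℕ, n.Coprime K → n ≠ 0 → c (m * n) = c m * a n := by
  intro n
  induction n using Nat.strong_induction_on with
  | _ n ih =>
    intro hn hn0
    rcases eq_or_ne n 1 with rfl | hn1
    · rw [mul_one, ha1, mul_one]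
    · obtain ⟨p, hp, n₁, rfl⟩ := Nat.exists_prime_and_dvd hn1
      have hpK : ¬ p ∣ K := (Nat.Prime.coprime_iff_not_dvd hp).mp (Nat.Coprime.coprime_mul_right hn)
      have hn₁ : n₁.Coprime K := Nat.Coprime.coprime_mul_left hn
      have hn₁0 : n₁ ≠ 0 := right_ne_zero_of_mul hn0
      have hlt : n₁ < p * n₁ := by
        have := hp.two_le
        nlinarith [Nat.pos_of_ne_zero hn₁0]
      have hpm : ¬ p ∣ m := fun h => hpK (hmK p hp h)
      have h1 := hc p hp hpK (m * n₁)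
      have h2 := ha p hp hpK n₁
      have e1 : p * (m * n₁) = m * (p * n₁) := by ring
      rw [e1, ih n₁ hlt hn₁ hn₁0] at h1
      by_cases h : p ∣ n₁
      · obtain ⟨n₂, rfl⟩ := h
        have hn₂ : n₂.Coprime K := Nat.Coprime.coprime_mul_left hn₁
        have hn₂0 : n₂ ≠ 0 := right_ne_zero_of_mul hn₁0
        have hlt2 : n₂ < p * (p * n₂) := by
          have := hp.two_le
          have h5 := Nat.pos_of_ne_zero hn₂0
          calc n₂ < p * n₂ := by nlinarith
            _ < p * (p * n₂) := hlt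
        have e2 : m * (p * n₂) / p = m * n₂ := by
          rw [show m * (p * n₂) = p * (m * n₂) by ring, Nat.mul_div_cancel_left _ hp.pos]
        rw [if_pos (Dvd.dvd.mul_left (dvd_mul_right p n₂) m), e2, ih n₂ hlt2 hn₂ hn₂0] at h1
        rw [if_pos (dvd_mul_right p n₂), Nat.mul_div_cancel_left _ hp.pos] at h2
        linear_combination h1 - c m * h2
      · have h3 : ¬ p ∣ m * n₁ := fun h4 => (hp.dvd_mul.mp h4).elim hpm h
        rw [if_neg h3] at h1
        rw [if_neg h] at h2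
        linear_combination h1 - c m * h2

/-- The least index of a non-zero coefficient has only prime factors of the level. -/
theorem exists_first_index {K : ℕ} {e c t : ℕ → ℂ} (hc0 : c 0 = 0) (hne : ∃ n, c n ≠ 0)
    (hc : ∀ p : ℕ, p.Prime → ¬ p ∣ K → ∀ n, c (p * n) + e p * (if p ∣ n then c (n / p) else 0) =
      t p * c n) : ∃ m, m ≠ 0 ∧ c m ≠ 0 ∧ ∀ p : ℕ, p.Prime → p ∣ m → p ∣ K := by
  classical
  have hm := Nat.find_spec hne
  have hmin : ∀ n, n < Nat.find hne → c n = 0 := fun n hn => by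
    by_contra h
    exact Nat.find_min hne hn h
  refine ⟨Nat.find hne, fun h => hm (by rw [h, hc0]), hm, fun p hp hpm => ?_⟩
  by_contra hpK
  obtain ⟨n, hn⟩ := hpm
  have hn0 : n ≠ 0 := by
    rintro rfl
    rw [mul_zero] at hn
    exact hm (by rw [hn, hc0])
  have hlt : n < Nat.find hne := by
    rw [hn]
    have := hp.two_le
    nlinarith [Nat.pos_of_ne_zero hn0]
  have h1 := hc p hp hpK n
  rw [← hn, hmin n hlt, mul_zero] at h1
  have h2 : (if p ∣ n then c (n / p) else 0) = 0 := by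
    split_ifs
    · exact hmin _ (lt_of_le_of_lt (Nat.div_le_self n p) hlt)
    · rfl
  rw [h2, mul_zero, add_zero] at h1
  exact hm h1

/-- `U_m` for an integer `m` with only prime factors of the level. -/
theorem exists_U {K : ℕ} [NeZero K] (G : CuspForm (Gamma1 K) 1) :
    ∀ m : ℕ, m ≠ 0 → (∀ p : ℕ, p.Prime → p ∣ m → p ∣ K) →
      ∃ w : CuspForm (Gamma1 K) 1, ∀ n, qCoeff ⇑w n = qCoeff ⇑G (m * n) := by
  intro m
  induction m using Nat.strong_induction_on with
  | _ m ih =>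
    intro hm0 hm
    rcases eq_or_ne m 1 with rfl | hm1
    · exact ⟨G, fun n => by rw [one_mul]⟩
    · obtain ⟨p, hp, m₁, rfl⟩ := Nat.exists_prime_and_dvd hm1
      have hm₁0 : m₁ ≠ 0 := right_ne_zero_of_mul hm0
      have hlt : m₁ < p * m₁ := by
        have := hp.two_le
        nlinarith [Nat.pos_of_ne_zero hm₁0]
      obtain ⟨w, hw⟩ := ih m₁ hlt hm₁0 fun q hq hqm => hm q hq (hqm.mul_left p)
      have : Fact p.Prime := ⟨hp⟩
      refine ⟨tCusp K (Gamma1 K) 1 p w, fun n => ?_⟩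
      rw [qCoeff_tCusp_of_dvd (Gamma1 K) 1 p (hm p hp (dvd_mul_right p m₁)) w n, hw]
      congr 1
      ring

/-- **The entire function**, on coefficients. -/
theorem exists_entire_of_eig {K : ℕ} [NeZero K] {q : ℕ} (hq : q.Prime) (hqK : q ∣ K)
    {e a : ℕ → ℂ} (ha1 : a 1 = 1)
    (ha : ∀ p : ℕ, p.Prime → ¬ p ∣ K → ∀ n, a (p * n) + e p * (if p ∣ n then a (n / p) else 0) =
      a p * a n) (hsupp : ∀ n, ¬ n.Coprime K → a n = 0)
    (hsum : ∀ s : ℂ, 1 < s.re → LSeriesSummable a s) {δ : ℂ}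
    (G : CuspForm (Gamma1 K) 1) (hG : G ≠ 0)
    (hT : ∀ p : ℕ, p.Prime → ¬ p ∣ K → ∀ n, qCoeff ⇑G (p * n) +
      e p * (if p ∣ n then qCoeff ⇑G (n / p) else 0) = a p * qCoeff ⇑G n)
    (hU : ∀ n, qCoeff ⇑G (q * n) = δ * qCoeff ⇑G n) :
    ∃ L : ℂ → ℂ, Differentiable ℂ L ∧
      ∀ s : ℂ, 1 < s.re → (1 - δ * (q : ℂ) ^ (-s)) * L s = LSeries a s := by
  classical
  have hq0 : (q : ℂ) ≠ 0 := by exact_mod_cast hq.ne_zero
  obtain ⟨n₀, hn₀⟩ := exists_qCoeff_ne_zero hG
  have hG0 : qCoeff ⇑G 0 = 0 := qCoeff_cusp_zero' (M := K) (Γ := Gamma1 K) (k := 1) G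
  obtain ⟨m, hm0, hcm, hmK⟩ := exists_first_index hG0 ⟨n₀, hn₀⟩ hT
  obtain ⟨w', hw'⟩ := exists_U G m hm0 hmK
  obtain ⟨N', hN', -, -, -, g, hg⟩ := exists_deplete (k := 1) (K.primeFactors.erase q)
    (fun r hr => Nat.prime_of_mem_primeFactors (Finset.mem_of_mem_erase hr)) K
    ((qCoeff ⇑G m)⁻¹ • w')
  have hw : ∀ n, qCoeff ⇑((qCoeff ⇑G m)⁻¹ • w') n = (qCoeff ⇑G m)⁻¹ * qCoeff ⇑G (m * n) :=
    fun n => by rw [qCoeff_cusp_smul K (Gamma1 K) 1, hw']
  -- the coefficients of `g`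
  have key : ∀ n, n ≠ 0 → a n = qCoeff ⇑g n - δ * (if q ∣ n then qCoeff ⇑g (n / q) else 0) := by
    intro n hn
    by_cases hqn : q ∣ n
    · obtain ⟨n₁, rfl⟩ := hqn
      rw [if_pos (dvd_mul_right q n₁), Nat.mul_div_cancel_left _ hq.pos, hg, hg]
      have h1 : (∃ r ∈ K.primeFactors.erase q, r ∣ q * n₁) ↔
          ∃ r ∈ K.primeFactors.erase q, r ∣ n₁ := by
        refine exists_congr fun r => and_congr_right fun hr => ?_
        obtain ⟨hrq, hr'⟩ := Finset.mem_erase.mp hr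
        have hrp := Nat.prime_of_mem_primeFactors hr'
        constructor
        · intro h
          exact (hrp.dvd_mul.mp h).resolve_left fun h2 =>
            hrq ((Nat.prime_dvd_prime_iff_eq hrp hq).mp h2)
        · exact fun h => h.mul_left q
      have h2 : a (q * n₁) = 0 := hsupp _ fun hc =>
        (Nat.Prime.coprime_iff_not_dvd hq).mp (Nat.Coprime.coprime_mul_right hc) hqK
      rw [h2]
      by_cases h : ∃ r ∈ K.primeFactors.erase q, r ∣ n₁
      · rw [if_pos h, if_pos (h1.mpr h), mul_zero, sub_zero]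
      · rw [if_neg h, if_neg fun h' => h (h1.mp h'), hw, hw,
          show m * (q * n₁) = q * (m * n₁) by ring, hU]
        ring
    · rw [if_neg hqn, mul_zero, sub_zero, hg]
      by_cases hc : n.Coprime K
      · rw [if_neg, hw, coeff_mul_of_rel ha1 ha hT m hmK n hc hn]
        · field_simp
        · rintro ⟨r, hr, hrn⟩
          have hr' := Finset.mem_of_mem_erase hr
          have hrp := Nat.prime_of_mem_primeFactors hr'
          exact Nat.Prime.not_coprime_iff_dvd.mpr ⟨r, hrp, hrn, Nat.dvd_of_mem_primeFactors hr'⟩ hc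
      · rw [hsupp n hc, if_pos]
        obtain ⟨r, hrp, hrn, hrK⟩ := Nat.Prime.not_coprime_iff_dvd.mp hc
        refine ⟨r, Finset.mem_erase.mpr ⟨?_, Nat.mem_primeFactors.mpr ⟨hrp, hrK, NeZero.ne K⟩⟩, hrn⟩
        rintro rfl
        exact hqn hrn
  refine ⟨ModularForm.L one_pos g, CuspForm.differentiable_L one_pos g, fun s hs => ?_⟩
  refine eq_LSeries_of_two_lt (F := fun s => (1 - δ * (q : ℂ) ^ (-s)) * ModularForm.L one_pos g s)
    ?_ hsum (fun s hs => ?_) hs
  · refine Differentiable.mul ?_ (CuspForm.differentiable_L one_pos g)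
    refine (differentiable_const _).sub ((differentiable_const _).mul ?_)
    exact fun s => (differentiableAt_id.neg).const_cpow (Or.inl hq0)
  · obtain ⟨h1, h2⟩ := Z3.lsum g hs
    have h3 := h1.LSeriesHasSum
    have h4 := Zeta.hasSum_shiftD hq.ne_zero h1
    have h5 : LSeriesHasSum (qCoeff ⇑g - δ • Zeta.shiftD q (qCoeff ⇑g)) s
        (LSeries (qCoeff ⇑g) s - δ * ((q : ℂ) ^ (-s) * LSeries (qCoeff ⇑g) s)) :=
      h3.sub (h4.smul δ)
    have h6 := (LSeriesHasSum_congr (g := a) s _ fun {n} hn => by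
      rw [Pi.sub_apply, Pi.smul_apply, smul_eq_mul, key n hn]
      rfl).mp h5
    rw [h6.LSeries_eq, ← h2]
    ring

variable {ρ : Γℚ →* GL (Fin 2) (ZMod 3)} {Ψ : GL (Fin 2) (ZMod 3) →* GL (Fin 2) (ℤ√(-2))}
  {N : ℕ} {ι : ℤ√(-2) →+* ℂ} {b : ℕ → ℤ√(-2)} {f : CuspForm (Gamma1 N) 1}

/-- **(B2)** -/
theorem exists_entire_three {K : ℕ} [NeZero K]
    (hdet : ∀ σ : Γℚ, Matrix.GeneralLinearGroup.det (ρ σ) = modThreeCyclotomicChar σ)
    (hΨ : ∀ g, Matrix.GeneralLinearGroup.map FLT.ExplicitLift.red (Ψ g) = g)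
    (h3 : 3 ∣ K) (hK : ∀ p : ℕ, p.Prime → (p ∣ K ↔ p ∣ N)) (hst : Start ρ Ψ N ι b f) {δ : ℂ}
    (hδ : δ = 1 ∨ δ = -1) (G : CuspForm (Gamma1 K) 1) (hG : G ≠ 0) (_hneb : Z3.HasNeb K G)
    (hT : ∀ p, p.Prime → ¬ p ∣ K → Rel G p (conj (ι (b p))))
    (hU : ∀ n, qCoeff ⇑G (3 * n) = δ * qCoeff ⇑G n) :
    ∃ L : ℂ → ℂ, Differentiable ℂ L ∧
      ∀ s : ℂ, 1 < s.re → (1 - δ * (3 : ℂ) ^ (-s)) * L s = LSeries (fun n => ι (b n)) s := by
  have hδc : conj δ = δ := by
    rcases hδ with rfl | rfl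
    · simp
    · simp
  have hcop : ∀ n : ℕ, ¬ n.Coprime K → ¬ n.Coprime N := by
    intro n h hc
    obtain ⟨p, hp, hpn, hpK⟩ := Nat.Prime.not_coprime_iff_dvd.mp h
    exact Nat.Prime.not_coprime_iff_dvd.mpr ⟨p, hp, hpn, (hK p hp).mp hpK⟩ hc
  have hrel : ∀ p : ℕ, p.Prime → ¬ p ∣ K → ∀ n, conj (ι (b (p * n))) +
      ((chiNegThree p : ℤ) : ℂ) * (if p ∣ n then conj (ι (b (n / p))) else 0) =
        conj (ι (b p)) * conj (ι (b n)) := by
    intro p hp hpK n
    have hpN : ¬ p ∣ N := fun h => hpK ((hK p hp).mpr h)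
    have h1 := congrArg (fun x => conj (ι x)) (hst.eig.2 p hp n)
    simp only [if_neg hpN, map_add, map_mul, map_intCast] at h1
    rw [← h1]
    congr 2
    split_ifs
    · rfl
    · rw [map_zero, map_zero]
  obtain ⟨L, hL, hLs⟩ := exists_entire_of_eig Nat.prime_three h3
    (e := fun p => ((chiNegThree p : ℤ) : ℂ)) (a := fun n => conj (ι (b n))) (δ := δ)
    (by rw [hst.eig.1, map_one, map_one]) hrel
    (fun n hn => by rw [hst.dep n (hcop n hn), map_zero, map_zero])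
    (fun s hs => (hasProd_start₀ hdet hΨ hst ((starRingEnd ℂ).comp ι) hs).1)
    G hG hT hU
  refine ⟨fun s => conj (L (conj s)), differentiable_conj hL, fun s hs => ?_⟩
  have hs' : 1 < (conj s).re := by rwa [Complex.conj_re]
  have h1 := congrArg conj (hLs (conj s) hs')
  rw [← LSeries_conj', map_mul, map_sub, map_one, map_mul, hδc] at h1
  have h2 : conj (((3 : ℕ) : ℂ) ^ (-(conj s))) = (3 : ℂ) ^ (-s) := by
    have harg : (((3 : ℕ) : ℂ)).arg ≠ Real.pi := by
      rw [Complex.natCast_arg]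
      exact Real.pi_ne_zero.symm
    have h4 := Complex.cpow_conj ((3 : ℕ) : ℂ) (-s) harg
    rw [Complex.conj_natCast, _root_.map_neg] at h4
    rw [h4, Complex.conj_conj]
    norm_num
  rw [h2] at h1
  rw [h1]
  congr 1
  funext n
  exact Complex.conj_conj _

end Fermat.Agent.Cor.Artin

end
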