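import Fermat.Agent.Corollaries.Artin.Defs
import Fermat.Agent.DS.IntGamma

/-!
# Integrality: `U_q² = ±1/q` has no solution in weight one

`S₁(Γ₁(N))` is spanned by forms with integral coefficients, so the coefficients of a form lie in a
finitely generated group, and the eigenvalues of `U_q` are algebraic integers.
-/

set_option autoImplicit false

noncomputable section

open CongruenceSubgroup UpperHalfPlane EisensteinWeightOne ModularFormClass
open scoped MatrixGroups ModularForm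

namespace Fermat.Agent.Cor.Artin

/-- The coefficients of a form of weight one lie in a finitely generated group. -/
theorem exists_fg_coeff {N : ℕ} [NeZero N] (g : CuspForm (Gamma1 N) 1) :
    ∃ A : Submodule ℤ ℂ, A.FG ∧ ∀ n, qCoeff ⇑g n ∈ A := by
  have hg : g ∈ Submodule.span ℂ {f : CuspForm (Gamma1 N) 1 |
      ∀ n, ∃ m : ℤ, ModularFormClass.qCoeff f n = (m : ℂ)} := by
    rw [DS.intSpan N]; exact Submodule.mem_top
  have key : ∀ c : ℂ, ∃ A : Submodule ℤ ℂ, A.FG ∧ ∀ n, c * qCoeff ⇑g n ∈ A := by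
    induction hg using Submodule.span_induction with
    | mem f hf =>
      intro c
      refine ⟨Submodule.span ℤ {c}, Submodule.fg_span_singleton _, fun n => ?_⟩
      obtain ⟨m, hm⟩ := hf n
      rw [hm, mul_comm, ← zsmul_eq_mul]
      exact Submodule.smul_mem _ _ (Submodule.mem_span_singleton_self c)
    | zero =>
      intro c
      refine ⟨⊥, Submodule.fg_bot, fun n => ?_⟩
      rw [DS.qCoeff_zero, mul_zero]
      exact Submodule.zero_mem _
    | add f f' _ _ hf hf' =>
      intro c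
      obtain ⟨A, hA, h⟩ := hf c
      obtain ⟨A', hA', h'⟩ := hf' c
      refine ⟨A ⊔ A', hA.sup hA', fun n => ?_⟩
      rw [DS.qCoeff_add, mul_add]
      exact Submodule.add_mem_sup (h n) (h' n)
    | smul a f _ hf =>
      intro c
      obtain ⟨A, hA, h⟩ := hf (c * a)
      refine ⟨A, hA, fun n => ?_⟩
      rw [DS.qCoeff_smul, ← mul_assoc]
      exact h n
  obtain ⟨A, hA, h⟩ := key 1
  exact ⟨A, hA, fun n => by simpa using h n⟩

/-- **No form with `U_q² g = (ε/q) g`, `ε = ±1`.** -/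
theorem eq_zero_of_rec {N : ℕ} [NeZero N] (g : CuspForm (Gamma1 N) 1) {q : ℕ} (hq : 2 ≤ q) {ε : ℂ}
    (hε : ε ^ 2 = 1) (h : ∀ n, qCoeff ⇑g (q ^ 2 * n) = ε / q * qCoeff ⇑g n) (n : ℕ) :
    qCoeff ⇑g n = 0 := by
  by_contra hn
  obtain ⟨A, hA, hAg⟩ := exists_fg_coeff g
  set x : ℂ := ε / q with hx
  have hpow : ∀ j : ℕ, x ^ j * qCoeff ⇑g n ∈ A := by
    intro j
    have h1 : ∀ j : ℕ, qCoeff ⇑g ((q ^ 2) ^ j * n) = x ^ j * qCoeff ⇑g n := by
      intro j
      induction j with
      | zero => simp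
      | succ j ih => rw [pow_succ', mul_assoc, h, ih, pow_succ', mul_assoc]
    rw [← h1]
    exact hAg _
  let B : Submodule ℤ ℂ := Submodule.span ℤ (Set.range fun j : ℕ => x ^ j * qCoeff ⇑g n)
  have hBA : B ≤ A := Submodule.span_le.mpr (by rintro _ ⟨j, rfl⟩; exact hpow j)
  have hBfg : B.FG := by
    have hN : IsNoetherian ℤ A := isNoetherian_of_fg_of_noetherian A hA
    exact Submodule.FG.of_le hA hBA
  have hB0 : B ≠ ⊥ := by
    intro h0
    have h1 : x ^ 0 * qCoeff ⇑g n ∈ B := Submodule.subset_span ⟨0, rfl⟩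
    rw [h0, Submodule.mem_bot, pow_zero, one_mul] at h1
    exact hn h1
  have hint : IsIntegral ℤ x := by
    refine isIntegral_of_smul_mem_submodule B hB0 hBfg x fun y hy => ?_
    induction hy using Submodule.span_induction with
    | mem y hy =>
      obtain ⟨j, rfl⟩ := hy
      refine Submodule.subset_span ⟨j + 1, ?_⟩
      simp only [smul_eq_mul]
      ring
    | zero => rw [smul_zero]; exact Submodule.zero_mem _
    | add y z _ _ hy hz => rw [smul_add]; exact Submodule.add_mem _ hy hz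
    | smul a y _ hy => rw [smul_comm]; exact Submodule.smul_mem _ _ hy
  have hint2 : IsIntegral ℤ ((algebraMap ℚ ℂ) (1 / (q : ℚ) ^ 2)) := by
    have h1 : (algebraMap ℚ ℂ) (1 / (q : ℚ) ^ 2) = x ^ 2 := by
      rw [hx, div_pow, hε]
      simp
    rw [h1]
    exact hint.pow 2
  have hint3 : IsIntegral ℤ (1 / (q : ℚ) ^ 2) :=
    (isIntegral_algebraMap_iff (algebraMap ℚ ℂ).injective).mp hint2
  obtain ⟨m, hm⟩ := IsIntegrallyClosed.isIntegral_iff.mp hint3
  have hq0 : (q : ℚ) ≠ 0 := by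
    have : q ≠ 0 := by omega
    exact_mod_cast this
  have h2 : (m : ℚ) * (q : ℚ) ^ 2 = 1 := by
    have h3 : (m : ℚ) = 1 / (q : ℚ) ^ 2 := by rw [← hm]; rfl
    rw [h3]
    field_simp
  have h4 : m * (q : ℤ) ^ 2 = 1 := by exact_mod_cast h2
  have h5 : (q : ℤ) ^ 2 ∣ 1 := ⟨m, by rw [mul_comm]; exact h4.symm⟩
  have h6 : (q : ℤ) ^ 2 ≤ 1 := Int.le_of_dvd one_pos h5
  have h7 : (2 : ℤ) ≤ q := by exact_mod_cast hq
  nlinarith

end Fermat.Agent.Cor.Artin

end
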