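import Fermat.Agent.Corollaries.Artin.FourU
import Fermat.Agent.Classic.Level.StepZ

/-!
# Lowering the exponents of the tame primes to two, at every start

`Classic.Level.stepZ` without the auxiliary number `D`.
-/

set_option autoImplicit false

noncomputable section

open CongruenceSubgroup ModularFormClass EisensteinWeightOne UpperHalfPlane WeierstrassCurve
open Fermat.Agent.Classic Fermat.Agent.Classic.Level
open scoped MatrixGroups ModularForm ComplexConjugate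

namespace Fermat.Agent.Cor.Artin

local notation "Γℚ" => (AlgebraicClosure ℚ ≃ₐ[ℚ] AlgebraicClosure ℚ)

variable {ρ : Γℚ →* GL (Fin 2) (ZMod 3)} {Ψ : GL (Fin 2) (ZMod 3) →* GL (Fin 2) (ℤ√(-2))}

/-- The coefficients of the Fricke partner of a start are supported on the multiples of
`q ^ (v_q(N) - 2)` at a tame prime. -/
theorem ord_start (hρ : Continuous ρ) (hs : Function.Surjective ρ)
    (hdet : ∀ σ : Γℚ, Matrix.GeneralLinearGroup.det (ρ σ) = modThreeCyclotomicChar σ)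
    (hΨ : ∀ g, Matrix.GeneralLinearGroup.map FLT.ExplicitLift.red (Ψ g) = g)
    {N : ℕ} [NeZero N] {ι : ℤ√(-2) →+* ℂ} {b : ℕ → ℤ√(-2)} {f : CuspForm (Gamma1 N) 1}
    (hst : Start ρ Ψ N ι b f) (h : CuspForm (Gamma1 N) 1) (hh : ⇑h = ⇑f ∣[(1 : ℤ)] Z3.W N)
    (q : ℕ) (hq : q.Prime) (hqN : q ∣ N) (ht : Disc.TameAt ρ q) (m : ℕ) (hm : m ≠ 0)
    (hc : qCoeff ⇑h m ≠ 0) : q ^ (padicValNat q N - 2) ∣ m := by
  obtain ⟨-, -, -, -, T, -⟩ := exists_fourU hρ hs hdet hΨ hst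
  have hfe : Zeta.FE (fun n => ι (b n)) (qCoeff ⇑h) N 0 1 :=
    (Z3.frickeFE N f h hh).congr (fun n _ => hst.coeff n) (fun _ _ => rfl)
  obtain ⟨v24, v12, v8, v4⟩ := T.tame q hq hqN ht
  rw [← Nat.factorization_def N hq]
  exact Zeta.pow_dvd_of_ne_zero hq (NeZero.ne N) hfe T.fe24 T.fe12 T.fe8 T.fe4 T.z24_one T.z12_one
    T.z8_one T.z4_one T.d24_ne T.d12_ne T.d8_ne T.d4_ne T.two_le24 T.two_le12 T.two_le8 T.two_le4
    T.hid T.hr T.ht v24 v12 v8 v4 hm hc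

/-- **Exponent two at the tame primes of `T`.** -/
theorem stepT (hρ : Continuous ρ) (hs : Function.Surjective ρ)
    (hdet : ∀ σ : Γℚ, Matrix.GeneralLinearGroup.det (ρ σ) = modThreeCyclotomicChar σ)
    (hΨ : ∀ g, Matrix.GeneralLinearGroup.map FLT.ExplicitLift.red (Ψ g) = g)
    {N : ℕ} [hN : NeZero N] {ι : ℤ√(-2) →+* ℂ} {b : ℕ → ℤ√(-2)} {f : CuspForm (Gamma1 N) 1}
    (hst : Start ρ Ψ N ι b f) (T : Finset ℕ)
    (hT : ∀ q ∈ T, q.Prime ∧ q ∣ N ∧ Disc.TameAt ρ q) :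
    ∃ (N₁ : ℕ) (_ : NeZero N₁) (f₁ : CuspForm (Gamma1 N₁) 1), N₁ ∣ N ∧
      (∀ q ∈ T, padicValNat q N₁ = 2) ∧
      (∀ q : ℕ, q.Prime → q ∉ T → padicValNat q N₁ = padicValNat q N) ∧
      ⇑f₁ = ⇑f ∧ Start ρ Ψ N₁ ι b f₁ := by
  obtain ⟨h, hh, hneb, hinv, -⟩ := Fri.fricke N f hst.neb
  have hTp : ∀ q ∈ T, q.Prime := fun q hq => (hT q hq).1
  set e : ℕ → ℕ := fun q => padicValNat q N - 2 with he
  set D : ℕ := ∏ q ∈ T, q ^ e q with hD
  have hD0 : D ≠ 0 := Finset.prod_ne_zero_iff.mpr fun q hq => pow_ne_zero _ (hTp q hq).ne_zero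
  have hN0 : N ≠ 0 := NeZero.ne N
  have h2 : ∀ q : ℕ, q.Prime → q ∣ N → 2 ≤ N.factorization q := fun q hq hqN =>
    (hq.pow_dvd_iff_le_factorization hN0).mp (hst.sq q hq hqN)
  have hDN : D ∣ N := by
    refine prod_pow_dvd hTp e fun q hq => ?_
    rw [(hTp q hq).pow_dvd_iff_le_factorization hN0, he]
    simp only
    rw [← Nat.factorization_def N (hTp q hq)]
    omega
  obtain ⟨N₁, hN₁⟩ := hDN
  have hN₁0 : N₁ ≠ 0 := by
    rintro rfl
    exact hN0 (by rw [hN₁, mul_zero])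
  haveI : NeZero N₁ := ⟨hN₁0⟩
  have hfac : ∀ q : ℕ, q.Prime → N.factorization q = (if q ∈ T then e q else 0) +
      N₁.factorization q := by
    intro q hq
    rw [hN₁, Nat.factorization_mul hD0 hN₁0, Finsupp.add_apply, hD, factorization_prod_pow hTp]
  have hvT : ∀ q ∈ T, N₁.factorization q = 2 := by
    intro q hq
    have h3 := hfac q (hTp q hq)
    rw [if_pos hq, he] at h3
    simp only [← Nat.factorization_def N (hTp q hq)] at h3
    have h4 := h2 q (hTp q hq) (hT q hq).2.1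
    omega
  have hvnT : ∀ q : ℕ, q.Prime → q ∉ T → N₁.factorization q = N.factorization q := by
    intro q hq hqT
    rw [hfac q hq, if_neg hqT, zero_add]
  have hsq : ∀ q : ℕ, q.Prime → q ∣ N → q ^ 2 ∣ N₁ := by
    intro q hq hqN
    rw [hq.pow_dvd_iff_le_factorization hN₁0]
    by_cases hqT : q ∈ T
    · exact (hvT q hqT).ge
    · rw [hvnT q hq hqT]
      exact h2 q hq hqN
  have hdvd : ∀ n, qCoeff ⇑h n ≠ 0 → D ∣ n := by
    intro n hn
    rcases eq_or_ne n 0 with rfl | hn0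
    · exact dvd_zero _
    · exact prod_pow_dvd hTp e fun q hq =>
        ord_start hρ hs hdet hΨ hst h hh q (hTp q hq) (hT q hq).2.1 (hT q hq).2.2 n hn0 hn
  obtain ⟨f₁, -, hf₁, hneb₁, -, -⟩ := Z3.lowerStmt N N₁ D hN₁
    ((dvd_pow_self 3 two_ne_zero).trans (hsq 3 Nat.prime_three hst.three))
    (fun q hq hqD => (dvd_pow_self q two_ne_zero).trans (hsq q hq (hqD.trans ⟨N₁, hN₁⟩)))
    f h hneb hinv hdvd
  refine ⟨N₁, inferInstance, f₁, ⟨D, by rw [hN₁, mul_comm]⟩, ?_, ?_, hf₁, ?_⟩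
  · intro q hq
    rw [← Nat.factorization_def N₁ (hTp q hq)]
    exact hvT q hq
  · intro q hq hqT
    rw [← Nat.factorization_def N₁ hq, ← Nat.factorization_def N hq]
    exact hvnT q hq hqT
  · refine hst.of_dvd ⟨D, by rw [hN₁, mul_comm]⟩ hsq (fun n => ?_) hneb₁
    rw [hf₁]

end Fermat.Agent.Cor.Artin

end
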