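import Fermat.Agent.Corollaries.Artin.StartOf
import Fermat.Agent.Corollaries.Artin.IntRec
import Fermat.Agent.Corollaries.Artin.StepT

/-!
# Unramified primes can be removed from the level

`drop_one`: a start at a level divisible by an unramified prime `q ≠ 3` gives a start whose level
has the same primes except `q`. `exists_start_ram`: a start whose level has exactly the primes at
which `ρ` is ramified.
-/

set_option autoImplicit false

noncomputable section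

open CongruenceSubgroup ModularFormClass EisensteinWeightOne UpperHalfPlane WeierstrassCurve
open Fermat.Agent.Classic Fermat.Agent.Classic.Level Fermat.Agent.X1
open scoped MatrixGroups ModularForm ComplexConjugate

namespace Fermat.Agent.Cor.Artin

local notation "Γℚ" => (AlgebraicClosure ℚ ≃ₐ[ℚ] AlgebraicClosure ℚ)

/-- The involution of Atkin and Lehner at `q` and the trace to level `M` (helper98: `exists_al`). -/
def ALStmt : Prop :=
  ∀ (q M : ℕ), q.Prime → ∀ [NeZero M] [NeZero (q * M)], 3 ∣ M → ¬ q ∣ M →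
    ∀ g : CuspForm (Gamma1 (q * M)) 1, Z3.HasNeb (q * M) g →
    ∃ (g' : CuspForm (Gamma1 (q * M)) 1) (G G' : CuspForm (Gamma1 M) 1),
      Z3.HasNeb (q * M) g' ∧ Z3.HasNeb M G ∧ Z3.HasNeb M G' ∧
      (∀ n, qCoeff ⇑G n = qCoeff ⇑g (q * n) + qCoeff ⇑g' n) ∧
      (∀ n, qCoeff ⇑G' n = qCoeff ⇑g' (q * n) +
        ((chiNegThree q : ℤ) : ℂ) / q * qCoeff ⇑g n) ∧
      ∀ p : ℕ, p.Prime → ¬ p ∣ q * M → ∀ t : ℂ, Rel g p t → Rel g' p t

/-- The relation of `T_p` for a sum `n ↦ x(q n) + y(n)`. -/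
theorem rel_add {x y G : ℕ → ℂ} {q p : ℕ} (hp : p.Prime) (hpq : ¬ p ∣ q) {ε t : ℂ}
    (hx : ∀ n, x (p * n) + ε * (if p ∣ n then x (n / p) else 0) = t * x n)
    (hy : ∀ n, y (p * n) + ε * (if p ∣ n then y (n / p) else 0) = t * y n) (c : ℂ)
    (hG : ∀ n, G n = x (q * n) + c * y n) (n : ℕ) :
    G (p * n) + ε * (if p ∣ n then G (n / p) else 0) = t * G n := by
  have h1 := hx (q * n)
  have h2 := hy n
  have h3 : (p ∣ q * n) ↔ p ∣ n := by
    rw [hp.dvd_mul]
    exact ⟨fun h => h.resolve_left hpq, Or.inr⟩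
  rw [hG, hG]
  rw [show q * (p * n) = p * (q * n) by ring]
  by_cases h : p ∣ n
  · rw [if_pos (h3.mpr h)] at h1
    rw [if_pos h] at h2
    rw [if_pos h, hG]
    rw [Nat.mul_div_assoc q h] at h1
    linear_combination h1 + c * h2
  · rw [if_neg (fun h' => h (h3.mp h'))] at h1
    rw [if_neg h] at h2
    rw [if_neg h, hG n]
    linear_combination h1 + c * h2

variable {ρ : Γℚ →* GL (Fin 2) (ZMod 3)} {Ψ : GL (Fin 2) (ZMod 3) →* GL (Fin 2) (ℤ√(-2))}

theorem chi_sq {q : ℕ} (hq : q.Prime) (h3 : q ≠ 3) : ((chiNegThree q : ℤ) : ℂ) ^ 2 = 1 := by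
  have h : ((q : ZMod 3) = 1) ∨ ((q : ZMod 3) = -1) := by
    have h0 : (q : ZMod 3) ≠ 0 := by
      intro h
      rw [ZMod.natCast_eq_zero_iff] at h
      exact h3 ((Nat.prime_dvd_prime_iff_eq Nat.prime_three hq).mp h).symm
    have key : ∀ x : ZMod 3, x ≠ 0 → x = 1 ∨ x = -1 := by decide
    exact key _ h0
  rcases h with h | h
  · rw [LT.End.chi_eq_one h]; norm_num
  · rw [LT.End.chi_eq_neg_one h]; norm_num

/-- A form of weight one with vanishing coefficients vanishes. -/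
theorem eq_zero_of_qCoeff {N : ℕ} [NeZero N] {g : CuspForm (Gamma1 N) 1}
    (h : ∀ n, qCoeff ⇑g n = 0) : g = 0 := by
  by_contra hg
  obtain ⟨n, hn⟩ := LT.End.exists_qCoeff_ne_zero hg
  exact hn (h n)

/-- `tr Ψ(-1) = -2`. -/
theorem trace_neg_one (hΨ : ∀ g, Matrix.GeneralLinearGroup.map FLT.ExplicitLift.red (Ψ g) = g)
    (ι : ℤ√(-2) →+* ℂ) : ι (Ψ (-1)).1.trace = -2 := by
  have h := LT.End.rep_neg_one Ψ hΨ ι
  have h1 := LT.End.tr_rep Ψ ι (-1)
  rw [LT.End.tr, h] at h1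
  rw [← h1]
  simp

/-- **Removing one unramified prime from the level.** -/
theorem drop_one (hAL : ALStmt) (hρ : Continuous ρ) (hs : Function.Surjective ρ)
    (hdet : ∀ σ : Γℚ, Matrix.GeneralLinearGroup.det (ρ σ) = modThreeCyclotomicChar σ)
    (hΨ : ∀ g, Matrix.GeneralLinearGroup.map FLT.ExplicitLift.red (Ψ g) = g)
    {N : ℕ} [hN : NeZero N] {ι : ℤ√(-2) →+* ℂ} {b : ℕ → ℤ√(-2)} {f : CuspForm (Gamma1 N) 1}
    (hst : Start ρ Ψ N ι b f) {q : ℕ} (hq : q.Prime) (hq3 : q ≠ 3) (hqN : q ∣ N)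
    (hu : UnrAt ρ q) :
    ∃ (N' : ℕ) (_ : NeZero N') (ι' : ℤ√(-2) →+* ℂ) (b' : ℕ → ℤ√(-2)) (f' : CuspForm (Gamma1 N') 1),
      (∀ p : ℕ, p.Prime → (p ∣ N' ↔ p ∣ N ∧ p ≠ q)) ∧ Start ρ Ψ N' ι' b' f' := by
  have hqF : Fact q.Prime := ⟨hq⟩
  have htame : Disc.TameAt ρ q := ⟨1, hq.one_lt.ne' ∘ Nat.dvd_one.mp, fun A hA σ hσ => by
    rw [pow_one]; exact hu A hA σ hσ⟩
  obtain ⟨N₁, hN₁, f₁, hdvd, hv, hv', -, hst₁⟩ := stepT hρ hs hdet hΨ hst {q} (by
    intro q' hq'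
    rw [Finset.mem_singleton] at hq'
    subst hq'
    exact ⟨hq, hqN, htame⟩)
  have hN₁0 : N₁ ≠ 0 := NeZero.ne N₁
  have hN0 : N ≠ 0 := NeZero.ne N
  have hv2 : padicValNat q N₁ = 2 := hv q (Finset.mem_singleton_self q)
  -- the primes of `N₁`
  have hprN : ∀ p : ℕ, p.Prime → (p ∣ N₁ ↔ p ∣ N) := by
    intro p hp
    refine ⟨fun h => h.trans hdvd, fun h => ?_⟩
    by_cases hpq : p = q
    · subst hpq
      have : Fact p.Prime := ⟨hp⟩
      exact (dvd_iff_padicValNat_ne_zero hN₁0).mpr (by rw [hv2]; norm_num)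
    · have : Fact p.Prime := ⟨hp⟩
      rw [dvd_iff_padicValNat_ne_zero hN₁0, hv' p hp (by
        rwa [Finset.mem_singleton]), ← dvd_iff_padicValNat_ne_zero hN0]
      exact h
  have hq2 : q ^ 2 ∣ N₁ := hst₁.sq q hq ((hprN q hq).mpr hqN)
  obtain ⟨M, hM⟩ := hq2
  have hM' : N₁ = q * (q * M) := by rw [hM]; ring
  have hM0 : M ≠ 0 := by
    rintro rfl
    exact hN₁0 (by rw [hM, mul_zero])
  have hqM : ¬ q ∣ M := by
    intro h
    obtain ⟨k, rfl⟩ := h
    have h1 : q ^ 3 ∣ N₁ := ⟨k, by rw [hM]; ring⟩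
    rw [padicValNat_dvd_iff_le hN₁0, hv2] at h1
    omega
  have h3M : 3 ∣ M := by
    have h1 : 3 ∣ q ^ 2 * M := by rw [← hM]; exact hst₁.three
    rcases (Nat.Prime.dvd_mul Nat.prime_three).mp h1 with h2 | h2
    · exact absurd ((Nat.prime_dvd_prime_iff_eq Nat.prime_three hq).mp
        (Nat.prime_three.dvd_of_dvd_pow h2)).symm hq3
    · exact h2
  have hprM : ∀ p : ℕ, p.Prime → (p ∣ M ↔ p ∣ N ∧ p ≠ q) := by
    intro p hp
    rw [← hprN p hp]
    constructor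
    · intro h
      exact ⟨by rw [hM]; exact h.mul_left _, by rintro rfl; exact hqM h⟩
    · rintro ⟨h, hpq⟩
      rw [hM] at h
      rcases hp.dvd_mul.mp h with h1 | h1
      · exact absurd ((Nat.prime_dvd_prime_iff_eq hp hq).mp (hp.dvd_of_dvd_pow h1)) hpq
      · exact h1
  have hNM : NeZero M := ⟨hM0⟩
  have hNqM : NeZero (q * M) := ⟨mul_ne_zero hq.ne_zero hM0⟩
  have hdiv : N₁ / q = q * M := by rw [hM', Nat.mul_div_cancel_left _ hq.pos]
  have hNd : NeZero (N₁ / q) := ⟨by rw [hdiv]; exact NeZero.ne _⟩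
  -- the Fricke partner and `U_q`
  obtain ⟨h, hP⟩ := Z3.pack_of' hρ hdet hΨ hst₁.sq hst₁.eig hst₁.dep hst₁.coeff hst₁.trace
  have hex : ∃ g : CuspForm (Gamma1 (N₁ / q)) 1, Z3.HasNeb (N₁ / q) g ∧
      (∀ n, qCoeff ⇑g n = qCoeff ⇑h (q * n)) ∧
      ∀ p : ℕ, p.Prime → ¬ p ∣ N₁ / q → ∀ n : ℕ,
        qCoeff ⇑g (p * n) + ((chiNegThree p : ℤ) : ℂ) * (if p ∣ n then qCoeff ⇑g (n / p) else 0) =
          conj (ι (b p)) * qCoeff ⇑g n :=
    hP.exists_uq' (q := q) ⟨M, hM⟩ (by rw [hdiv]; exact h3M.mul_left q)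
  rw [hdiv] at hex
  obtain ⟨g, hneb, hgc, hgT⟩ := hex
  -- `U_q h ≠ 0`
  have hg0 : ∃ n, qCoeff ⇑g n ≠ 0 := by
    by_contra hno
    push Not at hno
    obtain ⟨-, -, -, -, T, -, -, hTu⟩ := exists_fourU hρ hs hdet hΨ hst₁
    have hfe : Zeta.FE (fun n => ι (b n)) (qCoeff ⇑h) N₁ 0 1 := by
      have h1 := hP.fe
      have h2 : qCoeff ⇑f₁ = fun n => ι (b n) := funext hst₁.coeff
      rwa [h2] at h1
    have hb : ∀ n, n ≠ 0 → ι (b n) ≠ 0 → n.factorization q = 0 := by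
      intro n _ hn
      refine Nat.factorization_eq_zero_of_not_dvd fun hqn => hn ?_
      rw [hst₁.dep n fun hcop => Nat.not_coprime_of_dvd_of_dvd hq.one_lt hqn
        ((hprN q hq).mpr hqN) hcop, map_zero]
    have hc : ∀ n, n ≠ 0 → qCoeff ⇑h n ≠ 0 → n.factorization q = 0 := by
      intro n _ hn
      refine Nat.factorization_eq_zero_of_not_dvd ?_
      rintro ⟨m, rfl⟩
      exact hn (by rw [← hgc m]; exact hno m)
    have h1 := T.fsum_eq hq hN₁0 hfe hb hc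
    obtain ⟨e1, e2, e3, e4⟩ := hTu q hq ((hprN q hq).mpr hqN) hu
    omega
  -- the eigenspace of level `M` is not zero
  obtain ⟨G, hG0, hGneb, hGrel⟩ : ∃ G : CuspForm (Gamma1 M) 1, G ≠ 0 ∧ Z3.HasNeb M G ∧
      ∀ p : ℕ, p.Prime → ¬ p ∣ q * M → Rel G p (conj (ι (b p))) := by
    by_contra hno
    push Not at hno
    obtain ⟨g', G, G', -, hG, hG', hGc, hGc', hT'⟩ := hAL q M hq h3M hqM g hneb
    have hrel : ∀ p : ℕ, p.Prime → ¬ p ∣ q * M → Rel g p (conj (ι (b p))) :=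
      fun p hp hpM n => hgT p hp hpM n
    have hpq : ∀ p : ℕ, ¬ p ∣ q * M → ¬ p ∣ q := fun p h h' => h (h'.mul_right M)
    have hG0 : G = 0 := by
      by_contra h0
      obtain ⟨p, hp, hpM, hpr⟩ := hno G h0 hG
      refine hpr fun n => ?_
      exact rel_add (x := qCoeff ⇑g) (y := qCoeff ⇑g') hp (hpq p hpM) (hrel p hp hpM)
        (hT' p hp hpM _ (hrel p hp hpM)) 1 (fun m => by rw [hGc, one_mul]) n
    have hG0' : G' = 0 := by
      by_contra h0
      obtain ⟨p, hp, hpM, hpr⟩ := hno G' h0 hG'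
      refine hpr fun n => ?_
      exact rel_add (x := qCoeff ⇑g') (y := qCoeff ⇑g) hp (hpq p hpM)
        (hT' p hp hpM _ (hrel p hp hpM)) (hrel p hp hpM) _ hGc' n
    have z1 : ∀ n, qCoeff ⇑g (q * n) = -qCoeff ⇑g' n := by
      intro n
      have h1 := hGc n
      rw [hG0, DS.qCoeff_zero] at h1
      linear_combination -h1
    have z2 : ∀ n, qCoeff ⇑g' (q * n) = -(((chiNegThree q : ℤ) : ℂ) / q * qCoeff ⇑g n) := by
      intro n
      have h1 := hGc' n
      rw [hG0', DS.qCoeff_zero] at h1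
      linear_combination -h1
    obtain ⟨n, hn⟩ := hg0
    refine hn (eq_zero_of_rec g hq.two_le (chi_sq hq hq3) (fun n => ?_) n)
    rw [pow_two, mul_assoc, z1, z2, neg_neg]
  -- a start of level with the primes of `M`
  obtain ⟨N', hN', ι', b', f', hpr, hst'⟩ := start_of_vector hρ hs hdet hΨ h3M G hG0 hGneb {q}
    (fun p => conj (ι (b p))) (fun p hp hpM hpq => by
      rw [Finset.mem_singleton] at hpq
      refine hGrel p hp fun h => ?_
      rcases hp.dvd_mul.mp h with h1 | h1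
      · exact hpq ((Nat.prime_dvd_prime_iff_eq hp hq).mp h1)
      · exact hpM h1)
    (fun p hp hpM hpq A hA σ hσ => by
      rw [Finset.mem_singleton] at hpq
      have hpN : ¬ p ∣ N := fun h => hpM ((hprM p hp).mpr ⟨h, hpq⟩)
      have htr := hst.trace p hp hpN A hA σ hσ
      constructor
      · intro h1
        show conj (ι (b p)) = 2
        have h2 : (1 : Matrix (Fin 2) (Fin 2) (ℤ√(-2))).trace = ((2 : ℕ) : ℤ√(-2)) := by
          rw [Matrix.trace_one, Fintype.card_fin]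
        rw [htr, h1, map_one, Units.val_one, h2, map_natCast, Complex.conj_natCast]
        norm_num
      · intro h1
        show conj (ι (b p)) = -2
        rw [htr, h1, trace_neg_one hΨ ι, map_neg,
          show (2 : ℂ) = ((2 : ℕ) : ℂ) by norm_num, Complex.conj_natCast])
    (fun p hp hpM => by
      by_cases hpq : p = q
      · subst hpq
        exact hu
      · exact hst.unr p hp fun h => hpM ((hprM p hp).mpr ⟨h, hpq⟩))
  exact ⟨N', hN', ι', b', f', fun p hp => (hpr p hp).trans (hprM p hp), hst'⟩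

/-- `ρ` is ramified at `3`. -/
theorem not_unrAt_three
    (hdet : ∀ σ : Γℚ, Matrix.GeneralLinearGroup.det (ρ σ) = modThreeCyclotomicChar σ) :
    ¬ UnrAt ρ 3 := by
  intro h
  obtain ⟨A, hA⟩ := Frob.exists_liesOverPrime 3 Nat.prime_three
  obtain ⟨σ, hσ, h1⟩ := exists_inertia_det_neg hdet hA
  rw [h A hA σ hσ, map_one] at h1
  exact absurd h1 (by decide)

/-- **A start whose level has exactly the ramified primes of `ρ`.** -/
theorem exists_start_ram (hAL : ALStmt) (hρ : Continuous ρ) (hs : Function.Surjective ρ)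
    (hdet : ∀ σ : Γℚ, Matrix.GeneralLinearGroup.det (ρ σ) = modThreeCyclotomicChar σ)
    (hΨ : ∀ g, Matrix.GeneralLinearGroup.map FLT.ExplicitLift.red (Ψ g) = g)
    {N : ℕ} [hN : NeZero N] {ι : ℤ√(-2) →+* ℂ} {b : ℕ → ℤ√(-2)} {f : CuspForm (Gamma1 N) 1}
    (hst : Start ρ Ψ N ι b f) :
    ∃ (N' : ℕ) (_ : NeZero N') (ι' : ℤ√(-2) →+* ℂ) (b' : ℕ → ℤ√(-2)) (f' : CuspForm (Gamma1 N') 1),
      (∀ p : ℕ, p.Prime → (p ∣ N' ↔ ¬ UnrAt ρ p)) ∧ Start ρ Ψ N' ι' b' f' := by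
  classical
  -- induction on the number of unramified primes of the level
  have key : ∀ k : ℕ, ∀ (N : ℕ) (_ : NeZero N) (ι : ℤ√(-2) →+* ℂ) (b : ℕ → ℤ√(-2))
      (f : CuspForm (Gamma1 N) 1), Start ρ Ψ N ι b f →
      (N.primeFactors.filter fun p => UnrAt ρ p).card = k →
      ∃ (N' : ℕ) (_ : NeZero N') (ι' : ℤ√(-2) →+* ℂ) (b' : ℕ → ℤ√(-2))
        (f' : CuspForm (Gamma1 N') 1),
        (∀ p : ℕ, p.Prime → (p ∣ N' ↔ ¬ UnrAt ρ p)) ∧ Start ρ Ψ N' ι' b' f' := by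
    intro k
    induction k with
    | zero =>
      intro N hN ι b f hst hk
      rw [Finset.card_eq_zero] at hk
      refine ⟨N, hN, ι, b, f, fun p hp => ⟨fun h hu => ?_, fun h => ?_⟩, hst⟩
      · have h1 : p ∈ N.primeFactors.filter fun p => UnrAt ρ p :=
          Finset.mem_filter.mpr ⟨Nat.mem_primeFactors.mpr ⟨hp, h, NeZero.ne N⟩, hu⟩
        rw [hk] at h1
        exact absurd h1 (Finset.notMem_empty p)
      · by_contra h1
        exact h (hst.unr p hp h1)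
    | succ k ih =>
      intro N hN ι b f hst hk
      obtain ⟨q, hq⟩ : (N.primeFactors.filter fun p => UnrAt ρ p).Nonempty := by
        rw [← Finset.card_pos, hk]
        omega
      obtain ⟨hqN, hqu⟩ := Finset.mem_filter.mp hq
      obtain ⟨hqp, hqd, -⟩ := Nat.mem_primeFactors.mp hqN
      have hq3 : q ≠ 3 := by
        rintro rfl
        exact not_unrAt_three hdet hqu
      obtain ⟨N', hN', ι', b', f', hpr, hst'⟩ :=
        drop_one hAL hρ hs hdet hΨ hst hqp hq3 hqd hqu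
      refine ih N' hN' ι' b' f' hst' ?_
      have h2 : (N'.primeFactors.filter fun p => UnrAt ρ p) =
          (N.primeFactors.filter fun p => UnrAt ρ p).erase q := by
        ext p
        simp only [Finset.mem_filter, Finset.mem_erase, Nat.mem_primeFactors]
        constructor
        · rintro ⟨⟨hp, hpN', -⟩, hpu⟩
          have h3 := (hpr p hp).mp hpN'
          exact ⟨h3.2, ⟨hp, h3.1, NeZero.ne N⟩, hpu⟩
        · rintro ⟨hpq, ⟨hp, hpN, -⟩, hpu⟩
          exact ⟨⟨hp, (hpr p hp).mpr ⟨hpN, hpq⟩, NeZero.ne N'⟩, hpu⟩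
      rw [h2, Finset.card_erase_of_mem hq, hk]
      rfl
  exact key _ N hN ι b f hst rfl

end Fermat.Agent.Cor.Artin

end
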