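import Fermat.Agent.Corollaries.Artin.Lead
import Fermat.Agent.Corollaries.Artin.Defs
import Fermat.Agent.LT.End.Eigen
import Fermat.Agent.Classic.Level.P4Int
import Fermat.Agent.Classic.Level.Ord
import Fermat.Agent.Classic.Level.Disc.Norm

/-!
# An eigenvector of `U₃` from the identity in one variable

Piece (B1) of the last part of the corollary K7 (I) (Artin's conjecture, the prime `3`).

If `c` is the sequence of coefficients of the Fricke partner and the Euler factor of the fields of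
degree `24, 4, 4` at `3` has a zero at `δ = ± 1` of higher order than the one of the fields of
degree `12, 8, 8`, then `δ` is an eigenvalue of `U₃` on the space of the forms with the given
`T_p`-eigenvalues: otherwise the leading row `p` of `c` would be a rational function without pole
at `δ` (`exists_eigen_three`).
-/

set_option autoImplicit false

noncomputable section

open CongruenceSubgroup UpperHalfPlane EisensteinWeightOne ModularFormClass Complex
open scoped MatrixGroups ModularForm ComplexConjugate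

namespace Fermat.Agent.Cor.Artin

open Fermat.Agent.X1 Fermat.Agent.HeckePar Fermat.Agent.Classic Fermat.Agent.LT.End

/-! ### Rational rows -/

/-- A power series with finitely many coefficients is a polynomial. -/
theorem exists_poly_of_coeff {f : PowerSeries ℂ} {d : ℕ}
    (h : ∀ n, d < n → PowerSeries.coeff n f = 0) : ∃ P : Polynomial ℂ, f = ↑P := by
  refine ⟨PowerSeries.trunc (d + 1) f, PowerSeries.ext fun n => ?_⟩
  rw [Polynomial.coeff_coe, PowerSeries.coeff_trunc]
  split_ifs with hn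
  · rfl
  · exact h n (by omega)

/-- the reversed polynomial -/
def rev (χ : Polynomial ℂ) : Polynomial ℂ :=
  ∑ i ∈ Finset.range (χ.natDegree + 1),
    Polynomial.C (χ.coeff i) * Polynomial.X ^ (χ.natDegree - i)

theorem eval_rev (χ : Polynomial ℂ) {δ : ℂ} (hδ : δ ^ 2 = 1) :
    (rev χ).eval δ = δ ^ χ.natDegree * χ.eval δ := by
  rw [rev, Polynomial.eval_finsetSum, Polynomial.eval_eq_sum_range, Finset.mul_sum]
  refine Finset.sum_congr rfl fun i hi => ?_
  rw [Finset.mem_range] at hi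
  rw [Polynomial.eval_mul, Polynomial.eval_C, Polynomial.eval_pow, Polynomial.eval_X]
  have h1 : δ ^ χ.natDegree = δ ^ (χ.natDegree - i) * δ ^ i := by
    rw [← pow_add]
    congr 1
    omega
  have h2 : δ ^ i * δ ^ i = 1 := by
    rw [← pow_add, ← two_mul, pow_mul, hδ, one_pow]
  rw [h1]
  linear_combination (-(χ.coeff i) * δ ^ (χ.natDegree - i)) * h2

/-- The row of `c` times the reversed polynomial is a polynomial. -/
theorem exists_poly_of_charpoly {q : ℕ} {c : ℕ → ℂ} {χ : Polynomial ℂ}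
    (h : ∀ n, ∑ i ∈ Finset.range (χ.natDegree + 1), χ.coeff i * c (q ^ (i + 1) * n) = 0) (m : ℕ) :
    ∃ P : Polynomial ℂ, row q c m * (↑(rev χ) : PowerSeries ℂ) = ↑P := by
  refine exists_poly_of_coeff (d := χ.natDegree) fun n hn => ?_
  have e : (↑(rev χ) : PowerSeries ℂ) = ∑ i ∈ Finset.range (χ.natDegree + 1),
      PowerSeries.C (χ.coeff i) * PowerSeries.X ^ (χ.natDegree - i) := by
    rw [rev]
    have := map_sum (Polynomial.coeToPowerSeries.ringHom (R := ℂ))
      (fun i => Polynomial.C (χ.coeff i) * Polynomial.X ^ (χ.natDegree - i))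
      (Finset.range (χ.natDegree + 1))
    simp only [Polynomial.coeToPowerSeries.ringHom_apply, Polynomial.coe_mul, Polynomial.coe_C,
      Polynomial.coe_pow, Polynomial.coe_X] at this
    exact this
  rw [e, Finset.mul_sum, map_sum]
  have h1 := h (q ^ (n - χ.natDegree - 1) * m)
  rw [← h1]
  refine Finset.sum_congr rfl fun i hi => ?_
  rw [Finset.mem_range] at hi
  rw [mul_left_comm, PowerSeries.coeff_C_mul, PowerSeries.coeff_mul_X_pow', if_pos (by omega),
    coeff_row, ← mul_assoc, ← pow_add]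
  congr 3
  congr 1
  omega

/-! ### Multiplicities at a point of the unit circle -/

/-- **Comparison of the multiplicities** at a point `δ` of the unit circle which is not a pole of
`p`, `p'`. -/
theorem rootMultiplicity_le_of_lead {q : ℕ} (hq : q.Prime) {U V : List ℕ} (hU : ∀ ν ∈ U, 2 ≤ ν)
    (hV : ∀ ν ∈ V, 2 ≤ ν) {p p' : PowerSeries ℂ} (hp0 : p ≠ 0) (hp0' : p' ≠ 0)
    {G G' P P' : Polynomial ℂ} (hp : p * (↑G : PowerSeries ℂ) = ↑P)
    (hp' : p' * (↑G' : PowerSeries ℂ) = ↑P') {δ : ℂ} (hδ : ‖δ‖ = 1)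
    (hG : G.eval δ ≠ 0) (hG' : G'.eval δ ≠ 0) {C : ℂ} {k : ℕ} (hC : C ≠ 0)
    (h : p * p' * (↑(eulF q U) : PowerSeries ℂ) * (↑(eulS q V) : PowerSeries ℂ) =
      PowerSeries.C C * PowerSeries.X ^ k * (↑(eulF q V) : PowerSeries ℂ) *
        (↑(eulS q U) : PowerSeries ℂ)) :
    (eulF q U).rootMultiplicity δ ≤ (eulF q V).rootMultiplicity δ := by
  have hq1 : (1 : ℝ) < q := by exact_mod_cast hq.one_lt
  have hqi : (q : ℝ)⁻¹ ≠ 1 := (inv_lt_one_of_one_lt₀ hq1).ne
  have hδ0 : δ ≠ 0 := by
    rintro rfl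
    rw [norm_zero] at hδ
    exact zero_ne_one hδ
  have hG0 : G ≠ 0 := by
    rintro rfl
    exact hG (Polynomial.eval_zero)
  have hG0' : G' ≠ 0 := by
    rintro rfl
    exact hG' (Polynomial.eval_zero)
  have hcoe0 : ∀ {Q : Polynomial ℂ}, Q ≠ 0 → (↑Q : PowerSeries ℂ) ≠ 0 := fun {Q} hQ h0 =>
    hQ (Polynomial.coe_injective ℂ (by rw [h0, Polynomial.coe_zero]))
  have hP0 : P ≠ 0 := by
    rintro rfl
    rw [Polynomial.coe_zero] at hp
    exact mul_ne_zero hp0 (hcoe0 hG0) hp
  have hP0' : P' ≠ 0 := by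
    rintro rfl
    rw [Polynomial.coe_zero] at hp'
    exact mul_ne_zero hp0' (hcoe0 hG0') hp'
  have hCX : Polynomial.C C * Polynomial.X ^ k ≠ 0 :=
    mul_ne_zero (Polynomial.C_ne_zero.mpr hC) (pow_ne_zero k Polynomial.X_ne_zero)
  have hFU := eulF_ne_zero hq hU
  have hFV := eulF_ne_zero hq hV
  have hSU := eulS_ne_zero hq hU
  have hSV := eulS_ne_zero hq hV
  have key : P * P' * eulF q U * eulS q V =
      Polynomial.C C * Polynomial.X ^ k * eulF q V * eulS q U * G * G' := by
    apply Polynomial.coe_injective ℂ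
    simp only [Polynomial.coe_mul, Polynomial.coe_pow, Polynomial.coe_C, Polynomial.coe_X]
    rw [← hp, ← hp']
    linear_combination ((↑G : PowerSeries ℂ) * (↑G' : PowerSeries ℂ)) * h
  have hrm := congrArg (Polynomial.rootMultiplicity δ) key
  have m1 := mul_ne_zero hP0 hP0'
  have m2 := mul_ne_zero m1 hFU
  have m3 := mul_ne_zero m2 hSV
  have n1 := mul_ne_zero hCX hFV
  have n2 := mul_ne_zero n1 hSU
  have n3 := mul_ne_zero n2 hG0
  have n4 := mul_ne_zero n3 hG0'
  rw [Polynomial.rootMultiplicity_mul m3, Polynomial.rootMultiplicity_mul m2,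
    Polynomial.rootMultiplicity_mul m1, Polynomial.rootMultiplicity_mul n4,
    Polynomial.rootMultiplicity_mul n3, Polynomial.rootMultiplicity_mul n2,
    Polynomial.rootMultiplicity_mul n1,
    Polynomial.rootMultiplicity_eq_zero (p := Polynomial.C C * Polynomial.X ^ k),
    Polynomial.rootMultiplicity_eq_zero (p := eulS q U),
    Polynomial.rootMultiplicity_eq_zero (p := G) hG,
    Polynomial.rootMultiplicity_eq_zero (p := G') hG'] at hrm
  · omega
  · intro hr
    have := norm_of_eulS hq hU hr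
    rw [hδ] at this
    exact hqi this.symm
  · intro hr
    rw [Polynomial.IsRoot, Polynomial.eval_mul, Polynomial.eval_C, Polynomial.eval_pow,
      Polynomial.eval_X] at hr
    exact mul_ne_zero hC (pow_ne_zero k hδ0) hr

theorem map_conj_row (q : ℕ) (c : ℕ → ℂ) (m : ℕ) :
    PowerSeries.map (starRingEnd ℂ) (row q c m) = row q (fun n => conj (c n)) m := by
  refine PowerSeries.ext fun n => ?_
  rw [PowerSeries.coeff_map, coeff_row, coeff_row]

/-! ### The eigenspace -/

/-- the forms with the eigenvalues `t p` of `T_p`, `p ∤ K` -/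
def eigSp (K : ℕ) [NeZero K] (t : ℕ → ℂ) : Submodule ℂ (CuspForm (Gamma1 K) 1) where
  carrier := {g | ∀ p, p.Prime → ¬ p ∣ K → Rel g p (t p)}
  add_mem' := by
    intro f g hf hg p hp hpK n
    have h1 := hf p hp hpK n
    have h2 := hg p hp hpK n
    have hadd : ∀ j, qCoeff ⇑(f + g) j = qCoeff ⇑f j + qCoeff ⇑g j := fun j =>
      qCoeff_cusp_add K (Gamma1 K) 1 f g j
    simp only [hadd]
    by_cases h : p ∣ n
    · rw [if_pos h] at h1 h2 ⊢
      linear_combination h1 + h2
    · rw [if_neg h] at h1 h2 ⊢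
      linear_combination h1 + h2
  zero_mem' := by
    intro p _ _ n
    have h0 : ∀ j, qCoeff ⇑(0 : CuspForm (Gamma1 K) 1) j = 0 := fun j =>
      (qLin K (Gamma1 K) 1 j).map_zero
    simp only [h0]
    simp
  smul_mem' := by
    intro a f hf p hp hpK n
    have h1 := hf p hp hpK n
    have hsm : ∀ j, qCoeff ⇑(a • f) j = a * qCoeff ⇑f j := fun j =>
      qCoeff_cusp_smul K (Gamma1 K) 1 a f j
    simp only [hsm]
    by_cases h : p ∣ n
    · rw [if_pos h] at h1 ⊢
      linear_combination a * h1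
    · rw [if_neg h] at h1 ⊢
      linear_combination a * h1

theorem mem_eigSp {K : ℕ} [NeZero K] {t : ℕ → ℂ} {g : CuspForm (Gamma1 K) 1} :
    g ∈ eigSp K t ↔ ∀ p, p.Prime → ¬ p ∣ K → Rel g p (t p) := Iff.rfl

theorem qCoeff_U {K q : ℕ} [NeZero K] [Fact q.Prime] (hqK : q ∣ K) (g : CuspForm (Gamma1 K) 1)
    (n : ℕ) : qCoeff ⇑(tCusp K (Gamma1 K) 1 q g) n = qCoeff ⇑g (q * n) := by
  rw [mul_comm q n]
  exact qCoeff_tCusp_of_dvd (Gamma1 K) 1 q hqK g n

theorem U_mem_eigSp {K q : ℕ} [NeZero K] [hq : Fact q.Prime] (hqK : q ∣ K) {t : ℕ → ℂ}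
    {g : CuspForm (Gamma1 K) 1} (hg : g ∈ eigSp K t) : tCusp K (Gamma1 K) 1 q g ∈ eigSp K t := by
  intro p hp hpK n
  have h1 := hg p hp hpK (q * n)
  have hpq : p ≠ q := fun h => hpK (h ▸ hqK)
  have hc : p.Coprime q := (Nat.coprime_primes hp hq.out).mpr hpq
  simp only [qCoeff_U hqK]
  by_cases h : p ∣ n
  · obtain ⟨n', rfl⟩ := h
    have h2 : p ∣ q * (p * n') := Dvd.intro_left (q * n') (by ring)
    rw [if_pos h2] at h1
    rw [if_pos (dvd_mul_right p n'), Nat.mul_div_cancel_left n' hp.pos]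
    have h3 : q * (p * n') / p = q * n' := by
      rw [show q * (p * n') = p * (q * n') by ring, Nat.mul_div_cancel_left _ hp.pos]
    rw [h3] at h1
    rw [show q * (p * (p * n')) = p * (q * (p * n')) by ring]
    exact h1
  · have h2 : ¬ p ∣ q * n := fun h3 => h (hc.dvd_of_dvd_mul_left h3)
    rw [if_neg h2] at h1
    rw [if_neg h, show q * (p * n) = p * (q * n) by ring]
    exact h1

/-- The nebentypus of the elements of the eigenspace. -/
theorem hasNeb_of_mem {K : ℕ} [NeZero K] (h3 : 3 ∣ K) {t : ℕ → ℂ} {g : CuspForm (Gamma1 K) 1}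
    (hg : g ∈ eigSp K t) : Z3.HasNeb K g := by
  refine Level.P4.neb_of_heckeChi (B := K) le_rfl h3 (t := t) fun ℓ hℓ hB n => ?_
  exact hg ℓ hℓ (Level.P4.not_dvd_of_lt le_rfl hB) n

/-- **An eigenvector of `U_q`** in the eigenspace. -/
theorem exists_eigen_of_lead {q : ℕ} [hq : Fact q.Prime] {K : ℕ} [NeZero K] (hqK : q ∣ K)
    (c : ℕ → ℂ) (m : ℕ) (hp0 : row q c m ≠ 0)
    {U V : List ℕ} (hU : ∀ ν ∈ U, 2 ≤ ν) (hV : ∀ ν ∈ V, 2 ≤ ν) {C : ℂ} {k : ℕ} (hC : C ≠ 0)
    (hl : row q c m * row q (fun n => conj (c n)) m * (↑(eulF q U) : PowerSeries ℂ) *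
        (↑(eulS q V) : PowerSeries ℂ) =
      PowerSeries.C C * PowerSeries.X ^ k * (↑(eulF q V) : PowerSeries ℂ) *
        (↑(eulS q U) : PowerSeries ℂ)) {δ : ℂ} (hδ : δ = 1 ∨ δ = -1)
    (hmul : (eulF q V).rootMultiplicity δ < (eulF q U).rootMultiplicity δ)
    (t : ℕ → ℂ) (g : CuspForm (Gamma1 K) 1) (hg : g ∈ eigSp K t)
    (hgc : ∀ n, qCoeff ⇑g n = c (q * n)) :
    ∃ G : CuspForm (Gamma1 K) 1, G ≠ 0 ∧ G ∈ eigSp K t ∧
      ∀ n, qCoeff ⇑G (q * n) = δ * qCoeff ⇑G n := by
  classical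
  have hfd := finiteDimensional_S1 K
  let T : Module.End ℂ (eigSp K t) := (tCusp K (Gamma1 K) 1 q).restrict
    fun f hf => U_mem_eigSp hqK hf
  by_cases hev : T.HasEigenvalue δ
  · obtain ⟨v, hv⟩ := hev.exists_hasEigenvector
    refine ⟨v, fun h0 => hv.2 (Subtype.ext h0), v.2, fun n => ?_⟩
    have h1 := congrArg (Subtype.val) hv.apply_eq_smul
    have h2 : tCusp K (Gamma1 K) 1 q (v : CuspForm (Gamma1 K) 1) = δ • (v : CuspForm (Gamma1 K) 1) :=
      h1
    rw [← qCoeff_U hqK, h2, qCoeff_cusp_smul K (Gamma1 K) 1]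
  · exfalso
    set χ := minpoly ℂ T with hχ
    have hroot : χ.eval δ ≠ 0 := fun h0 => hev (Module.End.hasEigenvalue_of_isRoot h0)
    -- the powers of `U`
    have hpow : ∀ (i : ℕ) (n : ℕ), qCoeff ⇑((((T ^ i) ⟨g, hg⟩ : eigSp K t)) :
        CuspForm (Gamma1 K) 1) n = c (q ^ (i + 1) * n) := by
      intro i
      induction i with
      | zero =>
        intro n
        rw [pow_zero, Module.End.one_apply, zero_add, pow_one]
        exact hgc n
      | succ i ih =>
        intro n
        rw [pow_succ', Module.End.mul_apply]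
        have h2 : ((T ((T ^ i) ⟨g, hg⟩) : eigSp K t) : CuspForm (Gamma1 K) 1) =
            tCusp K (Gamma1 K) 1 q (((T ^ i) ⟨g, hg⟩ : eigSp K t) : CuspForm (Gamma1 K) 1) := rfl
        rw [h2, qCoeff_U hqK, ih (q * n)]
        congr 1
        ring
    have hsum : ∀ n, ∑ i ∈ Finset.range (χ.natDegree + 1), χ.coeff i * c (q ^ (i + 1) * n) = 0 := by
      intro n
      have h1 : Polynomial.aeval T χ = 0 := minpoly.aeval ℂ T
      rw [Polynomial.aeval_eq_sum_range] at h1
      have h2 := congrArg (fun L : Module.End ℂ (eigSp K t) =>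
        qLin K (Gamma1 K) 1 n ((L ⟨g, hg⟩ : eigSp K t) : CuspForm (Gamma1 K) 1)) h1
      simp only [LinearMap.sum_apply, LinearMap.smul_apply, LinearMap.zero_apply,
        Submodule.coe_sum, Submodule.coe_smul, Submodule.coe_zero, map_sum, map_smul, map_zero,
        smul_eq_mul] at h2
      rw [← h2]
      refine Finset.sum_congr rfl fun i _ => ?_
      rw [← hpow i n]
      rfl
    obtain ⟨P, hP⟩ := exists_poly_of_charpoly hsum m
    have hδ2 : δ ^ 2 = 1 := by
      rcases hδ with rfl | rfl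
      · norm_num
      · norm_num
    have hδn : ‖δ‖ = 1 := by
      rcases hδ with rfl | rfl
      · norm_num
      · norm_num
    have hδ0 : δ ≠ 0 := by
      rintro rfl
      rw [norm_zero] at hδn
      exact zero_ne_one hδn
    have hδc : conj δ = δ := by
      rcases hδ with rfl | rfl
      · simp
      · simp
    have hG : (rev χ).eval δ ≠ 0 := by
      rw [eval_rev χ hδ2]
      exact mul_ne_zero (pow_ne_zero _ hδ0) hroot
    have hG' : ((rev χ).map (starRingEnd ℂ)).eval δ ≠ 0 := by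
      have h1 : ((rev χ).map (starRingEnd ℂ)).eval (conj δ) = conj ((rev χ).eval δ) := by
        rw [Polynomial.eval_map, Polynomial.eval₂_at_apply]
      rw [hδc] at h1
      rw [h1]
      exact (map_ne_zero _).mpr hG
    have hP' : row q (fun n => conj (c n)) m *
        (↑((rev χ).map (starRingEnd ℂ)) : PowerSeries ℂ) = ↑(P.map (starRingEnd ℂ)) := by
      rw [Polynomial.polynomial_map_coe, Polynomial.polynomial_map_coe, ← hP, map_mul,
        map_conj_row]
    have hp0' : row q (fun n => conj (c n)) m ≠ 0 := by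
      intro h0
      refine hp0 (PowerSeries.ext fun j => ?_)
      have := congrArg (PowerSeries.coeff j) h0
      rw [coeff_row, map_zero] at this
      rw [coeff_row, map_zero, (map_eq_zero _).mp this]
    exact absurd (rootMultiplicity_le_of_lead hq.out hU hV hp0 hp0' hP hP' hδn hG hG' hC hl)
      (not_le.mpr hmul)

/-- **(B1)** The case `q = 3`. -/
theorem exists_eigen_three {K : ℕ} [NeZero K] (h3 : 3 ∣ K) (c : ℕ → ℂ) (m : ℕ) (_hm : ¬ 3 ∣ m)
    (hp0 : row 3 c m ≠ 0) {U V : List ℕ} (hU : ∀ ν ∈ U, 2 ≤ ν) (hV : ∀ ν ∈ V, 2 ≤ ν) {C : ℂ}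
    {k : ℕ} (hC : C ≠ 0)
    (hl : row 3 c m * row 3 (fun n => conj (c n)) m * (↑(eulF 3 U) : PowerSeries ℂ) *
        (↑(eulS 3 V) : PowerSeries ℂ) =
      PowerSeries.C C * PowerSeries.X ^ k * (↑(eulF 3 V) : PowerSeries ℂ) *
        (↑(eulS 3 U) : PowerSeries ℂ)) {δ : ℂ} (hδ : δ = 1 ∨ δ = -1)
    (hmul : (eulF 3 V).rootMultiplicity δ < (eulF 3 U).rootMultiplicity δ) (t : ℕ → ℂ)
    (g : CuspForm (Gamma1 K) 1) (_hg : Z3.HasNeb K g)
    (hgT : ∀ p, p.Prime → ¬ p ∣ K → Rel g p (t p)) (hgc : ∀ n, qCoeff ⇑g n = c (3 * n)) :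
    ∃ G : CuspForm (Gamma1 K) 1, G ≠ 0 ∧ Z3.HasNeb K G ∧
      (∀ p, p.Prime → ¬ p ∣ K → Rel G p (t p)) ∧ ∀ n, qCoeff ⇑G (3 * n) = δ * qCoeff ⇑G n := by
  have : Fact (Nat.Prime 3) := ⟨Nat.prime_three⟩
  obtain ⟨G, hG0, hG, hGU⟩ := exists_eigen_of_lead h3 c m hp0 hU hV hC hl hδ hmul t g hgT hgc
  exact ⟨G, hG0, hasNeb_of_mem h3 hG, hG, hGU⟩

/-! ### The multiplicities of the Euler factors -/

theorem eulF_cons_of_dvd {q ν : ℕ} (h : q ∣ ν) (U : List ℕ) :
    eulF q (ν :: U) = (1 - Polynomial.X ^ ν.factorization q) * eulF q U := by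
  rw [eulF, eulF, List.filter_cons_of_pos (by simpa using h), List.map_cons, List.prod_cons]

theorem eulF_cons_of_not_dvd {q ν : ℕ} (h : ¬ q ∣ ν) (U : List ℕ) :
    eulF q (ν :: U) = eulF q U := by
  rw [eulF, eulF, List.filter_cons_of_neg (by simpa using h)]

theorem eulF_append (q : ℕ) (U V : List ℕ) : eulF q (U ++ V) = eulF q U * eulF q V := by
  rw [eulF, List.filter_append, List.map_append, List.prod_append]
  rfl

theorem one_sub_X_pow_ne_zero {f : ℕ} (hf : f ≠ 0) :
    (1 : Polynomial ℂ) - Polynomial.X ^ f ≠ 0 := by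
  intro h0
  have := natDegree_one_sub_X_pow (f := f)
  rw [h0, Polynomial.natDegree_zero] at this
  exact hf this.symm

open scoped Classical in
theorem rootMultiplicity_one_sub_X_pow {f : ℕ} (hf : f ≠ 0) (δ : ℂ) :
    ((1 : Polynomial ℂ) - Polynomial.X ^ f).rootMultiplicity δ = if δ ^ f = 1 then 1 else 0 := by
  have h0 := one_sub_X_pow_ne_zero hf
  have hev : ((1 : Polynomial ℂ) - Polynomial.X ^ f).eval δ = 1 - δ ^ f := by simp
  split_ifs with h
  · have hr : ((1 : Polynomial ℂ) - Polynomial.X ^ f).IsRoot δ := by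
      rw [Polynomial.IsRoot, hev, h, sub_self]
    have h1 : 0 < ((1 : Polynomial ℂ) - Polynomial.X ^ f).rootMultiplicity δ :=
      (Polynomial.rootMultiplicity_pos h0).mpr hr
    have h2 : ¬ 1 < ((1 : Polynomial ℂ) - Polynomial.X ^ f).rootMultiplicity δ := by
      rw [Polynomial.one_lt_rootMultiplicity_iff_isRoot h0]
      rintro ⟨_, hd⟩
      rw [Polynomial.IsRoot, Polynomial.derivative_sub, Polynomial.derivative_one,
        Polynomial.derivative_X_pow, zero_sub, Polynomial.eval_neg, Polynomial.eval_mul,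
        Polynomial.eval_C, Polynomial.eval_pow, Polynomial.eval_X, neg_eq_zero] at hd
      have hδ0 : δ ≠ 0 := by
        rintro rfl
        rw [zero_pow hf] at h
        exact zero_ne_one h
      exact mul_ne_zero (Nat.cast_ne_zero.mpr hf) (pow_ne_zero _ hδ0) hd
    omega
  · refine Polynomial.rootMultiplicity_eq_zero fun hr => h ?_
    rw [Polynomial.IsRoot, hev] at hr
    exact (sub_eq_zero.mp hr).symm

open scoped Classical in
/-- The order of the Euler factor at `δ`: the number of the `ν = q ^ f ∈ U` with `δ ^ f = 1`. -/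
theorem rootMultiplicity_eulF_list {q : ℕ} (hq : q.Prime) {U : List ℕ} (hU : ∀ ν ∈ U, 2 ≤ ν)
    (δ : ℂ) : (eulF q U).rootMultiplicity δ =
      U.countP fun ν => decide (q ∣ ν ∧ δ ^ ν.factorization q = 1) := by
  induction U with
  | nil =>
    rw [List.countP_nil]
    refine Polynomial.rootMultiplicity_eq_zero fun h => ?_
    rw [Polynomial.IsRoot, eulF, List.filter_nil, List.map_nil, List.prod_nil,
      Polynomial.eval_one] at h
    exact one_ne_zero h
  | cons ν U ih =>
    have hU' : ∀ μ ∈ U, 2 ≤ μ := fun μ hμ => hU μ (by simp [hμ])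
    have hν := hU ν (by simp)
    rw [List.countP_cons, ← ih hU']
    by_cases h : q ∣ ν
    · have h1 : ν.factorization q ≠ 0 := (hq.factorization_pos_of_dvd (by omega) h).ne'
      rw [eulF_cons_of_dvd h, Polynomial.rootMultiplicity_mul
        (mul_ne_zero (one_sub_X_pow_ne_zero h1) (eulF_ne_zero hq hU')),
        rootMultiplicity_one_sub_X_pow h1, add_comm]
      congr 1
      by_cases h2 : δ ^ ν.factorization q = 1
      · rw [if_pos h2, if_pos (by simpa using ⟨h, h2⟩)]
      · rw [if_neg h2, if_neg (by simpa using fun _ => h2)]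
    · rw [eulF_cons_of_not_dvd h, if_neg (by simpa using fun h' => absurd h' h), add_zero]

theorem rootMultiplicity_eulF_append {q : ℕ} (hq : q.Prime) {U V : List ℕ}
    (hU : ∀ ν ∈ U, 2 ≤ ν) (hV : ∀ ν ∈ V, 2 ≤ ν) (δ : ℂ) :
    (eulF q (U ++ V)).rootMultiplicity δ =
      (eulF q U).rootMultiplicity δ + (eulF q V).rootMultiplicity δ := by
  rw [eulF_append, Polynomial.rootMultiplicity_mul
    (mul_ne_zero (eulF_ne_zero hq hU) (eulF_ne_zero hq hV))]

section Field

open NumberField IsDedekindDomain Fermat.Agent.Classic.Disc Fermat.Agent.Classic.Level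

variable {F : Type*} [Field F] [NumberField F]

theorem dvd_absNorm_iff {q : ℕ} (hq : q.Prime) (v : HeightOneSpectrum (𝓞 F)) :
    q ∣ Ideal.absNorm v.asIdeal ↔ (q : 𝓞 F) ∈ v.asIdeal := by
  obtain ⟨p, hp, hpv⟩ := exists_prime_above v
  constructor
  · intro h
    rw [Disc.absNorm_eq hp hpv] at h
    have h1 := (Nat.prime_dvd_prime_iff_eq hq hp).mp (hq.dvd_of_dvd_pow h)
    rw [h1]
    exact hpv
  · intro h
    rw [Disc.absNorm_eq hq h]
    exact dvd_pow_self q (fdeg_pos v).ne'

/-- the norms of the bad places divisible by `q` are powers of `q`. -/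
theorem pow_of_mem_badL {q N : ℕ} (hq : q.Prime) :
    ∀ ν ∈ badL F N, q ∣ ν → ∃ f, 0 < f ∧ ν = q ^ f := by
  intro ν hν h
  obtain ⟨v, -, rfl⟩ := List.mem_map.mp hν
  exact ⟨fdeg v, fdeg_pos v, Disc.absNorm_eq hq ((dvd_absNorm_iff hq v).mp h)⟩

open scoped Classical in
/-- **The order of the Euler factor at `q` of a number field at `δ`.** -/
theorem rootMultiplicity_eulF_badL {q N : ℕ} (hq : q.Prime) (hN : N ≠ 0) (hqN : q ∣ N) (δ : ℂ) :
    (eulF q (badL F N)).rootMultiplicity δ =
      ((above F q).filter fun v => δ ^ fdeg v = 1).card := by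
  rw [rootMultiplicity_eulF_list hq (fun ν hν => two_le_of_mem_badL hν), badL, List.countP_map]
  have h1 : ∀ s : Finset (HeightOneSpectrum (𝓞 F)), ∀ P : HeightOneSpectrum (𝓞 F) → Prop,
      s.toList.countP (fun v => decide (P v)) = (s.filter P).card := by
    intro s P
    rw [List.countP_eq_length_filter, ← Multiset.coe_card, ← Multiset.filter_coe,
      Finset.coe_toList]
    rfl
  have h2 := h1 (above F N) fun v => q ∣ Ideal.absNorm v.asIdeal ∧
    δ ^ (Ideal.absNorm v.asIdeal).factorization q = 1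
  have h3 : ((above F N).filter fun v => q ∣ Ideal.absNorm v.asIdeal ∧
      δ ^ (Ideal.absNorm v.asIdeal).factorization q = 1) =
      (above F q).filter fun v => δ ^ fdeg v = 1 := by
    ext v
    rw [Finset.mem_filter, Finset.mem_filter, mem_above hN, mem_above hq.ne_zero]
    constructor
    · rintro ⟨_, h4, h5⟩
      have h6 := (dvd_absNorm_iff hq v).mp h4
      rw [Disc.absNorm_eq hq h6, hq.factorization_pow, Finsupp.single_eq_same] at h5
      exact ⟨h6, h5⟩
    · rintro ⟨h6, h5⟩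
      refine ⟨(natCast_mem_iff hq h6).mpr hqN, (dvd_absNorm_iff hq v).mpr h6, ?_⟩
      rw [Disc.absNorm_eq hq h6, hq.factorization_pow, Finsupp.single_eq_same]
      exact h5
  rw [← h3]
  convert h2
  rw [Function.comp_apply]
  congr

open scoped Classical in
/-- **(B1)**, the multiplicities at `3`. -/
theorem rootMultiplicity_eulF {N : ℕ} (hN : N ≠ 0) (h3 : 3 ∣ N) (δ : ℂ) :
    (eulF 3 (badL F N)).rootMultiplicity δ =
      ((above F 3).filter fun v => δ ^ fdeg v = 1).card :=
  rootMultiplicity_eulF_badL Nat.prime_three hN h3 δ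

end Field

end Fermat.Agent.Cor.Artin

end
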