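import Fermat.Agent.Corollaries.Artin.DropQ
import Fermat.Agent.Corollaries.Artin.AL
import Fermat.Agent.Frob.Chebotarev
import Fermat.Agent.LT.Final47
import Mathlib.NumberTheory.LSeries.Deriv

/-!
# The entire function of a start

* `exists_entire`: the `L`-series of a cusp form of weight one on `Γ₁(N)` whose `L`-series converges
  absolutely for `re s > 1` is the restriction of an entire function.
* `embedding_cases`: the two embeddings of `ℤ[√-2]` are conjugate.
* `exists_start`: a start whose level has exactly the ramified primes of `ρ`.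
-/

set_option autoImplicit false

noncomputable section

open CongruenceSubgroup ModularFormClass EisensteinWeightOne UpperHalfPlane WeierstrassCurve
open Fermat.Agent.Classic Fermat.Agent.Classic.Level Fermat.Agent.X1
open scoped MatrixGroups ModularForm ComplexConjugate Topology

namespace Fermat.Agent.Cor.Artin

local notation "Γℚ" => (AlgebraicClosure ℚ ≃ₐ[ℚ] AlgebraicClosure ℚ)

/-- Equality with a convergent Dirichlet series extends from `re s > 2` to `re s > 1`. -/
theorem eq_LSeries_of_two_lt {F : ℂ → ℂ} (hF : Differentiable ℂ F) {a : ℕ → ℂ}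
    (ha : ∀ s : ℂ, 1 < s.re → LSeriesSummable a s)
    (h : ∀ s : ℂ, 2 < s.re → F s = LSeries a s) {s : ℂ} (hs : 1 < s.re) :
    F s = LSeries a s := by
  have habs : LSeries.abscissaOfAbsConv a ≤ 1 := by
    refine LSeries.abscissaOfAbsConv_le_of_forall_lt_LSeriesSummable (x := 1) fun y hy => ?_
    exact ha y (by simpa using hy)
  have hU : {s : ℂ | 1 < s.re} ⊆ {s : ℂ | LSeries.abscissaOfAbsConv a < s.re} := by
    intro z hz
    refine lt_of_le_of_lt habs ?_
    exact_mod_cast hz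
  have h1 : AnalyticOnNhd ℂ (LSeries a) {s : ℂ | 1 < s.re} :=
    (LSeries_analyticOnNhd a).mono hU
  have h2 : AnalyticOnNhd ℂ F {s : ℂ | 1 < s.re} := fun z _ => hF.analyticAt z
  have hpre : IsPreconnected {s : ℂ | 1 < s.re} :=
    (convex_halfSpace_re_gt 1).isPreconnected
  have h3 : (3 : ℂ) ∈ {s : ℂ | 1 < s.re} := by
    show (1 : ℝ) < (3 : ℂ).re
    norm_num
  have hev : F =ᶠ[𝓝 (3 : ℂ)] LSeries a := by
    have hopen : IsOpen {s : ℂ | 2 < s.re} := isOpen_lt continuous_const Complex.continuous_re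
    filter_upwards [hopen.mem_nhds (show (3 : ℂ) ∈ {s : ℂ | 2 < s.re} by
      show (2 : ℝ) < (3 : ℂ).re
      norm_num)] with z hz
    exact h z hz
  exact h2.eqOn_of_preconnected_of_eventuallyEq h1 hpre h3 hev hs

/-- The entire continuation of the `L`-series of a cusp form of weight one. -/
theorem exists_entire {N : ℕ} [NeZero N] (f : CuspForm (Gamma1 N) 1)
    (ha : ∀ s : ℂ, 1 < s.re → LSeriesSummable (qCoeff ⇑f) s) :
    ∃ L : ℂ → ℂ, Differentiable ℂ L ∧ ∀ s : ℂ, 1 < s.re → L s = LSeries (qCoeff ⇑f) s :=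
  ⟨ModularForm.L one_pos f, CuspForm.differentiable_L one_pos f, fun _ hs =>
    eq_LSeries_of_two_lt (CuspForm.differentiable_L one_pos f) ha
      (fun _ hs' => (Z3.lsum f hs').2.symm) hs⟩

/-- The conjugate of an entire function. -/
theorem differentiable_conj {L : ℂ → ℂ} (hL : Differentiable ℂ L) :
    Differentiable ℂ fun s => conj (L (conj s)) := by
  intro s
  have h := (hL (conj s)).conj_conj
  rw [Complex.conj_conj] at h
  exact h

/-- The two embeddings of `ℤ[√-2]` are conjugate. -/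
theorem embedding_cases (ι ι₀ : ℤ√(-2) →+* ℂ) :
    ι₀ = ι ∨ ∀ x, ι₀ x = conj (ι x) := by
  have hsq : ∀ κ : ℤ√(-2) →+* ℂ, κ Zsqrtd.sqrtd * κ Zsqrtd.sqrtd = -2 := by
    intro κ
    rw [← map_mul, Zsqrtd.dmuld, map_intCast]
    norm_num
  have hdec : ∀ (κ : ℤ√(-2) →+* ℂ) (x : ℤ√(-2)),
      κ x = (x.re : ℂ) + (x.im : ℂ) * κ Zsqrtd.sqrtd := by
    intro κ x
    have h : x = (x.re : ℤ√(-2)) + Zsqrtd.sqrtd * (x.im : ℤ√(-2)) := Zsqrtd.decompose
    conv_lhs => rw [h]
    rw [map_add, map_mul, map_intCast, map_intCast, mul_comm]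
  have hpm : ∀ z w : ℂ, z * z = -2 → w * w = -2 → z = w ∨ z = -w := by
    intro z w hz hw
    exact mul_self_eq_mul_self_iff.mp (hz.trans hw.symm)
  set w := ι Zsqrtd.sqrtd with hw
  have hw2 : w * w = -2 := hsq ι
  have hcw : conj w * conj w = -2 := by
    rw [← map_mul, hw2, map_neg, show (2 : ℂ) = ((2 : ℕ) : ℂ) by norm_num, Complex.conj_natCast]
  have hcw' : conj w = -w := by
    rcases hpm _ _ hcw hw2 with h | h
    · exfalso
      obtain ⟨r, hr⟩ := Complex.conj_eq_iff_real.mp h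
      rw [hr] at hw2
      have h1 : r * r = -2 := by exact_mod_cast hw2
      nlinarith [mul_self_nonneg r]
    · exact h
  rcases hpm _ _ (hsq ι₀) hw2 with h | h
  · left
    refine RingHom.ext fun x => ?_
    rw [hdec ι₀ x, hdec ι x, h]
  · right
    intro x
    rw [hdec ι₀ x, hdec ι x, h, map_add, map_mul, ← hw, hcw']
    simp

variable {ρ : Γℚ →* GL (Fin 2) (ZMod 3)} {Ψ : GL (Fin 2) (ZMod 3) →* GL (Fin 2) (ℤ√(-2))}

/-- The statement of helper98's file. -/
theorem alStmt : ALStmt := fun _ _ hq _ _ h3 hqM g hg => exists_al hq h3 hqM g hg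

/-- A continuous `ρ` is unramified outside a finite set. -/
theorem exists_unr (hρ : Continuous ρ) :
    ∃ D : ℕ, D ≠ 0 ∧ ∀ p : ℕ, p.Prime → ¬ p ∣ D → UnrAt ρ p := by
  have hN : IsOpen (ρ.ker : Set Γℚ) := Disc.isOpen_ker hρ
  have hHc : IsClosed (ρ.ker : Set Γℚ) := Subgroup.isClosed_of_isOpen _ hN
  let K : IntermediateField ℚ (AlgebraicClosure ℚ) := IntermediateField.fixedField ρ.ker
  have hfix : K.fixingSubgroup = ρ.ker := InfiniteGalois.fixingSubgroup_fixedField ⟨ρ.ker, hHc⟩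
  have hfd : FiniteDimensional ℚ K := by
    rw [← InfiniteGalois.isOpen_iff_finite]
    rw [hfix]
    exact hN
  obtain ⟨T, hT⟩ := FrobDensity.exists_unram K
  refine ⟨∏ p ∈ T.erase 0, p, Finset.prod_ne_zero_iff.mpr fun p hp => Finset.ne_of_mem_erase hp,
    fun p hp hpD A hA σ hσ => ?_⟩
  have hpT : p ∉ T := fun h => hpD (Finset.dvd_prod_of_mem _
    (Finset.mem_erase.mpr ⟨hp.ne_zero, h⟩))
  have h1 : σ ∈ K.fixingSubgroup := by
    rw [IntermediateField.mem_fixingSubgroup_iff]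
    exact fun x hx => (hT p hp hpT A hA).1 σ hσ x hx
  rw [hfix] at h1
  exact MonoidHom.mem_ker.mp h1

/-- **A start whose level has exactly the ramified primes of `ρ`.** -/
theorem exists_start (hρ : Continuous ρ) (hs : Function.Surjective ρ)
    (hdet : ∀ σ : Γℚ, Matrix.GeneralLinearGroup.det (ρ σ) = modThreeCyclotomicChar σ)
    (hΨ : ∀ g, Matrix.GeneralLinearGroup.map FLT.ExplicitLift.red (Ψ g) = g) :
    ∃ (N : ℕ) (_ : NeZero N) (ι : ℤ√(-2) →+* ℂ) (b : ℕ → ℤ√(-2)) (f : CuspForm (Gamma1 N) 1),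
      (∀ p : ℕ, p.Prime → (p ∣ N ↔ ¬ UnrAt ρ p)) ∧ Start ρ Ψ N ι b f := by
  obtain ⟨D, hD, hunr⟩ := exists_unr hρ
  obtain ⟨N, hN, ι, b, f, -, hst⟩ := stepStart ρ Ψ (LT.S47_final ρ hρ hs hdet Ψ hΨ) D hD hunr
  exact exists_start_ram alStmt hρ hs hdet hΨ hst

end Fermat.Agent.Cor.Artin

end
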