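import Fermat.Agent.Corollaries.Artin.Zeros

/-!
# The explicit functional equation and the value `L'(0, r)`

`L(1-s, r) = W N^{s-1/2} Γ_ℂ(s)² cos(πs/2) sin(πs/2) L(s, r̄)` and
`L'(0, r) = W √N / (2π) · L(1, r̄) ≠ 0`, `N` the conductor, `|W| = 1`.
-/

set_option autoImplicit false

noncomputable section

open NumberField NumberField.InfinitePlace IsDedekindDomain WeierstrassCurve Filter
open CongruenceSubgroup ModularFormClass EisensteinWeightOne
open Fermat.Agent.Classic Fermat.Agent.Classic.Level Fermat.Agent.X1 Fermat.Agent.LT.End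
open scoped MatrixGroups ModularForm ComplexConjugate Topology

namespace Fermat.Agent.Cor.Artin

local notation "Γℚ" => (AlgebraicClosure ℚ ≃ₐ[ℚ] AlgebraicClosure ℚ)

section Abstract

variable {N : ℕ} {W : ℂ} {L L' Λ Λ' : ℂ → ℂ}

/-- **The explicit functional equation.** -/
theorem DegTwo.one_sub (h : DegTwo N W L L' Λ Λ') {s : ℂ} (hs : ∀ n : ℕ, s ≠ -n) :
    L (1 - s) = W * (N : ℂ) ^ (s - 1 / 2) *
      (Complex.Gammaℂ s ^ 2 *
        (Complex.cos (Real.pi * s / 2) * Complex.sin (Real.pi * s / 2))) * L' s := by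
  have hN0 : (N : ℂ) ≠ 0 := Nat.cast_ne_zero.mpr h.pos.ne'
  rw [h.L_eq, h.fe, h.eq' s hs, ← Fermat.Agent.Cor.ZetaK.quot_Gammaℂ hs]
  have e : (N : ℂ) ^ (s / 2) * ((N : ℂ) ^ ((1 - s) / 2))⁻¹ = (N : ℂ) ^ (s - 1 / 2) := by
    rw [← Complex.cpow_neg, ← Complex.cpow_add _ _ hN0]
    congr 1
    ring
  rw [← e]
  ring

/-- **The derivative at `0`.** -/
theorem DegTwo.deriv_zero (h : DegTwo N W L L' Λ Λ') :
    deriv L 0 = W * (N : ℂ) ^ (1 / 2 : ℂ) / (2 * Real.pi) * L' 1 := by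
  have hpi : (Real.pi : ℂ) ≠ 0 := Complex.ofReal_ne_zero.mpr Real.pi_ne_zero
  set F : ℂ → ℂ := fun z => Λ z * ((N : ℂ) ^ (z / 2))⁻¹ * Ac z with hF
  have hFd : Differentiable ℂ F :=
    (h.entire.mul ((differentiable_natCast_cpow h.pos).inv
      fun s => natCast_cpow_ne_zero h.pos _)).mul differentiable_Ac
  have hL : L = fun z => z * F z := by
    funext z
    rw [h.L_eq, inv_Gammaℂ, hF]
    ring
  have h1 : deriv L 0 = F 0 := by
    have h6 : HasDerivAt (fun z : ℂ => z * F z) (1 * F 0 + 0 * deriv F 0) 0 :=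
      (hasDerivAt_id' (0 : ℂ)).mul (hFd 0).hasDerivAt
    rw [hL, h6.deriv]
    ring
  have h2 : Λ 0 = W * Λ' 1 := by
    rw [← h.fe, sub_self]
  have h3 : ∀ n : ℕ, (1 : ℂ) ≠ -n := by
    intro n hn
    have h4 := congrArg Complex.re hn
    rw [Complex.neg_re, Complex.natCast_re, Complex.one_re] at h4
    have := Nat.cast_nonneg (α := ℝ) n
    linarith
  have h5 : Complex.Gammaℂ 1 = (Real.pi : ℂ)⁻¹ := by
    rw [Complex.Gammaℂ_def, Complex.Gamma_one, Complex.cpow_neg_one, mul_one, mul_inv]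
    field_simp
  rw [h1, hF]
  simp only []
  rw [h2, h.eq' 1 h3, zero_div, Complex.cpow_zero, inv_one, mul_one, Ac_zero, h5]
  field_simp

end Abstract

variable {ρ : Γℚ →* GL (Fin 2) (ZMod 3)} {Ψ : GL (Fin 2) (ZMod 3) →* GL (Fin 2) (ℤ√(-2))}
  {κ : ℤ√(-2) →+* ℂ} {L L' : ℂ → ℂ}

/-- **The explicit functional equation and `L'(0, r)`**, for `L = L(s, r)`, `L' = L(s, r̄)`:
`L(1-s) = W N^{s-1/2} Γ_ℂ(s)² cos(πs/2) sin(πs/2) L'(s)`, `L'(0, r) = W √N / (2π) L(1, r̄) ≠ 0`. -/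
theorem artin_one_sub (hρ : Continuous ρ) (hs : Function.Surjective ρ)
    (hdet : ∀ σ : Γℚ, Matrix.GeneralLinearGroup.det (ρ σ) = modThreeCyclotomicChar σ)
    (hΨ : ∀ g, Matrix.GeneralLinearGroup.map FLT.ExplicitLift.red (Ψ g) = g)
    (h : IsArtinL ρ Ψ κ L) (h' : IsArtinL ρ Ψ ((starRingEnd ℂ).comp κ) L') :
    ∃ (N : ℕ) (W : ℂ), 0 < N ∧ ‖W‖ = 1 ∧
      (∀ p : ℕ, p.Prime → (p ∣ N ↔ ¬ UnrAt ρ p)) ∧
      (∀ (T24 : FixField ρ C2) (T12 : FixField ρ V4) (T8 : FixField ρ S3) (T4 : FixField ρ B3),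
        (discr T24.F).natAbs * (discr T4.F).natAbs ^ 2 =
          (discr T12.F).natAbs * (discr T8.F).natAbs ^ 2 * N ^ 2) ∧
      (∀ s : ℂ, (∀ n : ℕ, s ≠ -n) → L (1 - s) = W * (N : ℂ) ^ (s - 1 / 2) *
        (Complex.Gammaℂ s ^ 2 *
          (Complex.cos (Real.pi * s / 2) * Complex.sin (Real.pi * s / 2))) * L' s) ∧
      deriv L 0 = W * (N : ℂ) ^ (1 / 2 : ℂ) / (2 * Real.pi) * L' 1 ∧ deriv L 0 ≠ 0 := by
  obtain ⟨N, hN, g, g', W, -, h2, h3, -, h5, h6, h7, hW, hfe⟩ :=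
    artin_fe_newform hρ hs hdet hΨ κ
  have hL : L = ModularForm.L one_pos g := h.unique h6
  have hL' : L' = ModularForm.L one_pos g' := h'.unique h7
  have hN0 : 0 < N := Nat.pos_of_ne_zero (NeZero.ne N)
  have hW0 : W ≠ 0 := by
    intro h0
    rw [h0, norm_zero] at hW
    exact zero_ne_one hW
  have hD : DegTwo N W L L' (lamN N g) (lamN N g') :=
    ⟨hN0, hW0, differentiable_lamN g, differentiable_lamN g', h.entire,
      fun s hs => by rw [hL]; exact lamN_eq g hs, fun s hs => by rw [hL']; exact lamN_eq g' hs,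
      hfe⟩
  refine ⟨N, W, hN0, hW, h2, h3, fun s hs => hD.one_sub hs, hD.deriv_zero, ?_⟩
  rw [hD.deriv_zero]
  refine mul_ne_zero (div_ne_zero (mul_ne_zero hW0 (natCast_cpow_ne_zero hN0 _))
    (mul_ne_zero two_ne_zero (Complex.ofReal_ne_zero.mpr Real.pi_ne_zero)))
    (artin_ne_zero hρ hs hdet hΨ h' (by norm_num))

end Fermat.Agent.Cor.Artin

end
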