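import Fermat.Agent.Corollaries.Artin.Defs
import Fermat.Agent.Classic.Level.Disc.Count3
import Fermat.Agent.LT.End.Galois
import Mathlib.RepresentationTheory.Character

/-!
# The sums of the residue degrees in the four fields, at an arbitrary prime (block FE4)

For inertia of any order (wild too): `F₂₄ + 2 F₄ - F₁₂ - 2 F₈` has sum of residue degrees above `q`
equal to `2 dim V^{I_q}`.
-/

set_option autoImplicit false

noncomputable section

namespace Fermat.Agent.Cor.Artin

open NumberField Fermat.Agent.Frob Fermat.Agent.Classic.Disc Fermat.Agent.Classic.Level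
open Fermat.Agent.LT.End
open scoped ComplexConjugate

local notation "G3" => Matrix.GeneralLinearGroup (Fin 2) (ZMod 3)

/-- the representation of a subgroup `J` of `GL₂(𝔽₃)` on `ℂ²` -/
def repJ (S : G3 →* Matrix.GeneralLinearGroup (Fin 2) ℂ) (J : Subgroup G3) :
    Representation ℂ J (Fin 2 → ℂ) where
  toFun a := Matrix.toLin' (S (a : G3)).1
  map_one' := by
    rw [Subgroup.coe_one, map_one, Units.val_one, Matrix.toLin'_one]
    rfl
  map_mul' a b := by
    rw [Subgroup.coe_mul, map_mul, Units.val_mul, Matrix.toLin'_mul]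
    rfl

/-- the sum of the character over `J` is `|J| dim V^J` -/
theorem sum_tr (S : G3 →* Matrix.GeneralLinearGroup (Fin 2) ℂ) (J : Subgroup G3) [Fintype J] :
    ∑ a : J, tr S (a : G3) =
      (Nat.card J : ℂ) * Module.finrank ℂ (Representation.invariants (repJ S J)) := by
  have hJ : (Nat.card J : ℂ) ≠ 0 := Nat.cast_ne_zero.mpr Nat.card_pos.ne'
  have : Invertible (Nat.card J : ℂ) := invertibleOfNonzero hJ
  rw [← Representation.card_inv_mul_sum_char_eq_finrank, ← mul_assoc, mul_inv_cancel₀ hJ, one_mul]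
  refine Finset.sum_congr rfl fun a _ => ?_
  change tr S (a : G3) = LinearMap.trace ℂ _ (Matrix.toLin' (S (a : G3)).1)
  rw [Matrix.trace_toLin'_eq, tr]

variable {ρ : GQ →* G3} {Ψ : G3 →* Matrix.GeneralLinearGroup (Fin 2) (ℤ√(-2))}

/-- the invariants of the image of inertia -/
theorem finrank_invariants (ι : ℤ√(-2) →+* ℂ) (A : ValuationSubring (AlgebraicClosure ℚ)) :
    Module.finrank ℂ (Representation.invariants
      (repJ (rep Ψ ι) ((A.inertiaSubgroupIn ℚ).map ρ))) =
      Module.finrank ℂ (invI ((rep Ψ ι).comp ρ) A) := by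
  have h : Representation.invariants (repJ (rep Ψ ι) ((A.inertiaSubgroupIn ℚ).map ρ)) =
      invI ((rep Ψ ι).comp ρ) A := by
    ext v
    rw [Representation.mem_invariants, mem_invI]
    constructor
    · intro h τ hτ
      have h1 := h ⟨ρ τ, ⟨τ, hτ, rfl⟩⟩
      exact h1
    · rintro h ⟨a, τ, hτ, rfl⟩
      exact h τ hτ
  rw [h]

/-- **(FE4)** The sums of the residue degrees above `q`. -/
theorem fSum_four (hs : Function.Surjective ρ)
    (hΨ : ∀ g, Matrix.GeneralLinearGroup.map FLT.ExplicitLift.red (Ψ g) = g) (ι : ℤ√(-2) →+* ℂ)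
    (T24 : FixField ρ C2) (T12 : FixField ρ V4) (T8 : FixField ρ S3) (T4 : FixField ρ B3)
    {q : ℕ} (hq : q.Prime) {A : ValuationSubring (AlgebraicClosure ℚ)}
    (hA : A.LiesOverPrime q) :
    fSum T24.F q + 2 * fSum T4.F q =
      fSum T12.F q + 2 * fSum T8.F q +
        2 * Module.finrank ℂ (invI ((rep Ψ ι).comp ρ) A) := by
  classical
  set J : Subgroup G3 := (A.inertiaSubgroupIn ℚ).map ρ with hJdef
  have hfJ : Fintype J := Fintype.ofFinite J
  have hJ : (Nat.card J : ℂ) ≠ 0 := Nat.cast_ne_zero.mpr Nat.card_pos.ne'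
  have hfs : ∀ (H : Subgroup G3) (T : FixField ρ H),
      ((fSum T.F q : ℕ) : ℂ) * Nat.card J = ∑ a : J, ((pH H (a : G3) : ℕ) : ℂ) := by
    intro H T
    have h1 := card_orbits_mul_card H J
    rw [finsum_eq_sum_of_fintype] at h1
    rw [← card_orbits hq hA, card_orb T hs (A.inertiaSubgroupIn ℚ) (orb T.F A) fun _ _ => Iff.rfl]
    exact_mod_cast h1
  have h24 := hfs _ T24
  have h12 := hfs _ T12
  have h8 := hfs _ T8
  have h4 := hfs _ T4
  -- the characters
  have hchar : ∀ a : G3, ((pH C2 a : ℕ) : ℂ) + 2 * (pH B3 a : ℕ) =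
      (pH V4 a : ℕ) + 2 * (pH S3 a : ℕ) + (tr (rep Ψ ι) a + conj (tr (rep Ψ ι) a)) := by
    intro a
    rw [← tq2_eq (rep_neg_one Ψ hΨ ι) a, ← pH_identity]
    push_cast
    ring
  have hsum : ∑ a : J, (((pH C2 (a : G3) : ℕ) : ℂ) + 2 * (pH B3 (a : G3) : ℕ)) =
      ∑ a : J, (((pH V4 (a : G3) : ℕ) : ℂ) + 2 * (pH S3 (a : G3) : ℕ)) +
        (∑ a : J, tr (rep Ψ ι) (a : G3) + conj (∑ a : J, tr (rep Ψ ι) (a : G3))) := by
    rw [map_sum, ← Finset.sum_add_distrib, ← Finset.sum_add_distrib]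
    exact Finset.sum_congr rfl fun a _ => hchar a
  rw [sum_tr, finrank_invariants, Finset.sum_add_distrib, Finset.sum_add_distrib,
    ← Finset.mul_sum, ← Finset.mul_sum, ← h24, ← h12, ← h8, ← h4, map_mul, Complex.conj_natCast,
    Complex.conj_natCast] at hsum
  have h5 : ((fSum T24.F q + 2 * fSum T4.F q : ℕ) : ℂ) * Nat.card J =
      ((fSum T12.F q + 2 * fSum T8.F q +
        2 * Module.finrank ℂ (invI ((rep Ψ ι).comp ρ) A) : ℕ) : ℂ) * Nat.card J := by
    push_cast
    linear_combination hsum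
  exact_mod_cast mul_right_cancel₀ hJ h5

end Fermat.Agent.Cor.Artin

end
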