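import Fermat.Agent.Corollaries.Artin.Defs
import Fermat.Agent.Classic.Level.FourOf
import Fermat.Agent.Classic.Level.StepZ3

/-!
# The four fields at a start, with the fields themselves, and the unramified primes
-/

set_option autoImplicit false

noncomputable section

open NumberField NumberField.InfinitePlace IsDedekindDomain Complex WeierstrassCurve
open Fermat.Agent.Frob Fermat.Agent.LT.Tower Fermat.Agent.Classic.Disc
open Fermat.Agent.Classic Fermat.Agent.Classic.Level
open CongruenceSubgroup ModularFormClass EisensteinWeightOne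
open scoped LSeries.notation ComplexConjugate MatrixGroups ModularForm

namespace Fermat.Agent.Cor.Artin

local notation "G3" => Matrix.GeneralLinearGroup (Fin 2) (ZMod 3)
local notation "Γℚ" => (AlgebraicClosure ℚ ≃ₐ[ℚ] AlgebraicClosure ℚ)

/-- At an unramified prime of `ρ` the fields cut out by `ρ` are unramified. -/
theorem ram_eq_one_of_unrAt {F : Type*} [Field F] [NumberField F] {G : Type*} [Group G]
    [TopologicalSpace G] [DiscreteTopology G]
    {ρ : GQ →* G} (hρ : Continuous ρ) {p : ℕ} (hp : p.Prime)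
    (h : ∀ A : ValuationSubring (AlgebraicClosure ℚ), A.LiesOverPrime p →
      ∀ σ ∈ A.inertiaSubgroupIn ℚ, ρ σ = 1)
    (i : F →+* AlgebraicClosure ℚ) (hi : ∀ σ : GQ, ρ σ = 1 → ∀ x : F, σ (i x) = i x) :
    ∀ v ∈ above F p, ram v = 1 := by
  intro v hv
  have hN : IsOpen (ρ.ker : Set GQ) := isOpen_ker hρ
  have hHc : IsClosed (ρ.ker : Set GQ) := Subgroup.isClosed_of_isOpen _ hN
  let K : IntermediateField ℚ (AlgebraicClosure ℚ) := IntermediateField.fixedField ρ.ker
  have hfix : K.fixingSubgroup = ρ.ker := InfiniteGalois.fixingSubgroup_fixedField ⟨ρ.ker, hHc⟩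
  have hfd : FiniteDimensional ℚ K := by
    rw [← InfiniteGalois.isOpen_iff_finite]
    rw [hfix]
    exact hN
  have hgal : IsGalois ℚ K := by
    have h1 := (InfiniteGalois.normal_iff_isGalois K).mp (by rw [hfix]; infer_instance)
    convert h1
    exact Subsingleton.elim _ _
  have hiK : ∀ x, i x ∈ K := fun x =>
    (IntermediateField.mem_fixedField_iff _ _).mpr fun g hg =>
      hi g (MonoidHom.mem_ker.mp hg) x
  exact Emb.ram_eq_one (K := K) hp (fun A hA σ hσ x hx =>
    (IntermediateField.mem_fixedField_iff _ _).mp hx _ (MonoidHom.mem_ker.mpr (h A hA σ hσ)))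
    i hiK hv

/-- At an unramified prime the residue degrees add up to the degree. -/
theorem factorization_badL_unr {ρ : GQ →* G3} {H : Subgroup G3} (hρ : Continuous ρ)
    (hs : Function.Surjective ρ) (T : FixField ρ H) {q N : ℕ} (hq : q.Prime) (hu : UnrAt ρ q)
    (hN : N ≠ 0) (hqN : q ∣ N) : (badL T.F N).prod.factorization q = H.index := by
  rw [Nat.factorization_def _ hq, prod_badL, padicValNat_prod_above hq hN hqN,
    Emb.fSum_eq_of_ram hq (ram_eq_one_of_unrAt hρ hq hu T.i
      fun σ hσ => (T.fix σ).mpr (by rw [hσ]; exact one_mem H)), T.finrank hs]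

/-- The four fields of a start. -/
theorem exists_fourU {ρ : Γℚ →* GL (Fin 2) (ZMod 3)} (hρ : Continuous ρ)
    (hs : Function.Surjective ρ)
    (hdet : ∀ σ : Γℚ, Matrix.GeneralLinearGroup.det (ρ σ) = modThreeCyclotomicChar σ)
    {Ψ : GL (Fin 2) (ZMod 3) →* GL (Fin 2) (ℤ√(-2))}
    (hΨ : ∀ g, Matrix.GeneralLinearGroup.map FLT.ExplicitLift.red (Ψ g) = g)
    {N : ℕ} [hN : NeZero N] {ι : ℤ√(-2) →+* ℂ} {b : ℕ → ℤ√(-2)} {f : CuspForm (Gamma1 N) 1}
    (hf : Start ρ Ψ N ι b f) :
    ∃ (T24 : FixField ρ C2) (T12 : FixField ρ V4) (T8 : FixField ρ S3) (T4 : FixField ρ B3)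
      (T : Four ρ N fun n => ι (b n)),
      (T.z24 = zcF T24.F ∧ T.z12 = zcF T12.F ∧ T.z8 = zcF T8.F ∧ T.z4 = zcF T4.F) ∧
      (T.l24 = badL T24.F N ∧ T.l12 = badL T12.F N ∧ T.l8 = badL T8.F N ∧ T.l4 = badL T4.F N) ∧
      ∀ q : ℕ, q.Prime → q ∣ N → UnrAt ρ q →
        T.l24.prod.factorization q = 24 ∧ T.l12.prod.factorization q = 12 ∧
          T.l8.prod.factorization q = 8 ∧ T.l4.prod.factorization q = 4 := by
  obtain ⟨T24⟩ := exists_fixField hρ C2
  obtain ⟨T12⟩ := exists_fixField hρ V4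
  obtain ⟨T8⟩ := exists_fixField hρ S3
  obtain ⟨T4⟩ := exists_fixField hρ B3
  have hZ : ZetaFEStmt := fun F _ _ => Zeta.zetaFE F
  have hsq : ρ complexConjugation * ρ complexConjugation = 1 := by
    rw [← map_mul, complexConjugation_mul_self, map_one]
  have hd := det_complexConjugation hdet
  obtain ⟨p24, p12, p8, p4⟩ := pH_refl hd (trace_of_sq hd hsq)
  obtain ⟨r24, t24⟩ := signature_two hs T24 p24
  obtain ⟨r12, t12⟩ := signature_two hs T12 p12
  obtain ⟨r8, t8⟩ := signature_two hs T8 p8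
  obtain ⟨r4, t4⟩ := signature_two hs T4 p4
  rw [index_C2] at t24
  rw [index_V4] at t12
  rw [index_S3] at t8
  rw [index_B3] at t4
  refine ⟨T24, T12, T8, T4, {
    z24 := zcF T24.F
    z12 := zcF T12.F
    z8 := zcF T8.F
    z4 := zcF T4.F
    d24 := (discr T24.F).natAbs
    d12 := (discr T12.F).natAbs
    d8 := (discr T8.F).natAbs
    d4 := (discr T4.F).natAbs
    r24 := nrRealPlaces T24.F
    r12 := nrRealPlaces T12.F
    r8 := nrRealPlaces T8.F
    r4 := nrRealPlaces T4.F
    t24 := nrComplexPlaces T24.F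
    t12 := nrComplexPlaces T12.F
    t8 := nrComplexPlaces T8.F
    t4 := nrComplexPlaces T4.F
    l24 := badL T24.F N
    l12 := badL T12.F N
    l8 := badL T8.F N
    l4 := badL T4.F N
    z24_one := zcF_one
    z12_one := zcF_one
    z8_one := zcF_one
    z4_one := zcF_one
    d24_ne := natAbs_discr_ne_zero _
    d12_ne := natAbs_discr_ne_zero _
    d8_ne := natAbs_discr_ne_zero _
    d4_ne := natAbs_discr_ne_zero _
    two_le24 := fun _ => two_le_of_mem_badL
    two_le12 := fun _ => two_le_of_mem_badL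
    two_le8 := fun _ => two_le_of_mem_badL
    two_le4 := fun _ => two_le_of_mem_badL
    fe24 := hZ T24.F
    fe12 := hZ T12.F
    fe8 := hZ T8.F
    fe4 := hZ T4.F
    hr := by rw [r24, r12, r8, r4]
    ht := by omega
    hid := fun n _ => Zeta.hid hs hdet hΨ T24 T12 T8 T4 hf
      (fun p hp hpN => good_fixField hρ T24 hp (hf.unr p hp hpN))
      (fun p hp hpN => good_fixField hρ T12 hp (hf.unr p hp hpN))
      (fun p hp hpN => good_fixField hρ T8 hp (hf.unr p hp hpN))
      (fun p hp hpN => good_fixField hρ T4 hp (hf.unr p hp hpN)) n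
    tame := fun q hq hqN ht => by
      have ht' : TameAt ρ q := ht
      have hN0 := NeZero.ne N
      rw [factorization_eq_index hρ hs T24 hq ht' hN0 hqN,
        factorization_eq_index hρ hs T12 hq ht' hN0 hqN,
        factorization_eq_index hρ hs T8 hq ht' hN0 hqN,
        factorization_eq_index hρ hs T4 hq ht' hN0 hqN, index_C2, index_V4, index_S3, index_B3]
      exact ⟨rfl, rfl, rfl, rfl⟩
    three := fun h h3 => by
      obtain ⟨h1, h2, h4, h5⟩ := padicValNat_three hdet hs h (NeZero.ne N) h3 T24 T12 T8 T4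
      rw [factorization_badL h1, factorization_badL h2, factorization_badL h4,
        factorization_badL h5] }, ⟨rfl, rfl, rfl, rfl⟩, ⟨rfl, rfl, rfl, rfl⟩,
    fun q hq hqN hu => ?_⟩
  have hN0 := NeZero.ne N
  refine ⟨?_, ?_, ?_, ?_⟩
  · exact (factorization_badL_unr hρ hs T24 hq hu hN0 hqN).trans index_C2
  · exact (factorization_badL_unr hρ hs T12 hq hu hN0 hqN).trans index_V4
  · exact (factorization_badL_unr hρ hs T8 hq hu hN0 hqN).trans index_S3
  · exact (factorization_badL_unr hρ hs T4 hq hu hN0 hqN).trans index_B3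

end Fermat.Agent.Cor.Artin

end
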