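import Fermat.Agent.Corollaries.Artin.W3

/-!
# The Fricke involution and `U₃` at `3 ‖ N`, nebentypus `χ₋₃`

`((U₃ F) ∣ W_N) ∣ U₃ = F ∣ W_N` for `F` of level `N = 3 M`, `3 ∤ M`, and nebentypus `χ₋₃`.
-/

set_option autoImplicit false

noncomputable section

open CongruenceSubgroup Matrix.SpecialLinearGroup UpperHalfPlane EisensteinWeightOne
open scoped MatrixGroups ModularForm Manifold

namespace Fermat.Agent.Cor.Artin

open Fermat.Agent.X1 Fermat.Agent.HeckePar Fermat.Agent.Oldforms Fermat.Agent.Classic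
open Fermat.Agent.Classic.Fri ModularFormClass

variable {N M : ℕ} [NeZero N]

theorem val_frW_int : ((frW N : GL (Fin 2) ℝ) : Matrix (Fin 2) (Fin 2) ℝ) =
    (!![0, -1; (N : ℤ), 0] : Matrix (Fin 2) (Fin 2) ℤ).map (Int.cast) := by
  rw [val_frW]
  ext i j
  fin_cases i <;> fin_cases j <;> simp

/-- the terms with `i = 0`. -/
theorem fr_term_zero (h3 : 3 ∣ N) {F : ℍ → ℂ} (hF : Neb N F) (j : ℕ) :
    ((F ∣[(1 : ℤ)] ModularForm.heckeMatrix 3 0) ∣[(1 : ℤ)] frW N) ∣[(1 : ℤ)]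
        ModularForm.heckeMatrix 3 j = (3 : ℂ)⁻¹ • (F ∣[(1 : ℤ)] frW N) := by
  set T : SL(2, ℤ) := mk4 1 j 0 1 (by ring) with hT
  have hTN : T ∈ Gamma0 N := mk4_mem (dvd_zero _)
  have h11 : chi3 (T 1 1) = 1 := chi3_one
  have hmat : ModularForm.heckeMatrix 3 0 * frW N * ModularForm.heckeMatrix 3 j =
      scal 3 (by norm_num) * frW N * mapGL ℝ T := by
    refine ALData.GL_eq_of_int (val_mul_of_int (val_hecke3 0) val_frW_int) (val_hecke3 j)
      (val_mul_of_int (val_scal _) val_frW_int) (val_mapGL _) ?_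
    rw [hT, val_mk4]
    ext a b
    fin_cases a <;> fin_cases b <;> simp [Matrix.mul_apply, Fin.sum_univ_two]
  rw [← SlashAction.slash_mul, ← SlashAction.slash_mul, ← mul_assoc, hmat, SlashAction.slash_mul,
    SlashAction.slash_mul, slash_scal_one, smul_slash_frW, ← SL_slash',
    ModularForm.SL_smul_slash, neb_frW h3 hF T hTN, h11, Int.cast_one, one_smul]
  push_cast
  rfl

/-- the terms with `i = 1` and `i = 2` cancel in pairs. -/
theorem fr_pair (hN : N = 3 * M) {F : ℍ → ℂ} (hF : Neb N F) (j j' : ℕ) (k : ℤ)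
    (hk : 1 - 2 * M * ((j : ℤ) - j') = 3 * k) :
    ((F ∣[(1 : ℤ)] ModularForm.heckeMatrix 3 2) ∣[(1 : ℤ)] frW N) ∣[(1 : ℤ)]
        ModularForm.heckeMatrix 3 j' =
      -(((F ∣[(1 : ℤ)] ModularForm.heckeMatrix 3 1) ∣[(1 : ℤ)] frW N) ∣[(1 : ℤ)]
        ModularForm.heckeMatrix 3 j) := by
  have hNZ : (N : ℤ) = 3 * M := by rw [hN]; push_cast; rfl
  set g : SL(2, ℤ) := mk4 (2 * M * ((j : ℤ) - j') + 1) k (N * ((j : ℤ) - j'))
    (1 - M * ((j : ℤ) - j')) (by
      rw [hNZ]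
      linear_combination (M : ℤ) * ((j : ℤ) - j') * hk) with hg
  have hgN : g ∈ Gamma0 N := mk4_mem (dvd_mul_right _ _)
  have h11 : chi3 (g 1 1) = -1 := by
    refine (chi3_congr (d := g 1 1) (d' := -1) ?_).trans chi3_neg_one
    show (3 : ℤ) ∣ (1 - (M : ℤ) * ((j : ℤ) - j')) - (-1)
    have h2 : (3 : ℤ) ∣ 2 * ((1 - (M : ℤ) * ((j : ℤ) - j')) - (-1)) :=
      ⟨1 + k, by linear_combination hk⟩
    omega
  have hmat : ModularForm.heckeMatrix 3 2 * frW N * ModularForm.heckeMatrix 3 j' =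
      mapGL ℝ g * ModularForm.heckeMatrix 3 1 * (frW N * ModularForm.heckeMatrix 3 j) := by
    refine ALData.GL_eq_of_int (val_mul_of_int (val_hecke3 2) val_frW_int) (val_hecke3 j')
      (val_mul_of_int (val_mapGL _) (val_hecke3 1)) (val_mul_of_int val_frW_int (val_hecke3 j)) ?_
    rw [hg, val_mk4]
    ext a b
    fin_cases a <;> fin_cases b <;>
      simp [Matrix.mul_apply, Fin.sum_univ_two, -mul_eq_mul_right_iff, -mul_eq_mul_left_iff] <;>
      rw [hNZ]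
    · linear_combination (3 * (M : ℤ)) * hk
    · linear_combination (3 * (M : ℤ) * j) * hk
    · ring
    · ring
  rw [← SlashAction.slash_mul, ← SlashAction.slash_mul, ← mul_assoc, hmat, mul_assoc,
    SlashAction.slash_mul, ← SL_slash', hF g hgN, h11, Int.cast_neg, Int.cast_one, _root_.neg_smul,
    one_smul, SlashAction.neg_slash, SlashAction.slash_mul, SlashAction.slash_mul]

/-- **`((U₃ F) ∣ W_N) ∣ U₃ = F ∣ W_N`.** -/
theorem fr_hecke (hN : N = 3 * M) (hM : ¬ 3 ∣ M) {F : ℍ → ℂ} (hF : Neb N F) :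
    ModularForm.heckeU 1 3 (ModularForm.heckeU 1 3 F ∣[(1 : ℤ)] frW N) = F ∣[(1 : ℤ)] frW N := by
  have h3 : 3 ∣ N := ⟨M, hN⟩
  rw [ModularForm.heckeU_def 1 3 F, SlashAction.sum_slash, ModularForm.heckeU_def]
  simp only [Finset.sum_range_succ, Finset.sum_range_zero, zero_add, SlashAction.add_slash]
  rw [fr_term_zero h3 hF 0, fr_term_zero h3 hF 1, fr_term_zero h3 hF 2]
  have hM' : M % 3 = 1 ∨ M % 3 = 2 := by omega
  rcases hM' with h | h
  · obtain ⟨m, hm⟩ : ∃ m : ℕ, M = 3 * m + 1 := ⟨M / 3, by omega⟩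
    rw [fr_pair hN hF 2 0 (-1 - 4 * m) (by rw [hm]; push_cast; ring),
      fr_pair hN hF 0 1 (1 + 2 * m) (by rw [hm]; push_cast; ring),
      fr_pair hN hF 1 2 (1 + 2 * m) (by rw [hm]; push_cast; ring)]
    funext τ
    simp only [Pi.add_apply, Pi.smul_apply, Pi.neg_apply, smul_eq_mul]
    ring
  · obtain ⟨m, hm⟩ : ∃ m : ℕ, M = 3 * m + 2 := ⟨M / 3, by omega⟩
    rw [fr_pair hN hF 1 0 (-1 - 2 * m) (by rw [hm]; push_cast; ring),
      fr_pair hN hF 2 1 (-1 - 2 * m) (by rw [hm]; push_cast; ring),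
      fr_pair hN hF 0 2 (3 + 4 * m) (by rw [hm]; push_cast; ring)]
    funext τ
    simp only [Pi.add_apply, Pi.smul_apply, Pi.neg_apply, smul_eq_mul]
    ring

end Fermat.Agent.Cor.Artin
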