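import Fermat.Agent.Corollaries.Artin.Main
import Fermat.Agent.Corollaries.ZetaK.ArithEquiv

/-!
# `L(s, r) ≠ 0` for `re s ≥ 1`

From `ζ₂₄ ζ₄² = ζ₁₂ ζ₈² L(s, r) L(s, r̄)` up to Euler factors, and the non-vanishing of the Dedekind
zeta functions.
-/

set_option autoImplicit false

noncomputable section

open CongruenceSubgroup ModularFormClass EisensteinWeightOne UpperHalfPlane WeierstrassCurve
open Fermat.Agent.Classic Fermat.Agent.Classic.Level Fermat.Agent.X1 Fermat.Agent.LT.End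
open scoped MatrixGroups ModularForm ComplexConjugate Topology

namespace Fermat.Agent.Cor.Artin

local notation "Γℚ" => (AlgebraicClosure ℚ ≃ₐ[ℚ] AlgebraicClosure ℚ)

section Zeta

variable (F : Type) [Field F] [NumberField F]

/-- `(s - 1) ζ_F(s)` as an entire function -/
def wF (s : ℂ) : ℂ := WK (K := F) (fun _ => 1) s

theorem differentiable_wF : Differentiable ℂ (wF F) := differentiable_WK _

theorem wF_ne_zero {s : ℂ} (hs : 1 ≤ s.re) : wF F s ≠ 0 := by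
  rcases eq_or_ne s 1 with rfl | h1
  · rw [wF, WK, residue_eq_XiF]
    exact_mod_cast NumberField.dedekindZeta_residue_ne_zero F
  · rw [wF, WK_eq _ h1]
    exact mul_ne_zero (sub_ne_zero.mpr h1) (zetaK_ne_zero hs h1)

theorem exists_hasSum_zeta : ∃ σ : ℝ, 1 ≤ σ ∧ ∀ s : ℂ, σ < s.re →
    ∃ z : ℂ, LSeriesHasSum (zcF F) s z ∧ wF F s = (s - 1) * z := by
  obtain ⟨k, κ, Ξ, σ, -, -, hσ, H⟩ := Zeta.zetaFE F
  refine ⟨σ, hσ, fun s hs => ⟨LSeries (zcF F) s, (H s hs).1.LSeriesHasSum, ?_⟩⟩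
  have h1 : s ≠ 1 := by
    rintro rfl
    rw [Complex.one_re] at hs
    linarith
  rw [wF, WK_eq _ h1]
  congr 1
  exact zetaK_eq_dedekindZeta (lt_of_le_of_lt hσ hs)

end Zeta

theorem fpL_ne_zero_of_pos {l : List ℕ} (hl : ∀ ν ∈ l, 2 ≤ ν) {s : ℂ} (hs : 0 < s.re) :
    AE.fpL l s ≠ 0 := by
  induction l with
  | nil => simp [AE.fpL]
  | cons ν l ih =>
    rw [AE.fpL_cons]
    refine mul_ne_zero ?_ (ih fun μ hμ => hl μ (List.mem_cons_of_mem ν hμ))
    have hν := hl ν List.mem_cons_self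
    intro h
    have h1 : ‖(ν : ℂ) ^ (-s)‖ = 1 := by
      rw [← sub_eq_zero.mp h, norm_one]
    rw [Complex.norm_natCast_cpow_of_pos (by omega), Complex.neg_re] at h1
    have h2 : (ν : ℝ) ^ (-s.re) < 1 :=
      Real.rpow_lt_one_of_one_lt_of_neg (by exact_mod_cast (by omega : 1 < ν)) (by linarith)
    linarith

variable {ρ : Γℚ →* GL (Fin 2) (ZMod 3)} {Ψ : GL (Fin 2) (ZMod 3) →* GL (Fin 2) (ℤ√(-2))}
  {N : ℕ} {ι : ℤ√(-2) →+* ℂ} {b : ℕ → ℤ√(-2)} {f : CuspForm (Gamma1 N) 1}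

/-- The product of the `L`-function of a start with its conjugate, on the whole plane. -/
theorem exists_prod_zeta [hN : NeZero N] (hρ : Continuous ρ) (hs : Function.Surjective ρ)
    (hdet : ∀ σ : Γℚ, Matrix.GeneralLinearGroup.det (ρ σ) = modThreeCyclotomicChar σ)
    (hΨ : ∀ g, Matrix.GeneralLinearGroup.map FLT.ExplicitLift.red (Ψ g) = g)
    (hst : Start ρ Ψ N ι b f) {L Lc : ℂ → ℂ} (hL : Differentiable ℂ L)
    (hLc : Differentiable ℂ Lc)
    (hLs : ∀ s : ℂ, 1 < s.re → L s = LSeries (fun n => ι (b n)) s)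
    (hLcs : ∀ s : ℂ, 1 < s.re → Lc s = LSeries (fun n => conj (ι (b n))) s) :
    ∃ A B : ℂ → ℂ, (∀ s : ℂ, 1 ≤ s.re → A s ≠ 0) ∧ ∀ s : ℂ, A s = B s * (L s * Lc s) := by
  obtain ⟨T24, T12, T8, T4, T, ⟨z24, z12, z8, z4⟩, -, -⟩ := exists_fourU hρ hs hdet hΨ hst
  refine ⟨fun s => (wF T24.F s * AE.fpL T.l24 s) *
      ((wF T4.F s * AE.fpL T.l4 s) * (wF T4.F s * AE.fpL T.l4 s)),
    fun s => (wF T12.F s * AE.fpL T.l12 s) *
      ((wF T8.F s * AE.fpL T.l8 s) * (wF T8.F s * AE.fpL T.l8 s)), fun s hs' => ?_, ?_⟩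
  · have h0 : 0 < s.re := by linarith
    exact mul_ne_zero (mul_ne_zero (wF_ne_zero _ hs') (fpL_ne_zero_of_pos T.two_le24 h0))
      (mul_ne_zero (mul_ne_zero (wF_ne_zero _ hs') (fpL_ne_zero_of_pos T.two_le4 h0))
        (mul_ne_zero (wF_ne_zero _ hs') (fpL_ne_zero_of_pos T.two_le4 h0)))
  · obtain ⟨σ24, h24, H24⟩ := exists_hasSum_zeta T24.F
    obtain ⟨σ12, h12, H12⟩ := exists_hasSum_zeta T12.F
    obtain ⟨σ8, h8, H8⟩ := exists_hasSum_zeta T8.F
    obtain ⟨σ4, h4, H4⟩ := exists_hasSum_zeta T4.F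
    refine Zeta.eq_of_eq_re_large (σ := max (max σ24 σ12) (max σ8 σ4)) ?_ ?_ fun s hs' => ?_
    · exact ((differentiable_wF _).mul (AE.differentiable_fpL T.two_le24)).mul
        (((differentiable_wF _).mul (AE.differentiable_fpL T.two_le4)).mul
          ((differentiable_wF _).mul (AE.differentiable_fpL T.two_le4)))
    · exact (((differentiable_wF _).mul (AE.differentiable_fpL T.two_le12)).mul
        (((differentiable_wF _).mul (AE.differentiable_fpL T.two_le8)).mul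
          ((differentiable_wF _).mul (AE.differentiable_fpL T.two_le8)))).mul (hL.mul hLc)
    · simp only [max_lt_iff] at hs'
      obtain ⟨⟨hs1, hs2⟩, hs3, hs4⟩ := hs'
      have hs1' : 1 < s.re := lt_of_le_of_lt h24 hs1
      obtain ⟨ζ24, e24, w24⟩ := H24 s hs1
      obtain ⟨ζ12, e12, w12⟩ := H12 s hs2
      obtain ⟨ζ8, e8, w8⟩ := H8 s hs3
      obtain ⟨ζ4, e4, w4⟩ := H4 s hs4
      have hb := (hasProd_start₀ hdet hΨ hst ι hs1').1.LSeriesHasSum
      have hbc : LSeriesHasSum (fun n => conj (ι (b n))) s (LSeries (fun n => conj (ι (b n))) s) := by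
        have hc : ∀ z, ((starRingEnd ℂ).comp ι) z = conj (ι z) := fun _ => rfl
        exact (hasProd_start₀ hdet hΨ hst ((starRingEnd ℂ).comp ι) hs1').1.LSeriesHasSum
      have l4 := e4.convolution (AE.hasSum_efl T.two_le4 s)
      have l8 := e8.convolution (AE.hasSum_efl T.two_le8 s)
      have left := (e24.convolution (AE.hasSum_efl T.two_le24 s)).convolution (l4.convolution l4)
      have right := ((e12.convolution (AE.hasSum_efl T.two_le12 s)).convolution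
        (l8.convolution l8)).convolution (hb.convolution hbc)
      have heq : LSeries (LSeries.convolution (LSeries.convolution (zcF T24.F) (Zeta.efl T.l24))
          (LSeries.convolution (LSeries.convolution (zcF T4.F) (Zeta.efl T.l4))
            (LSeries.convolution (zcF T4.F) (Zeta.efl T.l4)))) s =
          LSeries (LSeries.convolution (LSeries.convolution
            (LSeries.convolution (zcF T12.F) (Zeta.efl T.l12))
            (LSeries.convolution (LSeries.convolution (zcF T8.F) (Zeta.efl T.l8))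
              (LSeries.convolution (zcF T8.F) (Zeta.efl T.l8))))
            (LSeries.convolution (fun n => ι (b n)) fun n => conj (ι (b n)))) s := by
        refine LSeries_congr (fun {n} hn => ?_) s
        have := T.hid n hn
        rw [z24, z12, z8, z4] at this
        exact this
      rw [left.LSeries_eq, right.LSeries_eq] at heq
      simp only []
      rw [w24, w12, w8, w4, hLs s hs1', hLcs s hs1']
      linear_combination (s - 1) ^ 3 * heq

/-- The `L`-function of a start has no zeros with `re s ≥ 1`. -/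
theorem start_ne_zero [hN : NeZero N] (hρ : Continuous ρ) (hs : Function.Surjective ρ)
    (hdet : ∀ σ : Γℚ, Matrix.GeneralLinearGroup.det (ρ σ) = modThreeCyclotomicChar σ)
    (hΨ : ∀ g, Matrix.GeneralLinearGroup.map FLT.ExplicitLift.red (Ψ g) = g)
    (hst : Start ρ Ψ N ι b f) (ι₀ : ℤ√(-2) →+* ℂ) {L : ℂ → ℂ} (hL : Differentiable ℂ L)
    (hLs : ∀ s : ℂ, 1 < s.re → L s = LSeries (fun n => ι₀ (b n)) s) {s : ℂ} (hs' : 1 ≤ s.re) :
    L s ≠ 0 := by
  rcases embedding_cases ι ι₀ with rfl | hι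
  · obtain ⟨A, B, hA, h⟩ := exists_prod_zeta hρ hs hdet hΨ hst hL (differentiable_conj hL) hLs
      (fun s hs => by
        rw [LSeries_conj', hLs (conj s) (by rwa [Complex.conj_re])])
    intro h0
    exact hA s hs' (by rw [h s, h0]; ring)
  · have h1 : (fun n => conj (ι (b n))) = fun n => ι₀ (b n) := funext fun n => (hι (b n)).symm
    have h2 : (fun n => ι (b n)) = fun n => conj (ι₀ (b n)) := funext fun n => by
      rw [hι, Complex.conj_conj]
    obtain ⟨A, B, hA, h⟩ := exists_prod_zeta hρ hs hdet hΨ hst (differentiable_conj hL) hL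
      (fun s hs => by
        rw [h2, LSeries_conj', hLs (conj s) (by rwa [Complex.conj_re])])
      (fun s hs => by rw [h1, hLs s hs])
    intro h0
    exact hA s hs' (by rw [h s, h0]; ring)

/-- **The `L`-function of Artin of `r = ι ∘ Ψ ∘ ρ`**: `L` is entire and is the Euler product for
`re s > 1`. -/
structure IsArtinL (ρ : Γℚ →* GL (Fin 2) (ZMod 3))
    (Ψ : GL (Fin 2) (ZMod 3) →* GL (Fin 2) (ℤ√(-2))) (ι : ℤ√(-2) →+* ℂ) (L : ℂ → ℂ) : Prop where
  entire : Differentiable ℂ L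
  hasProd : ∀ s : ℂ, 1 < s.re →
    ∀ (A : Nat.Primes → ValuationSubring (AlgebraicClosure ℚ)) (σ : Nat.Primes → Γℚ),
      (∀ p : Nat.Primes, (A p).LiesOverPrime p ∧ (A p).IsFrobeniusAt (σ p) p) →
      HasProd (fun p : Nat.Primes =>
        ((eulerPoly ((rep Ψ ι).comp ρ) (A p) (σ p)).eval ((p : ℂ) ^ (-s)))⁻¹) (L s)

theorem exists_isArtinL (hρ : Continuous ρ) (hs : Function.Surjective ρ)
    (hdet : ∀ σ : Γℚ, Matrix.GeneralLinearGroup.det (ρ σ) = modThreeCyclotomicChar σ)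
    (hΨ : ∀ g, Matrix.GeneralLinearGroup.map FLT.ExplicitLift.red (Ψ g) = g)
    (ι : ℤ√(-2) →+* ℂ) : ∃ L : ℂ → ℂ, IsArtinL ρ Ψ ι L := by
  obtain ⟨L, h1, h2⟩ := artin hρ hs hdet hΨ ι
  exact ⟨L, h1, h2⟩

/-- places and Frobenius elements exist -/
theorem exists_places : ∃ (A : Nat.Primes → ValuationSubring (AlgebraicClosure ℚ))
    (σ : Nat.Primes → Γℚ),
    ∀ p : Nat.Primes, (A p).LiesOverPrime p ∧ (A p).IsFrobeniusAt (σ p) p := by
  choose A hA σ hσ using fun p : Nat.Primes => Fermat.Agent.Frob.exists_frobenius p p.2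
  exact ⟨A, σ, fun p => ⟨hA p, hσ p⟩⟩

/-- **The `L`-function is unique.** -/
theorem IsArtinL.unique {L L' : ℂ → ℂ} (h : IsArtinL ρ Ψ ι L) (h' : IsArtinL ρ Ψ ι L') :
    L = L' := by
  obtain ⟨A, σ, hAσ⟩ := exists_places
  refine funext fun s => Zeta.eq_of_eq_re_large (σ := 1) h.entire h'.entire (fun s hs => ?_) s
  exact (h.hasProd s hs A σ hAσ).unique (h'.hasProd s hs A σ hAσ)

/-- **The Euler factor at `3`** is `1` or `1 - δ X`, `δ = ±1`. -/
theorem exists_eulerPoly_three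
    (hdet : ∀ σ : Γℚ, Matrix.GeneralLinearGroup.det (ρ σ) = modThreeCyclotomicChar σ)
    (hΨ : ∀ g, Matrix.GeneralLinearGroup.map FLT.ExplicitLift.red (Ψ g) = g)
    (ι₀ : ℤ√(-2) →+* ℂ) :
    ∃ P : Polynomial ℂ, (∀ s : ℂ, 0 < s.re → P.eval ((3 : ℂ) ^ (-s)) ≠ 0) ∧
      ∀ B : ValuationSubring (AlgebraicClosure ℚ), B.LiesOverPrime 3 →
        ∀ φ : Γℚ, B.IsFrobeniusAt φ 3 → eulerPoly ((rep Ψ ι₀).comp ρ) B φ = P := by
  by_cases h3 : ∀ A : ValuationSubring (AlgebraicClosure ℚ), A.LiesOverPrime 3 →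
      invI ((rep Ψ ι₀).comp ρ) A = ⊥
  · refine ⟨1, fun s _ => by simp, fun B hB φ hφ => ?_⟩
    obtain ⟨hσ, -⟩ := hφ
    exact eulerPoly_of_bot _ hσ (h3 _ hB)
  · push Not at h3
    obtain ⟨A₀, hA₀, h3⟩ := h3
    obtain ⟨δ, hδ, h⟩ := exists_delta hdet hΨ ι₀ hA₀ h3
    refine ⟨1 - Polynomial.C δ * Polynomial.X, fun s hs h0 => ?_, h⟩
    simp only [Polynomial.eval_sub, Polynomial.eval_one, Polynomial.eval_mul, Polynomial.eval_C,
      Polynomial.eval_X] at h0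
    have h1 : ‖δ * (3 : ℂ) ^ (-s)‖ = 1 := by
      rw [← sub_eq_zero.mp h0, norm_one]
    have h2 : ‖δ‖ = 1 := by rcases hδ with rfl | rfl <;> simp
    have h3 : ‖(3 : ℂ) ^ (-s)‖ < 1 := by
      have h4 := Complex.norm_natCast_cpow_of_pos (n := 3) (by norm_num) (-s)
      rw [Nat.cast_ofNat, Complex.neg_re] at h4
      rw [h4]
      exact Real.rpow_lt_one_of_one_lt_of_neg (by norm_num) (by linarith)
    rw [norm_mul, h2, one_mul] at h1
    exact absurd h1 h3.ne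

/-- The relation of the `L`-function with the form: removing the Euler factor at `3`. -/
theorem IsArtinL.mul_eq {L : ℂ → ℂ} {ι₀ : ℤ√(-2) →+* ℂ} (h : IsArtinL ρ Ψ ι₀ L)
    (hdet : ∀ σ : Γℚ, Matrix.GeneralLinearGroup.det (ρ σ) = modThreeCyclotomicChar σ)
    (hΨ : ∀ g, Matrix.GeneralLinearGroup.map FLT.ExplicitLift.red (Ψ g) = g)
    (hst : Start ρ Ψ N ι b f) (hram : ∀ p : ℕ, p.Prime → (p ∣ N ↔ ¬ UnrAt ρ p))
    {P : Polynomial ℂ} (hP0 : ∀ s : ℂ, 0 < s.re → P.eval ((3 : ℂ) ^ (-s)) ≠ 0)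
    (hP : ∀ B : ValuationSubring (AlgebraicClosure ℚ), B.LiesOverPrime 3 →
        ∀ φ : Γℚ, B.IsFrobeniusAt φ 3 → eulerPoly ((rep Ψ ι₀).comp ρ) B φ = P)
    {s : ℂ} (hs : 1 < s.re) :
    L s * P.eval ((3 : ℂ) ^ (-s)) = LSeries (fun n => ι₀ (b n)) s := by
  classical
  obtain ⟨A, σ, hAσ⟩ := exists_places
  let p₃ : Nat.Primes := ⟨3, Nat.prime_three⟩
  have h2 : HasProd (fun p : Nat.Primes => if p = p₃ then P.eval ((3 : ℂ) ^ (-s)) else 1)
      (P.eval ((3 : ℂ) ^ (-s))) := hasProd_ite_eq p₃ _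
  refine ((h.hasProd s hs A σ hAσ).mul h2).unique ?_
  refine (hasProd_start₀ hdet hΨ hst ι₀ hs).2.congr_fun fun p => ?_
  by_cases hp3 : p = p₃
  · have hp : (p : ℕ) = 3 := congrArg Subtype.val hp3
    have h6 : (p : ℕ) ∣ N := by rw [hp]; exact hst.three
    have hA := (hAσ p).1
    have hσ := (hAσ p).2
    rw [hp] at hA hσ
    rw [if_pos hp3, if_pos h6, hst.dep p (fun hc => (p.2.coprime_iff_not_dvd.mp hc) h6),
      hP _ hA _ hσ, hp, Nat.cast_ofNat, inv_mul_cancel₀ (hP0 s (by linarith))]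
    simp
  · have hp : (p : ℕ) ≠ 3 := fun h => hp3 (Subtype.ext h)
    rw [if_neg hp3, mul_one,
      local_factor hdet hΨ hst hram ι₀ p.2 hp (hAσ p).1 (hAσ p).2]

/-- **`L(s, r) ≠ 0` for `re s ≥ 1`.** -/
theorem artin_ne_zero (hρ : Continuous ρ) (hs : Function.Surjective ρ)
    (hdet : ∀ σ : Γℚ, Matrix.GeneralLinearGroup.det (ρ σ) = modThreeCyclotomicChar σ)
    (hΨ : ∀ g, Matrix.GeneralLinearGroup.map FLT.ExplicitLift.red (Ψ g) = g)
    {ι₀ : ℤ√(-2) →+* ℂ} {L : ℂ → ℂ} (h : IsArtinL ρ Ψ ι₀ L) {s : ℂ} (hs' : 1 ≤ s.re) :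
    L s ≠ 0 := by
  obtain ⟨N, hN, ι, b, f, hram, hst⟩ := exists_start hρ hs hdet hΨ
  obtain ⟨P, hP0, hP⟩ := exists_eulerPoly_three hdet hΨ ι₀ (ρ := ρ) (Ψ := Ψ)
  obtain ⟨L₁, hL₁, hLs₁⟩ := exists_entire_start hdet hΨ hst ι₀
  have hdiff : Differentiable ℂ fun s : ℂ => P.eval ((3 : ℂ) ^ (-s)) := by
    have h1 : Differentiable ℂ fun s : ℂ => (3 : ℂ) ^ (-s) := fun s =>
      (differentiable_id.neg s).const_cpow (Or.inl (by norm_num))
    exact P.differentiable.comp h1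
  have key := Zeta.eq_of_eq_re_large (σ := 1) (h.entire.mul hdiff) hL₁ (fun s hs => by
    simp only [Pi.mul_apply]
    rw [h.mul_eq hdet hΨ hst hram hP0 hP hs, hLs₁ s hs]) s
  intro h0
  refine start_ne_zero hρ hs hdet hΨ hst ι₀ hL₁ hLs₁ hs' ?_
  rw [← key, Pi.mul_apply, h0, zero_mul]

end Fermat.Agent.Cor.Artin

end
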