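import Fermat.Agent.Corollaries.Artin.NewFE
import Fermat.Agent.Corollaries.Artin.NonVan

/-!
# The functional equation of the `L`-function of Artin of `r = κ ∘ Ψ ∘ ρ`
-/

set_option autoImplicit false

noncomputable section

open NumberField NumberField.InfinitePlace IsDedekindDomain WeierstrassCurve
open CongruenceSubgroup ModularFormClass EisensteinWeightOne UpperHalfPlane
open Fermat.Agent.Classic Fermat.Agent.Classic.Level Fermat.Agent.X1 Fermat.Agent.LT.End
open Fermat.Agent.Frob Fermat.Agent.LT.Tower Fermat.Agent.Classic.Disc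
open scoped MatrixGroups ModularForm ComplexConjugate LSeries.notation Manifold

namespace Fermat.Agent.Cor.Artin

local notation "Γℚ" => (AlgebraicClosure ℚ ≃ₐ[ℚ] AlgebraicClosure ℚ)

variable {ρ : Γℚ →* GL (Fin 2) (ZMod 3)} {Ψ : GL (Fin 2) (ZMod 3) →* GL (Fin 2) (ℤ√(-2))}
  {N₀ : ℕ} {ι : ℤ√(-2) →+* ℂ} {b : ℕ → ℤ√(-2)} {f₀ : CuspForm (Gamma1 N₀) 1}

/-- **The Euler product of `newA`.** -/
theorem hasProd_newA
    (hdet : ∀ σ : Γℚ, Matrix.GeneralLinearGroup.det (ρ σ) = modThreeCyclotomicChar σ)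
    (hΨ : ∀ g, Matrix.GeneralLinearGroup.map FLT.ExplicitLift.red (Ψ g) = g)
    (hst : Start ρ Ψ N₀ ι b f₀) (κ : ℤ√(-2) →+* ℂ) {lam : ℂ} (hlam : ‖lam‖ ≤ 1) {s : ℂ}
    (hs : 1 < s.re) :
    LSeriesSummable (newA lam κ b) s ∧
      HasProd (fun p : Nat.Primes => (1 - newA lam κ b p * (p : ℂ) ^ (-s) +
        (if (p : ℕ) ∣ N₀ then 0 else ((chiNegThree p : ℤ) : ℂ)) * ((p : ℂ) ^ (-s)) ^ 2)⁻¹)
        (LSeries (newA lam κ b) s) := by
  have hb0 := b_zero hst
  refine hasProd_eigensystem (isEigensystem_newA lam κ hst.three hst.eig hb0)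
    (newA_zero lam κ hb0) (fun p hp => ?_) hs
  by_cases hp3 : p = 3
  · subst hp3
    have h4 := newA_three lam κ hb0 1
    rw [mul_one, newA_of_not_dvd lam κ b (m := 1) (by norm_num), hst.eig.1, map_one,
      mul_one] at h4
    exact ⟨lam, 0, hlam, by simp, by rw [h4, add_zero], by rw [if_pos hst.three, mul_zero]⟩
  · have hp' : ¬ 3 ∣ p := fun h =>
      hp3 ((Nat.prime_dvd_prime_iff_eq Nat.prime_three hp).mp h).symm
    obtain ⟨z, w, hz, hw, h1, h2⟩ := exists_roots_start₀ hdet hΨ hst κ p hp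
    refine ⟨z, w, hz, hw, by rw [newA_of_not_dvd lam κ b hp', h1], ?_⟩
    rw [← h2]
    split_ifs
    · exact (map_zero κ).symm
    · exact (map_intCast κ _).symm

/-- **The `L`-function of a form with the coefficients `newA`** is the `L`-function of Artin. -/
theorem isArtinL_of_coeff
    (hdet : ∀ σ : Γℚ, Matrix.GeneralLinearGroup.det (ρ σ) = modThreeCyclotomicChar σ)
    (hΨ : ∀ g, Matrix.GeneralLinearGroup.map FLT.ExplicitLift.red (Ψ g) = g)
    (hst : Start ρ Ψ N₀ ι b f₀) (hram : ∀ p : ℕ, p.Prime → (p ∣ N₀ ↔ ¬ UnrAt ρ p))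
    {κ : ℤ√(-2) →+* ℂ} {lam : ℂ} (hlam : ‖lam‖ ≤ 1)
    (h3 : ∀ A : ValuationSubring (AlgebraicClosure ℚ), A.LiesOverPrime 3 → ∀ φ : Γℚ,
      A.IsFrobeniusAt φ 3 → eulerPoly ((rep Ψ κ).comp ρ) A φ =
        1 - Polynomial.C lam * Polynomial.X)
    {N : ℕ} [NeZero N] (G : CuspForm (Gamma1 N) 1) (hG : ∀ n, qCoeff ⇑G n = newA lam κ b n) :
    IsArtinL ρ Ψ κ (ModularForm.L one_pos G) := by
  have hG' : qCoeff ⇑G = newA lam κ b := funext hG
  refine ⟨CuspForm.differentiable_L one_pos G, fun s hs A σ hAσ => ?_⟩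
  have h1 : ModularForm.L one_pos G s = LSeries (newA lam κ b) s := by
    refine eq_LSeries_of_two_lt (CuspForm.differentiable_L one_pos G)
      (fun s hs => (hasProd_newA hdet hΨ hst κ hlam hs).1) (fun s hs' => ?_) hs
    rw [← hG']
    exact (Z3.lsum G hs').2.symm
  rw [h1]
  refine (hasProd_newA hdet hΨ hst κ hlam hs).2.congr_fun fun p => ?_
  by_cases hp3 : (p : ℕ) = 3
  · have hA := (hAσ p).1
    have hσ := (hAσ p).2
    rw [hp3] at hA hσ
    have hb0 := b_zero hst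
    have h4 := newA_three lam κ hb0 1
    rw [mul_one, newA_of_not_dvd lam κ b (m := 1) (by norm_num), hst.eig.1, map_one,
      mul_one] at h4
    have h5 : (p : ℕ) ∣ N₀ := by rw [hp3]; exact hst.three
    rw [h3 _ hA _ hσ, if_pos h5, hp3, h4]
    simp
  · have hp' : ¬ 3 ∣ (p : ℕ) := fun h =>
      hp3 ((Nat.prime_dvd_prime_iff_eq Nat.prime_three p.2).mp h).symm
    rw [newA_of_not_dvd lam κ b hp',
      local_factor hdet hΨ hst hram κ p.2 hp3 (hAσ p).1 (hAσ p).2]

/-- the completed `L`-function of a form of weight one and level `N`: an entire function -/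
def lamN (N : ℕ) [NeZero N] (G : CuspForm (Gamma1 N) 1) (s : ℂ) : ℂ :=
  (N : ℂ) ^ (s / 2) * (2 * ModularForm.Λ one_pos G s)

section Completed

variable {N : ℕ} [NeZero N]

theorem differentiable_lamN (G : CuspForm (Gamma1 N) 1) : Differentiable ℂ (lamN N G) := by
  have hN : (N : ℂ) ≠ 0 := Nat.cast_ne_zero.mpr (NeZero.ne N)
  have h1 : Differentiable ℂ (ModularForm.Λ one_pos G) := CuspForm.differentiable_Λ one_pos G
  have h2 : Differentiable ℂ fun s : ℂ => (N : ℂ) ^ (s / 2) := by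
    intro s
    exact ((differentiableAt_id.div_const 2).const_cpow (Or.inl hN))
  exact h2.mul (h1.const_mul 2)

theorem lamN_eq (G : CuspForm (Gamma1 N) 1) {s : ℂ} (hs : ∀ m : ℕ, s ≠ -m) :
    lamN N G s = (N : ℂ) ^ (s / 2) * Complex.Gammaℂ s * ModularForm.L one_pos G s := by
  have hG : Complex.Gammaℂ s ≠ 0 := by
    rw [Complex.Gammaℂ_def]
    refine mul_ne_zero (mul_ne_zero two_ne_zero ?_) (Complex.Gamma_ne_zero hs)
    rw [Ne, Complex.cpow_eq_zero_iff]
    exact fun h => (mul_ne_zero two_ne_zero (Complex.ofReal_ne_zero.mpr Real.pi_ne_zero)) h.1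
  rw [lamN, ModularForm.L]
  field_simp

/-- **The functional equation of the completed `L`-function.** -/
theorem lamN_one_sub {g g' : CuspForm (Gamma1 N) 1} {γ : ℂ}
    (h : (fun z : ℍ => γ * g' z) = ⇑g ∣[(1 : ℤ)] Z3.W N) (s : ℂ) :
    lamN N g (1 - s) = Complex.I * (N : ℂ) ^ (1 / 2 : ℂ) * γ * lamN N g' s := by
  have hN : (N : ℂ) ≠ 0 := Nat.cast_ne_zero.mpr (NeZero.ne N)
  have h1 := Z3.mellin_fricke h (1 - s)
  have h2 : mellin (fun t : ℝ => γ * g' (ofComplex (Complex.I * (t : ℂ)))) (1 - (1 - s)) =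
      γ * mellin (fun t : ℝ => g' (ofComplex (Complex.I * (t : ℂ)))) s := by
    have h3 := mellin_const_smul (fun t : ℝ => g' (ofComplex (Complex.I * (t : ℂ)))) s γ
    rw [show (1 : ℂ) - (1 - s) = s by ring]
    exact h3
  rw [h2, show (1 : ℂ) - (1 - s) = s by ring] at h1
  rw [lamN, lamN, CuspForm.Λ_eq_mellin, CuspForm.Λ_eq_mellin, h1]
  have e2 : (N : ℂ) ^ ((1 - s) / 2) * (N : ℂ) ^ s =
      (N : ℂ) ^ (1 / 2 : ℂ) * (N : ℂ) ^ (s / 2) := by
    rw [← Complex.cpow_add _ _ hN, ← Complex.cpow_add _ _ hN]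
    congr 1
    ring
  linear_combination (Complex.I * 2 * γ *
    mellin (fun t : ℝ => g' (ofComplex (Complex.I * (t : ℂ)))) s) * e2

/-- The completed `L`-function of the form with the conjugate coefficients. -/
theorem lamN_conj {g g' : CuspForm (Gamma1 N) 1} (h : ∀ n, qCoeff ⇑g' n = conj (qCoeff ⇑g n))
    (s : ℂ) : lamN N g' s = conj (lamN N g (conj s)) := by
  refine Zeta.eq_of_eq_re_large (σ := 2) (differentiable_lamN g')
    (differentiable_conj (differentiable_lamN g)) (fun s hs => ?_) s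
  have hs' : 2 < (conj s).re := by rwa [Complex.conj_re]
  have hne : ∀ z : ℂ, 2 < z.re → ∀ m : ℕ, z ≠ -m := by
    rintro z hz m rfl
    rw [Complex.neg_re, Complex.natCast_re] at hz
    have := Nat.cast_nonneg (α := ℝ) m
    linarith
  have hg' : qCoeff ⇑g' = fun n => conj (qCoeff ⇑g n) := funext h
  rw [lamN_eq g' (hne s hs), lamN_eq g (hne _ hs'), ← (Z3.lsum g' hs).2, ← (Z3.lsum g hs').2, hg',
    LSeries_conj', map_mul, map_mul, ← Zeta.Gammaℂ_conj, ← Zeta.natCast_cpow_conj, map_div₀,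
    map_ofNat, Complex.conj_conj]

end Completed

end Fermat.Agent.Cor.Artin

end
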