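import Fermat.Agent.Corollaries.Artin.Euler
import Fermat.Agent.LT.Period.Cheb
import Fermat.Agent.Frob.Density

/-!
# The Euler factor of Artin at `3`, and its independence of the choices

* `eulerPoly_indep`: `eulerPoly r A φ` does not depend on the place `A` above `p` and on the
  Frobenius element `φ` at `A` (`r` any homomorphism).
* `inertia_three`: if the vectors fixed by inertia at `3` are not zero, the image of inertia is
  `{1, g}` with `g` an involution of determinant `-1`, `ρ(Frob_3) ∈ {±1, ±g}`, and the Euler factor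
  is `1 - δ X`, `δ = ±1`.
-/

set_option autoImplicit false

noncomputable section

open CongruenceSubgroup UpperHalfPlane EisensteinWeightOne ModularFormClass WeierstrassCurve
open Fermat.Agent.Classic Fermat.Agent.LT.End FLT.ExplicitLift
open scoped MatrixGroups ModularForm Polynomial Pointwise

namespace Fermat.Agent.Cor.Artin

local notation "Γℚ" => (AlgebraicClosure ℚ ≃ₐ[ℚ] AlgebraicClosure ℚ)

/-! ### Independence -/

section Indep

variable (r : Γℚ →* GL (Fin 2) ℂ)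

/-- The Euler factor depends only on the class of `φ` modulo inertia. -/
theorem eulerPoly_congr {A : ValuationSubring (AlgebraicClosure ℚ)} {φ ψ : Γℚ}
    (hφ : φ ∈ A.decompositionSubgroup ℚ) (hψ : ψ ∈ A.decompositionSubgroup ℚ)
    (h : ψ⁻¹ * φ ∈ A.inertiaSubgroupIn ℚ) : eulerPoly r A φ = eulerPoly r A ψ := by
  rw [eulerPoly_eq r hφ, eulerPoly_eq r hψ]
  congr 2
  refine LinearMap.ext fun v => Subtype.ext ?_
  rw [LinearMap.restrict_coe_apply, LinearMap.restrict_coe_apply, Matrix.toLin'_apply,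
    Matrix.toLin'_apply]
  have h1 : φ = ψ * (ψ⁻¹ * φ) := by group
  conv_lhs => rw [h1, map_mul, Units.val_mul, ← Matrix.mulVec_mulVec, v.2 _ h]

theorem mulVec_r_inv (x : Γℚ) (v : Fin 2 → ℂ) : (r x).1.mulVec ((r x⁻¹).1.mulVec v) = v := by
  rw [Matrix.mulVec_mulVec, ← Units.val_mul, ← map_mul, mul_inv_cancel, map_one, Units.val_one,
    Matrix.one_mulVec]

theorem mulVec_r_inv' (x : Γℚ) (v : Fin 2 → ℂ) : (r x⁻¹).1.mulVec ((r x).1.mulVec v) = v := by
  rw [Matrix.mulVec_mulVec, ← Units.val_mul, ← map_mul, inv_mul_cancel, map_one, Units.val_one,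
    Matrix.one_mulVec]

/-- the action of `r x` as a linear equivalence -/
def rEquiv (x : Γℚ) : (Fin 2 → ℂ) ≃ₗ[ℂ] (Fin 2 → ℂ) :=
  LinearEquiv.ofLinear (Matrix.mulVecLin (r x).1) (Matrix.mulVecLin (r x⁻¹).1)
    (LinearMap.ext fun v => mulVec_r_inv r x v) (LinearMap.ext fun v => mulVec_r_inv' r x v)

theorem rEquiv_apply (x : Γℚ) (v : Fin 2 → ℂ) : rEquiv r x v = (r x).1.mulVec v := rfl

theorem rEquiv_symm_apply (x : Γℚ) (v : Fin 2 → ℂ) :
    (rEquiv r x).symm v = (r x⁻¹).1.mulVec v := rfl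

/-- the fixed vectors of the inertia group of a conjugate place -/
theorem map_invI (A : ValuationSubring (AlgebraicClosure ℚ)) (x : Γℚ) :
    (invI r A).map (rEquiv r x : (Fin 2 → ℂ) →ₗ[ℂ] (Fin 2 → ℂ)) = invI r (x • A) := by
  have key : ∀ (A : ValuationSubring (AlgebraicClosure ℚ)) (x : Γℚ) (v : Fin 2 → ℂ),
      v ∈ invI r A → (r x).1.mulVec v ∈ invI r (x • A) := by
    intro A x v hv τ hτ
    have h1 := hv _ (CFT.SKummer.conj_mem_inertia hτ)
    have h3 : (r τ).1 * (r x).1 = (r x).1 * (r (x⁻¹ * τ * x)).1 := by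
      rw [← Units.val_mul, ← Units.val_mul, ← map_mul, ← map_mul]
      congr 2
      group
    rw [Matrix.mulVec_mulVec, h3, ← Matrix.mulVec_mulVec, h1]
  apply le_antisymm
  · rintro _ ⟨v, hv, rfl⟩
    change rEquiv r x v ∈ _
    rw [rEquiv_apply]
    exact key A x v hv
  · intro w hw
    have h1 := key (x • A) x⁻¹ w hw
    rw [inv_smul_smul] at h1
    refine ⟨_, h1, ?_⟩
    change rEquiv r x ((r x⁻¹).1.mulVec w) = w
    rw [rEquiv_apply, mulVec_r_inv]

/-- Conjugation. -/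
theorem eulerPoly_conj {A : ValuationSubring (AlgebraicClosure ℚ)} {φ : Γℚ}
    (hφ : φ ∈ A.decompositionSubgroup ℚ) (x : Γℚ) :
    eulerPoly r (x • A) (x * φ * x⁻¹) = eulerPoly r A φ := by
  have hφ' : x * φ * x⁻¹ ∈ (x • A).decompositionSubgroup ℚ := by
    have h1 : φ • A = A := hφ
    change (x * φ * x⁻¹) • x • A = x • A
    rw [mul_smul, mul_smul, inv_smul_smul, h1]
  rw [eulerPoly_eq r hφ, eulerPoly_eq r hφ']
  congr 1
  rw [← ((rEquiv r x).ofSubmodules _ _ (map_invI r A x)).charpoly_conj]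
  congr 1
  refine LinearMap.ext fun w => Subtype.ext ?_
  rw [LinearMap.restrict_coe_apply, LinearEquiv.conj_apply_apply, LinearEquiv.ofSubmodules_apply,
    LinearMap.restrict_coe_apply, LinearEquiv.ofSubmodules_symm_apply, rEquiv_apply,
    rEquiv_symm_apply, Matrix.toLin'_apply, Matrix.toLin'_apply, Matrix.mulVec_mulVec,
    Matrix.mulVec_mulVec, ← Units.val_mul, ← Units.val_mul, ← map_mul, ← map_mul, mul_assoc]

/-- **The Euler factor at `p` does not depend on the place and on the Frobenius element.** -/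
theorem eulerPoly_indep {p : ℕ} (hp : p.Prime) {A B : ValuationSubring (AlgebraicClosure ℚ)}
    (hA : A.LiesOverPrime p) (hB : B.LiesOverPrime p) {φ ψ : Γℚ} (hφ : A.IsFrobeniusAt φ p)
    (hψ : B.IsFrobeniusAt ψ p) : eulerPoly r A φ = eulerPoly r B ψ := by
  obtain ⟨x, rfl⟩ := Frob.exists_smul_eq hp hA hB
  have h1 := FrobDensity.isFrobeniusAt_conj (g := x) hφ
  rw [← eulerPoly_conj r hφ.mem_decompositionSubgroup x]
  exact eulerPoly_congr r h1.mem_decompositionSubgroup hψ.mem_decompositionSubgroup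
    (LT.Period.frob_mul_inv_mem_inertia h1 hψ)

/-- The vanishing of the fixed vectors of inertia does not depend on the place. -/
theorem invI_eq_bot_iff {p : ℕ} (hp : p.Prime) {A B : ValuationSubring (AlgebraicClosure ℚ)}
    (hA : A.LiesOverPrime p) (hB : B.LiesOverPrime p) : invI r A = ⊥ ↔ invI r B = ⊥ := by
  obtain ⟨x, rfl⟩ := Frob.exists_smul_eq hp hA hB
  rw [← map_invI r A x]
  constructor
  · intro h
    rw [h, Submodule.map_bot]
  · intro h
    exact Submodule.map_injective_of_injective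
      (f := (rEquiv r x : (Fin 2 → ℂ) →ₗ[ℂ] (Fin 2 → ℂ))) (rEquiv r x).injective
      (h.trans (Submodule.map_bot _).symm)

/-- The Euler factor when a Frobenius element acts as a scalar on a line. -/
theorem eulerPoly_of_smul {A : ValuationSubring (AlgebraicClosure ℚ)} {σ : Γℚ}
    (hσ : σ ∈ A.decompositionSubgroup ℚ) (h1 : Module.finrank ℂ (invI r A) = 1) {δ : ℂ}
    (hδ : ∀ v ∈ invI r A, (r σ).1.mulVec v = δ • v) :
    eulerPoly r A σ = 1 - Polynomial.C δ * Polynomial.X := by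
  rw [eulerPoly_eq r hσ]
  set T := (Matrix.toLin' (r σ : Matrix (Fin 2) (Fin 2) ℂ)).restrict
      (fun _ hv => mulVec_mem_invI r hσ hv) with hT
  have hTδ : T = δ • LinearMap.id := by
    refine LinearMap.ext fun v => Subtype.ext ?_
    rw [hT, LinearMap.restrict_coe_apply, Matrix.toLin'_apply, hδ _ v.2]
    rfl
  have h2 : T.charpoly.natDegree = 1 := by rw [LinearMap.charpoly_natDegree, h1]
  have h3 : T.charpoly = Polynomial.X + Polynomial.C (T.charpoly.coeff 0) :=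
    (LinearMap.charpoly_monic T).eq_X_add_C h2
  set c := T.charpoly.coeff 0 with hc
  have h4 := LinearMap.aeval_self_charpoly T
  rw [h3, map_add, Polynomial.aeval_X, Polynomial.aeval_C] at h4
  have : Nontrivial (invI r A) := Module.nontrivial_of_finrank_pos (R := ℂ) (by rw [h1]; exact one_pos)
  obtain ⟨v, hv⟩ := exists_ne (0 : invI r A)
  have h5 : (δ + c) • v = 0 := by
    have h6 := LinearMap.congr_fun h4 v
    rw [hTδ] at h6
    rw [add_smul]
    exact h6
  have h6 : c = -δ := by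
    rcases smul_eq_zero.mp h5 with h | h
    · linear_combination h
    · exact absurd h hv
  rw [h3, h6]
  have h7 : Polynomial.reverse (Polynomial.X : ℂ[X]) = 1 := by
    rw [← one_mul (Polynomial.X : ℂ[X]), Polynomial.reverse_mul_X, ← Polynomial.C_1,
      Polynomial.reverse_C]
  rw [Polynomial.reverse_add_C, h7, Polynomial.natDegree_X, pow_one, Polynomial.C_neg]
  ring

end Indep

/-! ### Inertia at `3` -/

section Three

variable {ρ : Γℚ →* GL (Fin 2) (ZMod 3)} {Ψ : GL (Fin 2) (ZMod 3) →* GL (Fin 2) (ℤ√(-2))}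

/-- an element of determinant one with a fixed vector is trivial. -/
theorem eq_one_of_fixed (hΨ : ∀ g, Matrix.GeneralLinearGroup.map red (Ψ g) = g)
    (ι : ℤ√(-2) →+* ℂ) {g : GL (Fin 2) (ZMod 3)} (hd : g.1.det = 1) {v : Fin 2 → ℂ} (hv0 : v ≠ 0)
    (hv : (rep Ψ ι g).1.mulVec v = v) : g = 1 := by
  have h3 : (Ψ g).1.det = 1 := by
    have := Zeta.det_section hΨ (p := 1) g (by rw [hd, Nat.cast_one])
    rw [this]
    have h1 : chiNegThree 1 = 1 := by decide
    rw [h1, Int.cast_one]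
  have h4 : (rep Ψ ι g).1.det = 1 := by
    rw [← map_one ι, ← h3]
    change ((Ψ g).1.map ι).det = _
    rw [← RingHom.mapMatrix_apply, RingHom.map_det]
  have h6 : ((rep Ψ ι g).1 - 1).det = 0 := by
    refine Matrix.exists_mulVec_eq_zero_iff.mp ⟨v, hv0, ?_⟩
    rw [Matrix.sub_mulVec, hv, Matrix.one_mulVec, sub_self]
  have h7 : (rep Ψ ι g).1.trace = 2 := by
    rw [Matrix.det_fin_two] at h6 h4
    rw [Matrix.trace_fin_two]
    simp only [Matrix.sub_apply, Matrix.one_apply_eq,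
      Matrix.one_apply_ne (show (0 : Fin 2) ≠ 1 by decide),
      Matrix.one_apply_ne (show (1 : Fin 2) ≠ 0 by decide), sub_zero] at h6
    linear_combination h4 - h6
  obtain ⟨n, hn, h8⟩ := finite_order (rep Ψ ι) g
  have h9 : rep Ψ ι g = rep Ψ ι 1 := by
    rw [map_one]
    exact Units.ext (eq_one_of_trace_two hn h8 h7)
  exact rep_injective hΨ ι h9

set_option synthInstance.maxHeartbeats 400000 in
set_option synthInstance.maxSize 4096 in
set_option maxRecDepth 100000 in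
theorem fin_centr : ∀ a b c e f k l : ZMod 3, a * a + b * c = 1 →
    b * k = f * c → a * f + b * l = e * b - f * a → c * e - a * k = k * a + l * c →
    e * l - f * k ≠ 0 →
    (e, f, k, l) = (1, 0, 0, 1) ∨ (e, f, k, l) = (a, b, c, -a) ∨
      (e, f, k, l) = (-1, 0, 0, -1) ∨ (e, f, k, l) = (-a, -b, -c, a) := by
  decide

/-- the centraliser of an involution of determinant `-1` -/
theorem centr_involution {g h : GL (Fin 2) (ZMod 3)} (hg : g * g = 1) (hd : g.1.det = -1)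
    (hc : g * h = h * g) : h = 1 ∨ h = g ∨ h = -1 ∨ h = -g := by
  have e1 := congrArg (fun x : GL (Fin 2) (ZMod 3) => x.1) hg
  have e2 := congrArg (fun x : GL (Fin 2) (ZMod 3) => x.1) hc
  simp only [Units.val_mul, Units.val_one] at e1 e2
  have a00 := congrFun (congrFun e1 0) 0
  have a01 := congrFun (congrFun e1 0) 1
  have a10 := congrFun (congrFun e1 1) 0
  have a11 := congrFun (congrFun e1 1) 1
  have c00 := congrFun (congrFun e2 0) 0
  have c01 := congrFun (congrFun e2 0) 1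
  have c10 := congrFun (congrFun e2 1) 0
  have hd' := hd
  have hh := det_ne_zero h
  rw [Matrix.det_fin_two] at hd' hh
  simp only [Matrix.mul_apply, Fin.sum_univ_two, Matrix.one_apply_eq,
    Matrix.one_apply_ne (show (0 : Fin 2) ≠ 1 by decide),
    Matrix.one_apply_ne (show (1 : Fin 2) ≠ 0 by decide)] at a00 a01 a10 a11 c00 c01 c10
  -- the trace vanishes
  have ht : g.1 1 1 = -g.1 0 0 := by
    have h1 : (g.1 0 0 + g.1 1 1) * g.1 0 0 = 0 := by linear_combination a00 + hd'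
    have h2 : (g.1 0 0 + g.1 1 1) * g.1 1 1 = 0 := by linear_combination a11 + hd'
    by_contra hne
    have h3 : g.1 0 0 + g.1 1 1 ≠ 0 := fun h => hne (by linear_combination h)
    have h4 := (mul_eq_zero.mp h1).resolve_left h3
    have h5 := (mul_eq_zero.mp h2).resolve_left h3
    exact h3 (by rw [h4, h5, add_zero])
  rw [ht] at c01 c10
  have key := fin_centr (g.1 0 0) (g.1 0 1) (g.1 1 0) (h.1 0 0) (h.1 0 1) (h.1 1 0) (h.1 1 1)
    a00 (by linear_combination c00) (by linear_combination c01) (by linear_combination c10) hh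
  have hext : ∀ x y : GL (Fin 2) (ZMod 3), (x.1 0 0, x.1 0 1, x.1 1 0, x.1 1 1) =
      (y.1 0 0, y.1 0 1, y.1 1 0, y.1 1 1) → x = y := by
    intro x y hxy
    simp only [Prod.mk.injEq] at hxy
    refine Units.ext (Matrix.ext fun i j => ?_)
    fin_cases i <;> fin_cases j
    · exact hxy.1
    · exact hxy.2.1
    · exact hxy.2.2.1
    · exact hxy.2.2.2
  rcases key with k | k | k | k
  · exact Or.inl (hext _ _ (k.trans (by simp)))
  · exact Or.inr (Or.inl (hext _ _ (k.trans (by rw [ht]))))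
  · exact Or.inr (Or.inr (Or.inl (hext _ _ (k.trans (by simp)))))
  · exact Or.inr (Or.inr (Or.inr (hext _ _ (k.trans (by simp [ht])))))

/-- **Inertia at `3` with a fixed vector.** -/
theorem inertia_three
    (hdet : ∀ σ : Γℚ, Matrix.GeneralLinearGroup.det (ρ σ) = modThreeCyclotomicChar σ)
    (hΨ : ∀ g, Matrix.GeneralLinearGroup.map red (Ψ g) = g) (ι : ℤ√(-2) →+* ℂ)
    {A : ValuationSubring (AlgebraicClosure ℚ)} (hA : A.LiesOverPrime 3)
    (h : invI ((rep Ψ ι).comp ρ) A ≠ ⊥) :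
    ∃ g : GL (Fin 2) (ZMod 3), Matrix.GeneralLinearGroup.det g = -1 ∧ g * g = 1 ∧
      (∀ σ ∈ A.inertiaSubgroupIn ℚ, ρ σ = 1 ∨ ρ σ = g) ∧
      (∃ σ ∈ A.inertiaSubgroupIn ℚ, ρ σ = g) ∧
      ∀ φ : Γℚ, A.IsFrobeniusAt φ 3 → ∃ δ : ℂ,
        ((δ = 1 ∧ (ρ φ = 1 ∨ ρ φ = g)) ∨ (δ = -1 ∧ (ρ φ = -1 ∨ ρ φ = -g))) ∧
        eulerPoly ((rep Ψ ι).comp ρ) A φ = 1 - Polynomial.C δ * Polynomial.X := by
  obtain ⟨v, hv, hv0⟩ := (Submodule.ne_bot_iff _).mp h
  -- inertia elements of determinant one are trivial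
  have key : ∀ τ ∈ A.inertiaSubgroupIn ℚ, (ρ τ).1.det = 1 → ρ τ = 1 := fun τ hτ hd =>
    eq_one_of_fixed hΨ ι hd hv0 (hv τ hτ)
  have hDet : Level.DetAt ρ 3 := Level.DetAtP.detAt Nat.prime_three hA
    fun σ hσ hd => key σ hσ (congrArg Units.val hd)
  obtain ⟨g, hg2, hgd, hg1, hJ⟩ := hDet.exists_involution hdet hA
  obtain ⟨σ₀, hσ₀, hσg⟩ := (hJ g).mpr (Or.inr rfl)
  have hgI : ∀ w ∈ invI ((rep Ψ ι).comp ρ) A, (rep Ψ ι g).1.mulVec w = w := by
    intro w hw
    have h1 := hw σ₀ hσ₀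
    rwa [MonoidHom.comp_apply, hσg] at h1
  -- the fixed vectors are a line
  have hrank : Module.finrank ℂ (invI ((rep Ψ ι).comp ρ) A) = 1 := by
    have h1 : 1 ≤ Module.finrank ℂ (invI ((rep Ψ ι).comp ρ) A) :=
      Submodule.one_le_finrank_iff.mpr h
    have h2 : Module.finrank ℂ (invI ((rep Ψ ι).comp ρ) A) < 2 := by
      have h3 : invI ((rep Ψ ι).comp ρ) A ≠ ⊤ := by
        intro htop
        apply hg1
        apply rep_injective hΨ ι
        rw [map_one]
        refine Units.ext (Matrix.toLin'.injective (LinearMap.ext fun w => ?_))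
        rw [Matrix.toLin'_apply, Units.val_one, Matrix.toLin'_one, LinearMap.id_apply]
        exact hgI w (by rw [htop]; trivial)
      have h4 := Submodule.finrank_lt h3
      rwa [Module.finrank_fin_fun] at h4
    omega
  refine ⟨g, Units.ext hgd, hg2, fun σ hσ => (hJ _).mp ⟨σ, hσ, rfl⟩, ⟨σ₀, hσ₀, hσg⟩, ?_⟩
  intro φ hφ
  have hφd := hφ.mem_decompositionSubgroup
  -- Frobenius commutes with `g`
  have hcomm : g * ρ φ = ρ φ * g := by
    have h1 : φ⁻¹ * σ₀ * φ ∈ A.inertiaSubgroupIn ℚ := by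
      obtain ⟨τ', hτ', hτ''⟩ := hσ₀
      refine ⟨(⟨φ, hφd⟩ : A.decompositionSubgroup ℚ)⁻¹ * τ' * ⟨φ, hφd⟩, ?_, by rw [← hτ'']; rfl⟩
      have hn : (A.inertiaSubgroup ℚ).Normal := MonoidHom.normal_ker _
      exact hn.conj_mem' τ' hτ' ⟨φ, hφd⟩
    have h2 : ρ (φ⁻¹ * σ₀ * φ) = (ρ φ)⁻¹ * g * ρ φ := by
      rw [map_mul, map_mul, map_inv, hσg]
    rcases (hJ _).mp ⟨_, h1, rfl⟩ with h3 | h3
    · exfalso
      rw [h2] at h3
      apply hg1
      have h4 : g = ρ φ * ((ρ φ)⁻¹ * g * ρ φ) * (ρ φ)⁻¹ := by group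
      rw [h4, h3, mul_one, mul_inv_cancel]
    · rw [h2] at h3
      calc g * ρ φ = ρ φ * ((ρ φ)⁻¹ * g * ρ φ) := by group
        _ = ρ φ * g := by rw [h3]
  have hneg : ∀ (x : GL (Fin 2) (ZMod 3)) (w : Fin 2 → ℂ), (rep Ψ ι x).1.mulVec w = w →
      (rep Ψ ι (-x)).1.mulVec w = (-1 : ℂ) • w := by
    intro x w hw
    rw [map_neg (rep_neg_one Ψ hΨ ι), Units.val_neg, Matrix.neg_mulVec, hw, neg_one_smul]
  have hone : ∀ w : Fin 2 → ℂ, (rep Ψ ι 1).1.mulVec w = w := by
    intro w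
    rw [map_one, Units.val_one, Matrix.one_mulVec]
  rcases centr_involution hg2 hgd hcomm with h1 | h1 | h1 | h1
  · refine ⟨1, Or.inl ⟨rfl, Or.inl h1⟩, eulerPoly_of_smul _ hφd hrank fun w _ => ?_⟩
    rw [MonoidHom.comp_apply, h1, hone, one_smul]
  · refine ⟨1, Or.inl ⟨rfl, Or.inr h1⟩, eulerPoly_of_smul _ hφd hrank fun w hw => ?_⟩
    rw [MonoidHom.comp_apply, h1, hgI w hw, one_smul]
  · refine ⟨-1, Or.inr ⟨rfl, Or.inl h1⟩, eulerPoly_of_smul _ hφd hrank fun w _ => ?_⟩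
    rw [MonoidHom.comp_apply, h1, hneg 1 w (hone w)]
  · refine ⟨-1, Or.inr ⟨rfl, Or.inr h1⟩, eulerPoly_of_smul _ hφd hrank fun w hw => ?_⟩
    rw [MonoidHom.comp_apply, h1, hneg g w (hgI w hw)]

theorem rep_comp (ι : ℤ√(-2) →+* ℂ) :
    (rep Ψ ι).comp ρ = (Matrix.GeneralLinearGroup.map ι).comp (Ψ.comp ρ) := rfl

theorem C_delta_injective {δ δ' : ℂ}
    (h : 1 - Polynomial.C δ * Polynomial.X = 1 - Polynomial.C δ' * Polynomial.X) : δ = δ' := by
  have h1 := congrArg (fun P : ℂ[X] => P.eval 1) h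
  simp only [Polynomial.eval_sub, Polynomial.eval_one, Polynomial.eval_mul, Polynomial.eval_C,
    Polynomial.eval_X, mul_one] at h1
  linear_combination -h1

/-- **The Euler factor at `3`**: either `1` for all places and Frobenius elements, or
`1 - δ X` for all of them, with one `δ = ±1`. -/
theorem exists_delta
    (hdet : ∀ σ : Γℚ, Matrix.GeneralLinearGroup.det (ρ σ) = modThreeCyclotomicChar σ)
    (hΨ : ∀ g, Matrix.GeneralLinearGroup.map red (Ψ g) = g) (ι : ℤ√(-2) →+* ℂ)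
    {A : ValuationSubring (AlgebraicClosure ℚ)} (hA : A.LiesOverPrime 3)
    (h : invI ((rep Ψ ι).comp ρ) A ≠ ⊥) :
    ∃ δ : ℂ, (δ = 1 ∨ δ = -1) ∧ ∀ B : ValuationSubring (AlgebraicClosure ℚ), B.LiesOverPrime 3 →
      ∀ φ : Γℚ, B.IsFrobeniusAt φ 3 →
        eulerPoly ((rep Ψ ι).comp ρ) B φ = 1 - Polynomial.C δ * Polynomial.X := by
  obtain ⟨A₀, hA₀, φ₀, hφ₀⟩ := Frob.exists_frobenius 3 Nat.prime_three
  have h0 : invI ((rep Ψ ι).comp ρ) A₀ ≠ ⊥ := fun h1 =>
    h ((invI_eq_bot_iff _ Nat.prime_three hA hA₀).mpr h1)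
  obtain ⟨g, -, -, -, -, hg⟩ := inertia_three hdet hΨ ι hA₀ h0
  obtain ⟨δ, hδ, he⟩ := hg φ₀ hφ₀
  refine ⟨δ, hδ.imp And.left And.left, fun B hB φ hφ => ?_⟩
  rw [eulerPoly_indep _ Nat.prime_three hB hA₀ hφ hφ₀, he]

end Three

end Fermat.Agent.Cor.Artin
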