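import Fermat.Agent.Classic.Level.Disc.Count3
import Fermat.Agent.Classic.Level.StepZ3

/-!
# The number of places above `3` in the four fields (block B3)

`A` above `q`: the places of `F` above `q` correspond to the orbits of the decomposition group of
`A` on the embeddings of `F` (`card_places`). For `ρ` with inertia `{1, g}` at `3` and Frobenius
`±1` or `±g` the number of places `v` above `3` with `δ ^ f_v = 1`, `δ = ±1`, in the four fields.
-/

set_option autoImplicit false

noncomputable section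

namespace Fermat.Agent.Cor.Artin

open NumberField IsDedekindDomain Fermat.Agent.Frob Fermat.Agent.FrobDensity
open Fermat.Agent.Minkowski Fermat.Agent.LT.Tower.Fr Fermat.Agent.Classic.Disc
open Fermat.Agent.Classic.Level

local notation "G3" => Matrix.GeneralLinearGroup (Fin 2) (ZMod 3)

section Field

variable {F : Type*} [Field F] [NumberField F]

theorem mem_decomposition_of_inertia {A : ValuationSubring (AlgebraicClosure ℚ)} {σ : GQ}
    (hσ : σ ∈ A.inertiaSubgroupIn ℚ) : σ ∈ A.decompositionSubgroup ℚ := by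
  obtain ⟨σ', -, rfl⟩ := hσ
  exact σ'.2

/-- Two embeddings above the same place have reductions which differ by a power of Frobenius. -/
theorem exists_redτ_frob {q : ℕ} (hq : q.Prime) {A : ValuationSubring (AlgebraicClosure ℚ)}
    (hA : A.LiesOverPrime q) {φ : GQ} (hφ : A.IsFrobeniusAt φ q)
    {i j : F →+* AlgebraicClosure ℚ} {v : HeightOneSpectrum (𝓞 F)} (hi : Over i A v)
    (hj : Over j A v) : ∃ n : ℕ, redτ A ((gh (φ ^ n)).comp i) = redτ A j := by
  have hqf : Fact q.Prime := ⟨hq⟩
  have hchA : CharP (IsLocalRing.ResidueField A) q := charP_residue hq hA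
  let _ := fieldQuot v
  obtain ⟨n, hn⟩ := exists_pow_of_finite q hi.res hj.res
  refine ⟨n, ?_⟩
  ext x
  rw [redτ_frob_pow hφ]
  exact (hn (Ideal.Quotient.mk v.asIdeal x)).symm

/-- Two embeddings above the same place differ by inertia and a power of Frobenius. -/
theorem exists_inertia_frob {q : ℕ} (hq : q.Prime) {A : ValuationSubring (AlgebraicClosure ℚ)}
    (hA : A.LiesOverPrime q) {φ : GQ} (hφ : A.IsFrobeniusAt φ q)
    {i j : F →+* AlgebraicClosure ℚ} {v : HeightOneSpectrum (𝓞 F)} (hi : Over i A v)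
    (hj : Over j A v) : ∃ τ ∈ A.inertiaSubgroupIn ℚ, ∃ n : ℕ,
      (gh (τ * φ ^ n)).comp i = j := by
  obtain ⟨n, hn⟩ := exists_redτ_frob hq hA hφ hi hj
  obtain ⟨τ, hτ, h⟩ := exists_inertia_of_redτ_eq hq hA hn
  refine ⟨τ, hτ, n, ?_⟩
  rw [← h]
  rfl

theorem over_comp {A : ValuationSubring (AlgebraicClosure ℚ)} {σ : GQ}
    (hσ : σ ∈ A.decompositionSubgroup ℚ) {i : F →+* AlgebraicClosure ℚ}
    {v : HeightOneSpectrum (𝓞 F)} (hi : Over i A v) : Over ((gh σ).comp i) A v := by
  have h := hi.smul σ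
  rwa [mem_decomposition_iff.mp hσ] at h

variable (F) in
/-- Embeddings which differ by an element of the decomposition group of `A`. -/
def orbD (A : ValuationSubring (AlgebraicClosure ℚ)) : Setoid (F →+* AlgebraicClosure ℚ) where
  r i j := ∃ σ ∈ A.decompositionSubgroup ℚ, ∀ x, j x = σ (i x)
  iseqv :=
    { refl := fun i => ⟨1, one_mem _, fun _ => rfl⟩
      symm := by
        rintro i j ⟨σ, hσ, h⟩
        refine ⟨σ⁻¹, inv_mem hσ, fun x => ?_⟩
        rw [h]
        exact (σ.symm_apply_apply (i x)).symm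
      trans := by
        rintro i j k ⟨σ, hσ, h⟩ ⟨σ', hσ', h'⟩
        refine ⟨σ' * σ, mul_mem hσ' hσ, fun x => ?_⟩
        rw [h', h]
        rfl }

/-- **The places above `q` are the orbits of the decomposition group on the embeddings.** -/
theorem card_places {q : ℕ} (hq : q.Prime) {A : ValuationSubring (AlgebraicClosure ℚ)}
    (hA : A.LiesOverPrime q) : Nat.card (Quotient (orbD F A)) = (above F q).card := by
  classical
  obtain ⟨φ, hφ⟩ := exists_isFrobeniusAt hq hA
  choose pl hpl using fun i : F →+* AlgebraicClosure ℚ => exists_over_of_liesOver i hq hA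
  have h1 : orbD F A = Setoid.ker pl := by
    ext i j
    constructor
    · rintro ⟨σ, hσ, h⟩
      have h2 : j = (gh σ).comp i := RingHom.ext h
      have h3 : Over j A (pl i) := by
        rw [h2]
        exact over_comp hσ (hpl i)
      exact h3.unique (hpl j)
    · intro h
      have h2 : pl i = pl j := h
      have h3 := hpl j
      rw [← h2] at h3
      obtain ⟨τ, hτ, n, h4⟩ := exists_inertia_frob hq hA hφ (hpl i) h3
      exact ⟨τ * φ ^ n, mul_mem (mem_decomposition_of_inertia hτ)
        (pow_mem hφ.mem_decompositionSubgroup n), fun x => (RingHom.congr_fun h4 x).symm⟩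
  have h2 : Set.range pl = (above F q : Set (HeightOneSpectrum (𝓞 F))) := by
    ext v
    constructor
    · rintro ⟨i, rfl⟩
      exact (mem_above hq.ne_zero).mpr ((hpl i).natCast_mem_iff.mpr hA)
    · intro hv
      have hv' : v ∈ above F q := hv
      have := v.isPrime
      obtain ⟨i, hi⟩ : ∃ i : F →+* AlgebraicClosure ℚ, Over i A v :=
        exists_redτ hq hA (I := v.asIdeal) ((mem_above hq.ne_zero).mp hv')
      exact ⟨i, (hpl i).unique hi⟩
  rw [h1, Nat.card_congr (Setoid.quotientKerEquivRange _), h2, Nat.card_coe_set_eq,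
    Set.ncard_coe_finset]

/-- A bound for the residue degree. -/
theorem fdeg_le {q : ℕ} (hq : q.Prime) {A : ValuationSubring (AlgebraicClosure ℚ)}
    (hA : A.LiesOverPrime q) {φ : GQ} (hφ : A.IsFrobeniusAt φ q)
    {i : F →+* AlgebraicClosure ℚ} {v : HeightOneSpectrum (𝓞 F)} (hi : Over i A v) {m : ℕ}
    (hm : 0 < m) (h : redτ A ((gh (φ ^ m)).comp i) = redτ A i) : fdeg v ≤ m := by
  by_contra hlt
  push Not at hlt
  have hqf : Fact q.Prime := ⟨hq⟩
  have hchA : CharP (IsLocalRing.ResidueField A) q := charP_residue hq hA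
  let _ := fieldQuot v
  have hchk : CharP (𝓞 F ⧸ v.asIdeal) q :=
    (RingHom.charP_iff hi.res hi.res.injective q).mpr hchA
  have hqv : (q : 𝓞 F) ∈ v.asIdeal := hi.natCast_mem_iff.mpr hA
  have h1 := frob_pow_injective (k := 𝓞 F ⧸ v.asIdeal) (q := q) (f := fdeg v)
    (by rw [natCard_quot, absNorm_eq hq hqv]) hlt (fdeg_pos v) (fun x => by
      obtain ⟨x, rfl⟩ := Ideal.Quotient.mk_surjective x
      apply hi.res.injective
      rw [map_pow, map_pow, Over.res_mk, ← redτ_frob_pow hφ, h, pow_zero, pow_one])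
  omega

end Field

section Group

theorem one_ne_neg_one : (1 : G3) ≠ -1 := by
  intro h
  have h1 := congrArg (fun x : G3 => x.1 0 0) h
  simp only [Units.val_one, Units.val_neg, Matrix.neg_apply, Matrix.one_apply_eq] at h1
  exact absurd h1 (by decide)

theorem det_neg (g : G3) : Matrix.GeneralLinearGroup.det (-g) =
    Matrix.GeneralLinearGroup.det g := by
  ext
  change (-g.1).det = g.1.det
  rw [Matrix.det_neg]
  simp

theorem det_ne_of {g : G3} (hg : Matrix.GeneralLinearGroup.det g = -1) : g ≠ 1 ∧ g ≠ -1 := by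
  constructor
  · rintro rfl
    rw [map_one] at hg
    exact absurd hg (by decide)
  · rintro rfl
    rw [det_neg, map_one] at hg
    exact absurd hg (by decide)

variable {H : Subgroup G3}

theorem neg_one_smul_eq (y : G3) : (-1 : G3) • ((y : G3) : G3 ⧸ H) = ((y : G3) : G3 ⧸ H) ↔
    (-1 : G3) ∈ H := by
  have h1 : (-1 : G3) • ((y : G3) : G3 ⧸ H) = ((-1 * y : G3) : G3 ⧸ H) := rfl
  rw [h1, QuotientGroup.eq]
  have h2 : (-1 * y)⁻¹ * y = (-1 : G3) := by
    rw [mul_inv_rev, inv_neg, inv_one, mul_assoc, neg_one_mul, mul_neg, inv_mul_cancel]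
  rw [h2]

theorem pH_neg_one_of_mem (h : (-1 : G3) ∈ H) : pH H (-1) = H.index := by
  rw [pH, Subgroup.index]
  refine Nat.card_congr ⟨fun x => x.1, fun x => ⟨x, ?_⟩, fun _ => rfl, fun _ => rfl⟩
  obtain ⟨y, rfl⟩ := QuotientGroup.mk_surjective x
  exact (neg_one_smul_eq y).mpr h

theorem pH_neg_one_of_notMem (h : (-1 : G3) ∉ H) : pH H (-1) = 0 := by
  rw [pH, Nat.card_eq_zero]
  left
  constructor
  rintro ⟨x, hx⟩
  obtain ⟨y, rfl⟩ := QuotientGroup.mk_surjective x
  exact h ((neg_one_smul_eq y).mp hx)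

/-- Burnside's lemma for the group `{±1, ±g}`. -/
theorem four_mul_card_orbits (H J : Subgroup G3) {g : G3}
    (hg : Matrix.GeneralLinearGroup.det g = -1)
    (hJ : ∀ a, a ∈ J ↔ a = 1 ∨ a = -1 ∨ a = g ∨ a = -g) :
    Nat.card (MulAction.orbitRel.Quotient J (G3 ⧸ H)) * 4 =
      H.index + (pH H (-1) + (pH H g + pH H (-g))) := by
  classical
  have hg' : Matrix.GeneralLinearGroup.det (-g) = -1 := by rw [det_neg, hg]
  obtain ⟨h1, h2⟩ := det_ne_of hg
  obtain ⟨h3, h4⟩ := det_ne_of hg'
  have h5 : g ≠ -g := by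
    intro h
    apply one_ne_neg_one
    have h6 : g * g⁻¹ = -g * g⁻¹ := by rw [← h]
    rwa [mul_inv_cancel, neg_mul, mul_inv_cancel] at h6
  have hs : (J : Set G3) = (({1, -1, g, -g} : Finset G3) : Set G3) := by
    ext a
    rw [SetLike.mem_coe, hJ]
    simp
  have hcard : Nat.card J = 4 := by
    have : Nat.card J = Set.ncard (J : Set G3) := rfl
    rw [this, hs, Set.ncard_coe_finset, Finset.card_insert_of_notMem, Finset.card_insert_of_notMem,
      Finset.card_pair h5]
    · simp [h2.symm, h4.symm]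
    · simp [one_ne_neg_one, h1.symm, h3.symm]
  have h := card_orbits_mul_card H J
  rw [hcard] at h
  rw [h]
  have h6 : (∑ᶠ a : J, pH H (a : G3)) = ∑ᶠ a ∈ (J : Set G3), pH H a :=
    finsum_set_coe_eq_finsum_mem (J : Set G3)
  rw [h6, hs, finsum_mem_coe_finset, Finset.sum_insert, Finset.sum_insert, Finset.sum_pair h5,
    pH_one]
  · simp [h2.symm, h4.symm]
  · simp [one_ne_neg_one, h1.symm, h3.symm]

end Group

section Count

variable {ρ : GQ →* G3}

theorem comp_eq_of_eq {H : Subgroup G3} (T : FixField ρ H) (hs : Function.Surjective ρ)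
    {σ τ : GQ} (h : ρ σ = ρ τ) (i : T.F →+* AlgebraicClosure ℚ) :
    (gh σ).comp i = (gh τ).comp i := by
  obtain ⟨x, rfl⟩ := (T.emb hs).surjective i
  have h1 := T.emb_smul hs σ x
  have h2 := T.emb_smul hs τ x
  rw [h] at h1
  exact h1.symm.trans h2

/-- The image of the decomposition group. -/
theorem mem_map_decomposition (hρ : Continuous ρ)
    {A : ValuationSubring (AlgebraicClosure ℚ)} (hA : A.LiesOverPrime 3) {g : G3}
    (hg2 : g * g = 1) (hI : ∀ σ ∈ A.inertiaSubgroupIn ℚ, ρ σ = 1 ∨ ρ σ = g)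
    (hI' : ∃ σ ∈ A.inertiaSubgroupIn ℚ, ρ σ = g) {φ : GQ} (hφ : A.IsFrobeniusAt φ 3)
    (h : ρ φ = -1 ∨ ρ φ = -g) (a : G3) :
    a ∈ (A.decompositionSubgroup ℚ).map ρ ↔ a = 1 ∨ a = -1 ∨ a = g ∨ a = -g := by
  have hφ2 : ρ φ * ρ φ = 1 := by
    rcases h with h | h <;> rw [h, neg_mul_neg]
    · rw [mul_one]
    · exact hg2
  have hpow : ∀ n : ℕ, ρ φ ^ n = 1 ∨ ρ φ ^ n = ρ φ := by
    intro n
    induction n with
    | zero => left; rw [pow_zero]
    | succ n ih =>
      rcases ih with ih | ih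
      · right; rw [pow_succ, ih, one_mul]
      · left; rw [pow_succ, ih, hφ2]
  obtain ⟨τ₀, hτ₀, hg⟩ := hI'
  constructor
  · rintro ⟨σ, hσ, rfl⟩
    obtain ⟨T⟩ := exists_fixField hρ (⊥ : Subgroup G3)
    obtain ⟨v, hv⟩ := exists_over_of_liesOver T.i Nat.prime_three hA
    obtain ⟨τ, hτ, n, hn⟩ := exists_inertia_frob Nat.prime_three hA hφ hv (over_comp hσ hv)
    have h1 : ρ (σ⁻¹ * (τ * φ ^ n)) ∈ (⊥ : Subgroup G3) := by
      refine (T.fix _).mp fun x => ?_
      have h2 : (τ * φ ^ n) (T.i x) = σ (T.i x) := RingHom.congr_fun hn x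
      change (σ⁻¹ * (τ * φ ^ n)) (T.i x) = T.i x
      rw [AlgEquiv.mul_apply, h2, ← AlgEquiv.mul_apply, inv_mul_cancel, AlgEquiv.one_apply]
    rw [Subgroup.mem_bot, map_mul, map_inv, inv_mul_eq_one, map_mul, map_pow] at h1
    rw [h1]
    rcases hI τ hτ with e1 | e1 <;> rcases hpow n with e2 | e2 <;> rw [e1, e2]
    · left; rw [mul_one]
    · rw [one_mul]
      rcases h with h | h <;> rw [h]
      · right; left; rfl
      · right; right; right; rfl
    · right; right; left; rw [mul_one]
    · rcases h with h | h <;> rw [h]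
      · right; right; right; rw [mul_neg, mul_one]
      · right; left; rw [mul_neg, hg2]
  · have hD : ∀ {x : G3}, (∃ τ ∈ A.inertiaSubgroupIn ℚ, ∃ n : ℕ, ρ τ * ρ φ ^ n = x) →
        x ∈ (A.decompositionSubgroup ℚ).map ρ := by
      rintro x ⟨τ, hτ, n, rfl⟩
      exact ⟨τ * φ ^ n, mul_mem (mem_decomposition_of_inertia hτ)
        (pow_mem hφ.mem_decompositionSubgroup n), by rw [map_mul, map_pow]⟩
    rintro (rfl | rfl | rfl | rfl)
    · exact one_mem _
    · rcases h with h | h
      · exact hD ⟨1, one_mem _, 1, by rw [map_one, one_mul, pow_one, h]⟩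
      · exact hD ⟨τ₀, hτ₀, 1, by rw [hg, pow_one, h, mul_neg, hg2]⟩
    · exact hD ⟨τ₀, hτ₀, 0, by rw [pow_zero, mul_one, hg]⟩
    · rcases h with h | h
      · exact hD ⟨τ₀, hτ₀, 1, by rw [hg, pow_one, h, mul_neg, mul_one]⟩
      · exact hD ⟨1, one_mem _, 1, by rw [map_one, one_mul, pow_one, h]⟩

/-- the number of the places with `δ ^ f = 1` -/
theorem card_filter_one {F : Type*} [Field F] [NumberField F] [DecidablePred fun
    v : HeightOneSpectrum (𝓞 F) => (1 : ℂ) ^ fdeg v = 1] (h : ∀ v ∈ above F 3, fdeg v ≤ 1) :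
    ((above F 3).filter fun v => (1 : ℂ) ^ fdeg v = 1).card = fSum F 3 := by
  rw [Finset.filter_true_of_mem fun v _ => one_pow _, fSum, Finset.card_eq_sum_ones]
  refine Finset.sum_congr rfl fun v hv => ?_
  have := fdeg_pos v
  have := h v hv
  omega

theorem card_filter_neg_one {F : Type*} [Field F] [NumberField F] [DecidablePred fun
    v : HeightOneSpectrum (𝓞 F) => (-1 : ℂ) ^ fdeg v = 1] (h : ∀ v ∈ above F 3, fdeg v ≤ 2) :
    ((above F 3).filter fun v => (-1 : ℂ) ^ fdeg v = 1).card + (above F 3).card = fSum F 3 := by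
  rw [Finset.card_filter, Finset.card_eq_sum_ones, ← Finset.sum_add_distrib, fSum]
  refine Finset.sum_congr rfl fun v hv => ?_
  have h1 := fdeg_pos v
  have h2 := h v hv
  obtain h3 | h3 : fdeg v = 1 ∨ fdeg v = 2 := by omega
  · rw [if_neg (by rw [h3]; norm_num), h3]
  · rw [if_pos (by rw [h3]; norm_num), h3]

open scoped Classical in
/-- **(B3)** The count of the places above `3`. -/
theorem count_three (hρ : Continuous ρ) (hs : Function.Surjective ρ) (T24 : FixField ρ C2)
    (T12 : FixField ρ V4) (T8 : FixField ρ S3) (T4 : FixField ρ B3)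
    {A : ValuationSubring (AlgebraicClosure ℚ)} (hA : A.LiesOverPrime 3) {g : G3}
    (hg : Matrix.GeneralLinearGroup.det g = -1) (hg2 : g * g = 1)
    (hI : ∀ σ ∈ A.inertiaSubgroupIn ℚ, ρ σ = 1 ∨ ρ σ = g)
    (hI' : ∃ σ ∈ A.inertiaSubgroupIn ℚ, ρ σ = g) {φ : GQ} (hφ : A.IsFrobeniusAt φ 3) {δ : ℂ}
    (h : (δ = 1 ∧ (ρ φ = 1 ∨ ρ φ = g)) ∨ (δ = -1 ∧ (ρ φ = -1 ∨ ρ φ = -g))) :
    ((above T24.F 3).filter fun v => δ ^ fdeg v = 1).card +
        2 * ((above T4.F 3).filter fun v => δ ^ fdeg v = 1).card =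
      ((above T12.F 3).filter fun v => δ ^ fdeg v = 1).card +
        2 * ((above T8.F 3).filter fun v => δ ^ fdeg v = 1).card + 2 := by
  have hd : g.1.det = -1 := congrArg Units.val hg
  have hd' : (-g).1.det = -1 := by
    have := congrArg Units.val ((det_neg g).trans hg)
    exact this
  have hg2' : -g * -g = 1 := by rw [neg_mul_neg, hg2]
  obtain ⟨r24, r12, r8, r4⟩ := pH_refl hd (trace_of_sq hd hg2)
  obtain ⟨r24', r12', r8', r4'⟩ := pH_refl hd' (trace_of_sq hd' hg2')
  have hg1 := (det_ne_of hg).1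
  have hJ : ∀ a, a ∈ (A.inertiaSubgroupIn ℚ).map ρ ↔ a = 1 ∨ a = g := by
    intro a
    constructor
    · rintro ⟨σ, hσ, rfl⟩
      exact hI σ hσ
    · rintro (rfl | rfl)
      · exact one_mem _
      · obtain ⟨σ, hσ, h1⟩ := hI'
        exact ⟨σ, hσ, h1⟩
  have hfs : ∀ (H : Subgroup G3) (T : FixField ρ H), 2 * fSum T.F 3 = H.index + pH H g := by
    intro H T
    rw [← card_orbits Nat.prime_three hA,
      card_orb T hs (A.inertiaSubgroupIn ℚ) (orb T.F A) fun _ _ => Iff.rfl]
    exact two_mul_card_orbits H _ hg1 hJ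
  have f24 := hfs _ T24
  have f12 := hfs _ T12
  have f8 := hfs _ T8
  have f4 := hfs _ T4
  rw [r24, index_C2] at f24
  rw [r12, index_V4] at f12
  rw [r8, index_S3] at f8
  rw [r4, index_B3] at f4
  rcases h with ⟨rfl, h⟩ | ⟨rfl, h⟩
  · -- Frobenius acts as an element of inertia
    have hle : ∀ (H : Subgroup G3) (T : FixField ρ H), ∀ v ∈ above T.F 3, fdeg v ≤ 1 := by
      intro H T v hv
      have := v.isPrime
      obtain ⟨i, hi⟩ : ∃ i : T.F →+* AlgebraicClosure ℚ, Over i A v :=
        exists_redτ Nat.prime_three hA (I := v.asIdeal) ((mem_above (by norm_num)).mp hv)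
      refine fdeg_le Nat.prime_three hA hφ hi one_pos ?_
      rw [pow_one]
      rcases h with h | h
      · have h1 : (gh φ).comp i = (gh 1).comp i := comp_eq_of_eq T hs (h.trans (map_one ρ).symm) i
        rw [h1]
        rfl
      · obtain ⟨τ, hτ, h2⟩ := hI'
        rw [comp_eq_of_eq T hs (h.trans h2.symm) i]
        exact redτ_comp_inertia hτ i
    rw [card_filter_one (hle _ T24), card_filter_one (hle _ T12), card_filter_one (hle _ T8),
      card_filter_one (hle _ T4)]
    omega
  · -- Frobenius acts as `-1` modulo inertia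
    have hle : ∀ (H : Subgroup G3) (T : FixField ρ H), ∀ v ∈ above T.F 3, fdeg v ≤ 2 := by
      intro H T v hv
      have := v.isPrime
      obtain ⟨i, hi⟩ : ∃ i : T.F →+* AlgebraicClosure ℚ, Over i A v :=
        exists_redτ Nat.prime_three hA (I := v.asIdeal) ((mem_above (by norm_num)).mp hv)
      refine fdeg_le Nat.prime_three hA hφ hi two_pos ?_
      have h2 : ρ (φ ^ 2) = ρ 1 := by
        rw [map_pow, map_one, pow_two]
        rcases h with h | h <;> rw [h, neg_mul_neg]
        · rw [mul_one]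
        · exact hg2
      rw [comp_eq_of_eq T hs h2 i]
      rfl
    have hD := mem_map_decomposition hρ hA hg2 hI hI' hφ h
    have hpl : ∀ (H : Subgroup G3) (T : FixField ρ H), (above T.F 3).card * 4 =
        H.index + (pH H (-1) + (pH H g + pH H (-g))) := by
      intro H T
      rw [← card_places Nat.prime_three hA,
        card_orb T hs (A.decompositionSubgroup ℚ) (orbD T.F A) fun _ _ => Iff.rfl]
      exact four_mul_card_orbits H _ hg hD
    have p24 := hpl _ T24
    have p12 := hpl _ T12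
    have p8 := hpl _ T8
    have p4 := hpl _ T4
    have n24 : (-1 : G3) ∉ C2 := by
      rw [mem_C2]
      rintro ⟨h1, -, -⟩
      simp only [Units.val_neg, Units.val_one, Matrix.neg_apply, Matrix.one_apply_eq] at h1
      exact absurd h1 (by decide)
    have n8 : (-1 : G3) ∉ S3 := by
      rw [mem_S3]
      rintro ⟨h1, -⟩
      simp only [Units.val_neg, Units.val_one, Matrix.neg_apply, Matrix.one_apply_eq] at h1
      exact absurd h1 (by decide)
    have n12 : (-1 : G3) ∈ V4 := by
      rw [mem_V4]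
      constructor <;> simp
    have n4 : (-1 : G3) ∈ B3 := by
      rw [mem_B3]
      simp
    rw [pH_neg_one_of_notMem n24, r24, r24', index_C2] at p24
    rw [pH_neg_one_of_mem n12, r12, r12', index_V4] at p12
    rw [pH_neg_one_of_notMem n8, r8, r8', index_S3] at p8
    rw [pH_neg_one_of_mem n4, r4, r4', index_B3] at p4
    have c24 := card_filter_neg_one (hle _ T24)
    have c12 := card_filter_neg_one (hle _ T12)
    have c8 := card_filter_neg_one (hle _ T8)
    have c4 := card_filter_neg_one (hle _ T4)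
    omega

end Count

end Fermat.Agent.Cor.Artin

end
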