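import Fermat.Agent.Corollaries.Artin.DepThree
import Fermat.Agent.Corollaries.Artin.EigThree
import Fermat.Agent.Corollaries.Artin.InertiaThree
import Fermat.Agent.Corollaries.Artin.Places3

/-!
# Artin's conjecture for the octahedral representations of S47: the complete `L`-function

`ρ : G_ℚ → GL₂(𝔽₃)` continuous and surjective with cyclotomic determinant, `Ψ` a section of the
reduction `GL₂(ℤ[√-2]) → GL₂(𝔽₃)`, `ι` an embedding of `ℤ[√-2]`, `r = ι ∘ Ψ ∘ ρ`. The `L`-function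
of Artin of `r`, with all its Euler factors, extends to an entire function.
-/

set_option autoImplicit false

noncomputable section

open CongruenceSubgroup ModularFormClass EisensteinWeightOne UpperHalfPlane WeierstrassCurve
open Fermat.Agent.Classic Fermat.Agent.Classic.Level Fermat.Agent.X1 Fermat.Agent.LT.End
open scoped MatrixGroups ModularForm ComplexConjugate Topology

namespace Fermat.Agent.Cor.Artin

local notation "Γℚ" => (AlgebraicClosure ℚ ≃ₐ[ℚ] AlgebraicClosure ℚ)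

/-- the norms of the places above `q` -/
theorem exists_pow_of_mem_badL {F : Type*} [Field F] [NumberField F] {N q : ℕ} (hq : q.Prime)
    {ν : ℕ} (hν : ν ∈ badL F N) (hqν : q ∣ ν) : ∃ f, 0 < f ∧ ν = q ^ f := by
  obtain ⟨v, -, rfl⟩ := List.mem_map.mp hν
  exact ⟨Disc.fdeg v, Disc.fdeg_pos v, Disc.absNorm_eq hq ((dvd_absNorm_iff hq v).mp hqν)⟩

variable {ρ : Γℚ →* GL (Fin 2) (ZMod 3)} {Ψ : GL (Fin 2) (ZMod 3) →* GL (Fin 2) (ℤ√(-2))}
  {N : ℕ} {ι : ℤ√(-2) →+* ℂ} {b : ℕ → ℤ√(-2)} {f : CuspForm (Gamma1 N) 1}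

/-- **The eigenform of `U₃`.** -/
theorem exists_eigenform_three [hN : NeZero N] (hρ : Continuous ρ) (hs : Function.Surjective ρ)
    (hdet : ∀ σ : Γℚ, Matrix.GeneralLinearGroup.det (ρ σ) = modThreeCyclotomicChar σ)
    (hΨ : ∀ g, Matrix.GeneralLinearGroup.map FLT.ExplicitLift.red (Ψ g) = g)
    (hst : Start ρ Ψ N ι b f)
    {A : ValuationSubring (AlgebraicClosure ℚ)} (hA : A.LiesOverPrime 3)
    {g₀ : GL (Fin 2) (ZMod 3)}
    (hg : Matrix.GeneralLinearGroup.det g₀ = -1) (hg2 : g₀ * g₀ = 1)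
    (hI : ∀ σ ∈ A.inertiaSubgroupIn ℚ, ρ σ = 1 ∨ ρ σ = g₀)
    (hI' : ∃ σ ∈ A.inertiaSubgroupIn ℚ, ρ σ = g₀) {φ : Γℚ} (hφ : A.IsFrobeniusAt φ 3) {δ : ℂ}
    (h : (δ = 1 ∧ (ρ φ = 1 ∨ ρ φ = g₀)) ∨ (δ = -1 ∧ (ρ φ = -1 ∨ ρ φ = -g₀))) :
    ∃ (K : ℕ) (_ : NeZero K) (G : CuspForm (Gamma1 K) 1), 3 ∣ K ∧
      (∀ p : ℕ, p.Prime → (p ∣ K ↔ p ∣ N)) ∧ G ≠ 0 ∧ Z3.HasNeb K G ∧
      (∀ p, p.Prime → ¬ p ∣ K → Rel G p (conj (ι (b p)))) ∧
      ∀ n, qCoeff ⇑G (3 * n) = δ * qCoeff ⇑G n := by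
  have hf3 : Fact (Nat.Prime 3) := ⟨Nat.prime_three⟩
  -- inertia at `3` is tame
  have hDet : DetAt ρ 3 := DetAtP.detAt Nat.prime_three hA fun σ hσ hd => by
    rcases hI σ hσ with h1 | h1
    · exact h1
    · rw [h1, hg] at hd
      exact absurd hd (by decide)
  have htame : Disc.TameAt ρ 3 := ⟨2, by norm_num, fun B hB σ hσ => hDet.sq hdet hB hσ⟩
  obtain ⟨N₁, hN₁, f₁, hdvd, hv, hv', -, hst₁⟩ := stepT hρ hs hdet hΨ hst {3} (by
    intro q' hq'
    rw [Finset.mem_singleton] at hq'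
    subst hq'
    exact ⟨Nat.prime_three, hst.three, htame⟩)
  have hN₁0 : N₁ ≠ 0 := NeZero.ne N₁
  have hN0 : N ≠ 0 := NeZero.ne N
  have hprN : ∀ p : ℕ, p.Prime → (p ∣ N₁ ↔ p ∣ N) := by
    intro p hp
    refine ⟨fun h => h.trans hdvd, fun h => ?_⟩
    by_cases hpq : p = 3
    · subst hpq
      exact hst₁.three
    · have : Fact p.Prime := ⟨hp⟩
      rw [dvd_iff_padicValNat_ne_zero hN₁0, hv' p hp (by
        rwa [Finset.mem_singleton]), ← dvd_iff_padicValNat_ne_zero hN0]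
      exact h
  have h9 : 3 ^ 2 ∣ N₁ := hst₁.sq 3 Nat.prime_three hst₁.three
  obtain ⟨M, hM⟩ := h9
  have hdiv : N₁ / 3 = 3 * M := by rw [hM]; omega
  have hM0 : M ≠ 0 := by
    rintro rfl
    exact hN₁0 (by rw [hM, mul_zero])
  have hNd : NeZero (N₁ / 3) := ⟨by rw [hdiv]; omega⟩
  have hK3 : 3 ∣ N₁ / 3 := ⟨M, hdiv⟩
  have hprK : ∀ p : ℕ, p.Prime → (p ∣ N₁ / 3 ↔ p ∣ N) := by
    intro p hp
    rw [← hprN p hp]
    constructor
    · intro h
      exact h.trans ⟨3, by omega⟩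
    · intro h
      rw [show N₁ = 3 * (N₁ / 3) by omega] at h
      rcases hp.dvd_mul.mp h with h1 | h1
      · rw [(Nat.prime_dvd_prime_iff_eq hp Nat.prime_three).mp h1]
        exact hK3
      · exact h1
  -- the Fricke partner
  obtain ⟨h', hP⟩ := Z3.pack_of' hρ hdet hΨ hst₁.sq hst₁.eig hst₁.dep hst₁.coeff hst₁.trace
  obtain ⟨g, hneb, hgc, hgT⟩ := hP.exists_uq' (q := 3) ⟨M, hM⟩ hK3
  -- the four fields
  obtain ⟨T24, T12, T8, T4, T, -, ⟨e24, e12, e8, e4⟩, -⟩ := exists_fourU hρ hs hdet hΨ hst₁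
  have hfe : Zeta.FE (fun n => ι (b n)) (qCoeff ⇑h') N₁ 0 1 := by
    have h1 := hP.fe
    have h2 : qCoeff ⇑f₁ = fun n => ι (b n) := funext hst₁.coeff
    rwa [h2] at h1
  have hb : ∀ n, n ≠ 0 → ι (b n) ≠ 0 → n.factorization 3 = 0 := by
    intro n _ hn
    refine Nat.factorization_eq_zero_of_not_dvd fun hqn => hn ?_
    rw [hst₁.dep n fun hcop => Nat.not_coprime_of_dvd_of_dvd (by norm_num) hqn hst₁.three hcop,
      map_zero]
  obtain ⟨m, hm, hp0, -, C, k, hC, hl⟩ := exists_lead Nat.prime_three hN₁0 hfe T.fe24 T.fe12 T.fe8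
    T.fe4 T.z24_one T.z12_one T.z8_one T.z4_one T.d24_ne T.d12_ne T.d8_ne T.d4_ne T.two_le24
    T.two_le12 T.two_le8 T.two_le4 T.hid T.hr T.ht hb
    (fun ν hν => exists_pow_of_mem_badL Nat.prime_three (e24 ▸ hν))
    (fun ν hν => exists_pow_of_mem_badL Nat.prime_three (e12 ▸ hν))
    (fun ν hν => exists_pow_of_mem_badL Nat.prime_three (e8 ▸ hν))
    (fun ν hν => exists_pow_of_mem_badL Nat.prime_three (e4 ▸ hν))
  have two : ∀ {l l' : List ℕ}, (∀ ν ∈ l, 2 ≤ ν) → (∀ ν ∈ l', 2 ≤ ν) → ∀ ν ∈ l ++ l', 2 ≤ ν := by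
    intro l l' hl hl' ν hν
    rcases List.mem_append.mp hν with h | h
    · exact hl ν h
    · exact hl' ν h
  have hcount := count_three hρ hs T24 T12 T8 T4 hA hg hg2 hI hI' hφ h
  have hmul : (eulF 3 (T.l12 ++ (T.l8 ++ T.l8))).rootMultiplicity δ <
      (eulF 3 (T.l24 ++ (T.l4 ++ T.l4))).rootMultiplicity δ := by
    rw [rootMultiplicity_eulF_append Nat.prime_three T.two_le12 (two T.two_le8 T.two_le8),
      rootMultiplicity_eulF_append Nat.prime_three T.two_le8 T.two_le8,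
      rootMultiplicity_eulF_append Nat.prime_three T.two_le24 (two T.two_le4 T.two_le4),
      rootMultiplicity_eulF_append Nat.prime_three T.two_le4 T.two_le4, e24, e12, e8, e4,
      rootMultiplicity_eulF hN₁0 hst₁.three, rootMultiplicity_eulF hN₁0 hst₁.three,
      rootMultiplicity_eulF hN₁0 hst₁.three, rootMultiplicity_eulF hN₁0 hst₁.three]
    omega
  have hδ : δ = 1 ∨ δ = -1 := h.imp And.left And.left
  obtain ⟨G, hG0, hGneb, hGT, hGU⟩ := exists_eigen_three hK3 (qCoeff ⇑h') m hm hp0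
    (two T.two_le24 (two T.two_le4 T.two_le4)) (two T.two_le12 (two T.two_le8 T.two_le8)) hC hl hδ
    hmul (fun p => conj (ι (b p))) g hneb (fun p hp hpK n => hgT p hp hpK n) hgc
  exact ⟨N₁ / 3, hNd, G, hK3, hprK, hG0, hGneb, hGT, hGU⟩

/-- `1 - δ 3^{-s} ≠ 0` for `re s > 1`. -/
theorem one_sub_ne_zero {δ : ℂ} (hδ : δ = 1 ∨ δ = -1) {s : ℂ} (hs : 1 < s.re) :
    1 - δ * (3 : ℂ) ^ (-s) ≠ 0 := by
  intro h
  have h1 : ‖δ * (3 : ℂ) ^ (-s)‖ = 1 := by
    rw [← sub_eq_zero.mp h, norm_one]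
  have h2 : ‖δ‖ = 1 := by rcases hδ with rfl | rfl <;> simp
  have h3 : ‖(3 : ℂ) ^ (-s)‖ < 1 := by
    have h4 := Complex.norm_natCast_cpow_of_pos (n := 3) (by norm_num) (-s)
    rw [Nat.cast_ofNat, Complex.neg_re] at h4
    rw [h4]
    exact Real.rpow_lt_one_of_one_lt_of_neg (by norm_num) (by linarith)
  rw [norm_mul, h2, one_mul] at h1
  exact absurd h1 h3.ne

/-- **Artin's conjecture for `r = ι ∘ Ψ ∘ ρ`**: for every `ρ : G_ℚ → GL₂(𝔽₃)` continuous and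
surjective with cyclotomic determinant, every section `Ψ` of the reduction
`GL₂(ℤ[√-2]) → GL₂(𝔽₃)` and every embedding `ι` of `ℤ[√-2]` there is an **entire** function `L`
which for `re s > 1` is the Euler product `∏_p det (1 - p^{-s} r(Frob_p) | V^{I_p})⁻¹` over all
primes `p` (whatever the places and the Frobenius elements). -/
theorem artin (hρ : Continuous ρ) (hs : Function.Surjective ρ)
    (hdet : ∀ σ : Γℚ, Matrix.GeneralLinearGroup.det (ρ σ) = modThreeCyclotomicChar σ)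
    (hΨ : ∀ g, Matrix.GeneralLinearGroup.map FLT.ExplicitLift.red (Ψ g) = g)
    (ι₀ : ℤ√(-2) →+* ℂ) :
    ∃ L : ℂ → ℂ, Differentiable ℂ L ∧ ∀ s : ℂ, 1 < s.re →
      ∀ (A : Nat.Primes → ValuationSubring (AlgebraicClosure ℚ)) (σ : Nat.Primes → Γℚ),
        (∀ p : Nat.Primes, (A p).LiesOverPrime p ∧ (A p).IsFrobeniusAt (σ p) p) →
        HasProd (fun p : Nat.Primes =>
          ((eulerPoly ((rep Ψ ι₀).comp ρ) (A p) (σ p)).eval ((p : ℂ) ^ (-s)))⁻¹) (L s) := by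
  classical
  by_cases h3 : ∀ A : ValuationSubring (AlgebraicClosure ℚ), A.LiesOverPrime 3 →
      invI ((rep Ψ ι₀).comp ρ) A = ⊥
  · exact artin_of_inertia_three hρ hs hdet hΨ ι₀ h3
  push Not at h3
  obtain ⟨A₀, hA₀, h3⟩ := h3
  obtain ⟨φ, hφ⟩ := Fermat.Agent.Frob.exists_isFrobeniusAt Nat.prime_three hA₀
  obtain ⟨g₀, hg, hg2, hI, hI', hF⟩ := inertia_three hdet hΨ ι₀ hA₀ h3
  obtain ⟨δ, hδφ, heul⟩ := hF φ hφ
  have hδ : δ = 1 ∨ δ = -1 := hδφ.imp And.left And.left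
  obtain ⟨N, hN, ι, b, f, hram, hst⟩ := exists_start hρ hs hdet hΨ
  obtain ⟨K, hK, G, hK3, hprK, hG0, hGneb, hGT, hGU⟩ :=
    exists_eigenform_three hρ hs hdet hΨ hst hA₀ hg hg2 hI hI' hφ hδφ
  obtain ⟨L₁, hL₁, hLs₁⟩ := exists_entire_three hdet hΨ hK3 hprK hst hδ G hG0 hGneb hGT hGU
  -- the same for the embedding `ι₀`
  obtain ⟨L, hL, hLs⟩ : ∃ L : ℂ → ℂ, Differentiable ℂ L ∧ ∀ s : ℂ, 1 < s.re →
      (1 - δ * (3 : ℂ) ^ (-s)) * L s = LSeries (fun n => ι₀ (b n)) s := by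
    rcases embedding_cases ι ι₀ with rfl | hι
    · exact ⟨L₁, hL₁, hLs₁⟩
    · refine ⟨fun s => conj (L₁ (conj s)), differentiable_conj hL₁, fun s hs => ?_⟩
      have h1 : (fun n => ι₀ (b n)) = fun n => conj (ι (b n)) := funext fun n => hι (b n)
      have h2 := hLs₁ (conj s) (by rwa [Complex.conj_re])
      have h3 : conj ((3 : ℂ) ^ (-(conj s))) = (3 : ℂ) ^ (-s) := by
        have harg : ((3 : ℕ) : ℂ).arg ≠ Real.pi := by
          rw [Complex.natCast_arg]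
          exact Real.pi_ne_zero.symm
        have h4 := Complex.cpow_conj ((3 : ℕ) : ℂ) (-s) harg
        rw [Complex.conj_natCast, Nat.cast_ofNat] at h4
        rw [show -(conj s) = conj (-s) from (map_neg (starRingEnd ℂ) s).symm, h4,
          Complex.conj_conj]
      have h4 : conj δ = δ := by rcases hδ with rfl | rfl <;> simp
      rw [h1, LSeries_conj', ← h2, map_mul, map_sub, map_one, map_mul, h3, h4]
  refine ⟨L, hL, fun s hs' A σ hAσ => ?_⟩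
  have h1 := (hasProd_start₀ hdet hΨ hst ι₀ hs').2
  have hne := one_sub_ne_zero hδ hs'
  let p₃ : Nat.Primes := ⟨3, Nat.prime_three⟩
  have h2 : HasProd (fun p : Nat.Primes => if p = p₃ then (1 - δ * (3 : ℂ) ^ (-s))⁻¹ else 1)
      (1 - δ * (3 : ℂ) ^ (-s))⁻¹ := hasProd_ite_eq p₃ _
  have h4 : LSeries (fun n => ι₀ (b n)) s * (1 - δ * (3 : ℂ) ^ (-s))⁻¹ = L s := by
    rw [← hLs s hs', mul_comm, ← mul_assoc, inv_mul_cancel₀ hne, one_mul]
  have h5 := h1.mul h2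
  rw [h4] at h5
  refine h5.congr_fun fun p => ?_
  by_cases hp3 : p = p₃
  · have hp : (p : ℕ) = 3 := congrArg Subtype.val hp3
    have h6 : (p : ℕ) ∣ N := by rw [hp]; exact hst.three
    have hA := (hAσ p).1
    have hσ := (hAσ p).2
    rw [hp] at hA hσ
    rw [if_pos hp3, if_pos h6, hst.dep p (fun hc => (p.2.coprime_iff_not_dvd.mp hc) h6),
      eulerPoly_indep _ Nat.prime_three hA hA₀ hσ hφ, heul, hp]
    simp
  · have hp : (p : ℕ) ≠ 3 := fun h => hp3 (Subtype.ext h)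
    rw [if_neg hp3, mul_one,
      local_factor hdet hΨ hst hram ι₀ p.2 hp (hAσ p).1 (hAσ p).2]

end Fermat.Agent.Cor.Artin

end
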