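import Fermat.Agent.Corollaries.Artin.LamThree
import Fermat.Agent.Corollaries.Artin.FSum
import Fermat.Agent.Corollaries.Artin.Main

/-!
# The Euler factor at `3` from an identity of linear factors (piece (LAM2))
-/

set_option autoImplicit false

noncomputable section

open CongruenceSubgroup ModularFormClass EisensteinWeightOne UpperHalfPlane WeierstrassCurve
open Fermat.Agent.Classic Fermat.Agent.Classic.Level Fermat.Agent.X1 Fermat.Agent.LT.End
open scoped MatrixGroups ModularForm ComplexConjugate Topology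

namespace Fermat.Agent.Cor.Artin

local notation "Γℚ" => (AlgebraicClosure ℚ ≃ₐ[ℚ] AlgebraicClosure ℚ)

theorem eulZ_three (μ : ℂ) : eulZ 3 [3] (fun _ => μ) = lf μ := by
  have h1 : (3 : ℕ).factorization 3 = 1 := Nat.prime_three.factorization_self
  rw [eulZ, List.filter_cons_of_pos (by simp), List.filter_nil, List.map_cons, List.map_nil,
    List.prod_cons, List.prod_nil, mul_one, h1, pow_one, lf]

theorem hasLead_lin_three (μ : ℂ) :
    HasLead 3 (Lvl.lin 3 μ) 1 ((lf μ : Polynomial ℂ) : PowerSeries ℂ) := by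
  have h := hasLead_lin Nat.prime_three (ν := 3) (by norm_num)
    (fun _ => ⟨1, one_pos, (pow_one 3).symm⟩) (fun _ => μ)
  rwa [eulZ_three] at h

/-- The identity of the Euler factors at `3`. -/
theorem eulF_of_identity {U V : List ℕ} (hU : ∀ ν ∈ U, 2 ≤ ν) (hV : ∀ ν ∈ V, 2 ≤ ν)
    (hU' : ∀ ν ∈ U, 3 ∣ ν → ∃ f, 0 < f ∧ ν = 3 ^ f)
    (hV' : ∀ ν ∈ V, 3 ∣ ν → ∃ f, 0 < f ∧ ν = 3 ^ f) {μ μ' : ℂ}
    (h : Lvl.linProd V (fun _ => 1) = Lvl.linProd U (fun _ => 1) * (Lvl.lin 3 μ * Lvl.lin 3 μ')) :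
    eulF 3 V = eulF 3 U * (lf μ * lf μ') := by
  have h1 := hasLead_linProd Nat.prime_three hV hV' (fun _ => 1)
  have h2 := (hasLead_linProd Nat.prime_three hU hU' (fun _ => 1)).mul Nat.prime_three
    ((hasLead_lin_three μ).mul Nat.prime_three (hasLead_lin_three μ'))
  rw [h] at h1
  have h3 := (h1.unique Nat.prime_three h2).2
  rw [eulZ_one, eulZ_one] at h3
  apply Polynomial.coe_injective ℂ
  rw [h3, Polynomial.coe_mul, Polynomial.coe_mul]

theorem factorization_prod_badL {F : Type*} [Field F] [NumberField F] {N q : ℕ} (hq : q.Prime)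
    (hN : N ≠ 0) (hqN : q ∣ N) : (badL F N).prod.factorization q = Disc.fSum F q := by
  rw [Nat.factorization_def _ hq, prod_badL, Disc.padicValNat_prod_above hq hN hqN]

theorem rootMultiplicity_lf_le (z δ : ℂ) : (lf z).rootMultiplicity δ ≤ 1 := by
  have h1 : (lf z).natDegree ≤ 1 := by
    rcases eq_or_ne z 0 with rfl | hz
    · simp [lf]
    · exact (natDegree_lf hz).le
  rw [← Polynomial.count_roots]
  exact ((Multiset.count_le_card _ _).trans (Polynomial.card_roots' _)).trans h1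

variable {ρ : Γℚ →* GL (Fin 2) (ZMod 3)} {Ψ : GL (Fin 2) (ZMod 3) →* GL (Fin 2) (ℤ√(-2))}

/-- **(LAM2)** The Euler factor at `3`. -/
theorem eulerPoly_of_identity (hρ : Continuous ρ) (hs : Function.Surjective ρ)
    (hdet : ∀ σ : Γℚ, Matrix.GeneralLinearGroup.det (ρ σ) = modThreeCyclotomicChar σ)
    (hΨ : ∀ g, Matrix.GeneralLinearGroup.map FLT.ExplicitLift.red (Ψ g) = g)
    (T24 : FixField ρ C2) (T12 : FixField ρ V4) (T8 : FixField ρ S3) (T4 : FixField ρ B3)
    {N : ℕ} (hN : N ≠ 0) (h3 : 3 ∣ N) {μ : ℂ}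
    (h : Lvl.linProd (badL T24.F N ++ (badL T4.F N ++ badL T4.F N)) (fun _ => 1) =
      Lvl.linProd (badL T12.F N ++ (badL T8.F N ++ badL T8.F N)) (fun _ => 1) *
        (Lvl.lin 3 μ * Lvl.lin 3 (conj μ)))
    (κ : ℤ√(-2) →+* ℂ) {A : ValuationSubring (AlgebraicClosure ℚ)} (hA : A.LiesOverPrime 3)
    {φ : Γℚ} (hφ : A.IsFrobeniusAt φ 3) :
    eulerPoly ((rep Ψ κ).comp ρ) A φ = 1 - Polynomial.C μ * Polynomial.X ∧
      (μ = 0 ∨ μ = 1 ∨ μ = -1) := by
  classical
  have two : ∀ {l l' : List ℕ}, (∀ ν ∈ l, 2 ≤ ν) → (∀ ν ∈ l', 2 ≤ ν) → ∀ ν ∈ l ++ l', 2 ≤ ν := by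
    intro l l' hl hl' ν hν
    rcases List.mem_append.mp hν with h | h
    · exact hl ν h
    · exact hl' ν h
  have b24 : ∀ ν ∈ badL T24.F N, 2 ≤ ν := fun _ => two_le_of_mem_badL
  have b12 : ∀ ν ∈ badL T12.F N, 2 ≤ ν := fun _ => two_le_of_mem_badL
  have b8 : ∀ ν ∈ badL T8.F N, 2 ≤ ν := fun _ => two_le_of_mem_badL
  have b4 : ∀ ν ∈ badL T4.F N, 2 ≤ ν := fun _ => two_le_of_mem_badL
  have hV2 := two b24 (two b4 b4)
  have hU2 := two b12 (two b8 b8)
  have pow : ∀ {l l' : List ℕ}, (∀ ν ∈ l, 3 ∣ ν → ∃ f, 0 < f ∧ ν = 3 ^ f) →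
      (∀ ν ∈ l', 3 ∣ ν → ∃ f, 0 < f ∧ ν = 3 ^ f) →
      ∀ ν ∈ l ++ l', 3 ∣ ν → ∃ f, 0 < f ∧ ν = 3 ^ f := by
    intro l l' hl hl' ν hν
    rcases List.mem_append.mp hν with h | h
    · exact hl ν h
    · exact hl' ν h
  have p24 : ∀ ν ∈ badL T24.F N, 3 ∣ ν → ∃ f, 0 < f ∧ ν = 3 ^ f :=
    fun ν hν => exists_pow_of_mem_badL Nat.prime_three hν
  have p12 : ∀ ν ∈ badL T12.F N, 3 ∣ ν → ∃ f, 0 < f ∧ ν = 3 ^ f :=
    fun ν hν => exists_pow_of_mem_badL Nat.prime_three hν
  have p8 : ∀ ν ∈ badL T8.F N, 3 ∣ ν → ∃ f, 0 < f ∧ ν = 3 ^ f :=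
    fun ν hν => exists_pow_of_mem_badL Nat.prime_three hν
  have p4 : ∀ ν ∈ badL T4.F N, 3 ∣ ν → ∃ f, 0 < f ∧ ν = 3 ^ f :=
    fun ν hν => exists_pow_of_mem_badL Nat.prime_three hν
  have key := eulF_of_identity hU2 hV2 (pow p12 (pow p8 p8)) (pow p24 (pow p4 p4)) h
  have hlf : lf μ * lf (conj μ) ≠ 0 := mul_ne_zero (lf_ne_zero _) (lf_ne_zero _)
  by_cases hbot : invI ((rep Ψ κ).comp ρ) A = ⊥
  · -- no invariants
    have hf := fSum_four hs hΨ κ T24 T12 T8 T4 Nat.prime_three hA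
    rw [hbot, finrank_bot, mul_zero, add_zero] at hf
    have hd := congrArg Polynomial.natDegree key
    have ne : ∀ {l : List ℕ}, (∀ ν ∈ l, 2 ≤ ν) → l.prod ≠ 0 := fun {l} hl =>
      Zeta.prod_ne_zero_of_two_le hl
    rw [Polynomial.natDegree_mul (eulF_ne_zero Nat.prime_three hU2) hlf,
      natDegree_eulF Nat.prime_three hV2, natDegree_eulF Nat.prime_three hU2,
      Polynomial.natDegree_mul (lf_ne_zero _) (lf_ne_zero _),
      List.prod_append, List.prod_append, List.prod_append, List.prod_append,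
      Nat.factorization_mul (ne b24) (mul_ne_zero (ne b4) (ne b4)),
      Nat.factorization_mul (ne b4) (ne b4),
      Nat.factorization_mul (ne b12) (mul_ne_zero (ne b8) (ne b8)),
      Nat.factorization_mul (ne b8) (ne b8)] at hd
    simp only [Finsupp.add_apply, factorization_prod_badL Nat.prime_three hN h3] at hd
    have hμ : μ = 0 := by
      by_contra hμ
      rw [natDegree_lf hμ] at hd
      omega
    subst hμ
    refine ⟨?_, Or.inl rfl⟩
    obtain ⟨hσ, -⟩ := hφ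
    rw [eulerPoly_of_bot _ hσ hbot]
    simp
  · obtain ⟨g, hg, hg2, hI, hI', hF⟩ := inertia_three hdet hΨ κ hA hbot
    obtain ⟨δ, hδφ, heul⟩ := hF φ hφ
    have hδ : δ = 1 ∨ δ = -1 := hδφ.imp And.left And.left
    have hcount := count_three hρ hs T24 T12 T8 T4 hA hg hg2 hI hI' hφ hδφ
    have hm := congrArg (Polynomial.rootMultiplicity δ) key
    rw [Polynomial.rootMultiplicity_mul (mul_ne_zero (eulF_ne_zero Nat.prime_three hU2) hlf),
      Polynomial.rootMultiplicity_mul hlf,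
      rootMultiplicity_eulF_append Nat.prime_three b12 (two b8 b8),
      rootMultiplicity_eulF_append Nat.prime_three b8 b8,
      rootMultiplicity_eulF_append Nat.prime_three b24 (two b4 b4),
      rootMultiplicity_eulF_append Nat.prime_three b4 b4, rootMultiplicity_eulF hN h3,
      rootMultiplicity_eulF hN h3, rootMultiplicity_eulF hN h3, rootMultiplicity_eulF hN h3] at hm
    have h1 := rootMultiplicity_lf_le μ δ
    have h2 := rootMultiplicity_lf_le (conj μ) δ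
    have h4 : 0 < (lf μ).rootMultiplicity δ := by omega
    have h5 : (lf μ).eval δ = 0 := (Polynomial.rootMultiplicity_pos (lf_ne_zero μ)).mp h4
    rw [lf_eval] at h5
    have hμ : μ = δ := by
      rcases hδ with rfl | rfl
      · linear_combination -h5
      · linear_combination h5
    subst hμ
    exact ⟨heul, Or.inr hδ⟩

end Fermat.Agent.Cor.Artin

end
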