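import Fermat.Agent.Corollaries.Artin.FunEq
import Fermat.Agent.Corollaries.Artin.MuThree

/-!
# The functional equation and the conductor of the octahedral representations of S47

`ρ : G_ℚ → GL₂(𝔽₃)` continuous and surjective with cyclotomic determinant, `Ψ` a section of the
reduction `GL₂(ℤ[√-2]) → GL₂(𝔽₃)`, `κ` an embedding of `ℤ[√-2]`, `r = κ ∘ Ψ ∘ ρ`.

* `exists_newform`: there is a form `g` of weight one, nebentypus `χ₋₃` and level `N` with
  `L(s, r) = L(s, g)`, all Euler factors included; the primes of `N` are the ramified primes of `r`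
  and `N² |d₁₂| |d₈|² = |d₂₄| |d₄|²` for the fixed fields of degree `24, 12, 8, 4` (that is, `N` is
  the conductor of Artin of `r`).
* `artin_functional_equation`: `Λ(s, r) = N^{s/2} Γ_ℂ(s) L(s, r)` is entire and
  `Λ(1 - s, r) = W Λ(s, r̄)`, `|W| = 1`.
-/

set_option autoImplicit false

noncomputable section

open NumberField NumberField.InfinitePlace IsDedekindDomain WeierstrassCurve
open CongruenceSubgroup ModularFormClass EisensteinWeightOne UpperHalfPlane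
open Fermat.Agent.Classic Fermat.Agent.Classic.Level Fermat.Agent.X1 Fermat.Agent.LT.End
open Fermat.Agent.Frob Fermat.Agent.LT.Tower Fermat.Agent.Classic.Disc
open scoped MatrixGroups ModularForm ComplexConjugate Manifold

namespace Fermat.Agent.Cor.Artin

local notation "Γℚ" => (AlgebraicClosure ℚ ≃ₐ[ℚ] AlgebraicClosure ℚ)

variable {ρ : Γℚ →* GL (Fin 2) (ZMod 3)} {Ψ : GL (Fin 2) (ZMod 3) →* GL (Fin 2) (ℤ√(-2))}

/-- The newform with its partner. -/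
theorem exists_newform_pair (hρ : Continuous ρ) (hs : Function.Surjective ρ)
    (hdet : ∀ σ : Γℚ, Matrix.GeneralLinearGroup.det (ρ σ) = modThreeCyclotomicChar σ)
    (hΨ : ∀ g, Matrix.GeneralLinearGroup.map FLT.ExplicitLift.red (Ψ g) = g)
    (κ : ℤ√(-2) →+* ℂ) :
    ∃ (N : ℕ) (_ : NeZero N) (g g' : CuspForm (Gamma1 N) 1) (γ : ℂ),
      Z3.HasNeb N g ∧
      (∀ p : ℕ, p.Prime → (p ∣ N ↔ ¬ UnrAt ρ p)) ∧
      (∀ (T24 : FixField ρ C2) (T12 : FixField ρ V4) (T8 : FixField ρ S3) (T4 : FixField ρ B3),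
        (discr T24.F).natAbs * (discr T4.F).natAbs ^ 2 =
          (discr T12.F).natAbs * (discr T8.F).natAbs ^ 2 * N ^ 2) ∧
      qCoeff ⇑g 1 = 1 ∧
      (∀ n, qCoeff ⇑g' n = conj (qCoeff ⇑g n)) ∧
      IsArtinL ρ Ψ κ (ModularForm.L one_pos g) ∧
      IsArtinL ρ Ψ ((starRingEnd ℂ).comp κ) (ModularForm.L one_pos g') ∧
      (fun z : ℍ => γ * g' z) = ⇑g ∣[(1 : ℤ)] Z3.W N := by
  obtain ⟨N₀, hN₀, ι, b, f₀, hram, hst⟩ := exists_start hρ hs hdet hΨ
  obtain ⟨N, hN, lam, γ, g, h, hn⟩ := exists_new hρ hs hdet hΨ hst hram κ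
  obtain ⟨T24⟩ := exists_fixField hρ C2
  obtain ⟨T12⟩ := exists_fixField hρ V4
  obtain ⟨T8⟩ := exists_fixField hρ S3
  obtain ⟨T4⟩ := exists_fixField hρ B3
  have hid := New.identity T24 T12 T8 T4 hρ hs hdet hΨ hst hn
  have hmu : ∀ (κ' : ℤ√(-2) →+* ℂ) (A : ValuationSubring (AlgebraicClosure ℚ)),
      A.LiesOverPrime 3 → ∀ φ : Γℚ, A.IsFrobeniusAt φ 3 →
      eulerPoly ((rep Ψ κ').comp ρ) A φ = 1 - Polynomial.C lam⁻¹ * Polynomial.X ∧
        (lam⁻¹ = 0 ∨ lam⁻¹ = 1 ∨ lam⁻¹ = -1) := fun κ' A hA φ hφ =>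
    eulerPoly_of_identity hρ hs hdet hΨ T24 T12 T8 T4 (NeZero.ne N₀) hst.three hid κ' hA hφ
  have hlam3 : lam⁻¹ = 0 ∨ lam⁻¹ = 1 ∨ lam⁻¹ = -1 := by
    obtain ⟨A, hA, φ, hφ⟩ := Frob.exists_frobenius 3 Nat.prime_three
    exact (hmu κ A hA φ hφ).2
  have hinv : lam⁻¹ = lam := by
    rcases hlam3 with h1 | h1 | h1
    · rw [h1, inv_eq_zero.mp h1]
    · rw [h1, inv_eq_one.mp h1]
    · rw [h1, ← inv_inv lam, h1]
      norm_num
  have hnorm : ‖lam‖ ≤ 1 := by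
    rw [hinv] at hlam3
    rcases hlam3 with h1 | h1 | h1 <;> rw [h1] <;> simp
  have hnorm' : ‖lam⁻¹‖ ≤ 1 := by rwa [hinv]
  set g' : CuspForm (Gamma1 N) 1 := γ⁻¹ • h with hg'
  have hsm : ∀ (a : ℂ) (f : CuspForm (Gamma1 N) 1) (j : ℕ),
      qCoeff ⇑(a • f) j = a * qCoeff ⇑f j := fun a f j =>
    qCoeff_cusp_smul N (Gamma1 N) 1 a f j
  have hgc' : ∀ n, qCoeff ⇑g' n = newA lam⁻¹ ((starRingEnd ℂ).comp κ) b n := fun n => by
    rw [hg', hsm, hn.partner, ← mul_assoc, inv_mul_cancel₀ hn.gamma_ne, one_mul]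
  refine ⟨N, hN, g, g', γ, hn.neb, hn.prime_iff, fun T24 T12 T8 T4 => ?_, ?_, fun n => ?_,
    ?_, ?_, ?_⟩
  · have h1 := New.conductor T24 T12 T8 T4 hρ hs hdet hΨ hst hn
    rw [pow_two, pow_two, pow_two]
    exact h1
  · rw [hn.coeff]
    exact (isEigensystem_newA lam κ hst.three hst.eig (b_zero hst)).1
  · rw [hg', hsm, New.partner_conj hρ hs hdet hΨ hst hn, ← mul_assoc,
      inv_mul_cancel₀ hn.gamma_ne, one_mul, hn.coeff]
  · refine isArtinL_of_coeff hdet hΨ hst hram hnorm (fun A hA φ hφ => ?_) g hn.coeff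
    rw [(hmu κ A hA φ hφ).1, hinv]
  · exact isArtinL_of_coeff hdet hΨ hst hram hnorm' (fun A hA φ hφ =>
      (hmu _ A hA φ hφ).1) g' hgc'
  · rw [← hn.slash]
    funext z
    have h1 : g' z = γ⁻¹ * h z := rfl
    rw [h1, ← mul_assoc, mul_inv_cancel₀ hn.gamma_ne, one_mul]

/-- **The newform of `r`**: `L(s, r) = L(s, g)`, and the level of `g` is the conductor of `r`. -/
theorem exists_newform (hρ : Continuous ρ) (hs : Function.Surjective ρ)
    (hdet : ∀ σ : Γℚ, Matrix.GeneralLinearGroup.det (ρ σ) = modThreeCyclotomicChar σ)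
    (hΨ : ∀ g, Matrix.GeneralLinearGroup.map FLT.ExplicitLift.red (Ψ g) = g)
    (κ : ℤ√(-2) →+* ℂ) :
    ∃ (N : ℕ) (_ : NeZero N) (g : CuspForm (Gamma1 N) 1),
      Z3.HasNeb N g ∧ qCoeff ⇑g 1 = 1 ∧ IsArtinL ρ Ψ κ (ModularForm.L one_pos g) ∧
      (∀ p : ℕ, p.Prime → (p ∣ N ↔ ¬ UnrAt ρ p)) ∧
      ∀ (T24 : FixField ρ C2) (T12 : FixField ρ V4) (T8 : FixField ρ S3) (T4 : FixField ρ B3),
        (discr T24.F).natAbs * (discr T4.F).natAbs ^ 2 =
          (discr T12.F).natAbs * (discr T8.F).natAbs ^ 2 * N ^ 2 := by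
  obtain ⟨N, hN, g, -, -, h1, h2, h3, h4, -, h5, -, -⟩ :=
    exists_newform_pair hρ hs hdet hΨ κ
  exact ⟨N, hN, g, h1, h4, h5, h2, h3⟩

/-- **The functional equation**, with the newform and its conjugate. -/
theorem artin_fe_newform (hρ : Continuous ρ) (hs : Function.Surjective ρ)
    (hdet : ∀ σ : Γℚ, Matrix.GeneralLinearGroup.det (ρ σ) = modThreeCyclotomicChar σ)
    (hΨ : ∀ g, Matrix.GeneralLinearGroup.map FLT.ExplicitLift.red (Ψ g) = g)
    (κ : ℤ√(-2) →+* ℂ) :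
    ∃ (N : ℕ) (_ : NeZero N) (g g' : CuspForm (Gamma1 N) 1) (W : ℂ),
      Z3.HasNeb N g ∧
      (∀ p : ℕ, p.Prime → (p ∣ N ↔ ¬ UnrAt ρ p)) ∧
      (∀ (T24 : FixField ρ C2) (T12 : FixField ρ V4) (T8 : FixField ρ S3) (T4 : FixField ρ B3),
        (discr T24.F).natAbs * (discr T4.F).natAbs ^ 2 =
          (discr T12.F).natAbs * (discr T8.F).natAbs ^ 2 * N ^ 2) ∧
      qCoeff ⇑g 1 = 1 ∧
      (∀ n, qCoeff ⇑g' n = conj (qCoeff ⇑g n)) ∧
      IsArtinL ρ Ψ κ (ModularForm.L one_pos g) ∧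
      IsArtinL ρ Ψ ((starRingEnd ℂ).comp κ) (ModularForm.L one_pos g') ∧
      ‖W‖ = 1 ∧ ∀ s : ℂ, lamN N g (1 - s) = W * lamN N g' s := by
  obtain ⟨N, hN, g, g', γ, h1, h2, h3, h4, h5, h6, h7, h8⟩ :=
    exists_newform_pair hρ hs hdet hΨ κ
  have hN0 : (N : ℂ) ≠ 0 := Nat.cast_ne_zero.mpr (NeZero.ne N)
  have hfe := lamN_one_sub h8
  have hcj := lamN_conj h5
  set W : ℂ := Complex.I * (N : ℂ) ^ (1 / 2 : ℂ) * γ with hW
  refine ⟨N, hN, g, g', W, h1, h2, h3, h4, h5, h6, h7, ?_, hfe⟩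
  -- the absolute value of the root number
  have h9 : lamN N g 3 ≠ 0 := by
    have h10 : ∀ m : ℕ, (3 : ℂ) ≠ -m := by
      intro m hm
      have h11 := congrArg Complex.re hm
      rw [Complex.neg_re, Complex.natCast_re] at h11
      have := Nat.cast_nonneg (α := ℝ) m
      norm_num at h11
      linarith
    rw [lamN_eq g h10]
    refine mul_ne_zero (mul_ne_zero ?_ ?_) (artin_ne_zero hρ hs hdet hΨ h6 (by norm_num))
    · rw [Ne, Complex.cpow_eq_zero_iff]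
      exact fun h => hN0 h.1
    · rw [Complex.Gammaℂ_def]
      refine mul_ne_zero (mul_ne_zero two_ne_zero ?_) (Complex.Gamma_ne_zero h10)
      rw [Ne, Complex.cpow_eq_zero_iff]
      exact fun h => (mul_ne_zero two_ne_zero (Complex.ofReal_ne_zero.mpr Real.pi_ne_zero)) h.1
  have e1 := hfe 3
  have e2 := hfe (1 - 3)
  rw [hcj, map_ofNat] at e1
  rw [hcj, map_sub, map_one, map_ofNat, e1, map_mul, Complex.conj_conj,
    show (1 : ℂ) - (1 - 3) = 3 by norm_num] at e2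
  have e3 : W * conj W = 1 := by
    have e4 : (W * conj W - 1) * lamN N g 3 = 0 := by linear_combination -e2
    exact sub_eq_zero.mp ((mul_eq_zero.mp e4).resolve_right h9)
  rw [Complex.mul_conj] at e3
  have e5 : Complex.normSq W = 1 := by exact_mod_cast e3
  rw [Complex.normSq_eq_norm_sq] at e5
  exact (pow_eq_one_iff_of_nonneg (norm_nonneg W) two_ne_zero).mp e5

/-- **The functional equation of the `L`-function of Artin of `r = κ ∘ Ψ ∘ ρ`.** -/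
theorem artin_functional_equation (hρ : Continuous ρ) (hs : Function.Surjective ρ)
    (hdet : ∀ σ : Γℚ, Matrix.GeneralLinearGroup.det (ρ σ) = modThreeCyclotomicChar σ)
    (hΨ : ∀ g, Matrix.GeneralLinearGroup.map FLT.ExplicitLift.red (Ψ g) = g)
    (κ : ℤ√(-2) →+* ℂ) :
    ∃ (N : ℕ) (W : ℂ) (L L' Λ Λ' : ℂ → ℂ),
      -- the conductor
      N ≠ 0 ∧ (∀ p : ℕ, p.Prime → (p ∣ N ↔ ¬ UnrAt ρ p)) ∧
      (∀ (T24 : FixField ρ C2) (T12 : FixField ρ V4) (T8 : FixField ρ S3) (T4 : FixField ρ B3),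
        (discr T24.F).natAbs * (discr T4.F).natAbs ^ 2 =
          (discr T12.F).natAbs * (discr T8.F).natAbs ^ 2 * N ^ 2) ∧
      -- the `L`-functions of `r` and of `r̄`
      IsArtinL ρ Ψ κ L ∧ IsArtinL ρ Ψ ((starRingEnd ℂ).comp κ) L' ∧
      -- the completed `L`-functions
      Differentiable ℂ Λ ∧ Differentiable ℂ Λ' ∧
      (∀ s : ℂ, (∀ m : ℕ, s ≠ -m) → Λ s = (N : ℂ) ^ (s / 2) * Complex.Gammaℂ s * L s) ∧
      (∀ s : ℂ, (∀ m : ℕ, s ≠ -m) → Λ' s = (N : ℂ) ^ (s / 2) * Complex.Gammaℂ s * L' s) ∧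
      (∀ s : ℂ, Λ' s = conj (Λ (conj s))) ∧
      -- the functional equation
      ‖W‖ = 1 ∧ ∀ s : ℂ, Λ (1 - s) = W * Λ' s := by
  obtain ⟨N, hN, g, g', W, -, h2, h3, -, h5, h6, h7, hW, hfe⟩ :=
    artin_fe_newform hρ hs hdet hΨ κ
  exact ⟨N, W, ModularForm.L one_pos g, ModularForm.L one_pos g', lamN N g, lamN N g',
    NeZero.ne N, h2, h3, h6, h7, differentiable_lamN g, differentiable_lamN g',
    fun s hs => lamN_eq g hs, fun s hs => lamN_eq g' hs, lamN_conj h5, hW, hfe⟩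

end Fermat.Agent.Cor.Artin

end
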