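import Fermat.Agent.Corollaries.ZetaK.XiLower
import Fermat.Agent.Corollaries.ZetaK.TrivAbs
import Fermat.Agent.Corollaries.ZetaK.GamInv
import Fermat.Agent.Classic.Zeta.Compare

/-!
# Functional equations with one factor `Γ_ℂ(s)`: trivial zeros and zeros in the critical strip

`DegTwo N W L L' Λ Λ'`: `Λ`, `Λ'` entire, `Λ s = N^{s/2} Γ_ℂ(s) L s`, `Λ' s = N^{s/2} Γ_ℂ(s) L' s`,
`Λ(1-s) = W Λ'(s)`. If `L`, `L'` have no zeros with `re s ≥ 1` the zeros of `L` outside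
`0 < re s < 1` are exactly `0, -1, -2, …`, all simple. If `Λ` is bounded on `-1 ≤ re s ≤ 2`, `L`,
`L'` are bounded on `re s ≥ 2` and `L s → 1` for `s → +∞`, there are infinitely many zeros with
`0 < re s < 1`.
-/

set_option autoImplicit false

noncomputable section

namespace Fermat.Agent.Cor.Artin

open Filter Topology Complex
open Fermat.Agent.Cor.ZetaK (Gammaℂ_ne_zero ne_neg_natCast_of_re_pos)

/-- the functional equation of degree two -/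
structure DegTwo (N : ℕ) (W : ℂ) (L L' Λ Λ' : ℂ → ℂ) : Prop where
  pos : 0 < N
  root : W ≠ 0
  entire : Differentiable ℂ Λ
  entire' : Differentiable ℂ Λ'
  entireL : Differentiable ℂ L
  eq : ∀ s : ℂ, (∀ n : ℕ, s ≠ -n) → Λ s = (N : ℂ) ^ (s / 2) * Gammaℂ s * L s
  eq' : ∀ s : ℂ, (∀ n : ℕ, s ≠ -n) → Λ' s = (N : ℂ) ^ (s / 2) * Gammaℂ s * L' s
  fe : ∀ s : ℂ, Λ (1 - s) = W * Λ' s

variable {N : ℕ} {W : ℂ} {L L' Λ Λ' : ℂ → ℂ}

theorem natCast_cpow_ne_zero {N : ℕ} (hN : 0 < N) (s : ℂ) : (N : ℂ) ^ s ≠ 0 := by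
  rw [Ne, cpow_eq_zero_iff]
  exact fun h => Nat.cast_ne_zero.mpr hN.ne' h.1

theorem differentiable_natCast_cpow {N : ℕ} (hN : 0 < N) :
    Differentiable ℂ fun s : ℂ => (N : ℂ) ^ (s / 2) := fun s =>
  (differentiableAt_id.div_const 2).const_cpow (Or.inl (Nat.cast_ne_zero.mpr hN.ne'))

namespace DegTwo

variable (h : DegTwo N W L L' Λ Λ')

include h

/-- `L` in terms of `Λ`, everywhere. -/
theorem L_eq (s : ℂ) : L s = Λ s * ((N : ℂ) ^ (s / 2))⁻¹ * (Gammaℂ s)⁻¹ := by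
  have h1 : Differentiable ℂ fun s => Λ s * ((N : ℂ) ^ (s / 2))⁻¹ * (Gammaℂ s)⁻¹ :=
    (h.entire.mul ((differentiable_natCast_cpow h.pos).inv
      fun s => natCast_cpow_ne_zero h.pos _)).mul differentiable_inv_Gammaℂ
  refine Fermat.Agent.Classic.Zeta.eq_of_eq_re_large (σ := 0) h.entireL h1 (fun s hs => ?_) s
  have h2 := Gammaℂ_ne_zero (ne_neg_natCast_of_re_pos hs)
  have h3 := natCast_cpow_ne_zero h.pos (s / 2)
  rw [h.eq s (ne_neg_natCast_of_re_pos hs)]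
  field_simp

theorem order_eq {s : ℂ} (hs : Λ s ≠ 0) :
    analyticOrderAt L s = analyticOrderAt (fun z : ℂ => (Gammaℂ z)⁻¹) s := by
  have hfun : L = (fun z => Λ z * ((N : ℂ) ^ (z / 2))⁻¹) * fun z => (Gammaℂ z)⁻¹ :=
    funext h.L_eq
  have hd : Differentiable ℂ fun z => Λ z * ((N : ℂ) ^ (z / 2))⁻¹ :=
    h.entire.mul ((differentiable_natCast_cpow h.pos).inv
      fun s => natCast_cpow_ne_zero h.pos _)
  have h0 : analyticOrderAt (fun z => Λ z * ((N : ℂ) ^ (z / 2))⁻¹) s = 0 :=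
    order_eq_zero hd (mul_ne_zero hs (inv_ne_zero (natCast_cpow_ne_zero h.pos _)))
  rw [hfun, analyticOrderAt_mul (hd.analyticAt s) (differentiable_inv_Gammaℂ.analyticAt s), h0,
    zero_add]

/-- The zeros of `Λ` are in the critical strip. -/
theorem strip (h1 : ∀ s : ℂ, 1 ≤ s.re → L s ≠ 0) (h2 : ∀ s : ℂ, 1 ≤ s.re → L' s ≠ 0) {s : ℂ}
    (hs : Λ s = 0) : 0 < s.re ∧ s.re < 1 := by
  constructor
  · by_contra hcon
    rw [not_lt] at hcon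
    have h3 : 1 ≤ (1 - s).re := by
      rw [sub_re, one_re]
      linarith
    have h4 := h.fe (1 - s)
    rw [sub_sub_cancel, hs, h.eq' _ (ne_neg_natCast_of_re_pos (by linarith))] at h4
    exact mul_ne_zero h.root (mul_ne_zero (mul_ne_zero (natCast_cpow_ne_zero h.pos _)
      (Gammaℂ_ne_zero (ne_neg_natCast_of_re_pos (by linarith)))) (h2 _ h3)) h4.symm
  · by_contra hcon
    rw [not_lt] at hcon
    rw [h.eq _ (ne_neg_natCast_of_re_pos (by linarith))] at hs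
    exact mul_ne_zero (mul_ne_zero (natCast_cpow_ne_zero h.pos _)
      (Gammaℂ_ne_zero (ne_neg_natCast_of_re_pos (by linarith)))) (h1 _ hcon) hs

/-- **The zeros of `Λ` are the zeros of `L` in the critical strip.** -/
theorem zero_iff (h1 : ∀ s : ℂ, 1 ≤ s.re → L s ≠ 0) (h2 : ∀ s : ℂ, 1 ≤ s.re → L' s ≠ 0) (s : ℂ) :
    Λ s = 0 ↔ 0 < s.re ∧ s.re < 1 ∧ L s = 0 := by
  constructor
  · intro hs
    obtain ⟨h3, h4⟩ := h.strip h1 h2 hs
    refine ⟨h3, h4, ?_⟩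
    rw [h.L_eq, hs, zero_mul, zero_mul]
  · rintro ⟨h3, -, h4⟩
    rw [h.eq _ (ne_neg_natCast_of_re_pos h3), h4, mul_zero]

/-- **The trivial zeros.** -/
theorem trivial_iff (h1 : ∀ s : ℂ, 1 ≤ s.re → L s ≠ 0) (h2 : ∀ s : ℂ, 1 ≤ s.re → L' s ≠ 0)
    {s : ℂ} (hs : s.re ≤ 0 ∨ 1 ≤ s.re) : L s = 0 ↔ ∃ n : ℕ, s = -n := by
  have h3 : Λ s ≠ 0 := by
    intro h0
    have h4 := h.strip h1 h2 h0
    rcases hs with hs | hs
    · exact absurd h4.1 (not_lt.mpr hs)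
    · exact absurd h4.2 (not_lt.mpr hs)
  constructor
  · intro h0
    by_contra hcon
    push Not at hcon
    exact h3 (by rw [h.eq s hcon, h0, mul_zero])
  · rintro ⟨n, rfl⟩
    have h4 : (Gammaℂ (-(n : ℂ)))⁻¹ = 0 := by
      have h5 := Fermat.Agent.Cor.analyticOrderAt_inv_Gammaℂ n
      by_contra h6
      rw [order_eq_zero differentiable_inv_Gammaℂ h6] at h5
      exact zero_ne_one h5
    rw [h.L_eq, h4, mul_zero]

/-- **The trivial zeros are simple.** -/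
theorem trivial_order (h1 : ∀ s : ℂ, 1 ≤ s.re → L s ≠ 0) (h2 : ∀ s : ℂ, 1 ≤ s.re → L' s ≠ 0)
    (n : ℕ) : analyticOrderAt L (-(n : ℂ)) = 1 := by
  rw [h.order_eq, Fermat.Agent.Cor.analyticOrderAt_inv_Gammaℂ]
  intro h0
  have h3 := (h.strip h1 h2 h0).1
  rw [neg_re, natCast_re] at h3
  have : (0 : ℝ) ≤ n := Nat.cast_nonneg n
  linarith

end DegTwo

/-! ### The growth -/

theorem norm_natCast_cpow_le {N : ℕ} (hN : 0 < N) {s : ℂ} (hs : 0 ≤ s.re) :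
    ‖(N : ℂ) ^ (s / 2)‖ ≤ Real.exp (Real.log N * grw ‖s‖) := by
  have hlog : 0 ≤ Real.log N := Real.log_natCast_nonneg N
  have h1 : (s / 2).re = s.re / 2 := by
    rw [show (s / 2 : ℂ) = ((2⁻¹ : ℝ) : ℂ) * s by push_cast; ring, re_ofReal_mul]
    ring
  rw [norm_natCast_cpow_of_pos hN, h1, Real.rpow_def_of_pos (by exact_mod_cast hN)]
  refine Real.exp_le_exp.mpr (mul_le_mul_of_nonneg_left ?_ hlog)
  have h2 := le_grw (norm_nonneg s)
  have h3 := re_le_norm s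
  linarith

theorem norm_le_right {N : ℕ} (hN : 0 < N) {L Λ : ℂ → ℂ} {Z : ℝ}
    (h : ∀ s : ℂ, 2 ≤ s.re → Λ s = (N : ℂ) ^ (s / 2) * Gammaℂ s * L s)
    (hZ : ∀ s : ℂ, 2 ≤ s.re → ‖L s‖ ≤ Z) {s : ℂ} (hs : 2 ≤ s.re) :
    ‖Λ s‖ ≤ Z * Real.exp ((Real.log N + 2) * grw ‖s‖) := by
  rw [h s hs, norm_mul, norm_mul]
  calc ‖(N : ℂ) ^ (s / 2)‖ * ‖Gammaℂ s‖ * ‖L s‖
      ≤ Real.exp (Real.log N * grw ‖s‖) * Real.exp (2 * grw ‖s‖) * Z := by
        gcongr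
        · exact norm_natCast_cpow_le hN (by linarith)
        · exact norm_Gammaℂ_le hs
        · exact hZ s hs
    _ = Z * Real.exp ((Real.log N + 2) * grw ‖s‖) := by
        rw [add_mul, Real.exp_add]
        ring

theorem hasGrowth_of_bounds {N : ℕ} (hN : 0 < N) {W : ℂ} {L L' Λ Λ' : ℂ → ℂ}
    (h : ∀ s : ℂ, 2 ≤ s.re → Λ s = (N : ℂ) ^ (s / 2) * Gammaℂ s * L s)
    (h' : ∀ s : ℂ, 2 ≤ s.re → Λ' s = (N : ℂ) ^ (s / 2) * Gammaℂ s * L' s)
    (hfe : ∀ s, Λ (1 - s) = W * Λ' s) {B Z : ℝ}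
    (hB : ∀ s : ℂ, -1 ≤ s.re → s.re ≤ 2 → ‖Λ s‖ ≤ B)
    (hZ : ∀ s : ℂ, 2 ≤ s.re → ‖L s‖ ≤ Z) (hZ' : ∀ s : ℂ, 2 ≤ s.re → ‖L' s‖ ≤ Z) :
    HasGrowth Λ := by
  have hB0 : 0 ≤ B := (norm_nonneg _).trans (hB 0 (by simp) (by simp))
  have hZ0 : 0 ≤ Z := (norm_nonneg _).trans (hZ 2 (by simp))
  have hW0 := norm_nonneg W
  have hlog : 0 ≤ Real.log N := Real.log_natCast_nonneg N
  refine hasGrowth_of_le (C := B + Z + ‖W‖ * Z) (A := 4 * (Real.log N + 2)) fun s => ?_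
  have hs0 := norm_nonneg s
  have hg1 := one_le_grw hs0
  have hg0 : 0 ≤ grw ‖s‖ := by linarith
  have hWZ : 0 ≤ ‖W‖ * Z := mul_nonneg hW0 hZ0
  have hup : ∀ {M A' : ℝ}, 0 ≤ M → M ≤ B + Z + ‖W‖ * Z → A' ≤ 4 * (Real.log N + 2) →
      M * Real.exp (A' * grw ‖s‖) ≤
        (B + Z + ‖W‖ * Z) * Real.exp (4 * (Real.log N + 2) * grw ‖s‖) := by
    intro M A' hM hM' hA'
    refine mul_le_mul hM' (Real.exp_le_exp.mpr ?_) (Real.exp_nonneg _) (by linarith)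
    exact mul_le_mul_of_nonneg_right hA' hg0
  rcases le_or_gt 2 s.re with h1 | h1
  · exact (norm_le_right hN h hZ h1).trans (hup hZ0 (by linarith) (by linarith))
  rcases le_or_gt (-1) s.re with h2 | h2
  · refine (hB s h2 h1.le).trans ?_
    refine le_trans (le_of_eq ?_) (hup hB0 (by linarith) (by linarith : (0 : ℝ) ≤ _))
    rw [zero_mul, Real.exp_zero, mul_one]
  · have h3 : 2 ≤ (1 - s).re := by
      rw [sub_re, one_re]
      linarith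
    have h4 : Λ s = W * Λ' (1 - s) := by
      rw [← hfe, sub_sub_cancel]
    rw [h4, norm_mul]
    refine le_trans ?_ (hup (M := ‖W‖ * Z) (A' := 4 * (Real.log N + 2)) hWZ (by linarith) le_rfl)
    rw [mul_assoc]
    refine mul_le_mul_of_nonneg_left ((norm_le_right hN h' hZ' h3).trans ?_) hW0
    refine mul_le_mul_of_nonneg_left (Real.exp_le_exp.mpr ?_) hZ0
    have h5 : ‖1 - s‖ ≤ 1 + ‖s‖ := by
      refine (norm_sub_le _ _).trans ?_
      rw [norm_one]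
    have h6 := (grw_mono (norm_nonneg _) h5).trans (grw_one_add_le hs0)
    calc (Real.log N + 2) * grw ‖1 - s‖ ≤ (Real.log N + 2) * (4 * grw ‖s‖) :=
          mul_le_mul_of_nonneg_left h6 (by linarith)
      _ = 4 * (Real.log N + 2) * grw ‖s‖ := by ring

/-- **Lower bound** -/
theorem exists_lt_norm {N : ℕ} (hN : 0 < N) {L Λ : ℂ → ℂ}
    (h : ∀ s : ℂ, 2 ≤ s.re → Λ s = (N : ℂ) ^ (s / 2) * Gammaℂ s * L s)
    (hL : Tendsto (fun x : ℝ => L (x : ℂ)) atTop (𝓝 1)) (B : ℝ) :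
    ∃ x : ℝ, 0 ≤ x ∧ Real.exp (B * (1 + x)) < ‖Λ x‖ := by
  set B₀ : ℝ := max B 0 with hB₀
  have hB0 : 0 ≤ B₀ := le_max_right _ _
  have hlim : Tendsto (fun n : ℕ => L ((2 * n + 2 : ℝ) : ℂ)) atTop (𝓝 1) := by
    refine hL.comp ?_
    exact tendsto_atTop_add_const_right _ _
      (tendsto_natCast_atTop_atTop.const_mul_atTop (by norm_num))
  have h1 := eventually_exp_le_Gammaℂ (5 * B₀ + 1)
  have h2 := hlim.norm.eventually_const_lt (u := 1 / 2) (by rw [norm_one]; norm_num)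
  have h3 : ∀ᶠ n : ℕ in atTop, 2 < Real.exp n :=
    (Real.tendsto_exp_atTop.comp tendsto_natCast_atTop_atTop).eventually_gt_atTop _
  obtain ⟨n, h1, h2, h3, h4⟩ := (h1.and (h2.and (h3.and (eventually_ge_atTop 1)))).exists
  have hn : (1 : ℝ) ≤ n := by exact_mod_cast h4
  refine ⟨2 * n + 2, by positivity, ?_⟩
  have hre : 2 ≤ (((2 * n + 2 : ℝ) : ℂ)).re := by
    rw [ofReal_re]
    linarith
  rw [h _ hre, norm_mul, norm_mul]
  have e3 : (1 : ℝ) ≤ ‖(N : ℂ) ^ (((2 * n + 2 : ℝ) : ℂ) / 2)‖ := by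
    rw [norm_natCast_cpow_of_pos hN]
    refine Real.one_le_rpow (by exact_mod_cast hN) ?_
    rw [show ((2 * n + 2 : ℝ) : ℂ) / 2 = ((n + 1 : ℝ) : ℂ) by push_cast; ring, ofReal_re]
    positivity
  have e4 : Real.exp (B * (1 + (2 * n + 2))) ≤ Real.exp (5 * B₀ * n) := by
    refine Real.exp_le_exp.mpr ?_
    have h5 : B * (1 + (2 * n + 2 : ℝ)) ≤ B₀ * (1 + (2 * n + 2)) :=
      mul_le_mul_of_nonneg_right (le_max_left _ _) (by positivity)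
    nlinarith
  have e5 : Real.exp ((5 * B₀ + 1) * n) = Real.exp (5 * B₀ * n) * Real.exp n := by
    rw [← Real.exp_add]
    congr 1
    ring
  rw [e5] at h1
  have e6 : 1 < Real.exp n * (1 / 2) := by linarith
  have e7 := Real.exp_pos (5 * B₀ * n)
  calc Real.exp (B * (1 + (2 * n + 2))) ≤ Real.exp (5 * B₀ * n) := e4
    _ < Real.exp (5 * B₀ * n) * (Real.exp n * (1 / 2)) := lt_mul_of_one_lt_right e7 e6
    _ = 1 * (Real.exp (5 * B₀ * n) * Real.exp n) * (1 / 2) := by ring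
    _ ≤ _ := by gcongr

/-- **Infinitely many zeros in the critical strip.** -/
theorem DegTwo.infinite_zeros (h : DegTwo N W L L' Λ Λ') (h1 : ∀ s : ℂ, 1 ≤ s.re → L s ≠ 0)
    (h2 : ∀ s : ℂ, 1 ≤ s.re → L' s ≠ 0) {B Z : ℝ}
    (hB : ∀ s : ℂ, -1 ≤ s.re → s.re ≤ 2 → ‖Λ s‖ ≤ B)
    (hZ : ∀ s : ℂ, 2 ≤ s.re → ‖L s‖ ≤ Z) (hZ' : ∀ s : ℂ, 2 ≤ s.re → ‖L' s‖ ≤ Z)
    (hL : Tendsto (fun x : ℝ => L (x : ℂ)) atTop (𝓝 1)) :
    {s : ℂ | 0 < s.re ∧ s.re < 1 ∧ L s = 0}.Infinite := by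
  have e1 : ∀ s : ℂ, 2 ≤ s.re → Λ s = (N : ℂ) ^ (s / 2) * Gammaℂ s * L s := fun s hs =>
    h.eq s (ne_neg_natCast_of_re_pos (by linarith))
  have e2 : ∀ s : ℂ, 2 ≤ s.re → Λ' s = (N : ℂ) ^ (s / 2) * Gammaℂ s * L' s := fun s hs =>
    h.eq' s (ne_neg_natCast_of_re_pos (by linarith))
  have h3 := infinite_zeros_of_growth h.entire
    (hasGrowth_of_bounds h.pos e1 e2 h.fe hB hZ hZ') (exists_lt_norm h.pos e1 hL)
  exact h3.mono fun s hs => (h.zero_iff h1 h2 s).mp hs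

end Fermat.Agent.Cor.Artin

end
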