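import Fermat.Agent.Corollaries.Artin.TwistAr

/-!
# The exact conductor and the exact Euler factors from the functional equations

`exists_identity`: the comparison of the functional equations of the four zeta functions and of
`b ↔ c`, where `c` is `b̄` up to one linear factor at `3`.
-/

set_option autoImplicit false

noncomputable section

open Complex
open scoped LSeries.notation ComplexConjugate

namespace Fermat.Agent.Cor.Artin

open Fermat.Agent.Classic.Lvl Fermat.Agent.Classic.Zeta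

/-- The identity of the four zeta functions, as an identity of arithmetic functions. -/
theorem ident_toAr {b : ℕ → ℂ} {z24 z12 z8 z4 : ℕ → ℂ} {l24 l12 l8 l4 : List ℕ}
    (hl24 : ∀ ν ∈ l24, 2 ≤ ν) (hl12 : ∀ ν ∈ l12, 2 ≤ ν) (hl8 : ∀ ν ∈ l8, 2 ≤ ν)
    (hl4 : ∀ ν ∈ l4, 2 ≤ ν)
    (hid : ∀ n, n ≠ 0 → ((z24 ⍟ efl l24) ⍟ ((z4 ⍟ efl l4) ⍟ (z4 ⍟ efl l4))) n =
      (((z12 ⍟ efl l12) ⍟ ((z8 ⍟ efl l8) ⍟ (z8 ⍟ efl l8))) ⍟ (b ⍟ fun n => conj (b n))) n) :
    toAr z24 * (toAr z4 * toAr z4) * linProd (l24 ++ (l4 ++ l4)) (fun _ => 1) =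
      toAr z12 * (toAr z8 * toAr z8) * linProd (l12 ++ (l8 ++ l8)) (fun _ => 1) *
        (toAr b * toAr fun n => conj (b n)) := by
  have I2 : toAr z24 * linProd l24 (fun _ => 1) *
        (toAr z4 * linProd l4 (fun _ => 1) * (toAr z4 * linProd l4 (fun _ => 1))) =
      toAr z12 * linProd l12 (fun _ => 1) *
        (toAr z8 * linProd l8 (fun _ => 1) * (toAr z8 * linProd l8 (fun _ => 1))) *
          (toAr b * toAr fun n => conj (b n)) := by
    simp only [← toAr_efl hl24, ← toAr_efl hl4, ← toAr_efl hl12, ← toAr_efl hl8, ← toAr_conv]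
    exact toAr_congr hid
  simp only [linProd_append]
  linear_combination I2

/-- **The exact Euler factors.** -/
theorem exists_identity {N : ℕ} (hN : N ≠ 0) {b c : ℕ → ℂ} (hbc : FE b c N 0 1) (hb1 : b 1 = 1)
    {z24 z12 z8 z4 : ℕ → ℂ} {d24 d12 d8 d4 r24 r12 r8 r4 t24 t12 t8 t4 : ℕ}
    {l24 l12 l8 l4 : List ℕ}
    (h24 : FE z24 z24 d24 r24 t24) (h12 : FE z12 z12 d12 r12 t12)
    (h8 : FE z8 z8 d8 r8 t8) (h4 : FE z4 z4 d4 r4 t4)
    (o12 : z12 1 = 1) (o8 : z8 1 = 1)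
    (n24 : d24 ≠ 0) (n12 : d12 ≠ 0) (n8 : d8 ≠ 0) (n4 : d4 ≠ 0)
    (hl24 : ∀ ν ∈ l24, 2 ≤ ν) (hl12 : ∀ ν ∈ l12, 2 ≤ ν) (hl8 : ∀ ν ∈ l8, 2 ≤ ν)
    (hl4 : ∀ ν ∈ l4, 2 ≤ ν)
    (hid : ∀ n, n ≠ 0 → ((z24 ⍟ efl l24) ⍟ ((z4 ⍟ efl l4) ⍟ (z4 ⍟ efl l4))) n =
      (((z12 ⍟ efl l12) ⍟ ((z8 ⍟ efl l8) ⍟ (z8 ⍟ efl l8))) ⍟ (b ⍟ fun n => conj (b n))) n)
    (hr : r24 + 2 * r4 = r12 + 2 * r8) (ht : t24 + 2 * t4 = t12 + 2 * t8 + 2)
    {μ γ : ℂ} (hγ : γ ≠ 0)
    (hc : toAr c * lin 3 μ = sing 1 γ * (toAr fun n => conj (b n)) * lin 3 (3 * μ)) :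
    linProd (l24 ++ (l4 ++ l4)) (fun _ => 1) =
      linProd (l12 ++ (l8 ++ l8)) (fun _ => 1) * (lin 3 μ * lin 3 (conj μ)) := by
  have hL := fe_four h24 h4 hl24 hl4
  have hR := FE.mul (fe_four h12 h8 hl12 hl8) (fe_self_conj hbc)
  have hR' := FE.congr hR (fun n hn => (hid n hn).symm) (fun n _ => rfl)
  have er : r12 + (r8 + r8) + (0 + 0) = r24 + (r4 + r4) := by omega
  have et : t12 + (t8 + t8) + (1 + 1) = t24 + (t4 + t4) := by omega
  rw [er, et] at hR'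
  have hD₁ : d24 * l24.prod * (d4 * l4.prod * (d4 * l4.prod)) ≠ 0 :=
    mul_ne_zero (mul_ne_zero n24 (prod_ne_zero_of_two_le hl24))
      (mul_ne_zero (mul_ne_zero n4 (prod_ne_zero_of_two_le hl4))
        (mul_ne_zero n4 (prod_ne_zero_of_two_le hl4)))
  have hD₀ : d12 * l12.prod * (d8 * l8.prod * (d8 * l8.prod)) ≠ 0 :=
    mul_ne_zero (mul_ne_zero n12 (prod_ne_zero_of_two_le hl12))
      (mul_ne_zero (mul_ne_zero n8 (prod_ne_zero_of_two_le hl8))
        (mul_ne_zero n8 (prod_ne_zero_of_two_le hl8)))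
  have hD₂ : d12 * l12.prod * (d8 * l8.prod * (d8 * l8.prod)) * (N * N) ≠ 0 :=
    mul_ne_zero hD₀ (mul_ne_zero hN hN)
  obtain ⟨κ, hκ, hc'⟩ := FE.compare hD₁ hD₂ hL hR'
  generalize d24 * l24.prod * (d4 * l4.prod * (d4 * l4.prod)) = D₁ at hD₁ hc'
  generalize d12 * l12.prod * (d8 * l8.prod * (d8 * l8.prod)) * (N * N) = D₂ at hD₂ hc'
  -- the two identities of arithmetic functions
  have I1 : sing D₂ 1 *
      (toAr z24 * linProd l24 (fun n => n) *
        (toAr z4 * linProd l4 (fun n => n) * (toAr z4 * linProd l4 (fun n => n)))) =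
      sing D₁ κ * (toAr z12 * linProd l12 (fun n => n) *
        (toAr z8 * linProd l8 (fun n => n) * (toAr z8 * linProd l8 (fun n => n))) *
          (toAr c * toAr fun n => conj (c n))) := by
    simp only [← toAr_efl' hl24, ← toAr_efl' hl4, ← toAr_efl' hl12, ← toAr_efl' hl8,
      ← toAr_conv]
    ext n
    rcases eq_or_ne n 0 with rfl | hn
    · simp
    · rw [sing_mul_toAr hD₂ 1 _ hn, sing_mul_toAr hD₁ κ _ hn, one_mul]
      exact hc' n hn
  have I2 := ident_toAr hl24 hl12 hl8 hl4 hid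
  have hone : ∀ {z : ℕ → ℂ}, z 1 = 1 → toAr z 1 = 1 := fun {z} hz => by
    rw [toAr_apply z one_ne_zero, hz]
  have hU2 : ∀ n ∈ l12 ++ (l8 ++ l8), 2 ≤ n := by
    intro n hn
    simp only [List.mem_append, or_self] at hn
    exact hn.elim (hl12 n) (hl8 n)
  have hV2 : ∀ n ∈ l24 ++ (l4 ++ l4), 2 ≤ n := by
    intro n hn
    simp only [List.mem_append, or_self] at hn
    exact hn.elim (hl24 n) (hl4 n)
  have hc2 : (toAr fun n => conj (c n)) * lin 3 (conj μ) =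
      sing 1 (conj γ) * toAr b * lin 3 (3 * conj μ) := by
    have h1 := congrArg cj hc
    rw [cj_mul, cj_mul, cj_mul, cj_toAr, cj_toAr, cj_sing one_ne_zero, cj_lin three_ne_zero,
      cj_lin three_ne_zero, map_mul] at h1
    have h2 : (fun n => conj (conj (b n))) = b := funext fun n => Complex.conj_conj _
    rw [h2, map_ofNat] at h1
    exact h1
  -- the identity without the zeta functions
  set K : ArithmeticFunction ℂ := toAr z12 * (toAr z8 * toAr z8) *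
    (toAr b * toAr fun n => conj (b n)) with hK
  have hK1 : K 1 = 1 := by
    simp only [hK, ArithmeticFunction.mul_apply_one, hone o12, hone o8, toAr_apply _ one_ne_zero,
      hb1, map_one, mul_one]
  set A : ArithmeticFunction ℂ := linProd (l12 ++ (l8 ++ l8)) (fun _ => 1) *
    (lin 3 μ * lin 3 (conj μ)) with hA
  set B : ArithmeticFunction ℂ := linProd (l24 ++ (l4 ++ l4)) (fun _ => 1) with hB
  have hA1 : A 1 = 1 := by
    simp only [hA, ArithmeticFunction.mul_apply_one, linProd_apply_one hU2,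
      lin_one (by norm_num : 2 ≤ 3), mul_one]
  have hB1 : B 1 = 1 := linProd_apply_one hV2 _
  have htA : tw A = linProd (l12 ++ (l8 ++ l8)) (fun n => n) *
      (lin 3 (3 * μ) * lin 3 (3 * conj μ)) := by
    rw [hA, tw_mul, tw_mul, tw_linProd hU2, tw_lin three_ne_zero, tw_lin three_ne_zero]
    norm_num
  have htB : tw B = linProd (l24 ++ (l4 ++ l4)) (fun n => n) := tw_linProd hV2
  have hE : sing D₂ 1 * (A * tw B) = sing D₁ (κ * (γ * conj γ)) * (B * tw A) := by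
    refine cancel_left (ne_zero_of_one hK1) ?_
    have hs : sing D₁ (κ * (γ * conj γ)) = sing D₁ κ * (sing 1 γ * sing 1 (conj γ)) := by
      rw [sing_mul_sing_one one_ne_zero, sing_mul_sing_one hD₁]
    have I1' : sing D₂ 1 * (toAr z24 * (toAr z4 * toAr z4)) * tw B =
        sing D₁ κ * (toAr z12 * (toAr z8 * toAr z8) * linProd (l12 ++ (l8 ++ l8)) (fun n => n) *
          (toAr c * toAr fun n => conj (c n))) := by
      rw [htB]
      simp only [linProd_append]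
      linear_combination I1
    rw [hs, htA, hK, hA]
    linear_combination (-(sing D₂ 1 * tw B * (lin 3 μ * lin 3 (conj μ)))) * I2 +
      (B * (lin 3 μ * lin 3 (conj μ))) * I1' +
      (sing D₁ κ * (toAr z12 * (toAr z8 * toAr z8) * linProd (l12 ++ (l8 ++ l8)) (fun n => n)) *
        B * ((toAr fun n => conj (c n)) * lin 3 (conj μ))) * hc +
      (sing D₁ κ * (toAr z12 * (toAr z8 * toAr z8) * linProd (l12 ++ (l8 ++ l8)) (fun n => n)) *
        B * (sing 1 γ * (toAr fun n => conj (b n)) * lin 3 (3 * μ))) * hc2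
  have hAB1 : (A * tw B) 1 = 1 := by
    rw [ArithmeticFunction.mul_apply_one, tw_apply, hA1, hB1, Nat.cast_one, mul_one, mul_one]
  have hBA1 : (B * tw A) 1 = 1 := by
    rw [ArithmeticFunction.mul_apply_one, tw_apply, hA1, hB1, Nat.cast_one, mul_one, mul_one]
  obtain ⟨-, h1, h2⟩ := sing_cancel hD₁ hD₂
    (mul_ne_zero hκ (mul_ne_zero hγ ((map_ne_zero _).mpr hγ))) hAB1 one_ne_zero hBA1 hE
  rw [mul_one] at h1
  rw [h1, sing_one_one, one_mul] at h2
  exact (eq_of_tw hA1 hB1 h2).symm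

/-- the absolute value of the eigenvalue -/
theorem norm_eq_one_of_identity {U V : List ℕ} (hU : ∀ ν ∈ U, 2 ≤ ν) (hV : ∀ ν ∈ V, 2 ≤ ν)
    {μ : ℂ} (hμ : μ ≠ 0)
    (h : linProd V (fun _ => 1) = linProd U (fun _ => 1) * (lin 3 μ * lin 3 (conj μ))) :
    ‖μ‖ = 1 := by
  have hlog : (Real.log 3 : ℂ) ≠ 0 := by
    rw [Ne, Complex.ofReal_eq_zero]
    exact (Real.log_pos (by norm_num)).ne'
  set s : ℂ := Complex.log μ / Real.log 3 with hs
  have h3s : (3 : ℂ) ^ (-s) = μ⁻¹ := by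
    have h1 : Complex.log 3 = (Real.log 3 : ℂ) := by
      rw [Complex.ofReal_log (by norm_num)]
      norm_num
    rw [Complex.cpow_neg, Complex.cpow_def_of_ne_zero three_ne_zero, h1, hs,
      mul_div_cancel₀ _ hlog, Complex.exp_log hμ]
  have hL := hasSum_linProd hV (fun _ => 1) s
  have hR := ArithmeticFunction.LSeriesHasSum_mul (hasSum_linProd hU (fun _ => 1) s)
    (ArithmeticFunction.LSeriesHasSum_mul (hasSum_lin three_ne_zero μ s)
      (hasSum_lin three_ne_zero (conj μ) s))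
  rw [← h] at hR
  have h4 := hL.unique hR
  have h5 : (1 : ℂ) - μ * ((3 : ℕ) : ℂ) ^ (-s) = 0 := by
    rw [Nat.cast_ofNat, h3s, mul_inv_cancel₀ hμ, sub_self]
  rw [h5, zero_mul, mul_zero, List.prod_eq_zero_iff, List.mem_map] at h4
  obtain ⟨ν, hν, h6⟩ := h4
  have hν2 := hV ν hν
  have h7 : ‖(ν : ℂ) ^ (-s)‖ = 1 := by
    rw [one_mul, sub_eq_zero] at h6
    rw [← h6, norm_one]
  rw [Complex.norm_natCast_cpow_of_pos (by omega)] at h7
  have h8 : (-s).re = 0 := by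
    have h9 : (1 : ℝ) < ν := by exact_mod_cast (by omega : 1 < ν)
    rcases lt_trichotomy (-s).re 0 with h10 | h10 | h10
    · exact absurd h7 (Real.rpow_lt_one_of_one_lt_of_neg h9 h10).ne
    · exact h10
    · exact absurd h7 (Real.one_lt_rpow h9 h10).ne'
  have h11 : ‖((3 : ℕ) : ℂ) ^ (-s)‖ = 1 := by
    rw [Complex.norm_natCast_cpow_of_pos (by norm_num), h8, Real.rpow_zero]
  rw [Nat.cast_ofNat, h3s, norm_inv] at h11
  exact inv_eq_one.mp h11

/-- **The complete identity.** -/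
theorem complete_identity {a b : ℕ → ℂ} {z24 z12 z8 z4 : ℕ → ℂ} {l24 l12 l8 l4 : List ℕ}
    (hl24 : ∀ ν ∈ l24, 2 ≤ ν) (hl12 : ∀ ν ∈ l12, 2 ≤ ν) (hl8 : ∀ ν ∈ l8, 2 ≤ ν)
    (hl4 : ∀ ν ∈ l4, 2 ≤ ν)
    (hid : ∀ n, n ≠ 0 → ((z24 ⍟ efl l24) ⍟ ((z4 ⍟ efl l4) ⍟ (z4 ⍟ efl l4))) n =
      (((z12 ⍟ efl l12) ⍟ ((z8 ⍟ efl l8) ⍟ (z8 ⍟ efl l8))) ⍟ (b ⍟ fun n => conj (b n))) n)
    {lam : ℂ} (ha : toAr a * lin 3 lam = toAr b)
    (hV : linProd (l24 ++ (l4 ++ l4)) (fun _ => 1) =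
      linProd (l12 ++ (l8 ++ l8)) (fun _ => 1) * (lin 3 (conj lam) * lin 3 (conj (conj lam)))) :
    toAr z24 * (toAr z4 * toAr z4) =
      toAr z12 * (toAr z8 * toAr z8) * (toAr a * toAr fun n => conj (a n)) := by
  have I2 := ident_toAr hl24 hl12 hl8 hl4 hid
  have hU2 : ∀ n ∈ l12 ++ (l8 ++ l8), 2 ≤ n := by
    intro n hn
    simp only [List.mem_append, or_self] at hn
    exact hn.elim (hl12 n) (hl8 n)
  have ha2 : (toAr fun n => conj (a n)) * lin 3 (conj lam) = toAr fun n => conj (b n) := by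
    have h1 := congrArg cj ha
    rw [cj_mul, cj_toAr, cj_toAr, cj_lin three_ne_zero] at h1
    exact h1
  rw [Complex.conj_conj] at hV
  rw [hV, ← ha, ← ha2] at I2
  refine cancel_left (a := linProd (l12 ++ (l8 ++ l8)) (fun _ => 1) *
    (lin 3 (conj lam) * lin 3 lam)) (ne_zero_of_one ?_) ?_
  · simp only [ArithmeticFunction.mul_apply_one, linProd_apply_one hU2,
      lin_one (by norm_num : 2 ≤ 3), mul_one]
  · linear_combination I2

/-- **The conductor.** -/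
theorem conductor_eq {N : ℕ} (hN : N ≠ 0) {a : ℕ → ℂ} {γ : ℂ} (hγ : γ ≠ 0)
    (hac : FE a (fun n => γ * conj (a n)) N 0 1) (ha1 : a 1 = 1)
    {z24 z12 z8 z4 : ℕ → ℂ} {d24 d12 d8 d4 r24 r12 r8 r4 t24 t12 t8 t4 : ℕ}
    (h24 : FE z24 z24 d24 r24 t24) (h12 : FE z12 z12 d12 r12 t12)
    (h8 : FE z8 z8 d8 r8 t8) (h4 : FE z4 z4 d4 r4 t4)
    (o24 : z24 1 = 1) (o12 : z12 1 = 1) (o8 : z8 1 = 1) (o4 : z4 1 = 1)
    (n24 : d24 ≠ 0) (n12 : d12 ≠ 0) (n8 : d8 ≠ 0) (n4 : d4 ≠ 0)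
    (hr : r24 + 2 * r4 = r12 + 2 * r8) (ht : t24 + 2 * t4 = t12 + 2 * t8 + 2)
    (hid : toAr z24 * (toAr z4 * toAr z4) =
      toAr z12 * (toAr z8 * toAr z8) * (toAr a * toAr fun n => conj (a n))) :
    d24 * (d4 * d4) = d12 * (d8 * d8) * (N * N) := by
  have hL := FE.mul h24 (FE.mul h4 h4)
  have hR := FE.mul (FE.mul h12 (FE.mul h8 h8)) (fe_self_conj hac)
  have hid' : ∀ n, n ≠ 0 → ((z12 ⍟ (z8 ⍟ z8)) ⍟ (a ⍟ fun n => conj (a n))) n =
      (z24 ⍟ (z4 ⍟ z4)) n := by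
    intro n hn
    rw [← toAr_apply ((z12 ⍟ (z8 ⍟ z8)) ⍟ (a ⍟ fun n => conj (a n))) hn,
      ← toAr_apply (z24 ⍟ (z4 ⍟ z4)) hn]
    simp only [toAr_conv]
    rw [hid]
  have hR' := FE.congr hR hid' (fun n _ => rfl)
  have er : r12 + (r8 + r8) + (0 + 0) = r24 + (r4 + r4) := by omega
  have et : t12 + (t8 + t8) + (1 + 1) = t24 + (t4 + t4) := by omega
  rw [er, et] at hR'
  have hD₁ : d24 * (d4 * d4) ≠ 0 := mul_ne_zero n24 (mul_ne_zero n4 n4)
  have hD₂ : d12 * (d8 * d8) * (N * N) ≠ 0 :=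
    mul_ne_zero (mul_ne_zero n12 (mul_ne_zero n8 n8)) (mul_ne_zero hN hN)
  obtain ⟨κ, hκ, hc'⟩ := FE.compare hD₁ hD₂ hL hR'
  have I1 : sing (d12 * (d8 * d8) * (N * N)) 1 * (toAr z24 * (toAr z4 * toAr z4)) =
      sing (d24 * (d4 * d4)) κ * (toAr z12 * (toAr z8 * toAr z8) *
          (toAr (fun n => γ * conj (a n)) * toAr fun n => conj (γ * conj (a n)))) := by
    simp only [← toAr_conv]
    ext n
    rcases eq_or_ne n 0 with rfl | hn
    · simp
    · rw [sing_mul_toAr hD₂ 1 _ hn, sing_mul_toAr hD₁ κ _ hn, one_mul]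
      exact hc' n hn
  refine (sing_cancel hD₁ hD₂ hκ ?_ (β := γ * conj γ)
    (mul_ne_zero hγ ((map_ne_zero _).mpr hγ)) ?_ I1).1
  · simp only [ArithmeticFunction.mul_apply_one, toAr_apply _ one_ne_zero, o24, o4, mul_one]
  · simp only [ArithmeticFunction.mul_apply_one, toAr_apply _ one_ne_zero, o12, o8, ha1, mul_one,
      map_one, one_mul]

end Fermat.Agent.Cor.Artin

end
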