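import Fermat.Agent.Corollaries.Artin.Lead

/-!
# The eigenvalue of `U_q` at a prime dividing the level once (piece (M5) of K7 (I))

`a ↔ a'` a functional equation of weight one with `a (q n) = t a n`, `a' (q n) = t⁻¹ a' n`. The
depletion of `a` has the dual `a' n - q t⁻¹ a' (n / q)` (`fe_deplete_one`, `fe_deplete`), its lead is
a multiple of `(1 - q t⁻¹ X) / (1 - t⁻¹ X)`. The comparison with the four zeta functions gives
`|t| = 1`, the difference of the degrees of the Euler factors is two, and `t = δ` if `δ = ± 1` is a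
zero of the difference of the Euler factors (`lam_of_lead`, `lam_of_fe`).
-/

set_option autoImplicit false

noncomputable section

open Complex
open scoped ComplexConjugate

namespace Fermat.Agent.Cor.Artin

open Fermat.Agent.Classic.Lvl Fermat.Agent.Classic.Zeta

/-! ### The linear factors -/

/-- `1 - z X` -/
def lf (z : ℂ) : Polynomial ℂ := 1 - Polynomial.C z * Polynomial.X

theorem lf_eval (z x : ℂ) : (lf z).eval x = 1 - z * x := by simp [lf]

theorem lf_ne_zero (z : ℂ) : lf z ≠ 0 := fun h => by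
  have h1 := lf_eval z 0
  rw [h, Polynomial.eval_zero, mul_zero, sub_zero] at h1
  exact zero_ne_one h1

theorem natDegree_lf {z : ℂ} (hz : z ≠ 0) : (lf z).natDegree = 1 := by
  have h : lf z = Polynomial.C (-z) * Polynomial.X + Polynomial.C 1 := by
    rw [lf, Polynomial.C_neg, Polynomial.C_1]
    ring
  rw [h, Polynomial.natDegree_linear (neg_ne_zero.mpr hz)]

theorem norm_of_lf {z x : ℂ} (h : (lf z).eval x = 0) : ‖x‖ = ‖z‖⁻¹ := by
  rw [lf_eval, sub_eq_zero] at h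
  have h1 : ‖z‖ * ‖x‖ = 1 := by rw [← norm_mul, ← h, norm_one]
  exact eq_inv_of_mul_eq_one_right h1

theorem cnt_lf_self {z : ℂ} (hz : z ≠ 0) {r : ℝ} (hr : r = ‖z‖⁻¹) : cnt r (lf z) = 1 := by
  rw [cnt_eq_natDegree fun x hx => (norm_of_lf hx).trans hr.symm, natDegree_lf hz]

theorem cnt_lf_ne {z : ℂ} {r : ℝ} (hr : r ≠ ‖z‖⁻¹) : cnt r (lf z) = 0 :=
  cnt_eq_zero fun _ hx h => hr (h.symm.trans (norm_of_lf hx))

/-! ### The comparison -/

/-- **The eigenvalue.** -/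
theorem lam_of_lead_prime {q : ℕ} (hq : q.Prime) {U V : List ℕ} (hU : ∀ ν ∈ U, 2 ≤ ν)
    (hV : ∀ ν ∈ V, 2 ≤ ν) {l : ℂ} (hl0 : l ≠ 0) {a C : ℂ} {k : ℕ} (ha : a ≠ 0) (hC : C ≠ 0)
    (h : Polynomial.C a * (1 - Polynomial.C (q * l) * Polynomial.X) *
        (1 - Polynomial.C (q * conj l) * Polynomial.X) * eulF q U * eulS q V =
      Polynomial.C C * Polynomial.X ^ k * (1 - Polynomial.C l * Polynomial.X) *
        (1 - Polynomial.C (conj l) * Polynomial.X) * eulF q V * eulS q U) :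
    ‖l‖ = 1 ∧ U.prod.factorization q = V.prod.factorization q + 2 ∧
      ∀ δ : ℂ, (δ = 1 ∨ δ = -1) →
        (eulF q V).rootMultiplicity δ < (eulF q U).rootMultiplicity δ → l = δ := by
  change Polynomial.C a * lf (q * l) * lf (q * conj l) * eulF q U * eulS q V =
    Polynomial.C C * Polynomial.X ^ k * lf l * lf (conj l) * eulF q V * eulS q U at h
  have hq1 : (1 : ℝ) < q := by exact_mod_cast hq.one_lt
  have hq0 : (0 : ℝ) < q := by linarith
  have hqc : (q : ℂ) ≠ 0 := by exact_mod_cast hq.ne_zero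
  have hqi : (q : ℝ)⁻¹ < 1 := inv_lt_one_of_one_lt₀ hq1
  have hqi0 : 0 < (q : ℝ)⁻¹ := inv_pos.mpr hq0
  have hlc : conj l ≠ 0 := (map_ne_zero _).mpr hl0
  have hql : (q : ℂ) * l ≠ 0 := mul_ne_zero hqc hl0
  have hqlc : (q : ℂ) * conj l ≠ 0 := mul_ne_zero hqc hlc
  set r : ℝ := ‖l‖⁻¹ with hr
  have hr0 : 0 < r := inv_pos.mpr (norm_pos_iff.mpr hl0)
  have e1 : ‖conj l‖⁻¹ = r := by rw [Complex.norm_conj]
  have e2 : ‖(q : ℂ) * l‖⁻¹ = (q : ℝ)⁻¹ * r := by
    rw [norm_mul, Complex.norm_natCast, mul_inv]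
  have e3 : ‖(q : ℂ) * conj l‖⁻¹ = (q : ℝ)⁻¹ * r := by
    rw [norm_mul, Complex.norm_natCast, mul_inv, e1]
  have hCX : Polynomial.C C * Polynomial.X ^ k ≠ 0 :=
    mul_ne_zero (Polynomial.C_ne_zero.mpr hC) (pow_ne_zero k Polynomial.X_ne_zero)
  have hCa : Polynomial.C a ≠ 0 := Polynomial.C_ne_zero.mpr ha
  have hFU := eulF_ne_zero hq hU
  have hFV := eulF_ne_zero hq hV
  have hSU := eulS_ne_zero hq hU
  have hSV := eulS_ne_zero hq hV
  have m1 := mul_ne_zero hCa (lf_ne_zero (q * l))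
  have m2 := mul_ne_zero m1 (lf_ne_zero (q * conj l))
  have m3 := mul_ne_zero m2 hFU
  have m4 := mul_ne_zero m3 hSV
  have n1 := mul_ne_zero hCX (lf_ne_zero l)
  have n2 := mul_ne_zero n1 (lf_ne_zero (conj l))
  have n3 := mul_ne_zero n2 hFV
  have n4 := mul_ne_zero n3 hSU
  have hX : ∀ {ρ : ℝ}, ρ ≠ 0 → cnt ρ (Polynomial.C C * Polynomial.X ^ k) = 0 := by
    intro ρ hρ
    refine cnt_eq_zero fun z hz => ?_
    rw [Polynomial.eval_mul, Polynomial.eval_C, Polynomial.eval_pow, Polynomial.eval_X] at hz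
    have hz0 : z = 0 := eq_zero_of_pow_eq_zero ((mul_eq_zero.mp hz).resolve_left hC)
    rw [hz0, norm_zero]
    exact hρ.symm
  have hA : ∀ ρ : ℝ, cnt ρ (Polynomial.C a) = 0 := fun ρ =>
    cnt_eq_zero fun z hz => absurd (by rwa [Polynomial.eval_C] at hz) ha
  have hcount : ∀ ρ : ℝ, ρ ≠ 0 → cnt ρ (lf (q * l)) + cnt ρ (lf (q * conj l)) +
      cnt ρ (eulF q U) + cnt ρ (eulS q V) =
      cnt ρ (lf l) + cnt ρ (lf (conj l)) + cnt ρ (eulF q V) + cnt ρ (eulS q U) := by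
    intro ρ hρ
    have := congrArg (cnt ρ) h
    rwa [cnt_mul ρ m3 hSV, cnt_mul ρ m2 hFU, cnt_mul ρ m1 (lf_ne_zero _),
      cnt_mul ρ hCa (lf_ne_zero _), hA, zero_add, cnt_mul ρ n3 hSU, cnt_mul ρ n2 hFV,
      cnt_mul ρ n1 (lf_ne_zero _), cnt_mul ρ hCX (lf_ne_zero _), hX hρ, zero_add] at this
  -- the numbers of roots of the Euler factors
  have fU1 : cnt 1 (eulF q U) = U.prod.factorization q := by
    rw [cnt_eq_natDegree (fun z hz => norm_of_eulF hq hU hz), natDegree_eulF hq hU]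
  have fV1 : cnt 1 (eulF q V) = V.prod.factorization q := by
    rw [cnt_eq_natDegree (fun z hz => norm_of_eulF hq hV hz), natDegree_eulF hq hV]
  have sU1 : cnt (q : ℝ)⁻¹ (eulS q U) = U.prod.factorization q := by
    rw [cnt_eq_natDegree (fun z hz => norm_of_eulS hq hU hz), natDegree_eulS hq,
      natDegree_eulF hq hU]
  have sV1 : cnt (q : ℝ)⁻¹ (eulS q V) = V.prod.factorization q := by
    rw [cnt_eq_natDegree (fun z hz => norm_of_eulS hq hV hz), natDegree_eulS hq,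
      natDegree_eulF hq hV]
  have fU0 : ∀ {ρ : ℝ}, ρ ≠ 1 → cnt ρ (eulF q U) = 0 := fun {ρ} hρ =>
    cnt_eq_zero fun z hz => by rw [norm_of_eulF hq hU hz]; exact hρ.symm
  have fV0 : ∀ {ρ : ℝ}, ρ ≠ 1 → cnt ρ (eulF q V) = 0 := fun {ρ} hρ =>
    cnt_eq_zero fun z hz => by rw [norm_of_eulF hq hV hz]; exact hρ.symm
  have sU0 : ∀ {ρ : ℝ}, ρ ≠ (q : ℝ)⁻¹ → cnt ρ (eulS q U) = 0 := fun {ρ} hρ =>
    cnt_eq_zero fun z hz => by rw [norm_of_eulS hq hU hz]; exact hρ.symm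
  have sV0 : ∀ {ρ : ℝ}, ρ ≠ (q : ℝ)⁻¹ → cnt ρ (eulS q V) = 0 := fun {ρ} hρ =>
    cnt_eq_zero fun z hz => by rw [norm_of_eulS hq hV hz]; exact hρ.symm
  have hrq : r ≠ (q : ℝ)⁻¹ * r := by
    intro h0
    nlinarith
  -- the circle of radius `r`
  have hcr := hcount r hr0.ne'
  rw [cnt_lf_ne (z := q * l) (by rw [e2]; exact hrq), cnt_lf_ne (z := q * conj l) (by rw [e3]; exact hrq),
    cnt_lf_self hl0 rfl, cnt_lf_self hlc e1.symm] at hcr
  have hr1 : r = 1 := by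
    by_contra hne1
    rw [fU0 hne1, fV0 hne1] at hcr
    by_cases hne2 : r = (q : ℝ)⁻¹
    · rw [hne2, sU1, sV1] at hcr
      have h1 := hcount 1 one_ne_zero
      have hb : (1 : ℝ) ≠ (q : ℝ)⁻¹ * r := by
        rw [hne2]
        intro h0
        nlinarith
      have hc : (1 : ℝ) ≠ r := fun h0 => hne1 h0.symm
      rw [cnt_lf_ne (z := q * l) (by rw [e2]; exact hb), cnt_lf_ne (z := q * conj l) (by rw [e3]; exact hb),
        cnt_lf_ne (z := l) hc, cnt_lf_ne (z := conj l) (by rw [e1]; exact hc), fU1, fV1, sU0 hqi.ne',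
        sV0 hqi.ne'] at h1
      omega
    · rw [sU0 hne2, sV0 hne2] at hcr
      omega
  rw [hr1, fU1, fV1, sU0 hqi.ne', sV0 hqi.ne'] at hcr
  refine ⟨?_, by omega, fun δ hδ hlt => ?_⟩
  · rw [hr, inv_eq_one] at hr1
    exact hr1
  -- the multiplicities at `δ`
  have hδ1 : ‖δ‖ = 1 := by rcases hδ with rfl | rfl <;> simp
  have hδ0 : δ ≠ 0 := by
    rintro rfl
    rw [norm_zero] at hδ1
    exact zero_ne_one hδ1
  have hδδ : δ * δ = 1 := by rcases hδ with rfl | rfl <;> norm_num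
  have hδc : conj δ = δ := by rcases hδ with rfl | rfl <;> simp
  by_contra hne
  have hne1 : ¬ (lf l).IsRoot δ := by
    intro h0
    rw [Polynomial.IsRoot, lf_eval, sub_eq_zero] at h0
    exact hne (by linear_combination (-δ) * h0 - l * hδδ)
  have hne2 : ¬ (lf (conj l)).IsRoot δ := by
    intro h0
    rw [Polynomial.IsRoot, lf_eval, sub_eq_zero] at h0
    have h1 := congrArg (starRingEnd ℂ) h0
    rw [map_one, map_mul, Complex.conj_conj, hδc] at h1
    exact hne (by linear_combination (-δ) * h1 - l * hδδ)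
  have hnorm : ∀ {z : ℂ}, ‖z‖⁻¹ = (q : ℝ)⁻¹ * r → ¬ (lf z).IsRoot δ := by
    intro z hz1 h0
    have h1 := norm_of_lf h0
    rw [hz1, hδ1, hr1, mul_one] at h1
    exact hqi.ne' h1
  have hrm := congrArg (Polynomial.rootMultiplicity δ) h
  rw [Polynomial.rootMultiplicity_mul m4, Polynomial.rootMultiplicity_mul m3,
    Polynomial.rootMultiplicity_mul m2, Polynomial.rootMultiplicity_mul m1,
    Polynomial.rootMultiplicity_mul n4, Polynomial.rootMultiplicity_mul n3,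
    Polynomial.rootMultiplicity_mul n2, Polynomial.rootMultiplicity_mul n1,
    Polynomial.rootMultiplicity_eq_zero (p := Polynomial.C C * Polynomial.X ^ k),
    Polynomial.rootMultiplicity_eq_zero (p := Polynomial.C a),
    Polynomial.rootMultiplicity_eq_zero (p := lf l) hne1,
    Polynomial.rootMultiplicity_eq_zero (p := lf (conj l)) hne2,
    Polynomial.rootMultiplicity_eq_zero (p := lf (q * l)) (hnorm e2),
    Polynomial.rootMultiplicity_eq_zero (p := lf (q * conj l)) (hnorm e3),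
    Polynomial.rootMultiplicity_eq_zero (p := eulS q U),
    Polynomial.rootMultiplicity_eq_zero (p := eulS q V)] at hrm
  · omega
  · intro h0
    have := norm_of_eulS hq hV h0
    rw [hδ1] at this
    exact hqi.ne' this
  · intro h0
    have := norm_of_eulS hq hU h0
    rw [hδ1] at this
    exact hqi.ne' this
  · intro h0
    rw [Polynomial.IsRoot, Polynomial.eval_C] at h0
    exact ha h0
  · intro h0
    rw [Polynomial.IsRoot, Polynomial.eval_mul, Polynomial.eval_C, Polynomial.eval_pow,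
      Polynomial.eval_X] at h0
    exact mul_ne_zero hC (pow_ne_zero k hδ0) h0

/-- **The eigenvalue**, `q = 3`. -/
theorem lam_of_lead {U V : List ℕ} (hU : ∀ ν ∈ U, 2 ≤ ν)
    (hV : ∀ ν ∈ V, 2 ≤ ν) {l : ℂ} (hl0 : l ≠ 0) {a C : ℂ} {k : ℕ} (ha : a ≠ 0) (hC : C ≠ 0)
    (h : Polynomial.C a * (1 - Polynomial.C (3 * l) * Polynomial.X) *
        (1 - Polynomial.C (3 * conj l) * Polynomial.X) * eulF 3 U * eulS 3 V =
      Polynomial.C C * Polynomial.X ^ k * (1 - Polynomial.C l * Polynomial.X) *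
        (1 - Polynomial.C (conj l) * Polynomial.X) * eulF 3 V * eulS 3 U) :
    ‖l‖ = 1 ∧ U.prod.factorization 3 = V.prod.factorization 3 + 2 ∧
      ∀ δ : ℂ, (δ = 1 ∨ δ = -1) →
        (eulF 3 V).rootMultiplicity δ < (eulF 3 U).rootMultiplicity δ → l = δ :=
  lam_of_lead_prime Nat.prime_three hU hV hl0 ha hC (by exact_mod_cast h)

/-! ### The functional equation of the depletion -/

open scoped LSeries.notation

/-- The linear factor `1 - l ν^{-s}`. -/
theorem fe_lf {ν : ℕ} (hν : 2 ≤ ν) {l : ℂ} (hl : l ≠ 0) :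
    FE (fun n => if n = 1 then 1 else if n = ν then -l else 0)
      (fun n => if n = 1 then 1 else if n = ν then -(ν * l⁻¹) else 0) ν 0 0 := by
  have hν0 : (ν : ℂ) ≠ 0 := by
    rw [Nat.cast_ne_zero]; omega
  refine ⟨0, -(l * (ν : ℂ) ^ (-(1 / 2) : ℂ)), fun s => (ν : ℂ) ^ (s / 2) * (1 + (-l) / (ν : ℂ) ^ s),
    1, ?_, ?_, le_rfl, fun s _ => ?_⟩
  · rw [neg_ne_zero]
    exact mul_ne_zero hl (by simp [cpow_eq_zero_iff, hν0])
  · have h1 : Differentiable ℂ fun s : ℂ => (ν : ℂ) ^ (s / 2) := by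
      intro s
      exact (differentiableAt_id.div_const 2).const_cpow (Or.inl hν0)
    have h2 : Differentiable ℂ fun s : ℂ => (ν : ℂ) ^ s := by
      intro s
      exact differentiableAt_id.const_cpow (Or.inl hν0)
    refine h1.mul ((differentiable_const _).add ((differentiable_const _).div h2 fun s => ?_))
    simp [cpow_eq_zero_iff, hν0]
  · have h1 := hasSum_ef hν (-l) s
    have h2 := hasSum_ef hν (-((ν : ℂ) * l⁻¹)) s
    refine ⟨h1.LSeriesSummable, h2.LSeriesSummable, ?_, ?_⟩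
    · rw [h1.LSeries_eq]; simp
    · rw [h2.LSeries_eq]
      change (ν : ℂ) ^ ((1 - s) / 2) * (1 + (-l) / (ν : ℂ) ^ (1 - s)) = _
      have hs0 : (ν : ℂ) ^ s ≠ 0 := by simp [cpow_eq_zero_iff, hν0]
      have hs2 : (ν : ℂ) ^ (s / 2) ≠ 0 := by simp [cpow_eq_zero_iff, hν0]
      have h3 : (ν : ℂ) ^ ((1 - s) / 2) = (ν : ℂ) ^ ((1 / 2 : ℂ)) * ((ν : ℂ) ^ (s / 2))⁻¹ := by
        rw [← cpow_neg, ← cpow_add _ _ hν0]
        congr 1; ring
      have h4 : (ν : ℂ) ^ (1 - s) = ν * ((ν : ℂ) ^ s)⁻¹ := by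
        rw [sub_eq_add_neg, cpow_add _ _ hν0, cpow_one, cpow_neg]
      have h5 : (ν : ℂ) ^ s = (ν : ℂ) ^ (s / 2) * (ν : ℂ) ^ (s / 2) := by
        rw [← cpow_add _ _ hν0]; congr 1; ring
      have h6 : (ν : ℂ) ^ ((1 / 2 : ℂ)) ≠ 0 := by simp [cpow_eq_zero_iff, hν0]
      have h7 : (ν : ℂ) = (ν : ℂ) ^ ((1 / 2 : ℂ)) * (ν : ℂ) ^ ((1 / 2 : ℂ)) := by
        rw [← cpow_add _ _ hν0]; norm_num
      rw [h3, h4, h5, cpow_neg]
      simp only [pow_zero, one_mul, mul_one]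
      generalize (ν : ℂ) ^ (s / 2) = x at *
      generalize (ν : ℂ) ^ ((1 / 2 : ℂ)) = y at *
      rw [h7]
      field_simp
      ring

/-- convolution with a linear factor -/
theorem conv_lf {ν : ℕ} (hν : 2 ≤ ν) (a : ℕ → ℂ) (c : ℂ) {n : ℕ} (hn : n ≠ 0) :
    (a ⍟ fun n => if n = 1 then 1 else if n = ν then c else 0) n =
      a n + c * (if ν ∣ n then a (n / ν) else 0) := by
  rw [LSeries.convolution_def]
  change ∑ p ∈ n.divisorsAntidiagonal, a p.1 * (if p.2 = 1 then 1 else if p.2 = ν then c else 0) = _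
  rw [Nat.sum_divisorsAntidiagonal' (f := fun x y => a x * (if y = 1 then 1 else if y = ν then c else 0))]
  have h1 : ∀ i ∈ n.divisors, a (n / i) * (if i = 1 then 1 else if i = ν then c else 0) =
      (if i = 1 then a n else 0) + (if i = ν then c * a (n / ν) else 0) := by
    intro i _
    by_cases hi : i = 1
    · rw [if_pos hi, if_pos hi, hi, if_neg (by omega), Nat.div_one, mul_one, add_zero]
    · rw [if_neg hi, if_neg hi, zero_add]
      by_cases hi2 : i = ν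
      · rw [if_pos hi2, if_pos hi2, hi2, mul_comm]
      · rw [if_neg hi2, if_neg hi2, mul_zero]
  rw [Finset.sum_congr rfl h1, Finset.sum_add_distrib, Finset.sum_ite_eq', Finset.sum_ite_eq',
    if_pos (Nat.one_mem_divisors.mpr hn)]
  by_cases h : ν ∣ n
  · rw [if_pos (Nat.mem_divisors.mpr ⟨h, hn⟩), if_pos h]
  · rw [if_neg (fun h0 => h (Nat.mem_divisors.mp h0).1), if_neg h, mul_zero]

/-- **The functional equation of the depletion**, conductor `ν D`. -/
theorem fe_deplete_one {ν : ℕ} (hν : 2 ≤ ν) {a a' : ℕ → ℂ} {D r t : ℕ} (h : FE a a' D r t)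
    {l : ℂ} (hl : l ≠ 0) :
    FE (fun n => a n - l * (if ν ∣ n then a (n / ν) else 0))
      (fun n => a' n - ν * l⁻¹ * (if ν ∣ n then a' (n / ν) else 0)) (D * ν) r t := by
  have h1 := FE.mul h (fe_lf hν hl)
  rw [add_zero, add_zero] at h1
  refine FE.congr h1 (fun n hn => ?_) (fun n hn => ?_)
  · rw [conv_lf hν a _ hn]
    ring
  · rw [conv_lf hν a' _ hn]
    ring

/-- A power of `ν` in the conductor is a shift of the dual. -/
theorem fe_shift {ν : ℕ} (hν : ν ≠ 0) {a a' : ℕ → ℂ} {D r t : ℕ} (h : FE a a' D r t) :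
    FE a (fun n => if ν ∣ n then a' (n / ν) else 0) (D * ν) r t := by
  have hν0 : (ν : ℂ) ≠ 0 := Nat.cast_ne_zero.mpr hν
  obtain ⟨k, κ, Ξ, σ, hκ, hΞ, hσ, h⟩ := h
  refine ⟨k, κ * (ν : ℂ) ^ ((1 / 2 : ℂ)), fun s => (ν : ℂ) ^ (s / 2) * Ξ s, σ,
    mul_ne_zero hκ (by simp [cpow_eq_zero_iff, hν0]), ?_, hσ, fun s hs => ?_⟩
  · refine Differentiable.mul (fun s => ?_) hΞ
    exact (differentiableAt_id.div_const 2).const_cpow (Or.inl hν0)
  · obtain ⟨h1, h2, h3, h4⟩ := h s hs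
    have h5 := hasSum_shiftD hν h2
    refine ⟨h1, h5.LSeriesSummable, ?_, ?_⟩
    · change (ν : ℂ) ^ (s / 2) * Ξ s = _
      rw [h3, Nat.cast_mul, natCast_mul_natCast_cpow]
      ring
    · change (ν : ℂ) ^ ((1 - s) / 2) * Ξ (1 - s) = _
      have h6 : (ν : ℂ) ^ ((1 - s) / 2) = (ν : ℂ) ^ ((1 / 2 : ℂ)) * ((ν : ℂ) ^ (s / 2))⁻¹ := by
        rw [← cpow_neg, ← cpow_add _ _ hν0]
        congr 1; ring
      have h7 : LSeries (fun n => if ν ∣ n then a' (n / ν) else 0) s =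
          (ν : ℂ) ^ (-s) * LSeries a' s := h5.LSeries_eq
      have hs2 : (ν : ℂ) ^ (s / 2) ≠ 0 := by simp [cpow_eq_zero_iff, hν0]
      have h8 : (ν : ℂ) ^ (-s) = ((ν : ℂ) ^ (s / 2))⁻¹ * ((ν : ℂ) ^ (s / 2))⁻¹ := by
        rw [← cpow_neg, ← cpow_add _ _ hν0]
        congr 1; ring
      rw [h4, h7, h6, h8, Nat.cast_mul, natCast_mul_natCast_cpow]
      field_simp

/-- The functional equation of the depletion in the form with the conductor `9 D`. -/
theorem fe_deplete {a a' : ℕ → ℂ} {D : ℕ} (h : FE a a' D 0 1) {l : ℂ} (hl : l ≠ 0) :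
    FE (fun n => a n - l * (if 3 ∣ n then a (n / 3) else 0))
      (fun n => (if 3 ∣ n then a' (n / 3) else 0) - 3 * l⁻¹ * (if 9 ∣ n then a' (n / 9) else 0))
      (9 * D) 0 1 := by
  have h1 := fe_shift (ν := 3) (by norm_num) (fe_deplete_one (ν := 3) (by norm_num) h hl)
  have h2 : D * 3 * 3 = 9 * D := by ring
  rw [h2] at h1
  refine FE.congr h1 (fun _ _ => rfl) (fun n _ => ?_)
  by_cases h3 : 3 ∣ n
  · obtain ⟨m, rfl⟩ := h3
    have h5 : 3 * m / 9 = m / 3 := by omega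
    have h6 : 3 * m / 3 = m := by omega
    have h7 : (9 ∣ 3 * m) ↔ 3 ∣ m := by omega
    simp only [h5, h6, h7, dvd_mul_right, if_true, Nat.cast_ofNat]
  · have h9 : ¬ 9 ∣ n := fun h0 => h3 (dvd_trans (by norm_num) h0)
    simp only [h3, h9, if_false, mul_zero, sub_zero]

/-! ### The final form -/

/-- the row of the dual of the depletion -/
theorem row_deplete {q : ℕ} (hq : q.Prime) {a' : ℕ → ℂ} {l : ℂ}
    (ha' : ∀ n, n ≠ 0 → a' (q * n) = l * a' n) {m : ℕ} (hm : ¬ q ∣ m) :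
    row q (fun n => a' n - q * l * (if q ∣ n then a' (n / q) else 0)) m *
        ((1 - Polynomial.C l * Polynomial.X : Polynomial ℂ) : PowerSeries ℂ) =
      ((Polynomial.C (a' m) * (1 - Polynomial.C (q * l) * Polynomial.X) : Polynomial ℂ) :
        PowerSeries ℂ) := by
  have hm0 : m ≠ 0 := by rintro rfl; exact hm (dvd_zero q)
  have hpow : ∀ j, a' (q ^ j * m) = l ^ j * a' m := by
    intro j
    induction j with
    | zero => simp
    | succ j ih =>
      rw [pow_succ', mul_assoc, ha' _ (mul_ne_zero (pow_ne_zero j hq.ne_zero) hm0), ih]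
      ring
  have hc0 : a' (q ^ 0 * m) - q * l * (if q ∣ q ^ 0 * m then a' (q ^ 0 * m / q) else 0) = a' m := by
    rw [pow_zero, one_mul, if_neg hm]
    ring
  have hcs : ∀ j, a' (q ^ (j + 1) * m) -
      q * l * (if q ∣ q ^ (j + 1) * m then a' (q ^ (j + 1) * m / q) else 0) =
      (1 - q) * l ^ (j + 1) * a' m := by
    intro j
    have h1 : q ^ (j + 1) * m = q * (q ^ j * m) := by ring
    have h2 : q * (q ^ j * m) / q = q ^ j * m := Nat.mul_div_cancel_left _ hq.pos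
    rw [hpow, h1, if_pos (dvd_mul_right _ _), h2, hpow]
    ring
  refine PowerSeries.ext fun n => ?_
  have e : ((1 - Polynomial.C l * Polynomial.X : Polynomial ℂ) : PowerSeries ℂ) =
      1 - PowerSeries.C l * PowerSeries.X := by
    rw [Polynomial.coe_sub, Polynomial.coe_one, Polynomial.coe_mul, Polynomial.coe_C,
      Polynomial.coe_X]
  have e2 : ∀ p : PowerSeries ℂ, p * (1 - PowerSeries.C l * PowerSeries.X) =
      p - PowerSeries.C l * (p * PowerSeries.X) := fun p => by ring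
  rw [e, e2, map_sub, PowerSeries.coeff_C_mul, Polynomial.coeff_coe, Polynomial.coeff_C_mul,
    Polynomial.coeff_sub, Polynomial.coeff_one, Polynomial.coeff_C_mul]
  match n with
  | 0 =>
    rw [PowerSeries.coeff_zero_mul_X, coeff_row, hc0]
    simp
  | 1 =>
    rw [PowerSeries.coeff_succ_mul_X, coeff_row, coeff_row, hc0, hcs]
    simp
    ring
  | j + 2 =>
    rw [PowerSeries.coeff_succ_mul_X, coeff_row, coeff_row, hcs, hcs]
    have h3 : Polynomial.X.coeff (j + 2) = (0 : ℂ) := Polynomial.coeff_X_of_ne_one (by omega)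
    rw [h3, if_neg (by omega)]
    ring

/-- **The eigenvalue of `U_q`** at a prime dividing the level once, from the functional
equations. -/
theorem lam_of_fe {q : ℕ} (hq : q.Prime) {N : ℕ} (hN : N ≠ 0) {a a' b : ℕ → ℂ} {t : ℂ}
    (ht0 : t ≠ 0) (haa : FE a a' N 0 1) (ha : ∀ n, n ≠ 0 → a (q * n) = t * a n)
    (ha' : ∀ n, n ≠ 0 → a' (q * n) = t⁻¹ * a' n)
    (hb : ∀ n, n ≠ 0 → b n = if q ∣ n then 0 else a n)
    {z24 z12 z8 z4 : ℕ → ℂ} {d24 d12 d8 d4 r24 r12 r8 r4 t24 t12 t8 t4 : ℕ}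
    {l24 l12 l8 l4 : List ℕ}
    (h24 : FE z24 z24 d24 r24 t24) (h12 : FE z12 z12 d12 r12 t12)
    (h8 : FE z8 z8 d8 r8 t8) (h4 : FE z4 z4 d4 r4 t4)
    (o24 : z24 1 = 1) (o12 : z12 1 = 1) (o8 : z8 1 = 1) (o4 : z4 1 = 1)
    (n24 : d24 ≠ 0) (n12 : d12 ≠ 0) (n8 : d8 ≠ 0) (n4 : d4 ≠ 0)
    (hl24 : ∀ ν ∈ l24, 2 ≤ ν) (hl12 : ∀ ν ∈ l12, 2 ≤ ν) (hl8 : ∀ ν ∈ l8, 2 ≤ ν)
    (hl4 : ∀ ν ∈ l4, 2 ≤ ν)
    (hid : ∀ n, n ≠ 0 → ((z24 ⍟ efl l24) ⍟ ((z4 ⍟ efl l4) ⍟ (z4 ⍟ efl l4))) n =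
      (((z12 ⍟ efl l12) ⍟ ((z8 ⍟ efl l8) ⍟ (z8 ⍟ efl l8))) ⍟ (b ⍟ fun n => conj (b n))) n)
    (hr : r24 + 2 * r4 = r12 + 2 * r8) (ht : t24 + 2 * t4 = t12 + 2 * t8 + 2)
    (p24 : ∀ ν ∈ l24, q ∣ ν → ∃ f, 0 < f ∧ ν = q ^ f)
    (p12 : ∀ ν ∈ l12, q ∣ ν → ∃ f, 0 < f ∧ ν = q ^ f)
    (p8 : ∀ ν ∈ l8, q ∣ ν → ∃ f, 0 < f ∧ ν = q ^ f)
    (p4 : ∀ ν ∈ l4, q ∣ ν → ∃ f, 0 < f ∧ ν = q ^ f) :
    ‖t‖ = 1 ∧
      l24.prod.factorization q + 2 * l4.prod.factorization q =
        l12.prod.factorization q + 2 * l8.prod.factorization q + 2 ∧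
      ∀ ε : ℂ, (ε = 1 ∨ ε = -1) →
        (eulF q (l12 ++ (l8 ++ l8))).rootMultiplicity ε <
          (eulF q (l24 ++ (l4 ++ l4))).rootMultiplicity ε → t = ε := by
  have hq2 := hq.two_le
  -- the functional equation of the depletion
  set c : ℕ → ℂ := fun n => a' n - q * t⁻¹ * (if q ∣ n then a' (n / q) else 0) with hcdef
  have hbc : FE b c (N * q) 0 1 := by
    refine FE.congr (fe_deplete_one hq2 haa ht0) (fun n hn => ?_) (fun _ _ => rfl)
    rw [hb n hn]
    by_cases hqn : q ∣ n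
    · obtain ⟨m, rfl⟩ := hqn
      have hm : m ≠ 0 := right_ne_zero_of_mul hn
      rw [if_pos (dvd_mul_right _ _), if_pos (dvd_mul_right _ _),
        Nat.mul_div_cancel_left _ hq.pos, ha m hm, sub_self]
    · rw [if_neg hqn, if_neg hqn, mul_zero, sub_zero]
  have hbq : ∀ n, n ≠ 0 → b n ≠ 0 → n.factorization q = 0 := by
    intro n hn hbn
    refine Nat.factorization_eq_zero_of_not_dvd fun hqn => hbn ?_
    rw [hb n hn, if_pos hqn]
  obtain ⟨m, hm, hrow, _, C, k, hC, key⟩ := exists_lead hq (mul_ne_zero hN hq.ne_zero) hbc h24 h12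
    h8 h4 o24 o12 o8 o4 n24 n12 n8 n4 hl24 hl12 hl8 hl4 hid hr ht hbq p24 p12 p8 p4
  have hU2 : ∀ n ∈ l24 ++ (l4 ++ l4), 2 ≤ n := by
    intro n hn
    simp only [List.mem_append, or_self] at hn
    exact hn.elim (hl24 n) (hl4 n)
  have hV2 : ∀ n ∈ l12 ++ (l8 ++ l8), 2 ≤ n := by
    intro n hn
    simp only [List.mem_append, or_self] at hn
    exact hn.elim (hl12 n) (hl8 n)
  have hr1 := row_deplete hq ha' hm
  have ha'c : ∀ n, n ≠ 0 → (fun n => conj (a' n)) (q * n) = conj t⁻¹ * (fun n => conj (a' n)) n := by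
    intro n hn
    simp only [ha' n hn, map_mul]
  have hr2 := row_deplete (a' := fun n => conj (a' n)) (l := conj t⁻¹) hq ha'c hm
  have hcc : (fun n => conj (a' n) - q * conj t⁻¹ * (if q ∣ n then conj (a' (n / q)) else 0)) =
      fun n => conj (c n) := by
    funext n
    rw [hcdef]
    simp only [map_sub, map_mul, Complex.conj_natCast, apply_ite (starRingEnd ℂ), map_zero]
  rw [hcc] at hr2
  have ha'm : a' m ≠ 0 := by
    intro h0
    rw [h0, Polynomial.C_0, zero_mul, Polynomial.coe_zero] at hr1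
    have h1 : ((1 - Polynomial.C t⁻¹ * Polynomial.X : Polynomial ℂ) : PowerSeries ℂ) ≠ 0 := by
      intro h2
      exact lf_ne_zero t⁻¹ (Polynomial.coe_injective ℂ (by rw [Polynomial.coe_zero]; exact h2))
    exact (mul_ne_zero hrow h1) hr1
  have hmain : Polynomial.C (a' m * conj (a' m)) * (1 - Polynomial.C (q * t⁻¹) * Polynomial.X) *
        (1 - Polynomial.C (q * conj t⁻¹) * Polynomial.X) * eulF q (l24 ++ (l4 ++ l4)) *
          eulS q (l12 ++ (l8 ++ l8)) =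
      Polynomial.C C * Polynomial.X ^ k * (1 - Polynomial.C t⁻¹ * Polynomial.X) *
        (1 - Polynomial.C (conj t⁻¹) * Polynomial.X) * eulF q (l12 ++ (l8 ++ l8)) *
          eulS q (l24 ++ (l4 ++ l4)) := by
    apply Polynomial.coe_injective ℂ
    rw [Polynomial.coe_mul] at hr1 hr2
    rw [Polynomial.C_mul]
    simp only [Polynomial.coe_mul, Polynomial.coe_pow, Polynomial.coe_X, Polynomial.coe_C] at hr1 hr2 ⊢
    linear_combination
      (((1 - Polynomial.C t⁻¹ * Polynomial.X : Polynomial ℂ) : PowerSeries ℂ) *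
        ((1 - Polynomial.C (conj t⁻¹) * Polynomial.X : Polynomial ℂ) : PowerSeries ℂ)) * key -
      (row q (fun n => conj (c n)) m *
        ((1 - Polynomial.C (conj t⁻¹) * Polynomial.X : Polynomial ℂ) : PowerSeries ℂ) *
        (↑(eulF q (l24 ++ (l4 ++ l4))) : PowerSeries ℂ) *
        (↑(eulS q (l12 ++ (l8 ++ l8))) : PowerSeries ℂ)) * hr1 -
      (PowerSeries.C (a' m) * ((1 - Polynomial.C (q * t⁻¹) * Polynomial.X : Polynomial ℂ) :
        PowerSeries ℂ) * (↑(eulF q (l24 ++ (l4 ++ l4))) : PowerSeries ℂ) *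
        (↑(eulS q (l12 ++ (l8 ++ l8))) : PowerSeries ℂ)) * hr2
  obtain ⟨h1, h2, h3⟩ := lam_of_lead_prime hq hU2 hV2 (inv_ne_zero ht0)
    (mul_ne_zero ha'm ((map_ne_zero _).mpr ha'm)) hC hmain
  refine ⟨?_, ?_, fun ε he hlt => ?_⟩
  · rw [norm_inv, inv_eq_one] at h1
    exact h1
  · have q24 := prod_ne_zero_of_two_le hl24
    have q12 := prod_ne_zero_of_two_le hl12
    have q8 := prod_ne_zero_of_two_le hl8
    have q4 := prod_ne_zero_of_two_le hl4
    rw [List.prod_append, List.prod_append, List.prod_append, List.prod_append,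
      Nat.factorization_mul q12 (mul_ne_zero q8 q8), Nat.factorization_mul q8 q8,
      Nat.factorization_mul q24 (mul_ne_zero q4 q4), Nat.factorization_mul q4 q4] at h2
    simp only [Finsupp.add_apply] at h2
    omega
  · have h4 := h3 ε he hlt
    have h5 : t = ε⁻¹ := by rw [← h4, inv_inv]
    rw [h5]
    rcases he with rfl | rfl <;> norm_num

end Fermat.Agent.Cor.Artin

end
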