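import Fermat.Agent.Corollaries.Artin.Density

/-!
# The elements of trace zero of `GL₂(𝔽₃)` and permutation characters

`1_{tr g = 0} = π_{V4}(g) / 2 + π_{C4}(g) / 4 - 3 π_{±1}(g) / 8`, `V4` the diagonal matrices, `C4` the
cyclic group generated by `(0, -1; 1, 0)`.
-/

set_option autoImplicit false

noncomputable section

namespace Fermat.Agent.Cor.Artin

open Fermat.Agent.Classic.Level Fermat.Agent.LT.Tower.Grp

local notation "G3" => Matrix.GeneralLinearGroup (Fin 2) (ZMod 3)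

/-- the product of two quadruples of entries -/
def mq (x y : Q4) : Q4 :=
  (x.1 * y.1 + x.2.1 * y.2.2.1, x.1 * y.2.1 + x.2.1 * y.2.2.2,
    x.2.2.1 * y.1 + x.2.2.2 * y.2.2.1, x.2.2.1 * y.2.1 + x.2.2.2 * y.2.2.2)

theorem ent_mul (x y : G3) : ent (x * y) = mq (ent x) (ent y) := by
  simp only [ent, mq, mul_00, mul_01, mul_10, mul_11]

theorem ent_injective : Function.Injective (ent : G3 → Q4) := fun _ _ h =>
  entEquiv.injective (Subtype.ext h)

theorem exists_ent {q : Q4} (h : dq q ≠ 0) : ∃ g : G3, ent g = q :=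
  ⟨entEquiv.symm ⟨q, h⟩, congrArg Subtype.val (entEquiv.apply_symm_apply ⟨q, h⟩)⟩

theorem conj_mem_iff {H : Subgroup G3} {L : Finset Q4} (hL : ∀ h : G3, h ∈ H ↔ ent h ∈ L)
    (hL0 : ∀ h ∈ L, dq h ≠ 0) (g x : G3) :
    x⁻¹ * g * x ∈ H ↔ ∃ h ∈ L, mq (ent g) (ent x) = mq (ent x) h := by
  rw [hL]
  constructor
  · intro h
    refine ⟨_, h, ?_⟩
    rw [← ent_mul, ← ent_mul]
    congr 1
    group
  · rintro ⟨h, hh, e⟩
    obtain ⟨h', rfl⟩ := exists_ent (hL0 h hh)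
    rw [← ent_mul, ← ent_mul] at e
    have e' := ent_injective e
    have : x⁻¹ * g * x = h' := by rw [mul_assoc, e']; group
    rwa [this]

/-- the count -/
def nL (L : Finset Q4) (g : Q4) : ℕ :=
  (Finset.univ.filter fun x : Q4 => dq x ≠ 0 ∧ ∃ h ∈ L, mq g x = mq x h).card

theorem pH_mul_eq {H : Subgroup G3} {L : Finset Q4} (hL : ∀ h : G3, h ∈ H ↔ ent h ∈ L)
    (hL0 : ∀ h ∈ L, dq h ≠ 0) (g : G3) : pH H g * L.card = nL L (ent g) := by
  have h1 : Nat.card H = L.card := by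
    have h2 := card_eq (fun q => q ∈ L)
    have h3 : (Finset.univ.filter fun x : Q4 => dq x ≠ 0 ∧ x ∈ L) = L := by
      ext q
      simp only [Finset.mem_filter, Finset.mem_univ, true_and]
      exact ⟨fun h => h.2, fun h => ⟨hL0 q h, h⟩⟩
    rw [h3] at h2
    rw [← h2]
    exact Nat.card_congr (Equiv.subtypeEquivRight hL)
  rw [← h1, pH_mul_card, nL, ← card_eq]
  exact Nat.card_congr (Equiv.subtypeEquivRight fun x => conj_mem_iff hL hL0 g x)

/-- `{± 1}` -/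
def CZ : Subgroup G3 := mkSub (fun a b c d => b = 0 && c = 0 && a = d) (by decide) (by decide)

/-- the cyclic group of order four generated by `(0, -1; 1, 0)` -/
def C4 : Subgroup G3 :=
  mkSub (fun a b c d => a = d && b = -c && a * c = 0) (by decide) (by decide +kernel)

/-- the entries of the elements of `CZ` -/
def LZ : Finset Q4 := {(1, 0, 0, 1), (2, 0, 0, 2)}

/-- the entries of the elements of `C4` -/
def L4 : Finset Q4 := {(1, 0, 0, 1), (2, 0, 0, 2), (0, 1, 2, 0), (0, 2, 1, 0)}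

/-- the entries of the elements of `V4` -/
def LV : Finset Q4 := {(1, 0, 0, 1), (2, 0, 0, 2), (1, 0, 0, 2), (2, 0, 0, 1)}

theorem mem_CZ (h : G3) : h ∈ CZ ↔ ent h ∈ LZ := by
  have key : ∀ q : Q4, dq q ≠ 0 →
      ((decide (q.2.1 = 0) && decide (q.2.2.1 = 0) && decide (q.1 = q.2.2.2)) = true ↔ q ∈ LZ) := by
    decide +kernel
  rw [CZ, mem_mkSub]
  exact key (ent h) (by rw [dq_ent]; exact Fermat.Agent.LT.End.det_ne_zero h)

theorem mem_C4 (h : G3) : h ∈ C4 ↔ ent h ∈ L4 := by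
  have key : ∀ q : Q4, dq q ≠ 0 →
      ((decide (q.1 = q.2.2.2) && decide (q.2.1 = -q.2.2.1) && decide (q.1 * q.2.2.1 = 0)) = true ↔
        q ∈ L4) := by
    decide +kernel
  rw [C4, mem_mkSub]
  exact key (ent h) (by rw [dq_ent]; exact Fermat.Agent.LT.End.det_ne_zero h)

theorem mem_V4' (h : G3) : h ∈ V4 ↔ ent h ∈ LV := by
  have key : ∀ q : Q4, dq q ≠ 0 → ((q.2.1 = 0 ∧ q.2.2.1 = 0) ↔ q ∈ LV) := by
    decide +kernel
  rw [mem_V4]
  exact key (ent h) (by rw [dq_ent]; exact Fermat.Agent.LT.End.det_ne_zero h)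

theorem count_zero : ∀ a b c d : ZMod 3, dq (a, b, c, d) ≠ 0 →
    2 * (nL LV (a, b, c, d) : ℤ) + nL L4 (a, b, c, d) - 3 * nL LZ (a, b, c, d) =
      16 * (if a + d = 0 then 1 else 0) := by
  decide +kernel

/-- **The elements of trace zero.** -/
theorem trace_zero_eq (g : G3) : (if g.1.trace = 0 then (1 : ℝ) else 0) =
    1 / 2 * (pH V4 g : ℝ) + 1 / 4 * (pH C4 g : ℝ) - 3 / 8 * (pH CZ g : ℝ) := by
  have hV : pH V4 g * 4 = nL LV (ent g) := pH_mul_eq mem_V4' (by decide +kernel) g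
  have h4 : pH C4 g * 4 = nL L4 (ent g) := pH_mul_eq mem_C4 (by decide +kernel) g
  have hZ : pH CZ g * 2 = nL LZ (ent g) := pH_mul_eq mem_CZ (by decide +kernel) g
  have h := count_zero (g.1 0 0) (g.1 0 1) (g.1 1 0) (g.1 1 1)
    (by change dq (ent g) ≠ 0; rw [dq_ent]; exact Fermat.Agent.LT.End.det_ne_zero g)
  change 2 * (nL LV (ent g) : ℤ) + nL L4 (ent g) - 3 * nL LZ (ent g) = _ at h
  rw [← hV, ← h4, ← hZ] at h
  have ht : g.1 0 0 + g.1 1 1 = g.1.trace := (Matrix.trace_fin_two _).symm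
  rw [ht] at h
  have h' : 2 * ((pH V4 g : ℝ) * 4) + (pH C4 g : ℝ) * 4 - 3 * ((pH CZ g : ℝ) * 2) =
      16 * (if g.1.trace = 0 then (1 : ℝ) else 0) := by
    split_ifs at h ⊢
    · exact_mod_cast h
    · exact_mod_cast h
  linarith

end Fermat.Agent.Cor.Artin

end
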