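import Fermat.Agent.Corollaries.Artin.LogSum
import Fermat.Agent.Corollaries.Artin.PermZero

/-!
# The number of non-zero coefficients of an octahedral newform

`g` the newform of weight one of `r = κ ∘ Ψ ∘ ρ`:

`#{n ≤ x : a_n(g) ≠ 0} ~ C x / (log x)^(3/8)`, `C > 0`

(Serre's asymptotic formula for forms of weight one, by Landau's method).
-/

set_option autoImplicit false

noncomputable section

open NumberField NumberField.InfinitePlace IsDedekindDomain WeierstrassCurve Filter Topology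
open CongruenceSubgroup ModularFormClass EisensteinWeightOne UpperHalfPlane
open Fermat.Agent.Classic Fermat.Agent.Classic.Level Fermat.Agent.X1 Fermat.Agent.LT.End
open Fermat.Agent.Frob Fermat.Agent.Classic.Disc
open scoped MatrixGroups ModularForm ComplexConjugate

namespace Fermat.Agent.Cor.Artin

local notation "Γℚ" => (AlgebraicClosure ℚ ≃ₐ[ℚ] AlgebraicClosure ℚ)

local notation "G3" => Matrix.GeneralLinearGroup (Fin 2) (ZMod 3)

variable {ρ : Γℚ →* GL (Fin 2) (ZMod 3)} {Ψ : GL (Fin 2) (ZMod 3) →* GL (Fin 2) (ℤ√(-2))}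

/-- The trace of the section vanishes exactly at the elements of trace zero. -/
theorem trace_section_eq_zero
    (hΨ : ∀ g, Matrix.GeneralLinearGroup.map FLT.ExplicitLift.red (Ψ g) = g)
    (κ : ℤ√(-2) →+* ℂ) (g : G3) :
    ((Ψ g : GL (Fin 2) (ℤ√(-2))) : Matrix (Fin 2) (Fin 2) (ℤ√(-2))).trace = 0 ↔
      g.1.trace = 0 := by
  rw [trace_section hΨ κ, trace_eq g]
  change _ ↔ (ent g).1 + (ent g).2.2.2 = 0
  rw [Zsqrtd.ext_iff, tz]
  constructor
  · intro h
    by_contra h0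
    rw [if_neg h0] at h
    split_ifs at h <;> simp at h
  · intro h
    rw [if_pos h]
    exact ⟨rfl, rfl⟩

/-- **The primes with `a_p ≠ 0`.** -/
theorem hasLog_nonzero (hρ : Continuous ρ) (hs : Function.Surjective ρ)
    (hΨ : ∀ g, Matrix.GeneralLinearGroup.map FLT.ExplicitLift.red (Ψ g) = g)
    (κ : ℤ√(-2) →+* ℂ) {N : ℕ} (hN : N ≠ 0) {b : ℕ → ℤ√(-2)}
    (htr : ∀ p : ℕ, p.Prime → ¬ p ∣ N → ∀ A : ValuationSubring (AlgebraicClosure ℚ),
        A.LiesOverPrime p → ∀ σ : Γℚ, A.IsFrobeniusAt σ p →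
          b p = ((Ψ (ρ σ) : GL (Fin 2) (ℤ√(-2))) : Matrix (Fin 2) (Fin 2) (ℤ√(-2))).trace)
    {f : ℕ → ℝ} (hf : ∀ p : ℕ, p.Prime → ¬ p ∣ N → f p = if b p = 0 then 0 else 1) :
    HasLog f (5 / 8) := by
  obtain ⟨T1⟩ := exists_fixField hρ V4
  obtain ⟨T2⟩ := exists_fixField hρ C4
  obtain ⟨T3⟩ := exists_fixField hρ CZ
  obtain ⟨D1, hD1, H1⟩ := exists_degOne_eq T1 hs
  obtain ⟨D2, hD2, H2⟩ := exists_degOne_eq T2 hs
  obtain ⟨D3, hD3, H3⟩ := exists_degOne_eq T3 hs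
  have hlog := ((HasLog.one.add ((HasLog.degOne T1.F).const_mul (-(1 / 2)))).add
    ((HasLog.degOne T2.F).const_mul (-(1 / 4)))).add ((HasLog.degOne T3.F).const_mul (3 / 8))
  set w : ℕ → ℝ := fun p => f p - (1 + -(1 / 2) * (degOne T1.F p : ℝ) +
    -(1 / 4) * (degOne T2.F p : ℝ) + 3 / 8 * (degOne T3.F p : ℝ)) with hw
  have hfin : HasLog w 0 := by
    refine HasLog.of_finset (N * D1 * D2 * D3).primeFactors fun p hp hpE => ?_
    have hne : N * D1 * D2 * D3 ≠ 0 :=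
      mul_ne_zero (mul_ne_zero (mul_ne_zero hN hD1) hD2) hD3
    have hnd : ¬ p ∣ N * D1 * D2 * D3 := fun h => hpE (Nat.mem_primeFactors.mpr ⟨hp, h, hne⟩)
    have d3 : ¬ p ∣ D3 := fun h => hnd (h.mul_left _)
    have d2 : ¬ p ∣ D2 := fun h => hnd ((h.mul_left _).mul_right _)
    have d1 : ¬ p ∣ D1 := fun h => hnd (((h.mul_left _).mul_right _).mul_right _)
    have dN : ¬ p ∣ N := fun h => hnd (((h.mul_right _).mul_right _).mul_right _)
    obtain ⟨A, hA, σ, hσ⟩ := Frob.exists_frobenius p hp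
    have h1 := trace_zero_eq (ρ σ)
    have h2 : f p = 1 - (if (ρ σ).1.trace = 0 then (1 : ℝ) else 0) := by
      rw [hf p hp dN, htr p hp dN A hA σ hσ]
      by_cases h : (ρ σ).1.trace = 0
      · rw [if_pos h, if_pos ((trace_section_eq_zero hΨ κ _).mpr h), sub_self]
      · rw [if_neg h, if_neg (fun h' => h ((trace_section_eq_zero hΨ κ _).mp h')), sub_zero]
    rw [hw]
    dsimp only
    rw [h2, h1, H1 p hp d1 A hA σ hσ, H2 p hp d2 A hA σ hσ, H3 p hp d3 A hA σ hσ]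
    ring
  have h := hlog.add hfin
  rw [show (1 : ℝ) + -(1 / 2) * 1 + -(1 / 4) * 1 + 3 / 8 * 1 + 0 = 5 / 8 by norm_num] at h
  refine h.congr fun p _ => ?_
  rw [hw]
  ring

open scoped Classical in
/-- **Serre's asymptotic formula for the octahedral newforms**: the newform `g` of `r = κ ∘ Ψ ∘ ρ`
(`L(s, g) = L(s, r)`) satisfies `#{n ≤ x : a_n(g) ≠ 0} ~ C x / (log x)^(3/8)`, `C > 0`. -/
theorem exists_newform_landau (hρ : Continuous ρ) (hs : Function.Surjective ρ)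
    (hdet : ∀ σ : Γℚ, Matrix.GeneralLinearGroup.det (ρ σ) = modThreeCyclotomicChar σ)
    (hΨ : ∀ g, Matrix.GeneralLinearGroup.map FLT.ExplicitLift.red (Ψ g) = g)
    (κ : ℤ√(-2) →+* ℂ) :
    ∃ (N : ℕ) (_ : NeZero N) (g : CuspForm (Gamma1 N) 1),
      Z3.HasNeb N g ∧ qCoeff ⇑g 1 = 1 ∧ IsArtinL ρ Ψ κ (ModularForm.L one_pos g) ∧
      (∀ p : ℕ, p.Prime → (p ∣ N ↔ ¬ UnrAt ρ p)) ∧
      ∃ C : ℝ, 0 < C ∧ Tendsto (fun x : ℝ =>
        (((Finset.Ioc 0 ⌊x⌋₊).filter fun n => qCoeff ⇑g n ≠ 0).card : ℝ) *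
          Real.log x ^ (3 / 8 : ℝ) / x) atTop (𝓝 C) := by
  obtain ⟨N₀, hN₀, ι, b, f₀, hram, hst⟩ := exists_start hρ hs hdet hΨ
  obtain ⟨N, hN, lam, γ, g, h, hn⟩ := exists_new hρ hs hdet hΨ hst hram κ
  obtain ⟨T24⟩ := exists_fixField hρ C2
  obtain ⟨T12⟩ := exists_fixField hρ V4
  obtain ⟨T8⟩ := exists_fixField hρ S3
  obtain ⟨T4⟩ := exists_fixField hρ B3
  have hid := New.identity T24 T12 T8 T4 hρ hs hdet hΨ hst hn
  have hmu : ∀ (A : ValuationSubring (AlgebraicClosure ℚ)),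
      A.LiesOverPrime 3 → ∀ φ : Γℚ, A.IsFrobeniusAt φ 3 →
      eulerPoly ((rep Ψ κ).comp ρ) A φ = 1 - Polynomial.C lam⁻¹ * Polynomial.X ∧
        (lam⁻¹ = 0 ∨ lam⁻¹ = 1 ∨ lam⁻¹ = -1) := fun A hA φ hφ =>
    eulerPoly_of_identity hρ hs hdet hΨ T24 T12 T8 T4 (NeZero.ne N₀) hst.three hid κ hA hφ
  have hlam3 : lam⁻¹ = 0 ∨ lam⁻¹ = 1 ∨ lam⁻¹ = -1 := by
    obtain ⟨A, hA, φ, hφ⟩ := Frob.exists_frobenius 3 Nat.prime_three
    exact (hmu A hA φ hφ).2
  have hinv : lam⁻¹ = lam := by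
    rcases hlam3 with h1 | h1 | h1
    · rw [h1, inv_eq_zero.mp h1]
    · rw [h1, inv_eq_one.mp h1]
    · rw [h1, ← inv_inv lam, h1]
      norm_num
  have hnorm : ‖lam‖ ≤ 1 := by
    rw [hinv] at hlam3
    rcases hlam3 with h1 | h1 | h1 <;> rw [h1] <;> simp
  have hL := isArtinL_of_coeff hdet hΨ hst hram hnorm (fun A hA φ hφ => by
    rw [(hmu A hA φ hφ).1, hinv]) g hn.coeff
  have heig := isEigensystem_newA lam κ hst.three hst.eig (b_zero hst)
  have h1 : qCoeff ⇑g 1 = 1 := by rw [hn.coeff, heig.1]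
  refine ⟨N, hN, g, hn.neb, h1, hL, hn.prime_iff, ?_⟩
  -- the indicator function of the non-zero coefficients
  set S : Set ℕ := {n | newA lam κ b n ≠ 0} with hS
  set f : ℕ → ℝ := fun n => if n ∈ S then 1 else 0 with hf
  have hinj := embedding_injective κ
  have h3 : (3 : ℕ) ∣ N₀ := hst.three
  have hval : ∀ p : ℕ, p.Prime → ¬ p ∣ N₀ → (newA lam κ b p = 0 ↔ b p = 0) := by
    intro p hp hpN
    have hp3 : ¬ 3 ∣ p := fun hd => hpN (by
      rw [← (Nat.prime_dvd_prime_iff_eq Nat.prime_three hp).mp hd]; exact h3)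
    rw [newA_of_not_dvd lam κ b hp3, map_eq_zero_iff κ hinj]
  have hfp : ∀ p : ℕ, p.Prime → ¬ p ∣ N₀ → f p = if b p = 0 then 0 else 1 := by
    intro p hp hpN
    have h4 := hval p hp hpN
    rw [hf]
    dsimp only
    by_cases h5 : b p = 0
    · rw [if_pos h5, if_neg (show p ∉ S from fun h6 => h6 (h4.mpr h5))]
    · rw [if_neg h5, if_pos (show p ∈ S from fun h6 => h5 (h4.mp h6))]
  have hlog := hasLog_nonzero hρ hs hΨ κ (NeZero.ne N₀) hst.trace hfp
  -- the density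
  have hun : ∀ p : ℕ, p.Prime → ¬ p ∣ N₀ → UnrAt ρ p := hst.unr
  have hd0 : HasNaturalDensity {p | b p = 0} (3 / 8) := by
    have hd := dens_trace_eq hρ hs hΨ κ (NeZero.ne N₀) hun hst.trace 0 0
    have hc : (Finset.univ.filter fun q : Q4 => dq q ≠ 0 ∧ tz q = (0, 0)).card = 18 := by
      decide +kernel
    rw [hc, show ((18 : ℕ) : ℝ) / 48 = 3 / 8 by norm_num] at hd
    exact hd
  have hdS : HasNaturalDensity S (5 / 8) := by
    have h4 := hd0.compl
    rw [show (1 : ℝ) - 3 / 8 = 5 / 8 by norm_num] at h4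
    refine h4.congr_of_finset N₀.primeFactors fun p hp hpE => ?_
    have hpN : ¬ p ∣ N₀ := fun hd => hpE (Nat.mem_primeFactors.mpr ⟨hp, hd, NeZero.ne N₀⟩)
    have h5 := hval p hp hpN
    exact not_congr h5.symm
  have D : LR.MulF f (5 / 8) := by
    refine ⟨⟨fun n => ?_, fun n => ?_, ?_⟩, by norm_num, ?_, fun m n hmn => ?_⟩
    · rw [hf]; dsimp only; split_ifs <;> norm_num
    · rw [hf]; dsimp only; split_ifs <;> norm_num
    · exact tendsto_theta_of_density hdS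
    · rw [hf]
      dsimp only
      rw [if_pos]
      rw [hS, Set.mem_ofPred_eq, heig.1]
      exact one_ne_zero
    · have hmul : newA lam κ b (m * n) = newA lam κ b m * newA lam κ b n := by
        rcases eq_or_ne m 0 with rfl | hm
        · have h4 : n = 1 := by rwa [Nat.coprime_zero_left] at hmn
          rw [h4, mul_one, heig.1, mul_one]
        · exact Fermat.Agent.Classic.Zeta.eigensystem_mul heig m hm n hmn
      rw [hf]
      dsimp only
      by_cases hm : newA lam κ b m = 0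
      · have e1 : m ∉ S := fun h => h hm
        have e2 : m * n ∉ S := fun h => h (by rw [hmul, hm, zero_mul])
        rw [if_neg e1, if_neg e2, zero_mul]
      · by_cases hn' : newA lam κ b n = 0
        · have e1 : n ∉ S := fun h => h hn'
          have e2 : m * n ∉ S := fun h => h (by rw [hmul, hn', mul_zero])
          rw [if_neg e1, if_neg e2, mul_zero]
        · have e1 : m ∈ S := hm
          have e2 : n ∈ S := hn'
          have e3 : m * n ∈ S := by
            rw [hS, Set.mem_ofPred_eq, hmul]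
            exact mul_ne_zero hm hn'
          rw [if_pos e1, if_pos e2, if_pos e3, mul_one]
  obtain ⟨-, c, hc⟩ := hlog
  obtain ⟨C, hC, hlim⟩ := exists_tendsto_mean D hc
  refine ⟨C, hC, hlim.congr' ?_⟩
  filter_upwards [eventually_gt_atTop 1] with x hx
  have hlx : 0 < Real.log x := Real.log_pos hx
  have e1 : (∑ n ∈ Finset.Ioc 0 ⌊x⌋₊, f n) =
      (((Finset.Ioc 0 ⌊x⌋₊).filter fun n => qCoeff ⇑g n ≠ 0).card : ℝ) := by
    rw [hf, Finset.sum_boole]
    congr 3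
    ext n
    rw [hn.coeff]
    rfl
  rw [e1, show (5 / 8 - 1 : ℝ) = -(3 / 8) by norm_num, Real.rpow_neg hlx.le]
  field_simp

end Fermat.Agent.Cor.Artin

end
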