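/-
# Leading rows at one prime and the separation of an Euler factor

Block (I2) of the corollary K7 (Artin's conjecture for forms of weight one).

Let `q` be a prime.  For an arithmetic function `a` and an integer `m` prime to `q` the *row* of
`a` at `m` is the power series `∑ a(q^j m) X^j`.  The *lead* of `a ≠ 0` is the pair `(m, p)` where
`m` is the least integer prime to `q` with a non-zero row and `p` is this row.  The lead is
multiplicative for Dirichlet convolution (`HasLead.mul`).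

Consequence (`exists_lead`): if the coefficients of `b` live on integers prime to `q` then the
comparison of the functional equations of four zeta functions and of `b ↔ c` gives an identity of
power series in ONE variable

  `p * p̄ * F₁(X) * F₂(q X) = C X^k F₂(X) * F₁(q X)`

where `p` is a row of `c` and `F₁ = ∏ (1 - X^f)` over the Euler factors at `q` of the fields of
degree `24, 4, 4`, `F₂` the same for the fields of degree `12, 8, 8`.  If `p` is a rational function
without poles on the circles `|X| = 1` and `|X| = 1 / q` then `deg F₁ = deg F₂`: count the roots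
on these circles (`natDegree_eq_of_lead`).  This applies if `c (q² n) = (ε / q) c n` for all `n`
divisible by `q`, `|ε| = 1`: `fsum_eq_of_rel`.
-/
import Fermat.Agent.Classic.Zeta.SepQ

set_option autoImplicit false

noncomputable section

open Complex
open scoped LSeries.notation ComplexConjugate

namespace Fermat.Agent.Cor.Artin

open Fermat.Agent.Classic.Lvl Fermat.Agent.Classic.Zeta

/-! ### The lead of an arithmetic function -/

/-- `m` is the least `q`-free part of an integer in the support of `a`, and `p` is the generating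
series of the values `a (q ^ j * m)`. -/
structure HasLead (q : ℕ) (a : ArithmeticFunction ℂ) (m : ℕ) (p : PowerSeries ℂ) : Prop where
  not_dvd : ¬ q ∣ m
  ne_zero : p ≠ 0
  coeff : ∀ j, PowerSeries.coeff j p = a (q ^ j * m)
  le : ∀ n, n ≠ 0 → a n ≠ 0 → m ≤ ordCompl[q] n

/-- The row of `c` at `m`. -/
def row (q : ℕ) (c : ℕ → ℂ) (m : ℕ) : PowerSeries ℂ := PowerSeries.mk fun j => c (q ^ j * m)

theorem coeff_row (q : ℕ) (c : ℕ → ℂ) (m j : ℕ) :
    PowerSeries.coeff j (row q c m) = c (q ^ j * m) := PowerSeries.coeff_mk _ _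

variable {q : ℕ} {a b : ArithmeticFunction ℂ} {m m' : ℕ} {p p' : PowerSeries ℂ}

theorem HasLead.pos (h : HasLead q a m p) : m ≠ 0 := by
  rintro rfl
  exact h.not_dvd (dvd_zero q)

theorem HasLead.exists_ne (h : HasLead q a m p) : ∃ j, a (q ^ j * m) ≠ 0 := by
  by_contra hcon
  push Not at hcon
  refine h.ne_zero (PowerSeries.ext fun j => ?_)
  rw [h.coeff, hcon, map_zero]

theorem ordCompl_pow_mul (hq : q.Prime) (hm : ¬ q ∣ m) (j : ℕ) : ordCompl[q] (q ^ j * m) = m := by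
  rw [Nat.ordCompl_self_pow_mul m j hq]
  exact (Nat.ordCompl_eq_self_iff_zero_or_not_dvd m hq).mpr (Or.inr hm)

theorem factorization_pow_mul (hq : q.Prime) (hm : ¬ q ∣ m) (j : ℕ) :
    (q ^ j * m).factorization q = j := by
  have hm0 : m ≠ 0 := by rintro rfl; exact hm (dvd_zero q)
  rw [Nat.factorization_mul (pow_ne_zero j hq.ne_zero) hm0, Finsupp.add_apply,
    hq.factorization_pow, Finsupp.single_eq_same, Nat.factorization_eq_zero_of_not_dvd hm, add_zero]

theorem HasLead.unique (hq : q.Prime) (h : HasLead q a m p) (h' : HasLead q a m' p') :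
    m = m' ∧ p = p' := by
  have h0 : m = m' := by
    obtain ⟨j, hj⟩ := h.exists_ne
    obtain ⟨j', hj'⟩ := h'.exists_ne
    have h1 := h'.le _ (mul_ne_zero (pow_ne_zero j hq.ne_zero) h.pos) hj
    have h2 := h.le _ (mul_ne_zero (pow_ne_zero j' hq.ne_zero) h'.pos) hj'
    rw [ordCompl_pow_mul hq h.not_dvd] at h1
    rw [ordCompl_pow_mul hq h'.not_dvd] at h2
    omega
  refine ⟨h0, PowerSeries.ext fun j => ?_⟩
  rw [h.coeff, h'.coeff, h0]

theorem exists_hasLead (hq : q.Prime) (ha : a ≠ 0) : ∃ m p, HasLead q a m p := by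
  classical
  have hne : ∃ n, n ≠ 0 ∧ a n ≠ 0 := by
    by_contra hcon
    push Not at hcon
    refine ha ?_
    ext n
    rcases eq_or_ne n 0 with rfl | hn
    · simp
    · rw [hcon n hn, ArithmeticFunction.zero_apply]
  have hex : ∃ m, ∃ n, n ≠ 0 ∧ a n ≠ 0 ∧ ordCompl[q] n = m := by
    obtain ⟨n, hn, hcn⟩ := hne
    exact ⟨_, n, hn, hcn, rfl⟩
  obtain ⟨n, hn, hcn, hv⟩ := Nat.find_spec hex
  refine ⟨Nat.find hex, PowerSeries.mk fun j => a (q ^ j * Nat.find hex), ?_, ?_, ?_, ?_⟩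
  · rw [← hv]
    exact Nat.not_dvd_ordCompl hq hn
  · intro h0
    have := congrArg (PowerSeries.coeff (n.factorization q)) h0
    rw [PowerSeries.coeff_mk, map_zero, ← hv, Nat.ordProj_mul_ordCompl_eq_self] at this
    exact hcn this
  · intro j
    rw [PowerSeries.coeff_mk]
  · intro k hk hak
    exact Nat.find_min' hex ⟨k, hk, hak, rfl⟩

/-- **The lead is multiplicative.** -/
theorem HasLead.mul (hq : q.Prime) (ha : HasLead q a m p) (hb : HasLead q b m' p') :
    HasLead q (a * b) (m * m') (p * p') := by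
  classical
  have hm0 := ha.pos
  have hm0' := hb.pos
  refine ⟨fun h => ?_, mul_ne_zero ha.ne_zero hb.ne_zero, fun j => ?_, fun n hn hab => ?_⟩
  · exact (hq.dvd_mul.mp h).elim ha.not_dvd hb.not_dvd
  · rw [PowerSeries.coeff_mul, ArithmeticFunction.mul_apply]
    refine Finset.sum_of_injOn (fun x : ℕ × ℕ => (q ^ x.1 * m, q ^ x.2 * m')) ?_ ?_ ?_ ?_
    · rintro ⟨i, k⟩ _ ⟨i', k'⟩ _ hxy
      simp only [Prod.mk.injEq] at hxy
      obtain ⟨h1, h2⟩ := hxy
      have h3 := congrArg (fun n : ℕ => n.factorization q) h1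
      have h4 := congrArg (fun n : ℕ => n.factorization q) h2
      simp only [factorization_pow_mul hq ha.not_dvd, factorization_pow_mul hq hb.not_dvd] at h3 h4
      rw [h3, h4]
    · rintro ⟨i, k⟩ hik
      rw [Finset.mem_coe, Finset.HasAntidiagonal.mem_antidiagonal] at hik
      rw [Finset.mem_coe, Nat.mem_divisorsAntidiagonal]
      simp only at hik ⊢
      refine ⟨?_, mul_ne_zero (pow_ne_zero j hq.ne_zero) (mul_ne_zero hm0 hm0')⟩
      rw [← hik, pow_add]
      ring
    · rintro ⟨d, e⟩ hde hnot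
      rw [Nat.mem_divisorsAntidiagonal] at hde
      obtain ⟨hde, hne0⟩ := hde
      simp only at hde ⊢
      by_contra hcon
      obtain ⟨had, hbe⟩ := mul_ne_zero_iff.mp hcon
      have hd0 : d ≠ 0 := by rintro rfl; simp at had
      have he0 : e ≠ 0 := by rintro rfl; simp at hbe
      have h1 := ha.le d hd0 had
      have h2 := hb.le e he0 hbe
      have h3 : ordCompl[q] d * ordCompl[q] e = m * m' := by
        rw [← Nat.ordCompl_mul, hde, ordCompl_pow_mul hq]
        exact fun h => (hq.dvd_mul.mp h).elim ha.not_dvd hb.not_dvd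
      have h4 : ordCompl[q] d = m := by
        by_contra hne1
        have h7 : m < ordCompl[q] d := lt_of_le_of_ne h1 (Ne.symm hne1)
        have h8 : m * m' < ordCompl[q] d * ordCompl[q] e :=
          calc m * m' < ordCompl[q] d * m' :=
                Nat.mul_lt_mul_of_pos_right h7 (Nat.pos_of_ne_zero hm0')
            _ ≤ ordCompl[q] d * ordCompl[q] e := Nat.mul_le_mul_left _ h2
        omega
      have h5 : ordCompl[q] e = m' := by
        rw [h4] at h3
        exact Nat.eq_of_mul_eq_mul_left (Nat.pos_of_ne_zero hm0) h3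
      refine hnot ⟨(d.factorization q, e.factorization q), ?_, ?_⟩
      · rw [Finset.mem_coe, Finset.HasAntidiagonal.mem_antidiagonal]
        have := congrArg (fun n : ℕ => n.factorization q) hde
        simp only [Nat.factorization_mul hd0 he0, Finsupp.add_apply] at this
        rw [this, factorization_pow_mul hq]
        exact fun h => (hq.dvd_mul.mp h).elim ha.not_dvd hb.not_dvd
      · simp only [Prod.mk.injEq]
        constructor
        · rw [← h4, Nat.ordProj_mul_ordCompl_eq_self]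
        · rw [← h5, Nat.ordProj_mul_ordCompl_eq_self]
    · rintro ⟨i, k⟩ _
      simp only
      rw [ha.coeff, hb.coeff]
  · rw [ArithmeticFunction.mul_apply] at hab
    obtain ⟨⟨d, e⟩, hde, hne⟩ := Finset.exists_ne_zero_of_sum_ne_zero hab
    rw [Nat.mem_divisorsAntidiagonal] at hde
    obtain ⟨had, hbe⟩ := mul_ne_zero_iff.mp hne
    simp only at hde had hbe
    have hd0 : d ≠ 0 := by rintro rfl; simp at had
    have he0 : e ≠ 0 := by rintro rfl; simp at hbe
    rw [← hde.1, Nat.ordCompl_mul]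
    exact Nat.mul_le_mul (ha.le d hd0 had) (hb.le e he0 hbe)

/-! ### Leads of the factors -/

theorem hasLead_sing (hq : q.Prime) {D : ℕ} (hD : D ≠ 0) {C : ℂ} (hC : C ≠ 0) :
    HasLead q (sing D C) (ordCompl[q] D)
      (PowerSeries.C C * PowerSeries.X ^ D.factorization q) := by
  refine ⟨Nat.not_dvd_ordCompl hq hD, ?_, fun j => ?_, fun n _ hn => ?_⟩
  · refine mul_ne_zero (fun h => hC ?_) (pow_ne_zero _ PowerSeries.X_ne_zero)
    exact PowerSeries.C_injective (by rw [h, map_zero])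
  · rw [PowerSeries.coeff_C_mul, PowerSeries.coeff_X_pow, sing_apply hD]
    by_cases hj : j = D.factorization q
    · rw [if_pos hj, hj, Nat.ordProj_mul_ordCompl_eq_self, if_pos rfl, mul_one]
    · rw [if_neg hj, if_neg fun h => hj ?_, mul_zero]
      rw [← h, factorization_pow_mul hq (Nat.not_dvd_ordCompl hq hD)]
  · rw [sing_apply hD] at hn
    split_ifs at hn with h
    · rw [h]
    · exact absurd rfl hn

/-- The Euler factor at `q` of the list `U` with the twist `z`. -/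
def eulZ (q : ℕ) (U : List ℕ) (z : ℕ → ℂ) : Polynomial ℂ :=
  ((U.filter fun n => q ∣ n).map fun n => 1 - Polynomial.C (z n) * Polynomial.X ^
    n.factorization q).prod

/-- The Euler factor at `q` of the list `U`: the product of the `1 - X ^ f`, `q ^ f ∈ U`. -/
def eulF (q : ℕ) (U : List ℕ) : Polynomial ℂ :=
  ((U.filter fun n => q ∣ n).map fun n => (1 : Polynomial ℂ) - Polynomial.X ^
    n.factorization q).prod

/-- `F(q X)` -/
def eulS (q : ℕ) (U : List ℕ) : Polynomial ℂ :=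
  (eulF q U).comp (Polynomial.C (q : ℂ) * Polynomial.X)

theorem eulZ_one (U : List ℕ) : eulZ q U (fun _ => 1) = eulF q U := by
  simp [eulZ, eulF]

theorem eulZ_id {U : List ℕ} (hU : ∀ ν ∈ U, q ∣ ν → ∃ f, 0 < f ∧ ν = q ^ f) (hq : q.Prime) :
    eulZ q U (fun n => n) = eulS q U := by
  rw [eulS, eulF, eulZ, Polynomial.list_prod_comp, List.map_map]
  congr 1
  refine List.map_congr_left fun n hn => ?_
  rw [List.mem_filter] at hn
  obtain ⟨f, _, rfl⟩ := hU n hn.1 (by simpa using hn.2)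
  have h1 : (q ^ f).factorization q = f := by
    rw [hq.factorization_pow, Finsupp.single_eq_same]
  simp only [Function.comp_apply, Polynomial.sub_comp, Polynomial.one_comp,
    Polynomial.pow_comp, Polynomial.X_comp, h1, mul_pow, Nat.cast_pow, Polynomial.C_pow]

theorem hasLead_lin (hq : q.Prime) {ν : ℕ} (hν : 2 ≤ ν) (hf : q ∣ ν → ∃ f, 0 < f ∧ ν = q ^ f)
    (z : ℕ → ℂ) : HasLead q (lin ν (z ν)) 1 (eulZ q [ν] z : Polynomial ℂ) := by
  have hone : ¬ q ∣ 1 := hq.one_lt.ne' ∘ Nat.dvd_one.mp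
  by_cases hqν : q ∣ ν
  · obtain ⟨f, hf0, rfl⟩ := hf hqν
    have h1 : (q ^ f).factorization q = f := by
      rw [hq.factorization_pow, Finsupp.single_eq_same]
    have hP : eulZ q [q ^ f] z =
        1 - Polynomial.C (z (q ^ f)) * Polynomial.X ^ f := by
      rw [eulZ, List.filter_cons_of_pos (by simpa using hqν), List.filter_nil, List.map_cons,
        List.map_nil, List.prod_cons, List.prod_nil, mul_one, h1]
    have hcoeff : ∀ j, PowerSeries.coeff j ((eulZ q [q ^ f] z : Polynomial ℂ) : PowerSeries ℂ) =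
        lin (q ^ f) (z (q ^ f)) (q ^ j * 1) := by
      intro j
      rw [Polynomial.coeff_coe, hP, Polynomial.coeff_sub, Polynomial.coeff_one,
        Polynomial.coeff_C_mul, Polynomial.coeff_X_pow, mul_one,
        lin_apply (pow_ne_zero f hq.ne_zero)]
      have e1 : (q ^ j = 1) ↔ (j = 0) := by
        constructor
        · intro h
          by_contra hj
          exact hq.one_lt.ne' ((Nat.pow_eq_one.mp h).resolve_right hj)
        · rintro rfl
          exact pow_zero q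
      have e2 : (q ^ j = q ^ f) ↔ (j = f) := Nat.pow_right_inj hq.one_lt
      simp only [e1, e2, mul_ite, mul_one, mul_zero]
    refine ⟨hone, ?_, hcoeff, fun n hn _ => Nat.pos_of_ne_zero (Nat.ordCompl_pos q hn).ne'⟩
    intro h0
    have := hcoeff 0
    rw [h0, map_zero, pow_zero, one_mul, lin_apply (pow_ne_zero f hq.ne_zero), if_pos rfl,
      if_neg (by omega : (1 : ℕ) ≠ q ^ f), sub_zero] at this
    exact one_ne_zero this.symm
  · have hP : eulZ q [ν] z = 1 := by
      rw [eulZ, List.filter_cons_of_neg (by simpa using hqν), List.filter_nil, List.map_nil,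
        List.prod_nil]
    have hcoeff : ∀ j, PowerSeries.coeff j ((eulZ q [ν] z : Polynomial ℂ) : PowerSeries ℂ) =
        lin ν (z ν) (q ^ j * 1) := by
      intro j
      rw [Polynomial.coeff_coe, hP, Polynomial.coeff_one, mul_one, lin_apply (by omega)]
      have e1 : (q ^ j = 1) ↔ (j = 0) := by
        constructor
        · intro h
          by_contra hj
          exact hq.one_lt.ne' ((Nat.pow_eq_one.mp h).resolve_right hj)
        · rintro rfl
          exact pow_zero q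
      have e2 : ¬ (q ^ j = ν) := by
        rintro rfl
        rcases Nat.eq_zero_or_pos j with rfl | hj
        · rw [pow_zero] at hν
          omega
        · exact hqν (dvd_pow_self q hj.ne')
      rw [if_neg e2, sub_zero]
      simp only [e1]
    refine ⟨hone, ?_, hcoeff, fun n hn _ => Nat.pos_of_ne_zero (Nat.ordCompl_pos q hn).ne'⟩
    rw [hP, Polynomial.coe_one]
    exact one_ne_zero

theorem hasLead_one (hq : q.Prime) : HasLead q 1 1 1 := by
  have h := hasLead_sing hq one_ne_zero (one_ne_zero (α := ℂ))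
  rw [sing_one_one] at h
  simpa using h

theorem eulZ_cons (ν : ℕ) (U : List ℕ) (z : ℕ → ℂ) :
    eulZ q (ν :: U) z = eulZ q [ν] z * eulZ q U z := by
  by_cases h : q ∣ ν
  · rw [eulZ, eulZ, eulZ, List.filter_cons_of_pos (by simpa using h),
      List.filter_cons_of_pos (by simpa using h)]
    simp
  · rw [eulZ, eulZ, eulZ, List.filter_cons_of_neg (by simpa using h),
      List.filter_cons_of_neg (by simpa using h)]
    simp

theorem hasLead_linProd (hq : q.Prime) {U : List ℕ} (hU : ∀ ν ∈ U, 2 ≤ ν)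
    (hf : ∀ ν ∈ U, q ∣ ν → ∃ f, 0 < f ∧ ν = q ^ f) (z : ℕ → ℂ) :
    HasLead q (linProd U z) 1 (eulZ q U z : Polynomial ℂ) := by
  induction U with
  | nil =>
    have h := hasLead_one hq
    have h1 : eulZ q [] z = 1 := rfl
    rw [linProd_nil, h1, Polynomial.coe_one]
    exact h
  | cons ν U ih =>
    have h := (hasLead_lin hq (hU ν (by simp)) (hf ν (by simp)) z).mul hq
      (ih (fun μ hμ => hU μ (by simp [hμ])) fun μ hμ => hf μ (by simp [hμ]))
    rw [linProd_cons, eulZ_cons, Polynomial.coe_mul]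
    simpa only [mul_one] using h

theorem HasLead.eq_row {c : ℕ → ℂ} (hq : q.Prime) (h : HasLead q (toAr c) m p) :
    p = row q c m := by
  refine PowerSeries.ext fun j => ?_
  rw [h.coeff, coeff_row, toAr_apply c (mul_ne_zero (pow_ne_zero j hq.ne_zero) h.pos)]

theorem HasLead.conj {c : ℕ → ℂ} (hq : q.Prime) (h : HasLead q (toAr c) m p) :
    HasLead q (toAr fun n => conj (c n)) m (row q (fun n => conj (c n)) m) := by
  refine ⟨h.not_dvd, ?_, fun j => ?_, fun n hn hcn => ?_⟩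
  · obtain ⟨j, hj⟩ := h.exists_ne
    rw [toAr_apply c (mul_ne_zero (pow_ne_zero j hq.ne_zero) h.pos)] at hj
    intro h0
    have := congrArg (PowerSeries.coeff j) h0
    rw [coeff_row, map_zero] at this
    exact hj ((map_eq_zero _).mp this)
  · rw [coeff_row, toAr_apply _ (mul_ne_zero (pow_ne_zero j hq.ne_zero) h.pos)]
  · rw [toAr_apply _ hn] at hcn
    refine h.le n hn ?_
    rw [toAr_apply c hn]
    intro h0
    exact hcn (by rw [h0, map_zero])

/-- If `b` lives on the integers prime to `q` then its lead is a constant. -/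
theorem HasLead.eq_C {b : ℕ → ℂ} (hq : q.Prime) (h : HasLead q (toAr b) m p)
    (hb : ∀ n, n ≠ 0 → b n ≠ 0 → n.factorization q = 0) : p = PowerSeries.C (b m) ∧ b m ≠ 0 := by
  have hp : p = PowerSeries.C (b m) := by
    refine PowerSeries.ext fun j => ?_
    have h0 : q ^ j * m ≠ 0 := mul_ne_zero (pow_ne_zero j hq.ne_zero) h.pos
    rw [h.coeff, toAr_apply b h0, PowerSeries.coeff_C]
    rcases Nat.eq_zero_or_pos j with rfl | hj
    · rw [if_pos rfl, pow_zero, one_mul]
    · rw [if_neg hj.ne']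
      by_contra hne
      have := hb _ h0 hne
      rw [factorization_pow_mul hq h.not_dvd] at this
      omega
  refine ⟨hp, fun h0 => h.ne_zero ?_⟩
  rw [hp, h0, map_zero]

/-! ### The identity in one variable -/

theorem eulF_eval_zero (hq : q.Prime) {U : List ℕ} (hU : ∀ ν ∈ U, 2 ≤ ν) :
    (eulF q U).eval 0 = 1 := by
  rw [eulF, Polynomial.eval_list_prod, List.map_map]
  refine List.prod_eq_one fun x hx => ?_
  rw [List.mem_map] at hx
  obtain ⟨n, hn, rfl⟩ := hx
  rw [List.mem_filter] at hn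
  have hn2 := hU n hn.1
  have h1 : n.factorization q ≠ 0 :=
    (hq.factorization_pos_of_dvd (by omega) (by simpa using hn.2)).ne'
  simp [zero_pow h1]

theorem eulS_eval (U : List ℕ) (x : ℂ) : (eulS q U).eval x = (eulF q U).eval (q * x) := by
  rw [eulS, Polynomial.eval_comp, Polynomial.eval_mul, Polynomial.eval_C, Polynomial.eval_X]

theorem eulS_eval_zero (hq : q.Prime) {U : List ℕ} (hU : ∀ ν ∈ U, 2 ≤ ν) :
    (eulS q U).eval 0 = 1 := by
  rw [eulS_eval, mul_zero, eulF_eval_zero hq hU]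

theorem eulF_ne_zero (hq : q.Prime) {U : List ℕ} (hU : ∀ ν ∈ U, 2 ≤ ν) : eulF q U ≠ 0 := by
  intro h0
  have h := eulF_eval_zero hq hU
  rw [h0, Polynomial.eval_zero] at h
  exact one_ne_zero h.symm

theorem eulS_ne_zero (hq : q.Prime) {U : List ℕ} (hU : ∀ ν ∈ U, 2 ≤ ν) : eulS q U ≠ 0 := by
  intro h0
  have h := eulS_eval_zero hq hU
  rw [h0, Polynomial.eval_zero] at h
  exact one_ne_zero h.symm

theorem constantCoeff_coe_poly (P : Polynomial ℂ) :
    PowerSeries.constantCoeff (P : PowerSeries ℂ) = P.eval 0 := by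
  rw [← PowerSeries.coeff_zero_eq_constantCoeff_apply, Polynomial.coeff_coe,
    Polynomial.coeff_zero_eq_eval_zero]

/-- Clearing of the powers of `X`. -/
theorem clear_X {v₁ v₂ : ℕ} {κ β : ℂ} (hκ : κ ≠ 0) (hβ : β ≠ 0) {P A B : PowerSeries ℂ}
    (hB : PowerSeries.constantCoeff B = 1)
    (h : PowerSeries.X ^ v₂ * PowerSeries.C β * B =
      PowerSeries.C κ * PowerSeries.X ^ v₁ * P * A) :
    ∃ (C : ℂ) (k : ℕ), C ≠ 0 ∧ P * A = PowerSeries.C C * PowerSeries.X ^ k * B := by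
  have hv : v₁ ≤ v₂ := by
    by_contra hlt
    obtain ⟨d, rfl⟩ : ∃ d, v₁ = v₂ + (d + 1) := ⟨v₁ - v₂ - 1, by omega⟩
    have h1 : PowerSeries.C β * B = PowerSeries.X * (PowerSeries.C κ * PowerSeries.X ^ d * P * A) := by
      refine mul_left_cancel₀ (pow_ne_zero v₂ (PowerSeries.X_ne_zero (R := ℂ))) ?_
      rw [← mul_assoc, h, pow_add, pow_succ]
      ring
    have h2 := congrArg (PowerSeries.constantCoeff (R := ℂ)) h1
    rw [map_mul, map_mul, PowerSeries.constantCoeff_C, hB, mul_one,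
      PowerSeries.constantCoeff_X, zero_mul] at h2
    exact hβ h2
  obtain ⟨k, rfl⟩ := Nat.exists_eq_add_of_le hv
  refine ⟨κ⁻¹ * β, k, mul_ne_zero (inv_ne_zero hκ) hβ, ?_⟩
  have hCκ : PowerSeries.C κ * PowerSeries.C κ⁻¹ = (1 : PowerSeries ℂ) := by
    rw [← map_mul, mul_inv_cancel₀ hκ, map_one]
  have hκ0 : (PowerSeries.C κ : PowerSeries ℂ) ≠ 0 := fun h0 => by
    rw [h0, zero_mul] at hCκ
    exact zero_ne_one hCκ
  refine mul_left_cancel₀ (mul_ne_zero hκ0 (pow_ne_zero v₁ (PowerSeries.X_ne_zero (R := ℂ)))) ?_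
  rw [← mul_assoc, ← h, map_mul, pow_add]
  linear_combination -(PowerSeries.X ^ v₁ * PowerSeries.X ^ k * PowerSeries.C β * B) * hCκ

/-- **The identity in one variable.** -/
theorem exists_lead {q : ℕ} (hq : q.Prime) {N : ℕ} (hN : N ≠ 0) {b c : ℕ → ℂ}
    (hbc : FE b c N 0 1)
    {z24 z12 z8 z4 : ℕ → ℂ} {d24 d12 d8 d4 r24 r12 r8 r4 t24 t12 t8 t4 : ℕ}
    {l24 l12 l8 l4 : List ℕ}
    (h24 : FE z24 z24 d24 r24 t24) (h12 : FE z12 z12 d12 r12 t12)
    (h8 : FE z8 z8 d8 r8 t8) (h4 : FE z4 z4 d4 r4 t4)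
    (o24 : z24 1 = 1) (o12 : z12 1 = 1) (o8 : z8 1 = 1) (o4 : z4 1 = 1)
    (n24 : d24 ≠ 0) (n12 : d12 ≠ 0) (n8 : d8 ≠ 0) (n4 : d4 ≠ 0)
    (hl24 : ∀ ν ∈ l24, 2 ≤ ν) (hl12 : ∀ ν ∈ l12, 2 ≤ ν) (hl8 : ∀ ν ∈ l8, 2 ≤ ν)
    (hl4 : ∀ ν ∈ l4, 2 ≤ ν)
    (hid : ∀ n, n ≠ 0 → ((z24 ⍟ efl l24) ⍟ ((z4 ⍟ efl l4) ⍟ (z4 ⍟ efl l4))) n =
      (((z12 ⍟ efl l12) ⍟ ((z8 ⍟ efl l8) ⍟ (z8 ⍟ efl l8))) ⍟ (b ⍟ fun n => conj (b n))) n)
    (hr : r24 + 2 * r4 = r12 + 2 * r8) (ht : t24 + 2 * t4 = t12 + 2 * t8 + 2)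
    (hbq : ∀ n, n ≠ 0 → b n ≠ 0 → n.factorization q = 0)
    (p24 : ∀ ν ∈ l24, q ∣ ν → ∃ f, 0 < f ∧ ν = q ^ f)
    (p12 : ∀ ν ∈ l12, q ∣ ν → ∃ f, 0 < f ∧ ν = q ^ f)
    (p8 : ∀ ν ∈ l8, q ∣ ν → ∃ f, 0 < f ∧ ν = q ^ f)
    (p4 : ∀ ν ∈ l4, q ∣ ν → ∃ f, 0 < f ∧ ν = q ^ f) :
    ∃ m : ℕ, ¬ q ∣ m ∧ row q c m ≠ 0 ∧ (∀ n, n ≠ 0 → c n ≠ 0 → m ≤ ordCompl[q] n) ∧
      ∃ (C : ℂ) (k : ℕ), C ≠ 0 ∧
        row q c m * row q (fun n => conj (c n)) m *
            (↑(eulF q (l24 ++ (l4 ++ l4))) : PowerSeries ℂ) *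
            (↑(eulS q (l12 ++ (l8 ++ l8))) : PowerSeries ℂ) =
          PowerSeries.C C * PowerSeries.X ^ k *
            (↑(eulF q (l12 ++ (l8 ++ l8))) : PowerSeries ℂ) *
            (↑(eulS q (l24 ++ (l4 ++ l4))) : PowerSeries ℂ) := by
  have hL := fe_four h24 h4 hl24 hl4
  have hR := FE.mul (fe_four h12 h8 hl12 hl8) (fe_self_conj hbc)
  have hR' := FE.congr hR (fun n hn => (hid n hn).symm) (fun n _ => rfl)
  have er : r12 + (r8 + r8) + (0 + 0) = r24 + (r4 + r4) := by omega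
  have et : t12 + (t8 + t8) + (1 + 1) = t24 + (t4 + t4) := by omega
  rw [er, et] at hR'
  have hD₁ : d24 * l24.prod * (d4 * l4.prod * (d4 * l4.prod)) ≠ 0 :=
    mul_ne_zero (mul_ne_zero n24 (prod_ne_zero_of_two_le hl24))
      (mul_ne_zero (mul_ne_zero n4 (prod_ne_zero_of_two_le hl4))
        (mul_ne_zero n4 (prod_ne_zero_of_two_le hl4)))
  have hD₀ : d12 * l12.prod * (d8 * l8.prod * (d8 * l8.prod)) ≠ 0 :=
    mul_ne_zero (mul_ne_zero n12 (prod_ne_zero_of_two_le hl12))
      (mul_ne_zero (mul_ne_zero n8 (prod_ne_zero_of_two_le hl8))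
        (mul_ne_zero n8 (prod_ne_zero_of_two_le hl8)))
  have hD₂ : d12 * l12.prod * (d8 * l8.prod * (d8 * l8.prod)) * (N * N) ≠ 0 :=
    mul_ne_zero hD₀ (mul_ne_zero hN hN)
  obtain ⟨κ, hκ, hc⟩ := FE.compare hD₁ hD₂ hL hR'
  generalize d24 * l24.prod * (d4 * l4.prod * (d4 * l4.prod)) = D₁ at hD₁ hc
  generalize d12 * l12.prod * (d8 * l8.prod * (d8 * l8.prod)) * (N * N) = D₂ at hD₂ hc
  -- the two identities of arithmetic functions
  have I1 : sing D₂ 1 *
      (toAr z24 * linProd l24 (fun n => n) *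
        (toAr z4 * linProd l4 (fun n => n) * (toAr z4 * linProd l4 (fun n => n)))) =
      sing D₁ κ * (toAr z12 * linProd l12 (fun n => n) *
        (toAr z8 * linProd l8 (fun n => n) * (toAr z8 * linProd l8 (fun n => n))) *
          (toAr c * toAr fun n => conj (c n))) := by
    simp only [← toAr_efl' hl24, ← toAr_efl' hl4, ← toAr_efl' hl12, ← toAr_efl' hl8,
      ← toAr_conv]
    ext n
    rcases eq_or_ne n 0 with rfl | hn
    · simp
    · rw [sing_mul_toAr hD₂ 1 _ hn, sing_mul_toAr hD₁ κ _ hn, one_mul]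
      exact hc n hn
  have I2 : toAr z24 * linProd l24 (fun _ => 1) *
        (toAr z4 * linProd l4 (fun _ => 1) * (toAr z4 * linProd l4 (fun _ => 1))) =
      toAr z12 * linProd l12 (fun _ => 1) *
        (toAr z8 * linProd l8 (fun _ => 1) * (toAr z8 * linProd l8 (fun _ => 1))) *
          (toAr b * toAr fun n => conj (b n)) := by
    simp only [← toAr_efl hl24, ← toAr_efl hl4, ← toAr_efl hl12, ← toAr_efl hl8, ← toAr_conv]
    exact toAr_congr hid
  have hone : ∀ {z : ℕ → ℂ}, z 1 = 1 → toAr z ≠ 0 := fun {z} hz h0 => by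
    have := congrArg (fun F : ArithmeticFunction ℂ => F 1) h0
    simp only [toAr_apply z one_ne_zero, hz, ArithmeticFunction.zero_apply] at this
    exact one_ne_zero this
  have hmul : ∀ {F G : ArithmeticFunction ℂ}, F ≠ 0 → G ≠ 0 → F * G ≠ 0 := by
    intro F G hF hG
    obtain ⟨i, hi⟩ := isOrd_of_ne_zero q hF
    obtain ⟨j, hj⟩ := isOrd_of_ne_zero q hG
    exact isOrd_ne_zero (hi.mul hj)
  have hlin : ∀ {l : List ℕ}, (∀ ν ∈ l, 2 ≤ ν) → ∀ z : ℕ → ℂ, linProd l z ≠ 0 := fun hl z =>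
    isOrd_ne_zero (isOrd_linProd q hl z)
  have hK : toAr z12 * linProd l12 (fun _ => 1) *
      (toAr z8 * linProd l8 (fun _ => 1) * (toAr z8 * linProd l8 (fun _ => 1))) ≠ 0 :=
    hmul (hmul (hone o12) (hlin hl12 _))
      (hmul (hmul (hone o8) (hlin hl8 _)) (hmul (hone o8) (hlin hl8 _)))
  have hA : toAr z24 * linProd l24 (fun n => n) *
        (toAr z4 * linProd l4 (fun n => n) * (toAr z4 * linProd l4 (fun n => n))) ≠ 0 :=
    hmul (hmul (hone o24) (hlin hl24 _))
      (hmul (hmul (hone o4) (hlin hl4 _)) (hmul (hone o4) (hlin hl4 _)))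
  have hb0 : toAr b ≠ 0 := by
    intro h0
    rw [h0, zero_mul, mul_zero] at I2
    exact hmul (hmul (hone o24) (hlin hl24 _))
      (hmul (hmul (hone o4) (hlin hl4 _)) (hmul (hone o4) (hlin hl4 _))) I2
  have hc0 : toAr c ≠ 0 := by
    intro h0
    rw [h0, zero_mul, mul_zero, mul_zero] at I1
    exact hmul (isOrd_ne_zero (isOrd_sing q hD₂ one_ne_zero)) hA I1
  have hE : sing D₂ 1 * (toAr b * toAr fun n => conj (b n)) *
        linProd (l12 ++ (l8 ++ l8)) (fun _ => 1) * linProd (l24 ++ (l4 ++ l4)) (fun n => n) =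
      sing D₁ κ * (toAr c * toAr fun n => conj (c n)) *
        linProd (l24 ++ (l4 ++ l4)) (fun _ => 1) * linProd (l12 ++ (l8 ++ l8)) (fun n => n) := by
    simp only [linProd_append]
    refine cancel_left hK ?_
    linear_combination
      (linProd l24 (fun _ => 1) * (linProd l4 (fun _ => 1) * linProd l4 (fun _ => 1)) *
        (linProd l12 (fun _ => 1) * (linProd l8 (fun _ => 1) * linProd l8 (fun _ => 1)))) * I1 -
      (sing D₂ 1 * (linProd l12 (fun _ => 1) * (linProd l8 (fun _ => 1) * linProd l8 (fun _ => 1))) *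
        (linProd l24 (fun n => n) * (linProd l4 (fun n => n) * linProd l4 (fun n => n)))) * I2
  have hU2 : ∀ n ∈ l12 ++ (l8 ++ l8), 2 ≤ n := by
    intro n hn
    simp only [List.mem_append, or_self] at hn
    exact hn.elim (hl12 n) (hl8 n)
  have hV2 : ∀ n ∈ l24 ++ (l4 ++ l4), 2 ≤ n := by
    intro n hn
    simp only [List.mem_append, or_self] at hn
    exact hn.elim (hl24 n) (hl4 n)
  have hUf : ∀ n ∈ l12 ++ (l8 ++ l8), q ∣ n → ∃ f, 0 < f ∧ n = q ^ f := by
    intro n hn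
    simp only [List.mem_append, or_self] at hn
    exact hn.elim (p12 n) (p8 n)
  have hVf : ∀ n ∈ l24 ++ (l4 ++ l4), q ∣ n → ∃ f, 0 < f ∧ n = q ^ f := by
    intro n hn
    simp only [List.mem_append, or_self] at hn
    exact hn.elim (p24 n) (p4 n)
  -- the leads
  obtain ⟨mb, pb, hb⟩ := exists_hasLead hq hb0
  obtain ⟨mc, pc, hpc⟩ := exists_hasLead hq hc0
  obtain ⟨hpb, hbne⟩ := hb.eq_C hq hbq
  have hb' := hb.conj hq
  obtain ⟨hpb', hbne'⟩ := hb'.eq_C hq fun n hn h => hbq n hn fun h0 => h (by rw [h0, map_zero])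
  have hc' := hpc.conj hq
  have hlhs := (((hasLead_sing hq hD₂ (one_ne_zero (α := ℂ))).mul hq (hb.mul hq hb')).mul hq
    (hasLead_linProd hq hU2 hUf fun _ => 1)).mul hq (hasLead_linProd hq hV2 hVf fun n => n)
  have hrhs := (((hasLead_sing hq hD₁ hκ).mul hq (hpc.mul hq hc')).mul hq
    (hasLead_linProd hq hV2 hVf fun _ => 1)).mul hq (hasLead_linProd hq hU2 hUf fun n => n)
  rw [hE] at hlhs
  have key := (hlhs.unique hq hrhs).2
  rw [eulZ_one, eulZ_one, eulZ_id hVf hq, eulZ_id hUf hq, hpb', hpb, hpc.eq_row hq] at key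
  have hpc0 : row q c mc ≠ 0 := by
    rw [← hpc.eq_row hq]
    exact hpc.ne_zero
  refine ⟨mc, hpc.not_dvd, hpc0, fun n hn hcn => hpc.le n hn (by rwa [toAr_apply c hn]), ?_⟩
  have hB : PowerSeries.constantCoeff ((↑(eulF q (l12 ++ (l8 ++ l8))) : PowerSeries ℂ) *
      (↑(eulS q (l24 ++ (l4 ++ l4))) : PowerSeries ℂ)) = 1 := by
    rw [map_mul, constantCoeff_coe_poly, constantCoeff_coe_poly, eulF_eval_zero hq hU2,
      eulS_eval_zero hq hV2, one_mul]
  obtain ⟨C, k, hC, hfin⟩ := clear_X (v₁ := D₁.factorization q) (v₂ := D₂.factorization q)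
    (β := b mb * conj (b mb)) (P := row q c mc * row q (fun n => conj (c n)) mc)
    (A := (↑(eulF q (l24 ++ (l4 ++ l4))) : PowerSeries ℂ) *
      (↑(eulS q (l12 ++ (l8 ++ l8))) : PowerSeries ℂ)) hκ (mul_ne_zero hbne hbne') hB (by
        rw [map_mul]
        rw [map_one, one_mul] at key
        linear_combination key)
  exact ⟨C, k, hC, by linear_combination hfin⟩

/-! ### Roots on a circle -/

/-- The number of the roots of `P` of absolute value `r`. -/
def cnt (r : ℝ) (P : Polynomial ℂ) : ℕ := (P.roots.filter fun z => ‖z‖ = r).card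

theorem cnt_mul (r : ℝ) {P Q : Polynomial ℂ} (hP : P ≠ 0) (hQ : Q ≠ 0) :
    cnt r (P * Q) = cnt r P + cnt r Q := by
  rw [cnt, Polynomial.roots_mul (mul_ne_zero hP hQ), Multiset.filter_add, Multiset.card_add]
  rfl

theorem cnt_eq_natDegree {r : ℝ} {P : Polynomial ℂ} (h : ∀ z, P.eval z = 0 → ‖z‖ = r) :
    cnt r P = P.natDegree := by
  rw [cnt, Multiset.filter_eq_self.mpr, IsAlgClosed.card_roots_eq_natDegree]
  intro z hz
  exact h z (Polynomial.isRoot_of_mem_roots hz)

theorem cnt_eq_zero {r : ℝ} {P : Polynomial ℂ} (h : ∀ z, P.eval z = 0 → ‖z‖ ≠ r) :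
    cnt r P = 0 := by
  rw [cnt, Multiset.filter_eq_nil.mpr, Multiset.card_zero]
  intro z hz
  exact h z (Polynomial.isRoot_of_mem_roots hz)

theorem norm_of_eulF (hq : q.Prime) {U : List ℕ} (hU : ∀ ν ∈ U, 2 ≤ ν) {z : ℂ}
    (hz : (eulF q U).eval z = 0) : ‖z‖ = 1 := by
  rw [eulF, Polynomial.eval_list_prod, List.map_map, List.prod_eq_zero_iff, List.mem_map] at hz
  obtain ⟨n, hn, h0⟩ := hz
  rw [List.mem_filter] at hn
  have hn2 := hU n hn.1
  have h1 : n.factorization q ≠ 0 :=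
    (hq.factorization_pos_of_dvd (by omega) (by simpa using hn.2)).ne'
  simp only [Function.comp_apply, Polynomial.eval_sub, Polynomial.eval_one, Polynomial.eval_pow,
    Polynomial.eval_X] at h0
  exact norm_eq_one_of_pow_eq_one (sub_eq_zero.mp h0).symm h1

theorem norm_of_eulS (hq : q.Prime) {U : List ℕ} (hU : ∀ ν ∈ U, 2 ≤ ν) {z : ℂ}
    (hz : (eulS q U).eval z = 0) : ‖z‖ = (q : ℝ)⁻¹ := by
  rw [eulS_eval] at hz
  have h := norm_of_eulF hq hU hz
  rw [norm_mul, Complex.norm_natCast] at h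
  exact eq_inv_of_mul_eq_one_right h

theorem natDegree_one_sub_X_pow {f : ℕ} : ((1 : Polynomial ℂ) - Polynomial.X ^ f).natDegree = f := by
  have h : (1 : Polynomial ℂ) - Polynomial.X ^ f = -(Polynomial.X ^ f - Polynomial.C 1) := by
    rw [Polynomial.C_1]
    ring
  rw [h, Polynomial.natDegree_neg, Polynomial.natDegree_X_pow_sub_C]

/-- The degree of the Euler factor. -/
theorem natDegree_eulF (hq : q.Prime) {U : List ℕ} (hU : ∀ ν ∈ U, 2 ≤ ν) :
    (eulF q U).natDegree = U.prod.factorization q := by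
  induction U with
  | nil => simp [eulF]
  | cons ν U ih =>
    have hU' : ∀ μ ∈ U, 2 ≤ μ := fun μ hμ => hU μ (by simp [hμ])
    have hν := hU ν (by simp)
    rw [List.prod_cons, Nat.factorization_mul (by omega) (prod_ne_zero_of_two_le hU'),
      Finsupp.add_apply, ← ih hU']
    by_cases h : q ∣ ν
    · have h1 : ν.factorization q ≠ 0 := (hq.factorization_pos_of_dvd (by omega) h).ne'
      have h2 : eulF q (ν :: U) = (1 - Polynomial.X ^ ν.factorization q) * eulF q U := by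
        rw [eulF, eulF, List.filter_cons_of_pos (by simpa using h), List.map_cons, List.prod_cons]
      have h3 : (1 : Polynomial ℂ) - Polynomial.X ^ ν.factorization q ≠ 0 := by
        intro h0
        have := natDegree_one_sub_X_pow (f := ν.factorization q)
        rw [h0, Polynomial.natDegree_zero] at this
        exact h1 this.symm
      rw [h2, Polynomial.natDegree_mul h3 (eulF_ne_zero hq hU'), natDegree_one_sub_X_pow]
    · have h2 : eulF q (ν :: U) = eulF q U := by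
        rw [eulF, eulF, List.filter_cons_of_neg (by simpa using h)]
      rw [h2, Nat.factorization_eq_zero_of_not_dvd h, zero_add]

theorem natDegree_eulS (hq : q.Prime) (U : List ℕ) :
    (eulS q U).natDegree = (eulF q U).natDegree := by
  have hq0 : (q : ℂ) ≠ 0 := by exact_mod_cast hq.ne_zero
  rw [eulS, Polynomial.natDegree_comp, Polynomial.natDegree_C_mul_X _ hq0, mul_one]

/-- **Comparison of the degrees**: the identity in one variable with `p`, `p'` rational functions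
without poles on the circles `|X| = 1` and `|X| = 1 / q`. -/
theorem natDegree_eq_of_lead (hq : q.Prime) {U V : List ℕ} (hU : ∀ ν ∈ U, 2 ≤ ν)
    (hV : ∀ ν ∈ V, 2 ≤ ν) {p p' : PowerSeries ℂ} (hp0 : p ≠ 0) (hp0' : p' ≠ 0)
    {G G' P P' : Polynomial ℂ} (hp : p * (↑G : PowerSeries ℂ) = ↑P)
    (hp' : p' * (↑G' : PowerSeries ℂ) = ↑P')
    (hG : ∀ z, G.eval z = 0 → ‖z‖ ≠ 1 ∧ ‖z‖ ≠ (q : ℝ)⁻¹)
    (hG' : ∀ z, G'.eval z = 0 → ‖z‖ ≠ 1 ∧ ‖z‖ ≠ (q : ℝ)⁻¹) {C : ℂ} {k : ℕ} (hC : C ≠ 0)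
    (h : p * p' * (↑(eulF q V) : PowerSeries ℂ) * (↑(eulS q U) : PowerSeries ℂ) =
      PowerSeries.C C * PowerSeries.X ^ k * (↑(eulF q U) : PowerSeries ℂ) *
        (↑(eulS q V) : PowerSeries ℂ)) :
    V.prod.factorization q = U.prod.factorization q := by
  have hq1 : (1 : ℝ) < q := by exact_mod_cast hq.one_lt
  have hqi : (q : ℝ)⁻¹ ≠ 1 := (inv_lt_one_of_one_lt₀ hq1).ne
  have hqi0 : (q : ℝ)⁻¹ ≠ 0 := inv_ne_zero (by positivity)
  have hG0 : G ≠ 0 := by
    rintro rfl
    exact (hG 1 (by simp)).1 (by simp)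
  have hG0' : G' ≠ 0 := by
    rintro rfl
    exact (hG' 1 (by simp)).1 (by simp)
  have hcoe0 : ∀ {Q : Polynomial ℂ}, Q ≠ 0 → (↑Q : PowerSeries ℂ) ≠ 0 := fun {Q} hQ h0 =>
    hQ (Polynomial.coe_injective ℂ (by rw [h0, Polynomial.coe_zero]))
  have hP0 : P ≠ 0 := by
    rintro rfl
    rw [Polynomial.coe_zero] at hp
    exact mul_ne_zero hp0 (hcoe0 hG0) hp
  have hP0' : P' ≠ 0 := by
    rintro rfl
    rw [Polynomial.coe_zero] at hp'
    exact mul_ne_zero hp0' (hcoe0 hG0') hp'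
  have hCX : Polynomial.C C * Polynomial.X ^ k ≠ 0 :=
    mul_ne_zero (Polynomial.C_ne_zero.mpr hC) (pow_ne_zero k Polynomial.X_ne_zero)
  have hFU := eulF_ne_zero hq hU
  have hFV := eulF_ne_zero hq hV
  have hSU := eulS_ne_zero hq hU
  have hSV := eulS_ne_zero hq hV
  have key : P * P' * eulF q V * eulS q U =
      Polynomial.C C * Polynomial.X ^ k * eulF q U * eulS q V * G * G' := by
    apply Polynomial.coe_injective ℂ
    simp only [Polynomial.coe_mul, Polynomial.coe_pow, Polynomial.coe_C, Polynomial.coe_X]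
    rw [← hp, ← hp', ← h]
    ring
  have hcount : ∀ r : ℝ, cnt r P + cnt r P' + cnt r (eulF q V) + cnt r (eulS q U) =
      cnt r (Polynomial.C C * Polynomial.X ^ k) + cnt r (eulF q U) + cnt r (eulS q V) +
        cnt r G + cnt r G' := by
    intro r
    have := congrArg (cnt r) key
    rwa [cnt_mul r (mul_ne_zero (mul_ne_zero hP0 hP0') hFV) hSU,
      cnt_mul r (mul_ne_zero hP0 hP0') hFV, cnt_mul r hP0 hP0',
      cnt_mul r (mul_ne_zero (mul_ne_zero (mul_ne_zero hCX hFU) hSV) hG0) hG0',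
      cnt_mul r (mul_ne_zero (mul_ne_zero hCX hFU) hSV) hG0,
      cnt_mul r (mul_ne_zero hCX hFU) hSV, cnt_mul r hCX hFU] at this
  have hX : ∀ {r : ℝ}, r ≠ 0 → cnt r (Polynomial.C C * Polynomial.X ^ k) = 0 := by
    intro r hr
    refine cnt_eq_zero fun z hz => ?_
    rw [Polynomial.eval_mul, Polynomial.eval_C, Polynomial.eval_pow, Polynomial.eval_X] at hz
    have hz0 : z = 0 := eq_zero_of_pow_eq_zero ((mul_eq_zero.mp hz).resolve_left hC)
    rw [hz0, norm_zero]
    exact hr.symm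
  have h1 := hcount 1
  have h2 := hcount (q : ℝ)⁻¹
  rw [hX one_ne_zero, cnt_eq_natDegree (fun z hz => norm_of_eulF hq hV hz),
    cnt_eq_natDegree (fun z hz => norm_of_eulF hq hU hz),
    cnt_eq_zero (P := eulS q V) (fun z hz => by rw [norm_of_eulS hq hV hz]; exact hqi),
    cnt_eq_zero (P := eulS q U) (fun z hz => by rw [norm_of_eulS hq hU hz]; exact hqi),
    cnt_eq_zero (P := G) (fun z hz => (hG z hz).1),
    cnt_eq_zero (P := G') (fun z hz => (hG' z hz).1), natDegree_eulF hq hU,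
    natDegree_eulF hq hV] at h1
  rw [hX hqi0, cnt_eq_natDegree (fun z hz => norm_of_eulS hq hV hz),
    cnt_eq_natDegree (fun z hz => norm_of_eulS hq hU hz),
    cnt_eq_zero (P := eulF q V) (fun z hz => by rw [norm_of_eulF hq hV hz]; exact hqi.symm),
    cnt_eq_zero (P := eulF q U) (fun z hz => by rw [norm_of_eulF hq hU hz]; exact hqi.symm),
    cnt_eq_zero (P := G) (fun z hz => (hG z hz).2),
    cnt_eq_zero (P := G') (fun z hz => (hG' z hz).2), natDegree_eulS hq, natDegree_eulS hq,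
    natDegree_eulF hq hU, natDegree_eulF hq hV] at h2
  omega

/-! ### The relation of step two -/

/-- If `c (q² n) = e c n` for the `n` divisible by `q` then the rows of `c` are rational. -/
theorem exists_poly_of_rel {c : ℕ → ℂ} {e : ℂ} (hq : q.Prime)
    (hc : ∀ n, n ≠ 0 → q ∣ n → c (q ^ 2 * n) = e * c n) (hm : ¬ q ∣ m) :
    ∃ P : Polynomial ℂ, row q c m *
      ((1 - Polynomial.C e * Polynomial.X ^ 2 : Polynomial ℂ) : PowerSeries ℂ) = ↑P := by
  have hm0 : m ≠ 0 := by rintro rfl; exact hm (dvd_zero q)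
  refine ⟨Polynomial.C (c m) + Polynomial.C (c (q * m)) * Polynomial.X +
    Polynomial.C (c (q ^ 2 * m) - e * c m) * Polynomial.X ^ 2, ?_⟩
  rw [Polynomial.coe_sub, Polynomial.coe_one, Polynomial.coe_mul, Polynomial.coe_C,
    Polynomial.coe_pow, Polynomial.coe_X]
  have hrw : row q c m * (1 - PowerSeries.C e * PowerSeries.X ^ 2) =
      row q c m - PowerSeries.C e * (row q c m * PowerSeries.X ^ 2) := by ring
  rw [hrw]
  refine PowerSeries.ext fun n => ?_
  rw [map_sub, PowerSeries.coeff_C_mul, PowerSeries.coeff_mul_X_pow', coeff_row,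
    Polynomial.coeff_coe]
  simp only [Polynomial.coeff_add, Polynomial.coeff_C, Polynomial.coeff_C_mul,
    Polynomial.coeff_X, Polynomial.coeff_X_pow]
  match n with
  | 0 => simp
  | 1 => simp
  | 2 => simp [coeff_row]
  | k + 3 =>
    have h1 : c (q ^ (k + 3) * m) = e * c (q ^ (k + 1) * m) := by
      have h3 : q ^ (k + 3) * m = q ^ 2 * (q ^ (k + 1) * m) := by ring
      rw [h3]
      exact hc _ (mul_ne_zero (pow_ne_zero _ hq.ne_zero) hm0)
        (dvd_mul_of_dvd_left (dvd_pow_self q (Nat.succ_ne_zero k)) m)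
    have h2 : k + 3 - 2 = k + 1 := by omega
    simp [coeff_row, h1, h2]

/-- The poles. -/
theorem norm_of_rel (hq : q.Prime) {ε : ℂ} (hε : ‖ε‖ = 1) {z : ℂ}
    (hz : ((1 : Polynomial ℂ) - Polynomial.C (ε / q) * Polynomial.X ^ 2).eval z = 0) :
    ‖z‖ ≠ 1 ∧ ‖z‖ ≠ (q : ℝ)⁻¹ := by
  have hq1 : (1 : ℝ) < q := by exact_mod_cast hq.one_lt
  have hq0 : (0 : ℝ) < q := by linarith
  simp only [Polynomial.eval_sub, Polynomial.eval_one, Polynomial.eval_mul, Polynomial.eval_C,
    Polynomial.eval_pow, Polynomial.eval_X] at hz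
  have h1 : ‖ε / q * z ^ 2‖ = 1 := by
    rw [← sub_eq_zero.mp hz, norm_one]
  rw [norm_mul, norm_div, norm_pow, hε, Complex.norm_natCast, one_div] at h1
  constructor
  · intro h
    rw [h] at h1
    field_simp at h1
    linarith
  · intro h
    rw [h] at h1
    have h2 : (q : ℝ)⁻¹ < 1 := inv_lt_one_of_one_lt₀ hq1
    have h3 : 0 < (q : ℝ)⁻¹ := inv_pos.mpr hq0
    nlinarith [mul_pos h3 h3]

/-- **The Euler factors at `q` have the same degree** if the dual `c` satisfies
`c (q² n) = (ε / q) c n` for the `n` divisible by `q`. -/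
theorem fsum_eq_of_rel {q : ℕ} (hq : q.Prime) {N : ℕ} (hN : N ≠ 0) {b c : ℕ → ℂ}
    (hbc : FE b c N 0 1)
    {z24 z12 z8 z4 : ℕ → ℂ} {d24 d12 d8 d4 r24 r12 r8 r4 t24 t12 t8 t4 : ℕ}
    {l24 l12 l8 l4 : List ℕ}
    (h24 : FE z24 z24 d24 r24 t24) (h12 : FE z12 z12 d12 r12 t12)
    (h8 : FE z8 z8 d8 r8 t8) (h4 : FE z4 z4 d4 r4 t4)
    (o24 : z24 1 = 1) (o12 : z12 1 = 1) (o8 : z8 1 = 1) (o4 : z4 1 = 1)
    (n24 : d24 ≠ 0) (n12 : d12 ≠ 0) (n8 : d8 ≠ 0) (n4 : d4 ≠ 0)
    (hl24 : ∀ ν ∈ l24, 2 ≤ ν) (hl12 : ∀ ν ∈ l12, 2 ≤ ν) (hl8 : ∀ ν ∈ l8, 2 ≤ ν)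
    (hl4 : ∀ ν ∈ l4, 2 ≤ ν)
    (hid : ∀ n, n ≠ 0 → ((z24 ⍟ efl l24) ⍟ ((z4 ⍟ efl l4) ⍟ (z4 ⍟ efl l4))) n =
      (((z12 ⍟ efl l12) ⍟ ((z8 ⍟ efl l8) ⍟ (z8 ⍟ efl l8))) ⍟ (b ⍟ fun n => conj (b n))) n)
    (hr : r24 + 2 * r4 = r12 + 2 * r8) (ht : t24 + 2 * t4 = t12 + 2 * t8 + 2)
    (hbq : ∀ n, n ≠ 0 → b n ≠ 0 → n.factorization q = 0)
    (p24 : ∀ ν ∈ l24, q ∣ ν → ∃ f, 0 < f ∧ ν = q ^ f)
    (p12 : ∀ ν ∈ l12, q ∣ ν → ∃ f, 0 < f ∧ ν = q ^ f)
    (p8 : ∀ ν ∈ l8, q ∣ ν → ∃ f, 0 < f ∧ ν = q ^ f)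
    (p4 : ∀ ν ∈ l4, q ∣ ν → ∃ f, 0 < f ∧ ν = q ^ f)
    (ε : ℂ) (hε : ‖ε‖ = 1) (hc : ∀ n, n ≠ 0 → q ∣ n → c (q ^ 2 * n) = ε / q * c n) :
    l24.prod.factorization q + 2 * l4.prod.factorization q =
      l12.prod.factorization q + 2 * l8.prod.factorization q := by
  obtain ⟨m, hm, hrow, _, C, k, hC, key⟩ := exists_lead hq hN hbc h24 h12 h8 h4 o24 o12 o8 o4
    n24 n12 n8 n4 hl24 hl12 hl8 hl4 hid hr ht hbq p24 p12 p8 p4
  have hU2 : ∀ n ∈ l12 ++ (l8 ++ l8), 2 ≤ n := by
    intro n hn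
    simp only [List.mem_append, or_self] at hn
    exact hn.elim (hl12 n) (hl8 n)
  have hV2 : ∀ n ∈ l24 ++ (l4 ++ l4), 2 ≤ n := by
    intro n hn
    simp only [List.mem_append, or_self] at hn
    exact hn.elim (hl24 n) (hl4 n)
  have hrow' : row q (fun n => conj (c n)) m ≠ 0 := by
    intro h0
    refine hrow (PowerSeries.ext fun j => ?_)
    have := congrArg (PowerSeries.coeff j) h0
    rw [coeff_row, map_zero] at this
    rw [coeff_row, map_zero, (map_eq_zero _).mp this]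
  obtain ⟨P, hP⟩ := exists_poly_of_rel hq hc hm
  have hc' : ∀ n, n ≠ 0 → q ∣ n → (fun n => conj (c n)) (q ^ 2 * n) =
      conj ε / q * (fun n => conj (c n)) n := by
    intro n hn hqn
    simp only [hc n hn hqn, map_mul, map_div₀, Complex.conj_natCast]
  obtain ⟨P', hP'⟩ := exists_poly_of_rel (c := fun n => conj (c n)) (e := conj ε / q) hq hc' hm
  have hε' : ‖conj ε‖ = 1 := by rw [Complex.norm_conj, hε]
  have hfin := natDegree_eq_of_lead hq hU2 hV2 hrow hrow' hP hP' (fun z hz => norm_of_rel hq hε hz)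
    (fun z hz => norm_of_rel hq hε' hz) hC key
  have q24 := prod_ne_zero_of_two_le hl24
  have q12 := prod_ne_zero_of_two_le hl12
  have q8 := prod_ne_zero_of_two_le hl8
  have q4 := prod_ne_zero_of_two_le hl4
  rw [List.prod_append, List.prod_append, List.prod_append, List.prod_append,
    Nat.factorization_mul q12 (mul_ne_zero q8 q8), Nat.factorization_mul q8 q8,
    Nat.factorization_mul q24 (mul_ne_zero q4 q4), Nat.factorization_mul q4 q4] at hfin
  simp only [Finsupp.add_apply] at hfin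
  omega

end Fermat.Agent.Cor.Artin

end
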