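import Fermat.Agent.Corollaries.ZetaK.FrobCount
import Fermat.Agent.Corollaries.Mertens.Field
import Fermat.Agent.Corollaries.Surj.NatDens
import Fermat.Agent.Corollaries.LR.General

/-!
# Sums over the primes of degree one near `s = 1`, and the theorem of Landau

* `tendsto_degOne`: `∑_p a_F(p) p^(-1-δ) + log δ` has a limit for `δ → 0+`, `a_F(p)` the number of
  prime ideals of degree one above `p`.
* `tendsto_theta_of_density`: `∑_{p ≤ x, p ∈ S} log p ~ d x` if `S` has natural density `d`.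
* `exists_tendsto_mean`: the mean value of a multiplicative function with values in `[0, 1]` if
  `∑_p f(p) p^(-1-δ) + τ log δ` has a limit.
-/

set_option autoImplicit false

noncomputable section

open NumberField Filter Topology IsDedekindDomain
open Fermat.Agent.Classic.Disc

namespace Fermat.Agent.Cor.Artin

/-! ### Mean values -/

/-- **Landau's theorem**, for a multiplicative function with values in `[0, 1]`. -/
theorem exists_tendsto_mean {f : ℕ → ℝ} {τ c : ℝ} (D : LR.MulF f τ)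
    (h : Tendsto (fun δ : ℝ => LR.pG f δ + τ * Real.log δ) (𝓝[>] 0) (𝓝 c)) :
    ∃ C : ℝ, 0 < C ∧ Tendsto (fun x : ℝ => (∑ n ∈ Finset.Ioc 0 ⌊x⌋₊, f n) /
      (x * Real.log x ^ (τ - 1))) atTop (𝓝 C) := by
  have h1 : Tendsto (fun δ : ℝ => δ ^ τ * ∑' n : ℕ, f n / n * (n : ℝ) ^ (-δ)) (𝓝[>] 0)
      (𝓝 (Real.exp (c + ∑' p, LR.rr f 0 p))) := by
    refine ((Real.continuous_exp.tendsto _).comp (h.add D.tendsto_rr)).congr' ?_
    filter_upwards [self_mem_nhdsWithin] with δ hδ
    have hδ : 0 < δ := hδ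
    have h2 := D.dF_eq hδ
    rw [LR.dF] at h2
    rw [h2, Real.rpow_def_of_pos hδ, ← Real.exp_add, Function.comp_apply]
    congr 1
    ring
  have h2 := D.mulDat.tendsto_mean D.pos (Real.exp_pos _) h1
  exact ⟨_, div_pos (Real.exp_pos _) (Real.Gamma_pos_of_pos D.pos), LR.tendsto_real_of_nat h2⟩

/-! ### The primes of a set with a natural density -/

/-- `∑_{p ≤ x, p ∈ S} log p ~ d x`. -/
theorem tendsto_theta_of_density {S : Set ℕ} [DecidablePred (· ∈ S)] {d : ℝ}
    (h : HasNaturalDensity S d) :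
    Tendsto (fun x : ℕ => (∑ p ∈ (Finset.Ioc 0 x).filter Nat.Prime,
      (if p ∈ S then 1 else 0) * Real.log p) / x) atTop (𝓝 d) := by
  classical
  -- the upper bound
  have hub : ∀ (T : Set ℕ) (x : ℕ), (∑ p ∈ (Finset.Ioc 0 x).filter Nat.Prime,
      (if p ∈ T then 1 else 0) * Real.log p) ≤ (NatDens.cnt T x : ℝ) * Real.log x := by
    intro T x
    have e1 : (∑ p ∈ (Finset.Ioc 0 x).filter Nat.Prime,
        (if p ∈ T then 1 else 0) * Real.log p) =
        ∑ p ∈ ((Finset.Ioc 0 x).filter Nat.Prime).filter (· ∈ T), Real.log p := by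
      rw [Finset.sum_filter (fun p => p ∈ T) fun p : ℕ => Real.log (p : ℝ)]
      refine Finset.sum_congr rfl fun p _ => ?_
      split_ifs
      · rw [one_mul]
      · rw [zero_mul]
    rw [e1]
    have e2 : (((Finset.Ioc 0 x).filter Nat.Prime).filter (· ∈ T)).card ≤ NatDens.cnt T x := by
      refine Finset.card_le_card fun p hp => ?_
      simp only [Finset.mem_filter, Finset.mem_Ioc, Finset.mem_range] at hp ⊢
      exact ⟨by omega, hp.1.2, hp.2⟩
    calc ∑ p ∈ ((Finset.Ioc 0 x).filter Nat.Prime).filter (· ∈ T), Real.log p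
        ≤ ∑ _p ∈ ((Finset.Ioc 0 x).filter Nat.Prime).filter (· ∈ T), Real.log x := by
          refine Finset.sum_le_sum fun p hp => ?_
          simp only [Finset.mem_filter, Finset.mem_Ioc] at hp
          exact Real.log_le_log (by exact_mod_cast hp.1.1.1) (by exact_mod_cast hp.1.1.2)
      _ = ((((Finset.Ioc 0 x).filter Nat.Prime).filter (· ∈ T)).card : ℝ) * Real.log x := by
          rw [Finset.sum_const, nsmul_eq_mul]
      _ ≤ _ := mul_le_mul_of_nonneg_right (by exact_mod_cast e2) (Real.log_natCast_nonneg x)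
  have hden : ∀ {T : Set ℕ} {e : ℝ}, HasNaturalDensity T e →
      Tendsto (fun x : ℕ => (NatDens.cnt T x : ℝ) * Real.log x / x) atTop (𝓝 e) := by
    intro T e hT
    have h1 := Tendsto.mul hT prime_number_theorem_of_rat
    rw [mul_one] at h1
    refine h1.congr' ?_
    filter_upwards [NatDens.eventually_pos] with x hx
    rw [NatDens.cnt]
    field_simp
  have h1 := hden h
  have h2 := LR.tendsto_theta_one.sub (hden h.compl)
  rw [sub_sub_cancel] at h2
  refine tendsto_of_tendsto_of_tendsto_of_le_of_le h2 h1 (fun x => ?_) fun x => ?_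
  · beta_reduce
    rw [← sub_div]
    refine div_le_div_of_nonneg_right ?_ (Nat.cast_nonneg x)
    rw [sub_le_iff_le_add]
    refine le_trans (le_of_eq ?_) (add_le_add_right (hub Sᶜ x) _)
    rw [← Finset.sum_add_distrib]
    refine Finset.sum_congr rfl fun p _ => ?_
    by_cases hp : p ∈ S
    · rw [if_pos hp, if_neg (show p ∉ Sᶜ from fun h => h hp), one_mul, zero_mul, add_zero]
    · rw [if_neg hp, if_pos (show p ∈ Sᶜ from hp), one_mul, zero_mul, zero_add]
  · refine div_le_div_of_nonneg_right ?_ (Nat.cast_nonneg x)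
    refine le_trans (le_of_eq (Finset.sum_congr rfl fun p _ => ?_)) (hub S x)
    by_cases hp : p ∈ S
    · rw [if_pos hp, if_pos hp]
    · rw [if_neg hp, if_neg hp]

/-! ### Primes of degree one -/

section Field

variable (F : Type*) [Field F] [NumberField F]

theorem absNorm_prime_iff {v : HeightOneSpectrum (𝓞 F)} {p : ℕ} (hp : p.Prime) :
    Ideal.absNorm v.asIdeal = p ↔ v ∈ above F p ∧ fdeg v = 1 := by
  constructor
  · intro h
    obtain ⟨q, hq, hv⟩ := exists_above v
    have h1 := absNorm_eq hq ((mem_above hq.ne_zero).mp hv)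
    rw [h] at h1
    have h2 : q ∣ p := by
      rw [h1]
      exact dvd_pow_self q (fdeg_pos v).ne'
    have h3 := (Nat.prime_dvd_prime_iff_eq hq hp).mp h2
    subst h3
    refine ⟨hv, ?_⟩
    have h4 : q ^ 1 = q ^ fdeg v := by rw [pow_one]; exact h1
    exact (Nat.pow_right_injective hq.two_le h4).symm
  · rintro ⟨hv, h1⟩
    rw [absNorm_eq hp ((mem_above hp.ne_zero).mp hv), h1, pow_one]

variable {D : ℝ} (h : IsCount (nP (K := F)) D)

/-- the coefficients -/
theorem cf_prime {p : ℕ} (hp : p.Prime) : h.cf (fun _ _ => 1) p = (degOne F p : ℝ) / p := by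
  classical
  rw [IsCount.cf, Finset.sum_const, nsmul_eq_mul, mul_one, degOne]
  congr 2
  refine Finset.card_equiv prPlace fun P => ?_
  rw [Finset.mem_filter, Finset.mem_filter, h.mem_F, ← absNorm_prime_iff F hp]
  exact ⟨fun h1 => h1.2, fun h1 => ⟨h1.le, h1⟩⟩

/-- the bound at the integers which are not primes -/
theorem cf_le {n : ℕ} (hn : ¬ n.Prime) : h.cf (fun _ _ => 1) n ≤
    (Module.finrank ℚ F : ℝ) / Real.log 2 * LR.eD n := by
  classical
  have hl : 0 < Real.log 2 := Real.log_pos one_lt_two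
  have hm : (0 : ℝ) ≤ (Module.finrank ℚ F : ℝ) / Real.log 2 := by positivity
  rw [IsCount.cf, Finset.sum_const, nsmul_eq_mul, mul_one]
  rcases Finset.eq_empty_or_nonempty ((h.F n).filter fun i => nP (K := F) i = n) with h0 | ⟨P, hP⟩
  · rw [h0, Finset.card_empty, Nat.cast_zero, zero_div]
    exact mul_nonneg hm (LR.eD_nonneg n)
  · have hPn := (Finset.mem_filter.mp hP).2
    obtain ⟨q, hq, hv⟩ := exists_above (prPlace P)
    have h1 := absNorm_eq hq ((mem_above hq.ne_zero).mp hv)
    have hPn' : Ideal.absNorm (prPlace P).asIdeal = n := hPn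
    rw [hPn'] at h1
    have hf := (fdeg_pos (prPlace P)).ne'
    have hcard : ((h.F n).filter fun i => nP (K := F) i = n).card ≤ Module.finrank ℚ F := by
      refine le_trans ?_ (card_above_le (F := F) hq)
      refine Finset.card_le_card_of_injOn prPlace (fun Q hQ => ?_) prPlace.injective.injOn
      have hQn : Ideal.absNorm (prPlace Q).asIdeal = n := (Finset.mem_filter.mp hQ).2
      obtain ⟨q', hq', hv'⟩ := exists_above (prPlace Q)
      have h2 := absNorm_eq hq' ((mem_above hq'.ne_zero).mp hv')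
      rw [hQn] at h2
      have h3 : q ∣ q' ^ fdeg (prPlace Q) := by
        rw [← h2, h1]
        exact dvd_pow_self q hf
      have h4 := (Nat.prime_dvd_prime_iff_eq hq hq').mp (hq.dvd_of_dvd_pow h3)
      subst h4
      exact hv'
    have hn0 : (0 : ℝ) < n := by
      rw [h1]
      exact_mod_cast pow_pos hq.pos _
    rw [LR.eD, if_neg hn]
    have h5 : Real.log 2 ≤ ArithmeticFunction.vonMangoldt n := by
      rw [h1, ArithmeticFunction.vonMangoldt_apply_pow hf,
        ArithmeticFunction.vonMangoldt_apply_prime hq]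
      exact Real.log_le_log two_pos (by exact_mod_cast hq.two_le)
    rw [div_mul_div_comm, div_le_div_iff₀ hn0 (mul_pos hl hn0)]
    have h6 : ((((h.F n).filter fun i => nP (K := F) i = n).card : ℕ) : ℝ) ≤
        Module.finrank ℚ F := by exact_mod_cast hcard
    have h7 : ((((h.F n).filter fun i => nP (K := F) i = n).card : ℕ) : ℝ) * Real.log 2 ≤
        Module.finrank ℚ F * ArithmeticFunction.vonMangoldt n :=
      mul_le_mul h6 h5 hl.le (Nat.cast_nonneg _)
    nlinarith

variable {F} in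
theorem cf_zero : h.cf (fun _ _ => 1) 0 = 0 := by
  rw [IsCount.cf, Nat.cast_zero, div_zero]

/-- **The sum over the primes of degree one** has the singularity `-log δ`. -/
theorem tendsto_degOne : ∃ c : ℝ, Tendsto (fun δ : ℝ =>
    (∑' p : Nat.Primes, (degOne F p : ℝ) * ((p : ℕ) : ℝ) ^ (-(1 + δ))) + Real.log δ)
    (𝓝[>] 0) (𝓝 c) := by
  classical
  obtain ⟨D, h⟩ := exists_isCount F
  have hc0 : ∀ (i : ClassL.Pr F) (k : ℕ), (0 : ℝ) ≤ (fun _ _ => 1) i k := fun _ _ => zero_le_one
  have h1 := Mert.tendsto_of_mul_log (h.tendsto_rc_of_tsum (c := fun _ _ => 1)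
    (fun _ _ => zero_le_one) (fun _ _ => le_rfl) tendsto_vM_div tendsto_tsum_log_zetaK)
  have h2 : Tendsto (fun x : ℝ => Mert.sumU (h.cf (fun _ _ => 1)) x - 1 * Real.log (Real.log x)) atTop
      (𝓝 (1 * Real.eulerMascheroniConstant + Real.log (dedekindZeta_residue F) -
        IsCount.rm (nP (K := F)) (fun _ _ => 1))) := by
    simpa only [IsCount.sumU_cf] using h1
  have h3 := Mert.tendsto_tsum_rpow (h.cf_nonneg (c := fun _ _ => 1) fun _ _ => zero_le_one) h2
  -- the part away from the primes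
  set t : ℕ → ℝ := fun n => if n.Prime then 0 else h.cf (fun _ _ => 1) n with ht
  have ht0 : ∀ n, 0 ≤ t n := fun n => by
    rw [ht]
    dsimp only
    split_ifs
    · exact le_rfl
    · exact h.cf_nonneg (c := fun _ _ => 1) (fun _ _ => zero_le_one) n
  have hts : Summable t := by
    refine Summable.of_nonneg_of_le ht0 (fun n => ?_)
      (LR.summable_eD.mul_left ((Module.finrank ℚ F : ℝ) / Real.log 2))
    rw [ht]
    dsimp only
    split_ifs with hn
    · exact mul_nonneg (div_nonneg (Nat.cast_nonneg _) (Real.log_nonneg one_le_two))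
        (LR.eD_nonneg n)
    · exact cf_le F h hn
  have hle : ∀ (n : ℕ) {δ : ℝ}, 0 ≤ δ → t n * (n : ℝ) ^ (-δ) ≤ t n := by
    intro n δ hδ
    rcases Nat.eq_zero_or_pos n with rfl | hn
    · have : t 0 = 0 := by
        rw [ht]
        dsimp only
        rw [cf_zero, ite_self]
      rw [this, zero_mul]
    · refine mul_le_of_le_one_right (ht0 n) ?_
      exact Real.rpow_le_one_of_one_le_of_nonpos (by exact_mod_cast hn) (by linarith)
  have h4 : Tendsto (fun δ : ℝ => ∑' n : ℕ, t n * (n : ℝ) ^ (-δ)) (𝓝[>] 0) (𝓝 (∑' n, t n)) := by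
    refine tendsto_tsum_of_dominated_convergence hts (fun n => ?_) ?_
    · rcases Nat.eq_zero_or_pos n with rfl | hn
      · have : t 0 = 0 := by
          rw [ht]
          dsimp only
          rw [cf_zero, ite_self]
        simp only [this, zero_mul]
        exact tendsto_const_nhds
      · have hn0 : (n : ℝ) ≠ 0 := by exact_mod_cast hn.ne'
        have h5 : Tendsto (fun δ : ℝ => (n : ℝ) ^ (-δ)) (𝓝 0) (𝓝 ((n : ℝ) ^ (-(0 : ℝ)))) :=
          ((Real.continuousAt_const_rpow hn0).comp (f := fun δ : ℝ => -δ)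
            (by fun_prop)).tendsto
        rw [neg_zero, Real.rpow_zero] at h5
        simpa only [mul_one] using (h5.const_mul (t n)).mono_left nhdsWithin_le_nhds
    · filter_upwards [self_mem_nhdsWithin] with δ hδ n
      have hδ : 0 < δ := hδ
      rw [Real.norm_of_nonneg (mul_nonneg (ht0 n) (by positivity))]
      exact hle n hδ.le
  refine ⟨_, (h3.sub h4).congr' ?_⟩
  filter_upwards [self_mem_nhdsWithin] with δ hδ
  have hδ : 0 < δ := hδ
  have s1 : Summable fun n : ℕ => t n * (n : ℝ) ^ (-δ) :=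
    Summable.of_nonneg_of_le (fun n => mul_nonneg (ht0 n) (by positivity))
      (fun n => hle n hδ.le) hts
  have e1 : ∀ n : ℕ, n.Prime → h.cf (fun _ _ => 1) n * (n : ℝ) ^ (-δ) =
      (degOne F n : ℝ) * (n : ℝ) ^ (-(1 + δ)) := by
    intro n hn
    have hn0 : (0 : ℝ) < n := by exact_mod_cast hn.pos
    rw [cf_prime F h hn, neg_add, Real.rpow_add hn0, Real.rpow_neg_one]
    ring
  have s2 : Summable fun n : ℕ =>
      if n.Prime then (degOne F n : ℝ) * (n : ℝ) ^ (-(1 + δ)) else 0 := by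
    refine Summable.of_nonneg_of_le (fun n => ?_) (fun n => ?_)
      ((Real.summable_nat_rpow.mpr (by linarith : -(1 + δ) < -1)).mul_left
        (Module.finrank ℚ F : ℝ))
    · split_ifs
      · positivity
      · exact le_rfl
    · split_ifs with hn
      · refine mul_le_mul_of_nonneg_right ?_ (by positivity)
        exact_mod_cast degOne_le hn
      · positivity
  have e2 : (∑' n : ℕ, h.cf (fun _ _ => 1) n * (n : ℝ) ^ (-δ)) =
      (∑' n : ℕ, if n.Prime then (degOne F n : ℝ) * (n : ℝ) ^ (-(1 + δ)) else 0) +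
        ∑' n : ℕ, t n * (n : ℝ) ^ (-δ) := by
    rw [← s2.tsum_add s1]
    refine tsum_congr fun n => ?_
    rw [ht]
    dsimp only
    split_ifs with hn
    · rw [e1 n hn, zero_mul, add_zero]
    · rw [zero_add]
  rw [e2, LR.tsum_primes fun n => (degOne F n : ℝ) * (n : ℝ) ^ (-(1 + δ))]
  ring

end Field

/-! ### Combinations -/

/-- `∑_p f(p) p^(-1-δ) + A log δ` has a limit for `δ → 0+` -/
def HasLog (f : ℕ → ℝ) (A : ℝ) : Prop :=
  (∀ δ : ℝ, 0 < δ → Summable fun p : Nat.Primes => f p * ((p : ℕ) : ℝ) ^ (-(1 + δ))) ∧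
    ∃ c : ℝ, Tendsto (fun δ : ℝ => LR.pG f δ + A * Real.log δ) (𝓝[>] 0) (𝓝 c)

namespace HasLog

variable {f g : ℕ → ℝ} {A B : ℝ}

theorem add (hf : HasLog f A) (hg : HasLog g B) : HasLog (fun n => f n + g n) (A + B) := by
  obtain ⟨s1, c1, h1⟩ := hf
  obtain ⟨s2, c2, h2⟩ := hg
  refine ⟨fun δ hδ => ?_, c1 + c2, (h1.add h2).congr' ?_⟩
  · refine ((s1 δ hδ).add (s2 δ hδ)).congr fun p => ?_
    ring
  · filter_upwards [self_mem_nhdsWithin] with δ hδ
    have hδ : 0 < δ := hδ
    have h3 : LR.pG (fun n => f n + g n) δ = LR.pG f δ + LR.pG g δ := by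
      rw [LR.pG, LR.pG, LR.pG, ← (s1 δ hδ).tsum_add (s2 δ hδ)]
      exact tsum_congr fun p => by ring
    rw [h3]
    ring

theorem const_mul (a : ℝ) (hf : HasLog f A) : HasLog (fun n => a * f n) (a * A) := by
  obtain ⟨s1, c1, h1⟩ := hf
  refine ⟨fun δ hδ => ?_, a * c1, (h1.const_mul a).congr fun δ => ?_⟩
  · refine ((s1 δ hδ).mul_left a).congr fun p => ?_
    ring
  · have h3 : LR.pG (fun n => a * f n) δ = a * LR.pG f δ := by
      rw [LR.pG, LR.pG, ← tsum_mul_left]
      exact tsum_congr fun p => by ring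
    rw [h3]
    ring

theorem congr (hf : HasLog f A) (h : ∀ p : ℕ, p.Prime → g p = f p) : HasLog g A := by
  have h1 : ∀ δ : ℝ, LR.pG g δ = LR.pG f δ := fun δ => tsum_congr fun p => by rw [h p p.2]
  obtain ⟨s1, c1, h2⟩ := hf
  refine ⟨fun δ hδ => (s1 δ hδ).congr fun p => ?_, c1, h2.congr fun δ => ?_⟩
  · rw [h p p.2]
  · rw [h1]

theorem of_finset (E : Finset ℕ) (h : ∀ p : ℕ, p.Prime → p ∉ E → f p = 0) : HasLog f 0 := by
  obtain ⟨E', hE'⟩ : ∃ E' : Finset Nat.Primes, ∀ p : Nat.Primes, p ∉ E' → (p : ℕ) ∉ E := by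
    have hfin : {p : Nat.Primes | (p : ℕ) ∈ E}.Finite :=
      E.finite_toSet.preimage (Nat.Primes.coe_nat_injective.injOn)
    exact ⟨hfin.toFinset, fun p hp hpE => hp (hfin.mem_toFinset.mpr hpE)⟩
  have h0 : ∀ (δ : ℝ) (p : Nat.Primes), p ∉ E' → f p * ((p : ℕ) : ℝ) ^ (-(1 + δ)) = 0 := by
    intro δ p hp
    rw [h p p.2 (hE' p hp), zero_mul]
  refine ⟨fun δ _ => summable_of_ne_finset_zero (h0 δ),
    ∑ p ∈ E', f p * ((p : ℕ) : ℝ) ^ (-(1 + (0 : ℝ))), ?_⟩
  have h1 : Tendsto (fun δ : ℝ => ∑ p ∈ E', f p * ((p : ℕ) : ℝ) ^ (-(1 + δ)))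
      (𝓝 0) (𝓝 (∑ p ∈ E', f p * ((p : ℕ) : ℝ) ^ (-(1 + (0 : ℝ))))) := by
    refine tendsto_finsetSum _ fun p _ => Tendsto.const_mul _ ?_
    have hp0 : ((p : ℕ) : ℝ) ≠ 0 := by exact_mod_cast p.2.ne_zero
    exact ((Real.continuousAt_const_rpow hp0).comp (f := fun δ : ℝ => -(1 + δ))
      (by fun_prop)).tendsto
  refine (h1.mono_left nhdsWithin_le_nhds).congr fun δ => ?_
  rw [zero_mul, add_zero, LR.pG, tsum_eq_sum fun p hp => h0 δ p hp]

theorem one : HasLog (fun _ => 1) 1 :=
  ⟨fun _ hδ => LR.summable_pG (fun _ => zero_le_one) (fun _ => le_rfl) hδ, _,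
    by simpa only [one_mul] using LR.tendsto_pG_one⟩

theorem degOne (F : Type*) [Field F] [NumberField F] : HasLog (fun p => (degOne F p : ℝ)) 1 := by
  obtain ⟨c, h⟩ := tendsto_degOne F
  refine ⟨fun δ hδ => ?_, c, ?_⟩
  · refine Summable.of_nonneg_of_le (fun p => by positivity) (fun p => ?_)
      ((isCount_primes.summable_rpow (σ := 1 + δ) (by linarith)).mul_left
        (Module.finrank ℚ F : ℝ))
    have h5 : (Cor.degOne F p : ℝ) ≤ Module.finrank ℚ F := by exact_mod_cast degOne_le p.2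
    exact mul_le_mul_of_nonneg_right h5 (by positivity)
  · simp only [one_mul]
    exact h

end HasLog

end Fermat.Agent.Cor.Artin

end
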