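import Fermat.Agent.Corollaries.Artin.Entire
import Fermat.Agent.Corollaries.Artin.EigThree
import Fermat.Agent.Corollaries.Artin.Euler
import Fermat.Agent.Corollaries.Artin.FrickeThree

/-!
# The newform of an octahedral representation of S47

`exists_new`: the minimal level `N` of the eigensystem of `ρ`, with a form `g` of level `N` all
whose coefficients are known, and its Fricke partner `h`.
-/

set_option autoImplicit false

noncomputable section

open CongruenceSubgroup ModularFormClass EisensteinWeightOne UpperHalfPlane WeierstrassCurve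
open Fermat.Agent.Classic Fermat.Agent.Classic.Level Fermat.Agent.X1 Fermat.Agent.LT.End
open scoped MatrixGroups ModularForm ComplexConjugate

namespace Fermat.Agent.Cor.Artin

local notation "Γℚ" => (AlgebraicClosure ℚ ≃ₐ[ℚ] AlgebraicClosure ℚ)

variable {ρ : Γℚ →* GL (Fin 2) (ZMod 3)} {Ψ : GL (Fin 2) (ZMod 3) →* GL (Fin 2) (ℤ√(-2))}

/-! ### The Galois representation of a vector is unramified outside the level -/

/-- `ρ` is unramified outside the level of every form with its eigenvalues. -/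
theorem unrAt_of_vector (hρ : Continuous ρ) (hsurj : Function.Surjective ρ)
    (hΨ : ∀ g, Matrix.GeneralLinearGroup.map FLT.ExplicitLift.red (Ψ g) = g)
    {M : ℕ} [NeZero M] (h3 : 3 ∣ M) (G : CuspForm (Gamma1 M) 1) (hG : G ≠ 0)
    (hneb : Z3.HasNeb M G) (B : Finset ℕ) (t : ℕ → ℂ)
    (hrel : ∀ p : ℕ, p.Prime → ¬ p ∣ M → p ∉ B → Rel G p (t p))
    (ht : ∀ p : ℕ, p.Prime → ¬ p ∣ M → p ∉ B → ∀ A : ValuationSubring (AlgebraicClosure ℚ),
      A.LiesOverPrime p → ∀ σ : Γℚ, A.IsFrobeniusAt σ p →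
        (ρ σ = 1 → t p = 2) ∧ (ρ σ = -1 → t p = -2)) :
    ∀ p : ℕ, p.Prime → ¬ p ∣ M → UnrAt ρ p := by
  obtain ⟨N₀, hN₀, ε, g, hMN, hpr, h1, hT, hdep, hx⟩ := exists_normalised_primes G hG
    {p | p ∉ B} t (fun p hp hpM hpB => Z3.tCusp_of_rel h3 hneb p hpM fun n =>
      hrel p hp.out hpM hpB n)
  obtain ⟨r, hr, -, hrp⟩ := S48.result N₀ ε g h1 hT
  obtain ⟨S, hS, hSr⟩ := exists_factor_of_frobenius hρ hsurj hr (N₀.primeFactors ∪ B) (by
    intro p hp hpT A hA σ hσ
    rw [Finset.mem_union, not_or] at hpT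
    have hpN : ¬ p ∣ N₀ := fun h => hpT.1 (Nat.mem_primeFactors.mpr ⟨hp, h, NeZero.ne N₀⟩)
    have h2 := ((hrp p hp hpN A hA).2 σ hσ).1
    rw [h2, hx p hp hpN hpT.2]
    exact ht p hp (fun h => hpN ((hpr p hp).mpr h)) hpT.2 A hA σ hσ)
  obtain ⟨ι, hι⟩ := exists_embedding Ψ hΨ hS
  intro p hp hpM A hA τ hτ
  have hpN : ¬ p ∣ N₀ := fun h => hpM ((hpr p hp).mp h)
  have h2 : r τ = 1 := (hrp p hp hpN A hA).1 τ hτ
  have h4 : S (ρ τ) = 1 := (hSr τ).trans h2
  have h5 : (rep Ψ ι (ρ τ)).1.trace = 2 := by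
    have h6 : tr (rep Ψ ι) (ρ τ) = 2 := by
      rw [tr_rep Ψ ι (ρ τ), ← hι, tr, h4, Units.val_one, Matrix.trace_one, Fintype.card_fin]
      norm_num
    exact h6
  have h7 : (rep Ψ ι (ρ τ)).1 ^ (Nat.card (GL (Fin 2) (ZMod 3))) = 1 := by
    rw [← Units.val_pow_eq_pow_val, ← map_pow, pow_card_eq_one', map_one, Units.val_one]
  have h8 := eq_one_of_trace_two (Nat.card_pos.ne') h7 h5
  refine rep_injective hΨ ι ?_
  rw [map_one]
  exact Units.ext h8

/-! ### The coefficients of the newform -/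

/-- the coefficients of the newform: `a(3^k m) = λ^k b(m)` -/
def newA (lam : ℂ) (κ : ℤ√(-2) →+* ℂ) (b : ℕ → ℤ√(-2)) (n : ℕ) : ℂ :=
  lam ^ (n.factorization 3) * κ (b (n / 3 ^ n.factorization 3))

theorem newA_pow_mul (lam : ℂ) (κ : ℤ√(-2) →+* ℂ) (b : ℕ → ℤ√(-2)) {m : ℕ} (hm : ¬ 3 ∣ m)
    (k : ℕ) : newA lam κ b (3 ^ k * m) = lam ^ k * κ (b m) := by
  rw [newA, factorization_pow_mul Nat.prime_three hm, ordCompl_pow_mul' hm]
where
  ordCompl_pow_mul' {m k : ℕ} (hm : ¬ 3 ∣ m) : 3 ^ k * m / 3 ^ k = m :=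
    Nat.mul_div_cancel_left m (by positivity)

theorem newA_zero (lam : ℂ) (κ : ℤ√(-2) →+* ℂ) {b : ℕ → ℤ√(-2)} (h0 : b 0 = 0) :
    newA lam κ b 0 = 0 := by
  simp [newA, h0]

theorem newA_of_not_dvd (lam : ℂ) (κ : ℤ√(-2) →+* ℂ) (b : ℕ → ℤ√(-2)) {m : ℕ} (hm : ¬ 3 ∣ m) :
    newA lam κ b m = κ (b m) := by
  have h := newA_pow_mul lam κ b hm 0
  rwa [pow_zero, pow_zero, one_mul, one_mul] at h

theorem exists_eq_pow_mul {n : ℕ} (hn : n ≠ 0) : ∃ k m : ℕ, ¬ 3 ∣ m ∧ n = 3 ^ k * m :=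
  ⟨n.factorization 3, n / 3 ^ n.factorization 3, Nat.not_dvd_ordCompl Nat.prime_three hn,
    (Nat.ordProj_mul_ordCompl_eq_self n 3).symm⟩

theorem newA_three (lam : ℂ) (κ : ℤ√(-2) →+* ℂ) {b : ℕ → ℤ√(-2)} (h0 : b 0 = 0) (n : ℕ) :
    newA lam κ b (3 * n) = lam * newA lam κ b n := by
  rcases eq_or_ne n 0 with rfl | hn
  · rw [mul_zero, newA_zero lam κ h0, mul_zero]
  · obtain ⟨k, m, hm, rfl⟩ := exists_eq_pow_mul hn
    rw [← mul_assoc, ← pow_succ', newA_pow_mul lam κ b hm, newA_pow_mul lam κ b hm, pow_succ']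
    ring

/-- `newA` is the eigensystem with `a(3) = λ`. -/
theorem isEigensystem_newA (lam : ℂ) (κ : ℤ√(-2) →+* ℂ) {N : ℕ} (h3 : 3 ∣ N) {b : ℕ → ℤ√(-2)}
    (hb : FormalHecke.IsEigensystem
      (fun ℓ => if ℓ ∣ N then 0 else ((chiNegThree ℓ : ℤ) : ℤ√(-2))) b)
    (h0 : b 0 = 0) :
    FormalHecke.IsEigensystem (fun ℓ => if ℓ ∣ N then 0 else ((chiNegThree ℓ : ℤ) : ℂ))
      (newA lam κ b) := by
  refine ⟨?_, fun ℓ hℓ n => ?_⟩
  · rw [newA_of_not_dvd lam κ b (by norm_num), hb.1, map_one]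
  · beta_reduce
    by_cases hℓ3 : ℓ = 3
    · subst hℓ3
      have h3' : newA lam κ b 3 = lam := by
        have h := newA_pow_mul lam κ b (m := 1) (by norm_num) 1
        rwa [pow_one, mul_one, hb.1, map_one, mul_one, pow_one] at h
      rw [if_pos h3, zero_mul, add_zero, newA_three lam κ h0, h3']
    · rcases eq_or_ne n 0 with rfl | hn
      · rw [mul_zero, if_pos (dvd_zero ℓ), Nat.zero_div, newA_zero lam κ h0, mul_zero, mul_zero,
          add_zero]
      · obtain ⟨k, m, hm, rfl⟩ := exists_eq_pow_mul hn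
        have hℓ' : ¬ 3 ∣ ℓ := fun h =>
          hℓ3 ((Nat.prime_dvd_prime_iff_eq Nat.prime_three hℓ).mp h).symm
        have hℓm : ¬ 3 ∣ ℓ * m := fun h => (Nat.prime_three.dvd_mul.mp h).elim hℓ' hm
        have hcop : ℓ.Coprime (3 ^ k) :=
          Nat.Coprime.pow_right k ((Nat.coprime_primes hℓ Nat.prime_three).mpr hℓ3)
        have hiff : ℓ ∣ 3 ^ k * m ↔ ℓ ∣ m :=
          ⟨fun h => hcop.dvd_of_dvd_mul_left h, fun h => h.mul_left _⟩
        have hb' := congrArg κ (hb.2 ℓ hℓ m)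
        have he : κ (if ℓ ∣ N then 0 else ((chiNegThree ℓ : ℤ) : ℤ√(-2))) =
            if ℓ ∣ N then 0 else ((chiNegThree ℓ : ℤ) : ℂ) := by
          split_ifs
          · exact map_zero κ
          · exact map_intCast κ _
        rw [map_add, map_mul, map_mul, he] at hb'
        rw [show ℓ * (3 ^ k * m) = 3 ^ k * (ℓ * m) by ring, newA_pow_mul lam κ b hℓm,
          newA_pow_mul lam κ b hm, newA_of_not_dvd lam κ b hℓ']
        by_cases hd : ℓ ∣ m
        · obtain ⟨m', rfl⟩ := hd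
          have hm' : ¬ 3 ∣ m' := fun h => hm (h.mul_left _)
          rw [if_pos (hiff.mpr (dvd_mul_right ℓ m'))]
          rw [if_pos (dvd_mul_right ℓ m'), Nat.mul_div_cancel_left m' hℓ.pos] at hb'
          rw [show 3 ^ k * (ℓ * m') = ℓ * (3 ^ k * m') by ring,
            Nat.mul_div_cancel_left _ hℓ.pos, newA_pow_mul lam κ b hm']
          linear_combination lam ^ k * hb'
        · rw [if_neg (fun h => hd (hiff.mp h))]
          rw [if_neg hd, map_zero] at hb'
          linear_combination lam ^ k * hb'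

/-- A sequence with the recursion of an eigensystem is a multiple of it. -/
theorem eq_mul_of_rec {e A a : ℕ → ℂ} (hA : FormalHecke.IsEigensystem e A) (hA0 : A 0 = 0)
    (ha0 : a 0 = 0) (h : ∀ ℓ : ℕ, ℓ.Prime → ∀ n, a (ℓ * n) +
      e ℓ * (if ℓ ∣ n then a (n / ℓ) else 0) = A ℓ * a n) (n : ℕ) : a n = a 1 * A n := by
  induction n using Nat.strong_induction_on with
  | _ n ih =>
    rcases Nat.lt_or_ge n 2 with hn | hn
    · interval_cases n
      · rw [ha0, hA0, mul_zero]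
      · rw [hA.1, mul_one]
    · have hp : n.minFac.Prime := Nat.minFac_prime (by omega)
      obtain ⟨m, hm⟩ := Nat.minFac_dvd n
      set p := n.minFac with hpdef
      have hm0 : m ≠ 0 := by rintro rfl; omega
      have hlt : m < n := by
        rw [hm]
        exact lt_mul_left (Nat.pos_of_ne_zero hm0) hp.one_lt
      have h1 := h p hp m
      have h2 := hA.2 p hp m
      rw [hm]
      have ihm := ih m hlt
      by_cases hd : p ∣ m
      · rw [if_pos hd] at h1 h2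
        have hlt' : m / p < n := lt_of_le_of_lt (Nat.div_le_self m p) hlt
        have ihd := ih (m / p) hlt'
        linear_combination h1 - a 1 * h2 - e p * ihd + A p * ihm
      · rw [if_neg hd] at h1 h2
        linear_combination h1 - a 1 * h2 + A p * ihm

end Fermat.Agent.Cor.Artin

end
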