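import Fermat.Agent.Corollaries.Artin.NewForm
import Fermat.Agent.Corollaries.Artin.IdentAr
import Fermat.Agent.Corollaries.Artin.FourU

/-!
# The conductor and the Euler factors of the newform

For the newform `g` of level `N` of `κ ∘ Ψ ∘ ρ` (`NewForm`): `λ = 0` or `|λ| = 1`, the identity
`ζ₂₄ ζ₄² = ζ₁₂ ζ₈² L(g) L(ḡ)` holds with all Euler factors, and
`|d₂₄| |d₄|² = |d₁₂| |d₈|² N²`.
-/

set_option autoImplicit false

noncomputable section

open NumberField NumberField.InfinitePlace IsDedekindDomain WeierstrassCurve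
open CongruenceSubgroup ModularFormClass EisensteinWeightOne UpperHalfPlane
open Fermat.Agent.Classic Fermat.Agent.Classic.Level Fermat.Agent.X1 Fermat.Agent.LT.End
open Fermat.Agent.Frob Fermat.Agent.LT.Tower Fermat.Agent.Classic.Disc
open scoped MatrixGroups ModularForm ComplexConjugate LSeries.notation

namespace Fermat.Agent.Cor.Artin

local notation "Γℚ" => (AlgebraicClosure ℚ ≃ₐ[ℚ] AlgebraicClosure ℚ)

/-- The functional equation of the factor `1 - z ν^{-s}`. -/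
theorem fe_linear {ν : ℕ} (hν : 2 ≤ ν) {z : ℂ} (hz : z ≠ 0) :
    Zeta.FE (fun n => Lvl.lin ν z n) (fun n => Lvl.lin ν (ν * z⁻¹) n) ν 0 0 := by
  have hν0 : (ν : ℂ) ≠ 0 := by
    rw [Nat.cast_ne_zero]; omega
  have hcp : ∀ s : ℂ, (ν : ℂ) ^ s ≠ 0 := fun s => by simp [Complex.cpow_eq_zero_iff, hν0]
  refine ⟨0, -z * (ν : ℂ) ^ (-(1 / 2) : ℂ),
    fun s => (ν : ℂ) ^ (s / 2) * (1 - z * (ν : ℂ) ^ (-s)), 1, ?_, ?_, le_rfl, fun s _ => ?_⟩
  · exact mul_ne_zero (neg_ne_zero.mpr hz) (hcp _)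
  · have h1 : Differentiable ℂ fun s : ℂ => (ν : ℂ) ^ (s / 2) := by
      intro s
      exact (differentiableAt_id.div_const 2).const_cpow (Or.inl hν0)
    have h2 : Differentiable ℂ fun s : ℂ => (ν : ℂ) ^ (-s) := by
      intro s
      exact differentiableAt_id.neg.const_cpow (Or.inl hν0)
    exact h1.mul ((differentiable_const _).sub (h2.const_mul z))
  · have h1 := Lvl.hasSum_lin (n := ν) (by omega) z s
    have h2 := Lvl.hasSum_lin (n := ν) (by omega) (ν * z⁻¹) s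
    refine ⟨h1.LSeriesSummable, h2.LSeriesSummable, ?_, ?_⟩
    · have e1 : LSeries (fun n => Lvl.lin ν z n) s = 1 - z * (ν : ℂ) ^ (-s) := h1.LSeries_eq
      rw [e1]
      simp
    · have e2 : LSeries (fun n => Lvl.lin ν (ν * z⁻¹) n) s =
          1 - ν * z⁻¹ * (ν : ℂ) ^ (-s) := h2.LSeries_eq
      rw [e2]
      change (ν : ℂ) ^ ((1 - s) / 2) * (1 - z * (ν : ℂ) ^ (-(1 - s))) = _
      have h3 : (ν : ℂ) ^ ((1 - s) / 2) = (ν : ℂ) ^ ((1 / 2 : ℂ)) * ((ν : ℂ) ^ (s / 2))⁻¹ := by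
        rw [← Complex.cpow_neg, ← Complex.cpow_add _ _ hν0]
        congr 1; ring
      have h4 : (ν : ℂ) ^ (-(1 - s)) = (ν : ℂ)⁻¹ * (ν : ℂ) ^ s := by
        rw [neg_sub, sub_eq_add_neg, Complex.cpow_add _ _ hν0, Complex.cpow_neg_one, mul_comm]
      have h5 : (ν : ℂ) ^ s = (ν : ℂ) ^ (s / 2) * (ν : ℂ) ^ (s / 2) := by
        rw [← Complex.cpow_add _ _ hν0]; congr 1; ring
      have h6 : (ν : ℂ) ^ ((1 / 2 : ℂ)) ≠ 0 := hcp _
      have h7 : (ν : ℂ) = (ν : ℂ) ^ ((1 / 2 : ℂ)) * (ν : ℂ) ^ ((1 / 2 : ℂ)) := by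
        rw [← Complex.cpow_add _ _ hν0]; norm_num
      have hs2 : (ν : ℂ) ^ (s / 2) ≠ 0 := hcp _
      rw [h3, h4, Complex.cpow_neg, Complex.cpow_neg, h5]
      simp only [pow_zero, one_mul, mul_one]
      generalize (ν : ℂ) ^ (s / 2) = x at *
      generalize (ν : ℂ) ^ ((1 / 2 : ℂ)) = y at *
      rw [h7]
      field_simp
      ring

theorem toAr_const_mul (γ : ℂ) (c : ℕ → ℂ) :
    Lvl.toAr (fun n => γ * c n) = Lvl.sing 1 γ * Lvl.toAr c := by
  ext n
  rcases eq_or_ne n 0 with rfl | hn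
  · rw [ArithmeticFunction.map_zero, ArithmeticFunction.map_zero]
  · rw [Lvl.toAr_apply _ hn, sing_mul_apply' one_ne_zero γ _ hn, if_pos (one_dvd n), Nat.div_one,
      Lvl.toAr_apply _ hn]

theorem conv_swap (A x y : ℕ → ℂ) {n : ℕ} (hn : n ≠ 0) :
    (A ⍟ (x ⍟ y)) n = (A ⍟ (y ⍟ x)) n := by
  have h2 : Lvl.toAr (A ⍟ (x ⍟ y)) = Lvl.toAr (A ⍟ (y ⍟ x)) := by
    simp only [Zeta.toAr_conv]
    rw [mul_comm (Lvl.toAr x)]
  have h3 := congrArg (fun F : ArithmeticFunction ℂ => F n) h2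
  simpa only [Lvl.toAr_apply _ hn] using h3

theorem toAr_self (F : ArithmeticFunction ℂ) : Lvl.toAr (fun n => F n) = F := by
  ext m
  rcases eq_or_ne m 0 with rfl | hm
  · rw [ArithmeticFunction.map_zero, ArithmeticFunction.map_zero]
  · rw [Lvl.toAr_apply _ hm]

variable {ρ : Γℚ →* GL (Fin 2) (ZMod 3)} {Ψ : GL (Fin 2) (ZMod 3) →* GL (Fin 2) (ℤ√(-2))}
  {N₀ : ℕ} {ι : ℤ√(-2) →+* ℂ} {b : ℕ → ℤ√(-2)} {f₀ : CuspForm (Gamma1 N₀) 1}

/-- `newA` without its Euler factor at `3`. -/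
theorem toAr_newA_mul (hst : Start ρ Ψ N₀ ι b f₀) (lam : ℂ) (κ : ℤ√(-2) →+* ℂ) :
    Lvl.toAr (newA lam κ b) * Lvl.lin 3 lam = Lvl.toAr fun n => κ (b n) := by
  have hb0 := b_zero hst
  ext n
  rcases eq_or_ne n 0 with rfl | hn
  · rw [ArithmeticFunction.map_zero, ArithmeticFunction.map_zero]
  · rw [Lvl.lin, Lvl.sing_one_one, mul_sub, mul_one, sub_eq_add_neg,
      ArithmeticFunction.add_apply, ArithmeticFunction.neg_apply, mul_comm,
      sing_mul_apply' three_ne_zero lam _ hn, Lvl.toAr_apply _ hn, Lvl.toAr_apply _ hn]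
    by_cases hd : 3 ∣ n
    · obtain ⟨m, rfl⟩ := hd
      have hm : m ≠ 0 := by rintro rfl; exact hn rfl
      rw [if_pos (dvd_mul_right 3 m), Nat.mul_div_cancel_left m three_pos,
        Lvl.toAr_apply _ hm, newA_three lam κ hb0,
        hst.dep (3 * m) (fun hc => Nat.not_coprime_of_dvd_of_dvd (by norm_num)
          (dvd_mul_right 3 m) hst.three hc), map_zero]
      ring
    · rw [if_neg hd, newA_of_not_dvd lam κ b hd]
      ring

variable {κ : ℤ√(-2) →+* ℂ} {N : ℕ} [NeZero N] {lam γ : ℂ} {g h : CuspForm (Gamma1 N) 1}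

/-- The functional equation of the depleted form. -/
theorem New.exists_dep (hn : New ρ b κ N lam γ g h) (hst : Start ρ Ψ N₀ ι b f₀) :
    ∃ (N' : ℕ) (c : ℕ → ℂ), N' ≠ 0 ∧ Zeta.FE (fun n => κ (b n)) c N' 0 1 ∧
      Lvl.toAr c * Lvl.lin 3 lam⁻¹ =
        Lvl.sing 1 γ * (Lvl.toAr fun n => conj (κ (b n))) * Lvl.lin 3 (3 * lam⁻¹) := by
  have hfe := Z3.frickeFE N g h hn.slash
  have hg : qCoeff ⇑g = newA lam κ b := funext hn.coeff
  have hh : qCoeff ⇑h = fun n => γ * newA lam⁻¹ ((starRingEnd ℂ).comp κ) b n :=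
    funext hn.partner
  rw [hg, hh] at hfe
  have hc : Lvl.toAr (fun n => γ * newA lam⁻¹ ((starRingEnd ℂ).comp κ) b n) * Lvl.lin 3 lam⁻¹ =
      Lvl.sing 1 γ * (Lvl.toAr fun n => conj (κ (b n))) := by
    rw [toAr_const_mul, mul_assoc, toAr_newA_mul hst]
    rfl
  rcases eq_or_ne lam 0 with h0 | h0
  · refine ⟨N, _, NeZero.ne N, Zeta.FE.congr hfe (fun n hn' => ?_) (fun _ _ => rfl), ?_⟩
    · have h1 := toAr_newA_mul hst lam κ
      rw [h0, lin_zero (by norm_num : 2 ≤ 3), mul_one] at h1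
      have h2 := congrArg (fun F : ArithmeticFunction ℂ => F n) h1
      simpa only [Lvl.toAr_apply _ hn', h0] using h2
    · rw [hc, h0, inv_zero, mul_zero, lin_zero (by norm_num : 2 ≤ 3), mul_one]
  · have h1 := Zeta.FE.mul hfe (fe_linear (ν := 3) (by norm_num) h0)
    refine ⟨N * 3, _, mul_ne_zero (NeZero.ne N) three_ne_zero,
      Zeta.FE.congr h1 (fun n hn' => ?_) (fun _ _ => rfl), ?_⟩
    · rw [← Lvl.toAr_apply (newA lam κ b ⍟ fun n => Lvl.lin 3 lam n) hn', Zeta.toAr_conv,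
        toAr_self, toAr_newA_mul hst, Lvl.toAr_apply _ hn']
    · rw [Zeta.toAr_conv, toAr_self, ← hc]
      push_cast
      ring

section Fields

variable (T24 : FixField ρ C2) (T12 : FixField ρ V4) (T8 : FixField ρ S3) (T4 : FixField ρ B3)

/-- The signatures of the four fields. -/
theorem four_signature (hs : Function.Surjective ρ)
    (hdet : ∀ σ : Γℚ, Matrix.GeneralLinearGroup.det (ρ σ) = modThreeCyclotomicChar σ) :
    nrRealPlaces T24.F + 2 * nrRealPlaces T4.F = nrRealPlaces T12.F + 2 * nrRealPlaces T8.F ∧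
    nrComplexPlaces T24.F + 2 * nrComplexPlaces T4.F =
      nrComplexPlaces T12.F + 2 * nrComplexPlaces T8.F + 2 := by
  have hsq : ρ complexConjugation * ρ complexConjugation = 1 := by
    rw [← map_mul, complexConjugation_mul_self, map_one]
  have hd := det_complexConjugation hdet
  obtain ⟨p24, p12, p8, p4⟩ := pH_refl hd (trace_of_sq hd hsq)
  obtain ⟨r24, t24⟩ := signature_two hs T24 p24
  obtain ⟨r12, t12⟩ := signature_two hs T12 p12
  obtain ⟨r8, t8⟩ := signature_two hs T8 p8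
  obtain ⟨r4, t4⟩ := signature_two hs T4 p4
  rw [index_C2] at t24
  rw [index_V4] at t12
  rw [index_S3] at t8
  rw [index_B3] at t4
  exact ⟨by rw [r24, r12, r8, r4], by omega⟩

/-- The identity of the zeta functions away from `N₀`, for both embeddings. -/
theorem four_hid [NeZero N₀] (hρ : Continuous ρ) (hs : Function.Surjective ρ)
    (hdet : ∀ σ : Γℚ, Matrix.GeneralLinearGroup.det (ρ σ) = modThreeCyclotomicChar σ)
    (hΨ : ∀ g, Matrix.GeneralLinearGroup.map FLT.ExplicitLift.red (Ψ g) = g)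
    (hst : Start ρ Ψ N₀ ι b f₀) (κ : ℤ√(-2) →+* ℂ) (n : ℕ) (hn : n ≠ 0) :
    ((zcF T24.F ⍟ Zeta.efl (badL T24.F N₀)) ⍟ ((zcF T4.F ⍟ Zeta.efl (badL T4.F N₀)) ⍟
        (zcF T4.F ⍟ Zeta.efl (badL T4.F N₀)))) n =
      (((zcF T12.F ⍟ Zeta.efl (badL T12.F N₀)) ⍟ ((zcF T8.F ⍟ Zeta.efl (badL T8.F N₀)) ⍟
        (zcF T8.F ⍟ Zeta.efl (badL T8.F N₀)))) ⍟ ((fun n => κ (b n)) ⍟
          fun n => conj (κ (b n)))) n := by
  have h1 : ((zcF T24.F ⍟ Zeta.efl (badL T24.F N₀)) ⍟ ((zcF T4.F ⍟ Zeta.efl (badL T4.F N₀)) ⍟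
        (zcF T4.F ⍟ Zeta.efl (badL T4.F N₀)))) n =
      (((zcF T12.F ⍟ Zeta.efl (badL T12.F N₀)) ⍟ ((zcF T8.F ⍟ Zeta.efl (badL T8.F N₀)) ⍟
        (zcF T8.F ⍟ Zeta.efl (badL T8.F N₀)))) ⍟ ((fun n => ι (b n)) ⍟
          fun n => conj (ι (b n)))) n := Zeta.hid hs hdet hΨ T24 T12 T8 T4 hst
      (fun p hp hpN => good_fixField hρ T24 hp (hst.unr p hp hpN))
      (fun p hp hpN => good_fixField hρ T12 hp (hst.unr p hp hpN))
      (fun p hp hpN => good_fixField hρ T8 hp (hst.unr p hp hpN))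
      (fun p hp hpN => good_fixField hρ T4 hp (hst.unr p hp hpN)) n
  rcases embedding_cases ι κ with rfl | hκ
  · exact h1
  · rw [h1]
    have e1 : (fun n => κ (b n)) = fun n => conj (ι (b n)) := funext fun n => hκ (b n)
    have e2 : (fun n => conj (κ (b n))) = fun n => ι (b n) := funext fun n => by
      rw [hκ, Complex.conj_conj]
    rw [e1, e2]
    exact conv_swap _ _ _ hn

variable [NeZero N₀] (hρ : Continuous ρ) (hs : Function.Surjective ρ)
    (hdet : ∀ σ : Γℚ, Matrix.GeneralLinearGroup.det (ρ σ) = modThreeCyclotomicChar σ)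
    (hΨ : ∀ g, Matrix.GeneralLinearGroup.map FLT.ExplicitLift.red (Ψ g) = g)
    (hst : Start ρ Ψ N₀ ι b f₀) (hn : New ρ b κ N lam γ g h)

include hρ hs hdet hΨ hst hn

/-- **The Euler factors of the four fields at the primes of `N₀`.** -/
theorem New.identity :
    Lvl.linProd (badL T24.F N₀ ++ (badL T4.F N₀ ++ badL T4.F N₀)) (fun _ => 1) =
      Lvl.linProd (badL T12.F N₀ ++ (badL T8.F N₀ ++ badL T8.F N₀)) (fun _ => 1) *
        (Lvl.lin 3 lam⁻¹ * Lvl.lin 3 (conj lam⁻¹)) := by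
  obtain ⟨N', c, hN', hfe, hc⟩ := hn.exists_dep hst
  obtain ⟨hr, ht⟩ := four_signature T24 T12 T8 T4 hs hdet
  refine exists_identity hN' hfe (by rw [hst.eig.1, map_one])
    (Zeta.zetaFE T24.F) (Zeta.zetaFE T12.F) (Zeta.zetaFE T8.F) (Zeta.zetaFE T4.F)
    zcF_one zcF_one
    (natAbs_discr_ne_zero _) (natAbs_discr_ne_zero _) (natAbs_discr_ne_zero _)
    (natAbs_discr_ne_zero _)
    (fun _ => two_le_of_mem_badL) (fun _ => two_le_of_mem_badL) (fun _ => two_le_of_mem_badL)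
    (fun _ => two_le_of_mem_badL)
    (four_hid T24 T12 T8 T4 hρ hs hdet hΨ hst κ) hr ht hn.gamma_ne hc

/-- `λ⁻¹ = λ̄`. -/
theorem New.inv_lam : lam⁻¹ = conj lam := by
  obtain ⟨T24⟩ := exists_fixField hρ C2
  obtain ⟨T12⟩ := exists_fixField hρ V4
  obtain ⟨T8⟩ := exists_fixField hρ S3
  obtain ⟨T4⟩ := exists_fixField hρ B3
  have h1 := New.identity T24 T12 T8 T4 hρ hs hdet hΨ hst hn
  rcases eq_or_ne lam 0 with h0 | h0
  · rw [h0, inv_zero, map_zero]
  · have two : ∀ {F₁ F₂ : Type} [Field F₁] [NumberField F₁] [Field F₂] [NumberField F₂],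
        ∀ ν ∈ badL F₁ N₀ ++ (badL F₂ N₀ ++ badL F₂ N₀), 2 ≤ ν := by
      intro F₁ F₂ _ _ _ _ ν hν
      simp only [List.mem_append, or_self] at hν
      rcases hν with hν | hν
      · exact two_le_of_mem_badL hν
      · exact two_le_of_mem_badL hν
    have h2 := norm_eq_one_of_identity two two (inv_ne_zero h0) h1
    rw [norm_inv, inv_eq_one] at h2
    exact Complex.inv_eq_conj h2

/-- **The complete identity of zeta functions**, with all Euler factors. -/
theorem New.complete :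
    Lvl.toAr (zcF T24.F) * (Lvl.toAr (zcF T4.F) * Lvl.toAr (zcF T4.F)) =
      Lvl.toAr (zcF T12.F) * (Lvl.toAr (zcF T8.F) * Lvl.toAr (zcF T8.F)) *
        (Lvl.toAr (newA lam κ b) * Lvl.toAr fun n => conj (newA lam κ b n)) := by
  have h1 := New.identity T24 T12 T8 T4 hρ hs hdet hΨ hst hn
  rw [New.inv_lam hρ hs hdet hΨ hst hn] at h1
  exact complete_identity (fun _ => two_le_of_mem_badL) (fun _ => two_le_of_mem_badL)
    (fun _ => two_le_of_mem_badL) (fun _ => two_le_of_mem_badL)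
    (four_hid T24 T12 T8 T4 hρ hs hdet hΨ hst κ) (toAr_newA_mul hst lam κ) h1

/-- The coefficients of the partner. -/
theorem New.partner_conj (n : ℕ) : qCoeff ⇑h n = γ * conj (newA lam κ b n) := by
  rw [hn.partner, New.inv_lam hρ hs hdet hΨ hst hn, newA, newA, map_mul, map_pow]
  rfl

/-- **The conductor.** -/
theorem New.conductor :
    (discr T24.F).natAbs * ((discr T4.F).natAbs * (discr T4.F).natAbs) =
      (discr T12.F).natAbs * ((discr T8.F).natAbs * (discr T8.F).natAbs) * (N * N) := by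
  have hfe := Z3.frickeFE N g h hn.slash
  have hg : qCoeff ⇑g = newA lam κ b := funext hn.coeff
  have hh : qCoeff ⇑h = fun n => γ * conj (newA lam κ b n) :=
    funext (New.partner_conj hρ hs hdet hΨ hst hn)
  rw [hg, hh] at hfe
  obtain ⟨hr, ht⟩ := four_signature T24 T12 T8 T4 hs hdet
  exact conductor_eq (NeZero.ne N) hn.gamma_ne hfe
    (isEigensystem_newA lam κ hst.three hst.eig (b_zero hst)).1
    (Zeta.zetaFE T24.F) (Zeta.zetaFE T12.F) (Zeta.zetaFE T8.F) (Zeta.zetaFE T4.F)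
    zcF_one zcF_one zcF_one zcF_one
    (natAbs_discr_ne_zero _) (natAbs_discr_ne_zero _) (natAbs_discr_ne_zero _)
    (natAbs_discr_ne_zero _) hr ht (New.complete T24 T12 T8 T4 hρ hs hdet hΨ hst hn)

end Fields

end Fermat.Agent.Cor.Artin

end
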