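import Fermat.Agent.Corollaries.Artin.MinLevel

/-!
# The newform of an octahedral representation of S47: existence

`exists_new`: there is a form `g` of weight one, nebentypus `χ₋₃` and a level `N` with exactly the
ramified primes of `ρ` whose coefficients are those of the complete `L`-function up to the
eigenvalue `λ` of `U₃` (`λ = 0` iff `9 ∣ N`), and its Fricke partner is a multiple of the
corresponding form for the conjugate embedding with `λ⁻¹`.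
-/

set_option autoImplicit false

noncomputable section

open CongruenceSubgroup ModularFormClass EisensteinWeightOne UpperHalfPlane WeierstrassCurve
open Fermat.Agent.Classic Fermat.Agent.Classic.Level Fermat.Agent.X1 Fermat.Agent.LT.End
open scoped MatrixGroups ModularForm ComplexConjugate

namespace Fermat.Agent.Cor.Artin

local notation "Γℚ" => (AlgebraicClosure ℚ ≃ₐ[ℚ] AlgebraicClosure ℚ)

variable {ρ : Γℚ →* GL (Fin 2) (ZMod 3)} {Ψ : GL (Fin 2) (ZMod 3) →* GL (Fin 2) (ℤ√(-2))}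
  {N₀ : ℕ} {ι : ℤ√(-2) →+* ℂ} {b : ℕ → ℤ√(-2)} {f₀ : CuspForm (Gamma1 N₀) 1}

/-- the values of the trace at `±1` -/
theorem trace_vals (hΨ : ∀ g, Matrix.GeneralLinearGroup.map FLT.ExplicitLift.red (Ψ g) = g)
    (hst : Start ρ Ψ N₀ ι b f₀) (κ : ℤ√(-2) →+* ℂ) {p : ℕ} (hp : p.Prime) (hpN : ¬ p ∣ N₀)
    {A : ValuationSubring (AlgebraicClosure ℚ)} (hA : A.LiesOverPrime p) {σ : Γℚ}
    (hσ : A.IsFrobeniusAt σ p) : (ρ σ = 1 → κ (b p) = 2) ∧ (ρ σ = -1 → κ (b p) = -2) := by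
  have htr := hst.trace p hp hpN A hA σ hσ
  constructor
  · intro h1
    have h2 : (1 : Matrix (Fin 2) (Fin 2) (ℤ√(-2))).trace = ((2 : ℕ) : ℤ√(-2)) := by
      rw [Matrix.trace_one, Fintype.card_fin]
    rw [htr, h1, map_one, Units.val_one, h2, map_natCast]
    norm_num
  · intro h1
    rw [htr, h1, trace_neg_one hΨ κ]

/-- **The Fricke partner in the eigenspace.** -/
theorem exists_partner
    (hdet : ∀ σ : Γℚ, Matrix.GeneralLinearGroup.det (ρ σ) = modThreeCyclotomicChar σ)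
    (hΨ : ∀ g, Matrix.GeneralLinearGroup.map FLT.ExplicitLift.red (Ψ g) = g)
    (hst : Start ρ Ψ N₀ ι b f₀) {K : ℕ} [NeZero K]
    (hK : ∀ p : ℕ, p.Prime → (p ∣ K ↔ p ∣ N₀)) (κ : ℤ√(-2) →+* ℂ)
    {G : CuspForm (Gamma1 K) 1} (hG : G ∈ eigSp K fun p => κ (b p)) :
    ∃ H : CuspForm (Gamma1 K) 1, ⇑H = ⇑G ∣[(1 : ℤ)] Z3.W K ∧
      ⇑G = (-(K : ℂ)) • (⇑H ∣[(1 : ℤ)] Z3.W K) ∧
      H ∈ eigSp K fun p => ((starRingEnd ℂ).comp κ) (b p) := by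
  have h3 : 3 ∣ K := (hK 3 Nat.prime_three).mpr hst.three
  have hneb := hasNeb_of_mem h3 hG
  obtain ⟨H, h1, h2, h4, h5⟩ := Fri.fricke K G hneb
  refine ⟨H, h1, h4, fun p hp hpK => ?_⟩
  have : Fact p.Prime := ⟨hp⟩
  have hp3 : p ≠ 3 := fun h => hpK (h ▸ h3)
  obtain ⟨A, hA, σ, hσ⟩ := Frob.exists_frobenius p hp
  have hpN : ¬ p ∣ N₀ := fun h => hpK ((hK p hp).mpr h)
  have h6 := h5 p hpK (κ (b p)) (Z3.tCusp_of_rel h3 hneb p hpK (hG p hp hpK))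
  have h7 := Z3.rel_of_tCusp h3 h2 p hpK h6
  have h8 : conj (κ (b p)) = ((chiNegThree p : ℤ) : ℂ) * κ (b p) := by
    rw [hst.trace p hp hpN A hA σ hσ]
    exact Z3.conj_prime hdet hΨ κ hp hp3 hA hσ
  intro n
  have h9 := h7 n
  rw [← h8] at h9
  exact h9

/-- the level `K` has the primes of `N₀` and carries a form with the eigenvalues `κ (b p)`. -/
def Good (N₀ : ℕ) (b : ℕ → ℤ√(-2)) (K : ℕ) : Prop :=
  (∀ p : ℕ, p.Prime → (p ∣ K ↔ p ∣ N₀)) ∧ ∃ (_ : NeZero K) (κ : ℤ√(-2) →+* ℂ)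
    (G : CuspForm (Gamma1 K) 1), G ≠ 0 ∧ G ∈ eigSp K fun p => κ (b p)

/-- A start is a good level. -/
theorem good_start [NeZero N₀] (hst : Start ρ Ψ N₀ ι b f₀) : Good N₀ b N₀ := by
  refine ⟨fun _ _ => Iff.rfl, inferInstance, ι, f₀, ?_, fun p hp hpN n => ?_⟩
  · rintro rfl
    have h1 := hst.coeff 1
    rw [DS.qCoeff_zero, hst.eig.1, map_one] at h1
    exact zero_ne_one h1
  · have h1 := congrArg ι (hst.eig.2 p hp n)
    rw [map_add, map_mul, map_mul] at h1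
    beta_reduce at h1
    rw [if_neg hpN, map_intCast] at h1
    simp only [hst.coeff]
    rw [← h1]
    congr 2
    split_ifs
    · rfl
    · exact (map_zero ι).symm

variable {N : ℕ} [NeZero N]

omit [NeZero N] in
/-- No form of a smaller level with the same primes. -/
theorem eq_zero_of_lt (hmin : ∀ K < N, ¬ Good N₀ b K) {K : ℕ} [hKn : NeZero K]
    (hK : ∀ p : ℕ, p.Prime → (p ∣ K ↔ p ∣ N₀)) (hlt : K < N) {κ : ℤ√(-2) →+* ℂ}
    {G : CuspForm (Gamma1 K) 1} (hG : G ∈ eigSp K fun p => κ (b p)) : G = 0 := by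
  by_contra h0
  exact hmin K hlt ⟨hK, hKn, κ, G, h0, hG⟩

/-- **The coefficients at the multiples of `q` vanish if `q² ∣ N`.** -/
theorem coeff_eq_zero_of_sq (hst : Start ρ Ψ N₀ ι b f₀)
    (hprN : ∀ p : ℕ, p.Prime → (p ∣ N ↔ p ∣ N₀)) (hmin : ∀ K < N, ¬ Good N₀ b K)
    {q : ℕ} (hq : q.Prime) (hq2 : q ^ 2 ∣ N) {κ : ℤ√(-2) →+* ℂ}
    {G : CuspForm (Gamma1 N) 1} (hG : G ∈ eigSp N fun p => κ (b p)) (n : ℕ) :
    qCoeff ⇑G (q * n) = 0 := by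
  have hqF : Fact q.Prime := ⟨hq⟩
  have hN0 : N ≠ 0 := NeZero.ne N
  have hqN : q ∣ N := (dvd_pow_self q two_ne_zero).trans hq2
  obtain ⟨M, hM⟩ := hq2
  have hdiv : N / q = q * M := by
    rw [hM, pow_two, mul_assoc, Nat.mul_div_cancel_left _ hq.pos]
  have hM0 : M ≠ 0 := by
    rintro rfl
    exact hN0 (by rw [hM, mul_zero])
  have hNd : NeZero (N / q) := ⟨by rw [hdiv]; exact mul_ne_zero hq.ne_zero hM0⟩
  have hpr : ∀ p : ℕ, p.Prime → (p ∣ N / q ↔ p ∣ N) := by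
    intro p hp
    constructor
    · intro h
      exact h.trans (Nat.div_dvd_of_dvd hqN)
    · intro h
      rw [hdiv]
      rw [hM, pow_two, mul_assoc] at h
      rcases hp.dvd_mul.mp h with h1 | h1
      · exact h1.mul_right M
      · exact h1
  have h3N : 3 ∣ N := (hprN 3 Nat.prime_three).mpr hst.three
  have h3 : 3 ∣ N / q := (hpr 3 Nat.prime_three).mpr h3N
  obtain ⟨G₁, -, hc⟩ := Z3.uqStmt N q ⟨M, hM⟩ h3 G (hasNeb_of_mem h3N hG)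
  have hG₁ : G₁ ∈ eigSp (N / q) fun p => κ (b p) := by
    intro p hp hpN m
    have h1 := U_mem_eigSp hqN hG p hp (fun h => hpN ((hpr p hp).mpr h)) m
    simp only [qCoeff_U hqN] at h1
    simp only [hc]
    exact h1
  have hlt : N / q < N := Nat.div_lt_self (Nat.pos_of_ne_zero hN0) hq.one_lt
  have h0 := eq_zero_of_lt hmin (fun p hp => (hpr p hp).trans (hprN p hp)) hlt hG₁
  rw [← hc, h0, DS.qCoeff_zero]

/-- **A ramified prime `q ≠ 3` divides the level at least twice.** -/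
theorem sq_dvd_of_ne_three (hρ : Continuous ρ) (hs : Function.Surjective ρ)
    (hΨ : ∀ g, Matrix.GeneralLinearGroup.map FLT.ExplicitLift.red (Ψ g) = g)
    (hst : Start ρ Ψ N₀ ι b f₀) (hram : ∀ p : ℕ, p.Prime → (p ∣ N₀ ↔ ¬ UnrAt ρ p))
    (hprN : ∀ p : ℕ, p.Prime → (p ∣ N ↔ p ∣ N₀)) {κ : ℤ√(-2) →+* ℂ}
    {G : CuspForm (Gamma1 N) 1} (hG0 : G ≠ 0) (hG : G ∈ eigSp N fun p => κ (b p))
    {q : ℕ} (hq : q.Prime) (hq3 : q ≠ 3) (hqN : q ∣ N) : q ^ 2 ∣ N := by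
  by_contra hq2
  obtain ⟨M, rfl⟩ := hqN
  have hM0 : M ≠ 0 := by
    rintro rfl
    exact NeZero.ne (q * 0) (mul_zero q)
  have hNM : NeZero M := ⟨hM0⟩
  have hqM : ¬ q ∣ M := by
    rintro ⟨k, rfl⟩
    exact hq2 ⟨k, by ring⟩
  have h3N : 3 ∣ q * M := (hprN 3 Nat.prime_three).mpr hst.three
  have h3M : 3 ∣ M := by
    rcases Nat.prime_three.dvd_mul.mp h3N with h2 | h2
    · exact absurd ((Nat.prime_dvd_prime_iff_eq Nat.prime_three hq).mp h2).symm hq3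
    · exact h2
  have hpM : ∀ p : ℕ, p.Prime → ¬ p ∣ M → p ∉ ({q} : Finset ℕ) → ¬ p ∣ q * M := by
    intro p hp hpM hpq h
    rw [Finset.mem_singleton] at hpq
    rcases hp.dvd_mul.mp h with h1 | h1
    · exact hpq ((Nat.prime_dvd_prime_iff_eq hp hq).mp h1)
    · exact hpM h1
  have hnot : ¬ UnrAt ρ q :=
    (hram q hq).mp ((hprN q hq).mp (dvd_mul_right q M))
  -- no form of level `M`
  have hno : ∀ F : CuspForm (Gamma1 M) 1, Z3.HasNeb M F →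
      (∀ p : ℕ, p.Prime → ¬ p ∣ q * M → Rel F p (κ (b p))) → F = 0 := by
    intro F hF hFT
    by_contra hF0
    refine hnot (unrAt_of_vector hρ hs hΨ h3M F hF0 hF {q} (fun p => κ (b p))
      (fun p hp h1 h2 => hFT p hp (hpM p hp h1 h2)) (fun p hp h1 h2 A hA σ hσ =>
        trace_vals hΨ hst κ hp (fun h => hpM p hp h1 h2 ((hprN p hp).mpr h)) hA hσ) q hq hqM)
  obtain ⟨g', G₁, G₂, -, hG₁, hG₂, hGc, hGc', hT'⟩ := exists_al hq h3M hqM G (hasNeb_of_mem h3N hG)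
  have hpq : ∀ p : ℕ, ¬ p ∣ q * M → ¬ p ∣ q := fun p h h' => h (h'.mul_right M)
  have z1 : G₁ = 0 := hno G₁ hG₁ fun p hp hpM n =>
    rel_add (x := qCoeff ⇑G) (y := qCoeff ⇑g') hp (hpq p hpM) (hG p hp hpM)
      (hT' p hp hpM _ (hG p hp hpM)) 1 (fun m => by rw [hGc, one_mul]) n
  have z2 : G₂ = 0 := hno G₂ hG₂ fun p hp hpM n =>
    rel_add (x := qCoeff ⇑g') (y := qCoeff ⇑G) hp (hpq p hpM)
      (hT' p hp hpM _ (hG p hp hpM)) (hG p hp hpM) _ hGc' n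
  have e1 : ∀ n, qCoeff ⇑G (q * n) = -qCoeff ⇑g' n := by
    intro n
    have h1 := hGc n
    rw [z1, DS.qCoeff_zero] at h1
    linear_combination -h1
  have e2 : ∀ n, qCoeff ⇑g' (q * n) = -(((chiNegThree q : ℤ) : ℂ) / q * qCoeff ⇑G n) := by
    intro n
    have h1 := hGc' n
    rw [z2, DS.qCoeff_zero] at h1
    linear_combination -h1
  refine hG0 (eq_zero_of_qCoeff (eq_zero_of_rec G hq.two_le (chi_sq hq hq3) fun n => ?_))
  rw [pow_two, mul_assoc, e1, e2, neg_neg]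

/-- **An eigenvector of `U₃`** at a level `3 M`, `3 ∤ M`. -/
theorem exists_eigenvector_three {M : ℕ} [NeZero (3 * M)] (hM : ¬ 3 ∣ M) {t : ℕ → ℂ}
    {G : CuspForm (Gamma1 (3 * M)) 1} (hG0 : G ≠ 0) (hG : G ∈ eigSp (3 * M) t) :
    ∃ (lam : ℂ) (g : CuspForm (Gamma1 (3 * M)) 1), lam ≠ 0 ∧ g ≠ 0 ∧ g ∈ eigSp (3 * M) t ∧
      ∀ n, qCoeff ⇑g (3 * n) = lam * qCoeff ⇑g n := by
  have hf3 : Fact (Nat.Prime 3) := ⟨Nat.prime_three⟩
  have h3 : 3 ∣ 3 * M := dvd_mul_right 3 M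
  have hfd := finiteDimensional_S1 (3 * M)
  have hnt : Nontrivial (eigSp (3 * M) t) :=
    ⟨⟨G, hG⟩, 0, fun h => hG0 (congrArg Subtype.val h)⟩
  let T : Module.End ℂ (eigSp (3 * M) t) := (tCusp (3 * M) (Gamma1 (3 * M)) 1 3).restrict
    fun f hf => U_mem_eigSp h3 hf
  obtain ⟨lam, hlam⟩ := Module.End.exists_eigenvalue T
  obtain ⟨v, hv⟩ := hlam.exists_hasEigenvector
  have h1 := congrArg (Subtype.val) hv.apply_eq_smul
  have h2 : tCusp (3 * M) (Gamma1 (3 * M)) 1 3 (v : CuspForm (Gamma1 (3 * M)) 1) =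
      lam • (v : CuspForm (Gamma1 (3 * M)) 1) := h1
  have h4 : ∀ n, qCoeff ⇑(v : CuspForm (Gamma1 (3 * M)) 1) (3 * n) =
      lam * qCoeff ⇑(v : CuspForm (Gamma1 (3 * M)) 1) n := by
    intro n
    rw [← qCoeff_U h3, h2, qCoeff_cusp_smul (3 * M) (Gamma1 (3 * M)) 1]
  have hv0 : (v : CuspForm (Gamma1 (3 * M)) 1) ≠ 0 := fun h0 => hv.2 (Subtype.ext h0)
  refine ⟨lam, v, ?_, hv0, v.2, h4⟩
  rintro rfl
  exact hv0 (U3_injective hM (hasNeb_of_mem h3 v.2) fun n => by rw [h4, zero_mul])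

/-- The Fricke partner of an eigenvector of `U₃`. -/
theorem partner_three {M : ℕ} [NeZero (3 * M)] (hM : ¬ 3 ∣ M)
    {g h : CuspForm (Gamma1 (3 * M)) 1} (hg : Z3.HasNeb (3 * M) g)
    (hh : ⇑h = ⇑g ∣[(1 : ℤ)] Z3.W (3 * M)) {lam : ℂ} (hlam : lam ≠ 0)
    (h3 : ∀ n, qCoeff ⇑g (3 * n) = lam * qCoeff ⇑g n) (n : ℕ) :
    qCoeff ⇑h (3 * n) = lam⁻¹ * qCoeff ⇑h n := by
  have hd : 3 ∣ 3 * M := dvd_mul_right 3 M
  have hsm : ∀ (a : ℂ) (f : CuspForm (Gamma1 (3 * M)) 1) (j : ℕ),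
      qCoeff ⇑(a • f) j = a * qCoeff ⇑f j := fun a f j =>
    qCoeff_cusp_smul (3 * M) (Gamma1 (3 * M)) 1 a f j
  have h1 : tCusp (3 * M) (Gamma1 (3 * M)) 1 3 g = lam • g :=
    (tCusp_three_eq_iff hd g (lam • g)).mpr fun n => by rw [hsm, h3]
  have h2 : ModularForm.heckeU 1 3 ⇑g = lam • ⇑g := by
    rw [← coe_tCusp_three hd g, h1]
    rfl
  have h4 := fr_hecke (N := 3 * M) rfl hM (F := ⇑g) hg
  rw [h2] at h4
  have h5 : (lam • ⇑g) ∣[(1 : ℤ)] Fri.frW (3 * M) = ⇑(lam • h) := by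
    have h6 : (lam • ⇑g) ∣[(1 : ℤ)] Fri.frW (3 * M) = lam • (⇑g ∣[(1 : ℤ)] Fri.frW (3 * M)) :=
      Fri.smul_slash_frW lam ⇑g
    rw [h6]
    have h7 : ⇑h = ⇑g ∣[(1 : ℤ)] Fri.frW (3 * M) := hh
    rw [← h7]
    rfl
  rw [h5] at h4
  have h7 : ⇑h = ⇑g ∣[(1 : ℤ)] Fri.frW (3 * M) := hh
  rw [← h7, ← coe_tCusp_three hd (lam • h)] at h4
  have h8 : tCusp (3 * M) (Gamma1 (3 * M)) 1 3 (lam • h) = h := DFunLike.coe_injective h4
  have h9 := (tCusp_three_eq_iff hd _ _).mp h8 n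
  rw [hsm] at h9
  rw [← h9, ← mul_assoc, inv_mul_cancel₀ hlam, one_mul]

/-- **The coefficients of an eigenvector.** -/
theorem coeff_of_mem (hst : Start ρ Ψ N₀ ι b f₀)
    (hprN : ∀ p : ℕ, p.Prime → (p ∣ N ↔ p ∣ N₀)) {κ : ℤ√(-2) →+* ℂ} {lam : ℂ}
    {G : CuspForm (Gamma1 N) 1} (hG : G ∈ eigSp N fun p => κ (b p))
    (h3 : ∀ n, qCoeff ⇑G (3 * n) = lam * qCoeff ⇑G n)
    (hq : ∀ q : ℕ, q.Prime → q ≠ 3 → q ∣ N → ∀ n, qCoeff ⇑G (q * n) = 0) (n : ℕ) :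
    qCoeff ⇑G n = qCoeff ⇑G 1 * newA lam κ b n := by
  have hb0 := b_zero hst
  refine eq_mul_of_rec (isEigensystem_newA lam κ hst.three hst.eig hb0) (newA_zero lam κ hb0)
    (qCoeff_cusp_zero' N (Gamma1 N) 1 G) (fun ℓ hℓ m => ?_) n
  by_cases hd : ℓ ∣ N₀
  · rw [if_pos hd, zero_mul, add_zero]
    by_cases hℓ3 : ℓ = 3
    · subst hℓ3
      have h4 := newA_three lam κ hb0 1
      rw [mul_one, newA_of_not_dvd lam κ b (m := 1) (by norm_num), hst.eig.1, map_one,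
        mul_one] at h4
      rw [h4, h3]
    · have hℓ' : ¬ 3 ∣ ℓ := fun h =>
        hℓ3 ((Nat.prime_dvd_prime_iff_eq Nat.prime_three hℓ).mp h).symm
      rw [newA_of_not_dvd lam κ b hℓ', hst.dep ℓ (fun hc => (hℓ.coprime_iff_not_dvd.mp hc) hd),
        map_zero, zero_mul, hq ℓ hℓ hℓ3 ((hprN ℓ hℓ).mpr hd)]
  · have hℓ' : ¬ 3 ∣ ℓ := fun h =>
      hd (((Nat.prime_dvd_prime_iff_eq Nat.prime_three hℓ).mp h) ▸ hst.three)
    rw [if_neg hd, newA_of_not_dvd lam κ b hℓ']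
    exact hG ℓ hℓ (fun h => hd ((hprN ℓ hℓ).mp h)) m

/-- The newform of `κ ∘ Ψ ∘ ρ` and its Fricke partner. -/
structure New (ρ : Γℚ →* GL (Fin 2) (ZMod 3)) (b : ℕ → ℤ√(-2)) (κ : ℤ√(-2) →+* ℂ) (N : ℕ)
    [NeZero N] (lam γ : ℂ) (g h : CuspForm (Gamma1 N) 1) : Prop where
  three : 3 ∣ N
  prime_iff : ∀ p : ℕ, p.Prime → (p ∣ N ↔ ¬ UnrAt ρ p)
  sq : ∀ q : ℕ, q.Prime → q ≠ 3 → q ∣ N → q ^ 2 ∣ N
  lam_eq : lam = 0 ↔ 9 ∣ N
  gamma_ne : γ ≠ 0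
  neb : Z3.HasNeb N g
  coeff : ∀ n, qCoeff ⇑g n = newA lam κ b n
  partner : ∀ n, qCoeff ⇑h n = γ * newA lam⁻¹ ((starRingEnd ℂ).comp κ) b n
  slash : ⇑h = ⇑g ∣[(1 : ℤ)] Z3.W N

/-- **The newform**, from an eigenvector. -/
theorem new_of_mem (hρ : Continuous ρ) (hs : Function.Surjective ρ)
    (hdet : ∀ σ : Γℚ, Matrix.GeneralLinearGroup.det (ρ σ) = modThreeCyclotomicChar σ)
    (hΨ : ∀ g, Matrix.GeneralLinearGroup.map FLT.ExplicitLift.red (Ψ g) = g)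
    (hst : Start ρ Ψ N₀ ι b f₀) (hram : ∀ p : ℕ, p.Prime → (p ∣ N₀ ↔ ¬ UnrAt ρ p))
    (hprN : ∀ p : ℕ, p.Prime → (p ∣ N ↔ p ∣ N₀)) (hmin : ∀ K < N, ¬ Good N₀ b K)
    {κ : ℤ√(-2) →+* ℂ} {lam : ℂ} (hlam : lam = 0 ↔ 9 ∣ N) {G : CuspForm (Gamma1 N) 1}
    (hG0 : G ≠ 0) (hG : G ∈ eigSp N fun p => κ (b p))
    (h3 : ∀ n, qCoeff ⇑G (3 * n) = lam * qCoeff ⇑G n) :
    ∃ (γ : ℂ) (g h : CuspForm (Gamma1 N) 1), New ρ b κ N lam γ g h := by
  have h3N : 3 ∣ N := (hprN 3 Nat.prime_three).mpr hst.three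
  have hsq : ∀ q : ℕ, q.Prime → q ≠ 3 → q ∣ N → q ^ 2 ∣ N := fun q hq hq3 hqN =>
    sq_dvd_of_ne_three hρ hs hΨ hst hram hprN hG0 hG hq hq3 hqN
  have hkill : ∀ {κ' : ℤ√(-2) →+* ℂ} {F : CuspForm (Gamma1 N) 1},
      F ∈ eigSp N (fun p => κ' (b p)) → ∀ q : ℕ, q.Prime → q ≠ 3 → q ∣ N → ∀ n,
        qCoeff ⇑F (q * n) = 0 := fun hF q hq hq3 hqN n =>
    coeff_eq_zero_of_sq hst hprN hmin hq (hsq q hq hq3 hqN) hF n
  have hc := coeff_of_mem hst hprN hG h3 (hkill hG)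
  have ha : qCoeff ⇑G 1 ≠ 0 := by
    intro h0
    exact hG0 (eq_zero_of_qCoeff fun n => by rw [hc, h0, zero_mul])
  set g : CuspForm (Gamma1 N) 1 := (qCoeff ⇑G 1)⁻¹ • G with hgdef
  have hsm : ∀ (a : ℂ) (f : CuspForm (Gamma1 N) 1) (j : ℕ),
      qCoeff ⇑(a • f) j = a * qCoeff ⇑f j := fun a f j =>
    qCoeff_cusp_smul N (Gamma1 N) 1 a f j
  have hg : g ∈ eigSp N fun p => κ (b p) := Submodule.smul_mem _ _ hG
  have hgc : ∀ n, qCoeff ⇑g n = newA lam κ b n := fun n => by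
    rw [hgdef, hsm, hc n, ← mul_assoc, inv_mul_cancel₀ ha, one_mul]
  have hg3 : ∀ n, qCoeff ⇑g (3 * n) = lam * qCoeff ⇑g n := fun n => by
    rw [hgdef, hsm, hsm, h3]
    ring
  have hg0 : g ≠ 0 := smul_ne_zero (inv_ne_zero ha) hG0
  obtain ⟨h, hh, hgh, hmem⟩ := exists_partner hdet hΨ hst hprN κ hg
  have hh0 : h ≠ 0 := by
    rintro rfl
    refine hg0 (DFunLike.coe_injective ?_)
    rw [hgh]
    have h1 : (⇑(0 : CuspForm (Gamma1 N) 1) : ℍ → ℂ) = 0 := rfl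
    rw [h1, SlashAction.zero_slash, smul_zero]
  have hh3 : ∀ n, qCoeff ⇑h (3 * n) = lam⁻¹ * qCoeff ⇑h n := by
    by_cases h9 : 9 ∣ N
    · intro n
      rw [hlam.mpr h9, inv_zero, zero_mul]
      exact coeff_eq_zero_of_sq hst hprN hmin Nat.prime_three (by simpa using h9) hmem n
    · obtain ⟨M, hM⟩ := h3N
      subst hM
      have hM' : ¬ 3 ∣ M := by
        rintro ⟨k, rfl⟩
        exact h9 ⟨k, by ring⟩
      exact partner_three hM' (hasNeb_of_mem (dvd_mul_right 3 M) hg) hh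
        (fun h0 => h9 (hlam.mp h0)) hg3
  have hhc := coeff_of_mem hst hprN hmem hh3 (hkill hmem)
  have hγ : qCoeff ⇑h 1 ≠ 0 := by
    intro h0
    exact hh0 (eq_zero_of_qCoeff fun n => by rw [hhc, h0, zero_mul])
  exact ⟨qCoeff ⇑h 1, g, h, ⟨h3N, fun p hp => (hprN p hp).trans (hram p hp), hsq, hlam, hγ,
    hasNeb_of_mem h3N hg, hgc, hhc, hh⟩⟩

/-- **The newform of `κ ∘ Ψ ∘ ρ`.** -/
theorem exists_new [NeZero N₀] (hρ : Continuous ρ) (hs : Function.Surjective ρ)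
    (hdet : ∀ σ : Γℚ, Matrix.GeneralLinearGroup.det (ρ σ) = modThreeCyclotomicChar σ)
    (hΨ : ∀ g, Matrix.GeneralLinearGroup.map FLT.ExplicitLift.red (Ψ g) = g)
    (hst : Start ρ Ψ N₀ ι b f₀) (hram : ∀ p : ℕ, p.Prime → (p ∣ N₀ ↔ ¬ UnrAt ρ p))
    (κ : ℤ√(-2) →+* ℂ) :
    ∃ (N : ℕ) (_ : NeZero N) (lam γ : ℂ) (g h : CuspForm (Gamma1 N) 1),
      New ρ b κ N lam γ g h := by
  classical
  have hex : ∃ K, Good N₀ b K := ⟨N₀, good_start hst⟩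
  obtain ⟨hprN, hN, κ₁, G₁, hG₁0, hG₁⟩ := Nat.find_spec hex
  have hmin : ∀ K < Nat.find hex, ¬ Good N₀ b K := fun K hK => Nat.find_min hex hK
  generalize Nat.find hex = N at *
  -- both embeddings
  obtain ⟨G, hG0, hG⟩ : ∃ G : CuspForm (Gamma1 N) 1, G ≠ 0 ∧ G ∈ eigSp N fun p => κ (b p) := by
    rcases embedding_cases κ₁ κ with rfl | hκ
    · exact ⟨G₁, hG₁0, hG₁⟩
    · obtain ⟨H, -, hGH, hH⟩ := exists_partner hdet hΨ hst hprN κ₁ hG₁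
      refine ⟨H, ?_, ?_⟩
      · rintro rfl
        refine hG₁0 (DFunLike.coe_injective ?_)
        rw [hGH]
        have h1 : (⇑(0 : CuspForm (Gamma1 N) 1) : ℍ → ℂ) = 0 := rfl
        rw [h1, SlashAction.zero_slash, smul_zero]
      · have h2 : (fun p => κ (b p)) = fun p => ((starRingEnd ℂ).comp κ₁) (b p) :=
          funext fun p => hκ (b p)
        rw [h2]
        exact hH
  by_cases h9 : 9 ∣ N
  · obtain ⟨γ, g, h, hn⟩ := new_of_mem hρ hs hdet hΨ hst hram hprN hmin (lam := 0)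
      ⟨fun _ => h9, fun _ => rfl⟩ hG0 hG (fun n => by
        rw [zero_mul]
        exact coeff_eq_zero_of_sq hst hprN hmin Nat.prime_three (by simpa using h9) hG n)
    exact ⟨N, hN, 0, γ, g, h, hn⟩
  · obtain ⟨M, rfl⟩ := (hprN 3 Nat.prime_three).mpr hst.three
    have hM' : ¬ 3 ∣ M := by
      rintro ⟨k, rfl⟩
      exact h9 ⟨k, by ring⟩
    obtain ⟨lam, G', hlam, hG'0, hG', hG'3⟩ := exists_eigenvector_three hM' hG0 hG
    obtain ⟨γ, g, h, hn⟩ := new_of_mem hρ hs hdet hΨ hst hram hprN hmin (lam := lam)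
      ⟨fun h => absurd h hlam, fun h => absurd h h9⟩ hG'0 hG' hG'3
    exact ⟨3 * M, hN, lam, γ, g, h, hn⟩

end Fermat.Agent.Cor.Artin

end
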