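import Fermat.Agent.Corollaries.Artin.RootMod

/-!
# The integers modulo which `d` is an `ℓ`-th power

`card_pow`: `ℓ` a prime number, `d` an integer which is not an `ℓ`-th power: the primes `p` such
that `d` is an `ℓ`-th power modulo `p` have natural density `1 - 1 / ℓ`, and
`#{n ≤ x : d is an ℓ-th power modulo n} ~ C x / (log x) ^ (1 / ℓ)`, `C > 0`.
-/

set_option autoImplicit false

noncomputable section

open Filter Topology Polynomial

namespace Fermat.Agent.Cor.Artin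

local notation "Ω" => AlgebraicClosure ℚ
local notation "Γℚ" => (AlgebraicClosure ℚ ≃ₐ[ℚ] AlgebraicClosure ℚ)

attribute [local instance] fact_splits

section

variable {ℓ : ℕ} {d : ℤ} {ζ α₀ : Ω}

/-- the polynomial `X ^ ℓ - d` -/
abbrev powP (ℓ : ℕ) (d : ℤ) : ℤ[X] := X ^ ℓ - C d

theorem fQ_powP : fQ (powP ℓ d) = X ^ ℓ - C (d : ℚ) := by
  rw [fQ, Polynomial.map_sub, Polynomial.map_pow, map_X, map_C, eq_intCast]

theorem aeval_powP {y : Ω} : aeval y (powP ℓ d) = 0 ↔ y ^ ℓ = d := by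
  rw [map_sub, map_pow, aeval_X, aeval_C, eq_intCast, sub_eq_zero]

theorem natDegree_powP : (powP ℓ d).natDegree = ℓ := natDegree_X_pow_sub_C

theorem irreducible_powP (hℓ : ℓ.Prime) (hd : ∀ b : ℤ, b ^ ℓ ≠ d) :
    Irreducible (fQ (powP ℓ d)) := by
  rw [fQ_powP]
  refine X_pow_sub_C_irreducible_of_prime hℓ fun b hb => ?_
  have h1 : IsIntegral ℤ b := by
    refine IsIntegral.of_pow hℓ.pos ?_
    rw [hb]
    exact isIntegral_algebraMap (R := ℤ) (A := ℚ) (x := d)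
  obtain ⟨c, hc⟩ := (IsIntegrallyClosed.isIntegral_iff (R := ℤ) (K := ℚ)).mp h1
  refine hd c ?_
  have h2 : (c : ℚ) = b := hc
  rw [← h2] at hb
  exact_mod_cast hb

/-- An automorphism which fixes `ζ` and one root fixes all roots. -/
theorem fix_all (hζ : IsPrimitiveRoot ζ ℓ) (hℓ : 0 < ℓ) (h0 : α₀ ≠ 0) (hα : α₀ ^ ℓ = d) {σ : Γℚ}
    (h1 : σ ζ = ζ) (h2 : σ α₀ = α₀) {y : Ω} (hy : y ^ ℓ = d) : σ y = y := by
  have : NeZero ℓ := ⟨hℓ.ne'⟩
  have h3 : (y / α₀) ^ ℓ = 1 := by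
    rw [div_pow, hy, ← hα, div_self (pow_ne_zero _ h0)]
  obtain ⟨i, -, hi⟩ := hζ.eq_pow_of_pow_eq_one h3
  have h4 : y = ζ ^ i * α₀ := by
    rw [hi, div_mul_cancel₀ _ h0]
  rw [h4, map_mul, map_pow, h1, h2]

/-- The cyclotomic character is surjective. -/
theorem exists_aut (hζ : IsPrimitiveRoot ζ ℓ) (hℓ : 0 < ℓ) (u : (ZMod ℓ)ˣ) :
    ∃ σ : Γℚ, σ ζ = ζ ^ (u : ZMod ℓ).val := by
  have : NeZero ℓ := ⟨hℓ.ne'⟩
  have h1 : IsPrimitiveRoot (ζ ^ (u : ZMod ℓ).val) ℓ :=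
    hζ.pow_of_coprime _ (ZMod.val_coe_unit_coprime u)
  have h2 : aeval (ζ ^ (u : ZMod ℓ).val) (minpoly ℚ ζ) = 0 := by
    rw [← cyclotomic_eq_minpoly_rat hζ hℓ, cyclotomic_eq_minpoly_rat h1 hℓ, minpoly.aeval]
  obtain ⟨σ, hσ⟩ := minpoly.exists_algEquiv_of_root
    (Algebra.IsAlgebraic.isAlgebraic (R := ℚ) ζ) h2
  exact ⟨σ.symm, (AlgEquiv.symm_apply_eq σ).mpr hσ.symm⟩

theorem pow_eq_pow_iff_cast (hζ : IsPrimitiveRoot ζ ℓ) (hℓ : 0 < ℓ) {m n : ℕ} :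
    ζ ^ m = ζ ^ n ↔ (m : ZMod ℓ) = n := by
  have h0 : ζ ≠ 0 := hζ.ne_zero hℓ.ne'
  rw [← zpow_natCast, ← zpow_natCast, ← mul_inv_eq_one₀ (zpow_ne_zero _ h0), ← zpow_neg,
    ← zpow_add₀ h0, hζ.zpow_eq_one_iff_dvd, ← ZMod.intCast_zmod_eq_zero_iff_dvd]
  push_cast
  rw [← sub_eq_add_neg, sub_eq_zero]

/-- An automorphism which moves `ζ` fixes a root. -/
theorem exists_fix [Fact ℓ.Prime] (hζ : IsPrimitiveRoot ζ ℓ) (h0 : α₀ ≠ 0) (hα : α₀ ^ ℓ = d)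
    {σ : Γℚ} (h1 : σ ζ ≠ ζ) : ∃ y : Ω, y ^ ℓ = d ∧ σ y = y := by
  have hℓ : 0 < ℓ := (Fact.out : ℓ.Prime).pos
  have : NeZero ℓ := ⟨hℓ.ne'⟩
  obtain ⟨a, -, ha⟩ := hζ.eq_pow_of_pow_eq_one (ξ := σ ζ) (by
    rw [← map_pow, hζ.pow_eq_one, map_one])
  have h3 : (σ α₀ / α₀) ^ ℓ = 1 := by
    rw [div_pow, ← map_pow, hα, map_intCast, div_self]
    rw [← hα]
    exact pow_ne_zero _ h0
  obtain ⟨b, -, hb⟩ := hζ.eq_pow_of_pow_eq_one h3
  have hb' : σ α₀ = ζ ^ b * α₀ := by rw [hb, div_mul_cancel₀ _ h0]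
  have ha1 : (1 : ZMod ℓ) - a ≠ 0 := by
    intro h
    apply h1
    rw [← ha]
    have h4 : ((a : ℕ) : ZMod ℓ) = ((1 : ℕ) : ZMod ℓ) := by
      rw [Nat.cast_one]
      exact (sub_eq_zero.mp h).symm
    rw [(pow_eq_pow_iff_cast hζ hℓ).mpr h4, pow_one]
  set c : ℕ := ((b : ZMod ℓ) / (1 - a)).val with hc
  refine ⟨ζ ^ c * α₀, ?_, ?_⟩
  · rw [mul_pow, ← pow_mul, mul_comm c, pow_mul, hζ.pow_eq_one, one_pow, one_mul, hα]
  · rw [map_mul, map_pow, hb', ← ha, ← mul_assoc, ← pow_mul, ← pow_add]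
    congr 1
    rw [pow_eq_pow_iff_cast hζ hℓ]
    push_cast
    rw [hc, ZMod.natCast_zmod_val]
    field_simp
    ring

open scoped Classical in
/-- At most `|G| / ℓ` elements of the Galois group have no fixed root. -/
theorem le_fixRoot_powP [Fact ℓ.Prime] (hd : ∀ b : ℤ, b ^ ℓ ≠ d) :
    1 - 1 / (ℓ : ℝ) ≤ (Nat.card (fixRoot (powP ℓ d)) : ℝ) / Nat.card (fQ (powP ℓ d)).Gal := by
  have hp : ℓ.Prime := Fact.out
  have hℓ : 0 < ℓ := hp.pos
  have : NeZero ℓ := ⟨hℓ.ne'⟩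
  have hirr := irreducible_powP hp hd
  have hf : powP ℓ d ≠ 0 := by
    intro h
    have := natDegree_powP (ℓ := ℓ) (d := d)
    rw [h, natDegree_zero] at this
    omega
  obtain ⟨ζ, hζ⟩ := HasEnoughRootsOfUnity.exists_primitiveRoot Ω ℓ
  obtain ⟨α₀, hα⟩ := IsAlgClosed.exists_pow_nat_eq (d : Ω) hℓ
  have h0 : α₀ ≠ 0 := by
    rintro rfl
    rw [zero_pow hℓ.ne'] at hα
    refine hd 0 ?_
    rw [zero_pow hℓ.ne']
    exact_mod_cast hα
  set G := (fQ (powP ℓ d)).Gal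
  set r : Γℚ →* G := Gal.restrict (fQ (powP ℓ d)) Ω with hr
  have hrs : Function.Surjective r := Gal.restrict_surjective (fQ (powP ℓ d)) Ω
  set χ : Γℚ →* (ZMod ℓ)ˣ := hζ.autToPow ℚ with hχ
  have hspec : ∀ σ : Γℚ, ζ ^ (χ σ : ZMod ℓ).val = σ ζ := fun σ => hζ.autToPow_spec ℚ σ
  have hχ1 : ∀ σ : Γℚ, χ σ = 1 ↔ σ ζ = ζ := by
    intro σ
    rw [← hspec, Units.ext_iff, Units.val_one]
    constructor
    · intro h
      rw [h, ZMod.val_one_eq_one_mod, Nat.mod_eq_of_lt hp.one_lt, pow_one]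
    · intro h
      have h1 : ζ ^ (χ σ : ZMod ℓ).val = ζ ^ 1 := by rw [h, pow_one]
      rw [pow_eq_pow_iff_cast hζ hℓ, ZMod.natCast_zmod_val, Nat.cast_one] at h1
      exact h1
  have hχs : Function.Surjective χ := by
    intro u
    obtain ⟨σ, hσ⟩ := exists_aut hζ hℓ u
    refine ⟨σ, Units.ext ?_⟩
    have h1 : ζ ^ (χ σ : ZMod ℓ).val = ζ ^ (u : ZMod ℓ).val := by rw [hspec, hσ]
    rw [pow_eq_pow_iff_cast hζ hℓ, ZMod.natCast_zmod_val, ZMod.natCast_zmod_val] at h1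
    exact h1
  -- the kernel of the restriction
  have hker : r.ker ≤ χ.ker := by
    intro σ hσ
    rw [MonoidHom.mem_ker] at hσ ⊢
    rw [hχ1]
    have h1 : ∀ y : Ω, y ^ ℓ = d → σ y = y := by
      intro y hy
      have h2 := Gal.restrict_smul σ
        (⟨y, (mem_rootSet_fQ hf).mpr (aeval_powP.mpr hy)⟩ : (fQ (powP ℓ d)).rootSet Ω)
      rw [← hr, hσ, one_smul] at h2
      exact h2.symm
    have h2 := h1 (ζ * α₀) (by rw [mul_pow, hζ.pow_eq_one, one_mul, hα])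
    rw [map_mul, h1 α₀ hα] at h2
    exact mul_right_cancel₀ h0 h2
  set N : Subgroup G := χ.ker.map r with hN
  have hidx : N.index = ℓ - 1 := by
    rw [hN, Subgroup.index_map, sup_eq_left.mpr hker, MonoidHom.range_eq_top.mpr hrs,
      Subgroup.index_top, mul_one, Subgroup.index_ker, MonoidHom.range_eq_top.mpr hχs,
      Subgroup.card_top, Nat.card_eq_fintype_card, ZMod.card_units_eq_totient,
      Nat.totient_prime hp]
  have hmul := N.card_mul_index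
  rw [hidx] at hmul
  -- `N` has at most `ℓ` elements
  set x₀ : (fQ (powP ℓ d)).rootSet Ω := ⟨α₀, (mem_rootSet_fQ hf).mpr (aeval_powP.mpr hα)⟩ with hx₀
  have hinj : Function.Injective fun g : N => (g : G) • x₀ := by
    intro g g' hgg
    have h1 : (((g⁻¹ * g' : N) : G)) • x₀ = x₀ := by
      have h2 : (g : G) • x₀ = (g' : G) • x₀ := hgg
      rw [Subgroup.coe_mul, Subgroup.coe_inv, mul_smul, ← h2, inv_smul_smul]
    obtain ⟨σ, hσ, hσg⟩ := (g⁻¹ * g').2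
    rw [← hσg] at h1
    have h3 : r σ = 1 := by
      refine restrict_eq_one hf fun y hy => ?_
      refine fix_all hζ hℓ h0 hα ((hχ1 σ).mp hσ) ?_ (aeval_powP.mp hy)
      have h4 := Gal.restrict_smul σ x₀
      rw [← hr, h1] at h4
      exact h4.symm
    rw [h3] at hσg
    have h5 : g⁻¹ * g' = 1 := Subtype.ext hσg.symm
    exact inv_mul_eq_one.mp h5
  have hNle : Nat.card N ≤ ℓ := by
    have h1 := Nat.card_le_card_of_injective _ hinj
    rwa [card_rootSet_fQ hirr, natDegree_powP] at h1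
  -- the elements outside of `N` have a fixed root
  have hout : ∀ g : G, g ∉ N → g ∈ fixRoot (powP ℓ d) := by
    intro g hg
    obtain ⟨σ, rfl⟩ := hrs g
    have h1 : σ ζ ≠ ζ := fun h => hg ⟨σ, (hχ1 σ).mpr h, rfl⟩
    obtain ⟨y, hy, hσy⟩ := exists_fix hζ h0 hα h1
    exact (restrict_mem_fixRoot hf σ).mpr ⟨y, aeval_powP.mpr hy, hσy⟩
  have hfree : Nat.card ((fixRoot (powP ℓ d))ᶜ : Set G) + 1 ≤ Nat.card N := by
    have h1 : insert (1 : G) ((fixRoot (powP ℓ d))ᶜ : Set G) ⊆ (N : Set G) := by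
      intro g hg
      rcases hg with rfl | hg
      · exact N.one_mem
      · by_contra h
        exact hg (hout g h)
    have h2 : (1 : G) ∉ ((fixRoot (powP ℓ d))ᶜ : Set G) := fun h => h
      (one_mem_fixRoot (by rw [natDegree_powP]; exact hℓ))
    have h3 := Set.ncard_le_ncard h1 (Set.toFinite _)
    rw [Set.ncard_insert_of_notMem h2 (Set.toFinite _)] at h3
    exact h3
  have hsum : Nat.card (fixRoot (powP ℓ d)) + Nat.card ((fixRoot (powP ℓ d))ᶜ : Set G) =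
      Nat.card G := by
    rw [Nat.card_coe_set_eq, Nat.card_coe_set_eq, Set.ncard_add_ncard_compl]
  have hG : (0 : ℝ) < Nat.card G := by exact_mod_cast Nat.card_pos
  have hl : (0 : ℝ) < ℓ := by exact_mod_cast hℓ
  have hl1 : 1 ≤ ℓ := hℓ
  have e1 : (Nat.card N : ℝ) * (ℓ - 1) = Nat.card G := by
    rw [← hmul]
    push_cast [Nat.cast_sub hl1]
    ring
  have e2 : (Nat.card ((fixRoot (powP ℓ d))ᶜ : Set G) : ℝ) + 1 ≤ Nat.card N := by
    exact_mod_cast hfree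
  have e3 : (Nat.card N : ℝ) ≤ ℓ := by exact_mod_cast hNle
  have e4 : (Nat.card (fixRoot (powP ℓ d)) : ℝ) +
      Nat.card ((fixRoot (powP ℓ d))ᶜ : Set G) = Nat.card G := by exact_mod_cast hsum
  have e5 : (Nat.card ((fixRoot (powP ℓ d))ᶜ : Set G) : ℝ) * ℓ ≤ Nat.card G := by
    rw [← e1]
    nlinarith
  rw [le_div_iff₀ hG, sub_mul, one_mul, div_mul_eq_mul_div, one_mul, sub_le_iff_le_add,
    ← sub_le_iff_le_add', ← e4, add_sub_cancel_left, le_div_iff₀ hl, e4]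
  exact e5

open scoped Classical in
/-- **The integers modulo which `d` is an `ℓ`-th power**, `ℓ` a prime number, `d` an integer which
is not an `ℓ`-th power. -/
theorem card_pow (hℓ : ℓ.Prime) (hd : ∀ b : ℤ, b ^ ℓ ≠ d) :
    HasNaturalDensity {p | ∃ a : ℤ, (p : ℤ) ∣ a ^ ℓ - d} (1 - 1 / (ℓ : ℝ)) ∧
    ∃ C : ℝ, 0 < C ∧ Tendsto (fun x : ℝ =>
      (((Finset.Ioc 0 ⌊x⌋₊).filter fun n : ℕ => ∃ a : ℤ, (n : ℤ) ∣ a ^ ℓ - d).card : ℝ) *
        Real.log x ^ (1 / (ℓ : ℝ)) / x) atTop (𝓝 C) := by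
  have : Fact ℓ.Prime := ⟨hℓ⟩
  have hdeg := natDegree_powP (ℓ := ℓ) (d := d)
  have h1 := le_fixRoot_powP hd
  have h2 := fixRoot_le (irreducible_powP hℓ hd) (by rw [hdeg]; exact hℓ.two_le)
  rw [hdeg] at h2
  have h3 : (Nat.card (fixRoot (powP ℓ d)) : ℝ) / Nat.card (fQ (powP ℓ d)).Gal =
      1 - 1 / (ℓ : ℝ) := le_antisymm h2 h1
  obtain ⟨h4, C', hC, h5⟩ := card_root (f := powP ℓ d) (by rw [hdeg]; exact hℓ.pos)
  rw [h3] at h4 h5
  have h6 : ∀ a : ℤ, (powP ℓ d).eval a = a ^ ℓ - d := fun a => by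
    rw [eval_sub, eval_pow, eval_X, eval_C]
  simp only [h6] at h4 h5
  refine ⟨h4, C', hC, h5.congr fun x => ?_⟩
  rw [sub_sub_cancel]

end

end Fermat.Agent.Cor.Artin

end
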