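import Fermat.Agent.Corollaries.Artin.RootMod

/-!
# Polynomials with a root modulo a positive proportion of the integers

`root_tfae`: for `f ∈ ℤ[X]` of positive degree are equivalent: every element of the Galois group of
`f` fixes a root of `f`; `f` has a root modulo all but finitely many primes; the primes modulo which
`f` has a root have density one; the integers modulo which `f` has a root have a positive density.
Otherwise the latter have density zero (`tendsto_zero_of_fixRoot`).
-/

set_option autoImplicit false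

noncomputable section

open Filter Topology Polynomial

namespace Fermat.Agent.Cor.Artin

local notation "Ω" => AlgebraicClosure ℚ
local notation "Γℚ" => (AlgebraicClosure ℚ ≃ₐ[ℚ] AlgebraicClosure ℚ)

attribute [local instance] fact_splits

variable {f : ℤ[X]}

theorem fixRoot_lt (h : fixRoot f ≠ Set.univ) :
    (Nat.card (fixRoot f) : ℝ) / Nat.card (fQ f).Gal < 1 := by
  have hG : (0 : ℝ) < Nat.card (fQ f).Gal := by exact_mod_cast Nat.card_pos
  rw [div_lt_one hG]
  have h1 : (fixRoot f).ncard < Nat.card (fQ f).Gal := by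
    refine lt_of_le_of_ne ?_ fun h2 => h ((Set.eq_univ_iff_ncard _).mpr h2)
    rw [← Set.ncard_univ]
    exact Set.ncard_le_ncard (Set.subset_univ _)
  rw [Nat.card_coe_set_eq]
  exact_mod_cast h1

open scoped Classical in
/-- If some element of the Galois group has no fixed root, then `f` has a root modulo `n` only for
a set of integers `n` of density zero. -/
theorem tendsto_zero_of_fixRoot (hd : 0 < f.natDegree) (h : fixRoot f ≠ Set.univ) :
    Tendsto (fun x : ℝ =>
      (((Finset.Ioc 0 ⌊x⌋₊).filter fun n : ℕ => ∃ a : ℤ, (n : ℤ) ∣ f.eval a).card : ℝ) / x)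
      atTop (𝓝 0) := by
  obtain ⟨-, C', -, h1⟩ := card_root hd
  have h2 := fixRoot_lt h
  set e : ℝ := 1 - (Nat.card (fixRoot f) : ℝ) / Nat.card (fQ f).Gal with he
  have he0 : 0 < e := by
    rw [he]
    linarith
  have h3 : Tendsto (fun x : ℝ => (Real.log x ^ e)⁻¹) atTop (𝓝 0) :=
    ((tendsto_rpow_atTop he0).comp Real.tendsto_log_atTop).inv_tendsto_atTop
  have h4 := h1.mul h3
  rw [mul_zero] at h4
  refine h4.congr' ?_
  filter_upwards [eventually_gt_atTop 1] with x hx
  have h5 : Real.log x ^ e ≠ 0 := (Real.rpow_pos_of_pos (Real.log_pos hx) _).ne'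
  have h6 : x ≠ 0 := by linarith
  field_simp

open scoped Classical in
/-- **Polynomials with a root modulo almost all primes.** -/
theorem root_tfae (hd : 0 < f.natDegree) :
    List.TFAE [fixRoot f = Set.univ,
      ∃ B : Finset ℕ, ∀ p : ℕ, p.Prime → p ∉ B → ∃ a : ℤ, (p : ℤ) ∣ f.eval a,
      HasNaturalDensity {p | ∃ a : ℤ, (p : ℤ) ∣ f.eval a} 1,
      ∃ c : ℝ, 0 < c ∧ Tendsto (fun x : ℝ =>
        (((Finset.Ioc 0 ⌊x⌋₊).filter fun n : ℕ => ∃ a : ℤ, (n : ℤ) ∣ f.eval a).card : ℝ) / x)
        atTop (𝓝 c)] := by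
  have hf : f ≠ 0 := by
    rintro rfl
    simp at hd
  have hG : (0 : ℝ) < Nat.card (fQ f).Gal := by exact_mod_cast Nat.card_pos
  tfae_have 1 → 2 := by
    intro h
    obtain ⟨B, hB⟩ := exists_bad hf
    obtain ⟨φ, hφ⟩ := exists_frobChoice
    refine ⟨B, fun p hp hpB => ?_⟩
    obtain ⟨hl, hbad⟩ := hB p hp hpB
    obtain ⟨A, hA, hσ⟩ := hφ.spec p hp
    rw [exists_root_iff hf hp hA hl (hbad A hA) hσ, ← restrict_mem_fixRoot hf, h]
    exact Set.mem_univ _
  tfae_have 2 → 3 := by
    rintro ⟨B, hB⟩
    refine HasNaturalDensity.univ.congr_of_finset B fun p hp hpB => ?_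
    exact ⟨fun _ => hB p hp hpB, fun _ => Set.mem_univ _⟩
  tfae_have 3 → 1 := by
    intro h
    by_contra h1
    have h2 := (card_root hd).1.unique h
    exact absurd h2 (fixRoot_lt h1).ne
  tfae_have 1 → 4 := by
    intro h
    obtain ⟨-, C', hC, h1⟩ := card_root hd
    have h2 : (Nat.card (fixRoot f) : ℝ) / Nat.card (fQ f).Gal = 1 := by
      rw [Nat.card_coe_set_eq, h, Set.ncard_univ, div_self hG.ne']
    refine ⟨C', hC, ?_⟩
    rw [h2] at h1
    refine h1.congr fun x => ?_
    rw [sub_self, Real.rpow_zero, mul_one]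
  tfae_have 4 → 1 := by
    rintro ⟨c, hc, h⟩
    by_contra h1
    exact hc.ne' (tendsto_nhds_unique h (tendsto_zero_of_fixRoot hd h1))
  tfae_finish

open scoped Classical in
/-- An irreducible polynomial of degree at least two has a root modulo `n` only for a set of
integers `n` of density zero. -/
theorem tendsto_zero_of_irreducible (hirr : Irreducible (fQ f)) (h2 : 2 ≤ f.natDegree) :
    Tendsto (fun x : ℝ =>
      (((Finset.Ioc 0 ⌊x⌋₊).filter fun n : ℕ => ∃ a : ℤ, (n : ℤ) ∣ f.eval a).card : ℝ) / x)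
      atTop (𝓝 0) := by
  refine tendsto_zero_of_fixRoot (by omega) fun h => ?_
  have h1 := fixRoot_le hirr h2
  have hG : (0 : ℝ) < Nat.card (fQ f).Gal := by exact_mod_cast Nat.card_pos
  rw [Nat.card_coe_set_eq, h, Set.ncard_univ, div_self hG.ne'] at h1
  have h3 : (0 : ℝ) < 1 / f.natDegree := by
    have : (0 : ℝ) < f.natDegree := by
      have : 0 < f.natDegree := by omega
      exact_mod_cast this
    positivity
  linarith

end Fermat.Agent.Cor.Artin

end
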