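import Fermat.Agent.Corollaries.Artin.RootMod

/-!
# Normal and cyclotomic polynomials modulo integers

`card_root_normal`: `f ∈ ℤ[X]` irreducible of degree `k` with a Galois group of order `k`: the
primes modulo which `f` has a root have natural density `1 / k`, and
`#{n ≤ x : f has a root modulo n} ~ C x (log x) ^ (1 / k - 1)`, `C > 0`.
`card_root_cyclotomic`: the cyclotomic polynomial `Φ_m`, with `k = φ(m)`.
-/

set_option autoImplicit false

noncomputable section

open Filter Topology Polynomial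

namespace Fermat.Agent.Cor.Artin

local notation "Ω" => AlgebraicClosure ℚ

attribute [local instance] fact_splits

variable {f : ℤ[X]}

/-- If the Galois group acts simply transitively, only `1` has a fixed root. -/
theorem fixRoot_normal (hirr : Irreducible (fQ f)) (hd : 0 < f.natDegree)
    (hG : Nat.card (fQ f).Gal = f.natDegree) : fixRoot f = {1} := by
  classical
  have hpre := Gal.galAction_isPretransitive (fQ f) Ω hirr
  refine Set.eq_singleton_iff_unique_mem.mpr ⟨one_mem_fixRoot hd, ?_⟩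
  rintro g ⟨y, hy⟩
  have h3 := MulAction.index_stabilizer_of_transitive (fQ f).Gal y
  have h4 := (MulAction.stabilizer (fQ f).Gal y).card_mul_index
  rw [h3, card_rootSet_fQ hirr, hG] at h4
  have h5 : Nat.card (MulAction.stabilizer (fQ f).Gal y) = 1 :=
    Nat.eq_of_mul_eq_mul_right hd (by rw [h4, one_mul])
  have h6 := (Subgroup.card_eq_one.mp h5)
  have h7 : g ∈ MulAction.stabilizer (fQ f).Gal y := hy
  rw [h6] at h7
  exact Subgroup.mem_bot.mp h7

open scoped Classical in
/-- **Normal polynomials modulo integers.** -/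
theorem card_root_normal (hirr : Irreducible (fQ f)) (hd : 0 < f.natDegree)
    (hG : Nat.card (fQ f).Gal = f.natDegree) :
    HasNaturalDensity {p | ∃ a : ℤ, (p : ℤ) ∣ f.eval a} (1 / (f.natDegree : ℝ)) ∧
    ∃ C : ℝ, 0 < C ∧ Tendsto (fun x : ℝ =>
      (((Finset.Ioc 0 ⌊x⌋₊).filter fun n : ℕ => ∃ a : ℤ, (n : ℤ) ∣ f.eval a).card : ℝ) *
        Real.log x ^ (1 - 1 / (f.natDegree : ℝ)) / x) atTop (𝓝 C) := by
  have h1 := card_root hd
  have h2 : Nat.card (fixRoot f) = 1 := by
    rw [fixRoot_normal hirr hd hG, Nat.card_coe_set_eq, Set.ncard_singleton]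
  rw [h2, hG, Nat.cast_one] at h1
  exact h1

open scoped Classical in
/-- **Cyclotomic polynomials modulo integers**: the primes `p` such that `Φ_m` has a root modulo
`p` have natural density `1 / φ(m)`, and
`#{n ≤ x : Φ_m has a root modulo n} ~ C x (log x) ^ (1 / φ(m) - 1)`, `C > 0`. -/
theorem card_root_cyclotomic {m : ℕ} (hm : 0 < m) :
    HasNaturalDensity {p | ∃ a : ℤ, (p : ℤ) ∣ (cyclotomic m ℤ).eval a} (1 / (m.totient : ℝ)) ∧
    ∃ C : ℝ, 0 < C ∧ Tendsto (fun x : ℝ =>
      (((Finset.Ioc 0 ⌊x⌋₊).filter fun n : ℕ =>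
        ∃ a : ℤ, (n : ℤ) ∣ (cyclotomic m ℤ).eval a).card : ℝ) *
        Real.log x ^ (1 - 1 / (m.totient : ℝ)) / x) atTop (𝓝 C) := by
  have : NeZero m := ⟨hm.ne'⟩
  have : NeZero ((m : ℕ) : ℚ) := ⟨by exact_mod_cast hm.ne'⟩
  have hcyc : IsCyclotomicExtension {m} ℚ (CyclotomicField m ℚ) :=
    CyclotomicField.isCyclotomicExtension m ℚ
  have h1 : fQ (cyclotomic m ℤ) = cyclotomic m ℚ := map_cyclotomic m (algebraMap ℤ ℚ)
  have hirr0 : Irreducible (cyclotomic m ℚ) := cyclotomic.irreducible_rat hm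
  have hirr : Irreducible (fQ (cyclotomic m ℤ)) := by rwa [h1]
  have hdeg : (cyclotomic m ℤ).natDegree = m.totient := natDegree_cyclotomic m ℤ
  have hd : 0 < (cyclotomic m ℤ).natDegree := by
    rw [hdeg]
    exact Nat.totient_pos.mpr hm
  have hG : Nat.card (fQ (cyclotomic m ℤ)).Gal = (cyclotomic m ℤ).natDegree := by
    rw [hdeg, h1, Nat.card_congr (galCyclotomicEquivUnitsZMod
      (L := CyclotomicField m ℚ) hirr0).toEquiv, Nat.card_eq_fintype_card,
      ZMod.card_units_eq_totient]
  have h2 := card_root_normal hirr hd hG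
  rw [hdeg] at h2
  exact h2

end Fermat.Agent.Cor.Artin

end
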