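import Fermat.Agent.Corollaries.Artin.ClassLog
import Fermat.Agent.Minkowski.Inertia
import Fermat.Agent.Corollaries.ZetaK.Jordan

/-!
# The integers modulo which a polynomial has a root

`f ∈ ℤ[X]` of positive degree, `δ` the proportion of the elements of the Galois group of `f` which
fix a root of `f` in `ℚ̄`.

* `density_root`: the primes `p` such that `f` has a root modulo `p` have natural density `δ`;
* `card_root`: `#{n ≤ x : f has a root modulo n} ~ C x (log x) ^ (δ - 1)`, `C > 0`.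
-/

set_option autoImplicit false

noncomputable section

open Filter Topology Polynomial

namespace Fermat.Agent.Cor.Artin

local notation "Ω" => AlgebraicClosure ℚ
local notation "Γℚ" => (AlgebraicClosure ℚ ≃ₐ[ℚ] AlgebraicClosure ℚ)

section Val

variable {A : ValuationSubring Ω} {p : ℕ}

theorem mem_of_integral (A : ValuationSubring Ω) {y : Ω} (hy : IsIntegral ℤ y) : y ∈ A := by
  have h1 : IsIntegral A y := hy.tower_top
  obtain ⟨z, hz⟩ := (IsIntegrallyClosed.isIntegral_iff (K := Ω)).mp h1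
  rw [← hz]
  exact z.2

theorem int_mem (A : ValuationSubring Ω) (a : ℤ) : (a : Ω) ∈ A := intCast_mem A a

theorem aeval_mem {A : ValuationSubring Ω} {y : Ω} (hy : y ∈ A) (Q : ℤ[X]) : aeval y Q ∈ A := by
  have h1 : aeval y Q = algebraMap A Ω (aeval (⟨y, hy⟩ : A) Q) :=
    aeval_algebraMap_apply Ω (⟨y, hy⟩ : A) Q
  rw [h1]
  exact (aeval (⟨y, hy⟩ : A) Q).2

theorem mul_mem_nonunits {x y : Ω} (hx : x ∈ A.nonunits) (hy : y ∈ A) : x * y ∈ A.nonunits := by
  rw [ValuationSubring.mem_nonunits_iff] at hx ⊢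
  rw [map_mul]
  exact mul_lt_one_of_lt_of_le hx ((A.valuation_le_one_iff y).mpr hy)

theorem add_mem_nonunits {x y : Ω} (hx : x ∈ A.nonunits) (hy : y ∈ A.nonunits) :
    x + y ∈ A.nonunits := by
  rw [ValuationSubring.mem_nonunits_iff] at hx hy ⊢
  exact A.valuation.map_add_lt hx hy

theorem neg_mem_nonunits {x : Ω} (hx : x ∈ A.nonunits) : -x ∈ A.nonunits := by
  rw [ValuationSubring.mem_nonunits_iff] at hx ⊢
  rwa [Valuation.map_neg]

theorem one_notMem_nonunits : (1 : Ω) ∉ A.nonunits := by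
  rw [ValuationSubring.mem_nonunits_iff, map_one]
  exact lt_irrefl _

/-- An integer in the maximal ideal is divisible by `p`. -/
theorem intCast_mem_nonunits (hp : p.Prime) (hA : A.LiesOverPrime p) {a : ℤ} :
    (a : Ω) ∈ A.nonunits ↔ (p : ℤ) ∣ a := by
  constructor
  · intro ha
    by_contra hd
    have h1 : IsCoprime (p : ℤ) a :=
      (Nat.prime_iff_prime_int.mp hp).coprime_iff_not_dvd.mpr hd
    obtain ⟨u, v, huv⟩ := h1
    have h2 : (1 : Ω) = (p : Ω) * (u : Ω) + (a : Ω) * (v : Ω) := by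
      have := congrArg (fun z : ℤ => (z : Ω)) huv
      push_cast at this
      rw [← this]
      ring
    refine one_notMem_nonunits (A := A) ?_
    rw [h2]
    exact add_mem_nonunits (mul_mem_nonunits hA (int_mem A u))
      (mul_mem_nonunits ha (int_mem A v))
  · rintro ⟨c, rfl⟩
    have h1 : (((p : ℤ) * c : ℤ) : Ω) = (p : Ω) * (c : Ω) := by push_cast; rfl
    rw [h1]
    exact mul_mem_nonunits hA (int_mem A c)

/-- A nonzero algebraic integer is in the maximal ideal only above finitely many primes. -/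
theorem exists_finset_of_integral {z : Ω} (hz : IsIntegral ℤ z) (h0 : z ≠ 0) :
    ∃ B : Finset ℕ, ∀ p : ℕ, p.Prime → p ∉ B → ∀ A : ValuationSubring Ω, A.LiesOverPrime p →
      z ∉ A.nonunits := by
  classical
  set P := minpoly ℤ z with hP
  have hc : P.coeff 0 ≠ 0 := by
    intro h
    have h1 : X ∣ P := X_dvd_iff.mpr h
    have h2 : Irreducible P := minpoly.irreducible hz
    have h3 : P = X := by
      refine eq_of_monic_of_associated (minpoly.monic hz) monic_X ?_
      exact (irreducible_X.associated_of_dvd h2 h1).symm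
    have h4 : aeval z P = 0 := minpoly.aeval ℤ z
    rw [h3, aeval_X] at h4
    exact h0 h4
  refine ⟨(P.coeff 0).natAbs.primeFactors, fun p hp hpB A hA hzA => hpB ?_⟩
  have h1 : aeval z P = 0 := minpoly.aeval ℤ z
  have h2 : (P.coeff 0 : Ω) = -(z * aeval z P.divX) := by
    have h3 := congrArg (aeval z) (divX_mul_X_add P)
    rw [h1, map_add, map_mul, aeval_X, aeval_C, eq_intCast] at h3
    linear_combination h3
  have h3 : aeval z P.divX ∈ A := aeval_mem (mem_of_integral A hz) _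
  have h4 : (P.coeff 0 : Ω) ∈ A.nonunits := by
    rw [h2]
    exact neg_mem_nonunits (mul_mem_nonunits hzA h3)
  have h5 := (intCast_mem_nonunits hp hA).mp h4
  exact Nat.mem_primeFactors.mpr ⟨hp, Int.natCast_dvd.mp h5, Int.natAbs_ne_zero.mpr hc⟩

end Val

section Roots

variable {f : ℤ[X]} {p : ℕ} {A : ValuationSubring Ω}

theorem val_leadingCoeff (hp : p.Prime) (hA : A.LiesOverPrime p)
    (hl : ¬ (p : ℤ) ∣ f.leadingCoeff) : A.valuation (f.leadingCoeff : Ω) = 1 := by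
  have h1 := (intCast_mem_nonunits hp hA (a := f.leadingCoeff)).not.mpr hl
  rw [ValuationSubring.mem_nonunits_iff, not_lt] at h1
  exact le_antisymm ((A.valuation_le_one_iff _).mpr (int_mem A _)) h1

/-- The roots are integral above the primes which do not divide the leading coefficient. -/
theorem root_mem (hp : p.Prime) (hA : A.LiesOverPrime p) (hl : ¬ (p : ℤ) ∣ f.leadingCoeff)
    {y : Ω} (hy : aeval y f = 0) : y ∈ A := by
  have h1 := mem_of_integral A (isIntegral_leadingCoeff_smul f y hy)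
  rw [← A.valuation_le_one_iff, zsmul_eq_mul, map_mul, val_leadingCoeff hp hA hl, one_mul,
    A.valuation_le_one_iff] at h1
  exact h1

/-- Outside a finite set of primes, different roots have different reductions. -/
theorem exists_bad (hf : f ≠ 0) : ∃ B : Finset ℕ, ∀ p : ℕ, p.Prime → p ∉ B →
    ¬ (p : ℤ) ∣ f.leadingCoeff ∧
    ∀ A : ValuationSubring Ω, A.LiesOverPrime p → ∀ y y' : Ω, aeval y f = 0 → aeval y' f = 0 →
      y - y' ∈ A.nonunits → y = y' := by
  classical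
  set R : Finset Ω := (f.aroots Ω).toFinset with hR
  have hmem : ∀ y : Ω, aeval y f = 0 → y ∈ R := fun y hy => by
    rw [hR, Multiset.mem_toFinset, mem_aroots]
    exact ⟨hf, hy⟩
  have hmem' : ∀ y ∈ R, aeval y f = 0 := fun y hy => by
    rw [hR, Multiset.mem_toFinset, mem_aroots] at hy
    exact hy.2
  have hl : (f.leadingCoeff : Ω) ≠ 0 := by
    rw [Int.cast_ne_zero]
    exact leadingCoeff_ne_zero.mpr hf
  have h1 : ∀ q : Ω × Ω, ∃ B : Finset ℕ, q ∈ R ×ˢ R → q.1 ≠ q.2 → ∀ p : ℕ, p.Prime → p ∉ B →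
      ∀ A : ValuationSubring Ω, A.LiesOverPrime p →
        f.leadingCoeff • (q.1 - q.2) ∉ A.nonunits := by
    intro q
    by_cases hq : q ∈ R ×ˢ R ∧ q.1 ≠ q.2
    · have h2 := Finset.mem_product.mp hq.1
      have h3 : IsIntegral ℤ (f.leadingCoeff • (q.1 - q.2)) := by
        rw [smul_sub]
        exact (isIntegral_leadingCoeff_smul f _ (hmem' _ h2.1)).sub
          (isIntegral_leadingCoeff_smul f _ (hmem' _ h2.2))
      have h4 : f.leadingCoeff • (q.1 - q.2) ≠ 0 := by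
        rw [zsmul_eq_mul]
        exact mul_ne_zero hl (sub_ne_zero.mpr hq.2)
      obtain ⟨B, hB⟩ := exists_finset_of_integral h3 h4
      exact ⟨B, fun _ _ => hB⟩
    · exact ⟨∅, fun h h' => absurd ⟨h, h'⟩ hq⟩
  choose B hB using h1
  refine ⟨f.leadingCoeff.natAbs.primeFactors ∪ (R ×ˢ R).biUnion B, fun p hp hpB => ?_⟩
  rw [Finset.mem_union, not_or] at hpB
  have hlp : ¬ (p : ℤ) ∣ f.leadingCoeff := fun h => hpB.1
    (Nat.mem_primeFactors.mpr ⟨hp, Int.natCast_dvd.mp h,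
      Int.natAbs_ne_zero.mpr (leadingCoeff_ne_zero.mpr hf)⟩)
  refine ⟨hlp, fun A hA y y' hy hy' hyy => ?_⟩
  by_contra hne
  have h2 : (y, y') ∈ R ×ˢ R := Finset.mem_product.mpr ⟨hmem _ hy, hmem _ hy'⟩
  refine hB (y, y') h2 hne p hp (fun h => hpB.2 (Finset.mem_biUnion.mpr ⟨_, h2, h⟩)) A hA ?_
  rw [zsmul_eq_mul, mul_comm]
  exact mul_mem_nonunits hyy (int_mem A _)

/-- A root modulo `p` is congruent to a root in `ℚ̄`. -/
theorem exists_root_congr (hf : f ≠ 0) (hp : p.Prime) (hA : A.LiesOverPrime p)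
    (hl : ¬ (p : ℤ) ∣ f.leadingCoeff) {a : ℤ} (ha : (p : ℤ) ∣ f.eval a) :
    ∃ y : Ω, aeval y f = 0 ∧ (a : Ω) - y ∈ A.nonunits := by
  by_contra hcon
  push Not at hcon
  have hs : (f.map (algebraMap ℤ Ω)).Splits := IsAlgClosed.splits _
  have h1 : ((f.eval a : ℤ) : Ω) = f.leadingCoeff *
      ((f.aroots Ω).map fun y => (a : Ω) - y).prod := by
    have h2 := hs.eval_eq_prod_roots (a : Ω)
    rw [leadingCoeff_map_of_injective (algebraMap ℤ Ω).injective_int, eq_intCast] at h2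
    rw [aroots, ← h2, eval_map_algebraMap]
    rw [← eq_intCast (algebraMap ℤ Ω) a, aeval_algebraMap_apply, eq_intCast]
    simp
  have h2 := (intCast_mem_nonunits hp hA).mpr ha
  rw [h1, ValuationSubring.mem_nonunits_iff, map_mul, val_leadingCoeff hp hA hl, one_mul,
    map_multiset_prod, Multiset.map_map] at h2
  refine absurd h2 (not_lt.mpr (le_of_eq (Eq.symm ?_)))
  refine Multiset.prod_eq_one fun v hv => ?_
  obtain ⟨y, hy, rfl⟩ := Multiset.mem_map.mp hv
  have hy0 : aeval y f = 0 := (mem_aroots.mp hy).2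
  have h3 := hcon y hy0
  rw [ValuationSubring.mem_nonunits_iff, not_lt] at h3
  exact le_antisymm ((A.valuation_le_one_iff _).mpr
    (sub_mem (int_mem A a) (root_mem hp hA hl hy0))) h3

open Fermat.Agent.Frob in
/-- **Roots modulo `p` and Frobenius.** -/
theorem exists_root_iff (hf : f ≠ 0) (hp : p.Prime) (hA : A.LiesOverPrime p)
    (hl : ¬ (p : ℤ) ∣ f.leadingCoeff)
    (hbad : ∀ y y' : Ω, aeval y f = 0 → aeval y' f = 0 → y - y' ∈ A.nonunits → y = y')
    {σ : Γℚ} (hσ : A.IsFrobeniusAt σ p) :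
    (∃ a : ℤ, (p : ℤ) ∣ f.eval a) ↔ ∃ y : Ω, aeval y f = 0 ∧ σ y = y := by
  have hF := (Fermat.Agent.FrobDensity.isFrobeniusAt_iff.mp hσ).2
  have hσf : ∀ y : Ω, aeval y f = 0 → aeval (σ y) f = 0 := by
    intro y hy
    have h1 : aeval (σ y) f = σ (aeval y f) :=
      aeval_algHom_apply (σ.toAlgHom.restrictScalars ℤ) y f
    rw [h1, hy, map_zero]
  constructor
  · rintro ⟨a, ha⟩
    obtain ⟨y, hy, hay⟩ := exists_root_congr hf hp hA hl ha
    have hyA := root_mem hp hA hl hy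
    refine ⟨y, hy, hbad _ _ (hσf y hy) hy ?_⟩
    have h1 := hF y hyA
    -- `y ^ p - a ^ p`
    have h2 : (a : Ω) ^ p - y ^ p ∈ A.nonunits := by
      obtain ⟨c, hc⟩ := sub_dvd_pow_sub_pow (⟨(a : Ω), int_mem A a⟩ : A) (⟨y, hyA⟩ : A) p
      have h3 := congrArg (fun z : A => (z : Ω)) hc
      simp only [MulMemClass.coe_mul, AddSubgroupClass.coe_sub, SubmonoidClass.coe_pow] at h3
      rw [h3]
      exact mul_mem_nonunits hay c.2
    have h3 : (a : Ω) ^ p - a ∈ A.nonunits := by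
      have h4 : (p : ℤ) ∣ a ^ p - a := by
        have : Fact p.Prime := ⟨hp⟩
        rw [← ZMod.intCast_zmod_eq_zero_iff_dvd]
        push_cast
        rw [ZMod.pow_card, sub_self]
      have h5 := (intCast_mem_nonunits hp hA).mpr h4
      push_cast at h5
      exact h5
    have h4 : σ y - y = (σ y - y ^ p) + -((a : Ω) ^ p - y ^ p) + ((a : Ω) ^ p - a) +
        ((a : Ω) - y) := by ring
    rw [h4]
    exact add_mem_nonunits (add_mem_nonunits (add_mem_nonunits h1 (neg_mem_nonunits h2)) h3) hay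
  · rintro ⟨y, hy, hσy⟩
    have hyA := root_mem hp hA hl hy
    have h1 := hF y hyA
    rw [hσy] at h1
    have : Fact p.Prime := ⟨hp⟩
    have hc : CharP (IsLocalRing.ResidueField A) p := Fermat.Agent.FrobDensity.charP_residue hp hA
    let φ : ZMod p →+* IsLocalRing.ResidueField A := ZMod.castHom dvd_rfl _
    have h2 : (IsLocalRing.residue A ⟨y, hyA⟩) ^ Nat.card (ZMod p) =
        IsLocalRing.residue A ⟨y, hyA⟩ := by
      rw [Nat.card_zmod, ← map_pow, ← sub_eq_zero, ← map_sub, IsLocalRing.residue_eq_zero_iff,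
        A.valuation_lt_one_iff, ← ValuationSubring.mem_nonunits_iff]
      have h3 := neg_mem_nonunits h1
      rw [neg_sub] at h3
      exact h3
    obtain ⟨x, hx⟩ := Fermat.Agent.LT.Tower.Fr.exists_eq_of_pow_card φ h2
    obtain ⟨a, rfl⟩ := ZMod.intCast_surjective x
    refine ⟨a, ?_⟩
    rw [map_intCast] at hx
    have h3 : (a : Ω) - y ∈ A.nonunits := by
      have h4 : IsLocalRing.residue A ((a : A) - ⟨y, hyA⟩) = 0 := by
        rw [map_sub, map_intCast, hx, sub_self]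
      rw [IsLocalRing.residue_eq_zero_iff, A.valuation_lt_one_iff,
        ← ValuationSubring.mem_nonunits_iff] at h4
      have h5 : (((a : A) - ⟨y, hyA⟩ : A) : Ω) = (a : Ω) - y := by
        push_cast
        rfl
      rwa [h5] at h4
    rw [← intCast_mem_nonunits hp hA]
    let f' : A[X] := f.map (algebraMap ℤ A)
    obtain ⟨c, hc'⟩ := sub_dvd_eval_sub (a : A) (⟨y, hyA⟩ : A) f'
    have h6 := congrArg (fun z : A => (z : Ω)) hc'
    have h7 : ((f'.eval (⟨y, hyA⟩ : A) : A) : Ω) = 0 := by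
      have h8 : f'.eval (⟨y, hyA⟩ : A) = aeval (⟨y, hyA⟩ : A) f := by
        rw [eval_map_algebraMap]
      rw [h8]
      exact (aeval_algebraMap_apply Ω (⟨y, hyA⟩ : A) f).symm.trans hy
    have h8 : ((f'.eval (a : A) : A) : Ω) = ((f.eval a : ℤ) : Ω) := by
      have h9 : f'.eval (a : A) = ((f.eval a : ℤ) : A) := by
        have := eval_intCast_map (algebraMap ℤ A) f a
        rw [eq_intCast] at this
        exact this
      rw [h9]
      push_cast
      rfl
    simp only [MulMemClass.coe_mul, AddSubgroupClass.coe_sub] at h6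
    rw [h7, h8, sub_zero] at h6
    rw [h6]
    have h9 : ((a : A) : Ω) - y = (a : Ω) - y := by push_cast; rfl
    rw [h9]
    exact mul_mem_nonunits h3 c.2

end Roots

section Gal

/-- `f` over `ℚ` -/
abbrev fQ (f : ℤ[X]) : ℚ[X] := f.map (algebraMap ℤ ℚ)

theorem fact_splits (f : ℤ[X]) : Fact ((fQ f).map (algebraMap ℚ Ω)).Splits :=
  ⟨IsAlgClosed.splits _⟩

attribute [local instance] fact_splits

/-- the elements of the Galois group of `f` which fix a root of `f` in `ℚ̄` -/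
def fixRoot (f : ℤ[X]) : Set (fQ f).Gal := {g | ∃ y : (fQ f).rootSet Ω, g • y = y}

variable {f : ℤ[X]}

theorem aeval_fQ (f : ℤ[X]) (y : Ω) : aeval y (fQ f) = aeval y f := aeval_map_algebraMap ℚ y f

theorem fQ_ne_zero (hf : f ≠ 0) : fQ f ≠ 0 :=
  (Polynomial.map_ne_zero_iff (algebraMap ℤ ℚ).injective_int).mpr hf

theorem mem_rootSet_fQ (hf : f ≠ 0) {y : Ω} : y ∈ (fQ f).rootSet Ω ↔ aeval y f = 0 := by
  rw [mem_rootSet, aeval_fQ, and_iff_right (fQ_ne_zero hf)]

theorem restrict_mem_fixRoot (hf : f ≠ 0) (σ : Γℚ) :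
    Gal.restrict (fQ f) Ω σ ∈ fixRoot f ↔ ∃ y : Ω, aeval y f = 0 ∧ σ y = y := by
  constructor
  · rintro ⟨y, hy⟩
    refine ⟨y, (mem_rootSet_fQ hf).mp y.2, ?_⟩
    rw [← Gal.restrict_smul, hy]
  · rintro ⟨y, hy, hσ⟩
    refine ⟨⟨y, (mem_rootSet_fQ hf).mpr hy⟩, Subtype.ext ?_⟩
    rw [Gal.restrict_smul]
    exact hσ

theorem restrict_eq_one (hf : f ≠ 0) {σ : Γℚ} (h : ∀ y : Ω, aeval y f = 0 → σ y = y) :
    Gal.restrict (fQ f) Ω σ = 1 := by
  apply Gal.galActionHom_injective (fQ f) Ω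
  rw [map_one]
  ext y
  rw [Gal.galActionHom_restrict, Equiv.Perm.coe_one, id]
  exact h y ((mem_rootSet_fQ hf).mp y.2)

theorem restrict_level (hf : f ≠ 0) :
    GaloisFactorsThroughFiniteLevel (Gal.restrict (fQ f) Ω) := by
  refine ⟨IntermediateField.adjoin ℚ ((fQ f).rootSet Ω), ?_, fun σ hσ => ?_⟩
  · have h1 : Finite ((fQ f).rootSet Ω) := (rootSet_finite (fQ f) Ω).to_subtype
    exact IntermediateField.finiteDimensional_adjoin fun x _ =>
      (Algebra.IsAlgebraic.isAlgebraic (R := ℚ) x).isIntegral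
  · exact restrict_eq_one hf fun y hy => hσ y
      (IntermediateField.subset_adjoin ℚ _ ((mem_rootSet_fQ hf).mpr hy))

theorem fixRoot_conj {g : (fQ f).Gal} (x : (fQ f).Gal) (h : g ∈ fixRoot f) :
    x * g * x⁻¹ ∈ fixRoot f := by
  obtain ⟨y, hy⟩ := h
  refine ⟨x • y, ?_⟩
  rw [mul_smul, inv_smul_smul, mul_smul, hy]

theorem fixRoot_conj_iff (g x : (fQ f).Gal) : x * g * x⁻¹ ∈ fixRoot f ↔ g ∈ fixRoot f := by
  refine ⟨fun h => ?_, fixRoot_conj x⟩
  have h1 := fixRoot_conj x⁻¹ h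
  rwa [show x⁻¹ * (x * g * x⁻¹) * x⁻¹⁻¹ = g by group] at h1

theorem fixRoot_of_zpowers {g h : (fQ f).Gal} (hgh : Subgroup.zpowers g = Subgroup.zpowers h)
    (hg : g ∈ fixRoot f) : h ∈ fixRoot f := by
  obtain ⟨y, hy⟩ := hg
  refine ⟨y, ?_⟩
  have h1 : Subgroup.zpowers g ≤ MulAction.stabilizer (fQ f).Gal y := by
    rw [Subgroup.zpowers_le]
    exact hy
  have h2 : h ∈ Subgroup.zpowers g := by
    rw [hgh]
    exact Subgroup.mem_zpowers h
  exact h1 h2

theorem one_mem_fixRoot (hd : 0 < f.natDegree) : (1 : (fQ f).Gal) ∈ fixRoot f := by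
  have hf : f ≠ 0 := by
    rintro rfl
    simp at hd
  have h1 : (f.map (algebraMap ℤ Ω)).degree ≠ 0 := by
    rw [degree_map_eq_of_injective (algebraMap ℤ Ω).injective_int]
    exact (natDegree_pos_iff_degree_pos.mp hd).ne'
  obtain ⟨y, hy⟩ := IsAlgClosed.exists_root _ h1
  rw [IsRoot.def, eval_map_algebraMap] at hy
  exact ⟨⟨y, (mem_rootSet_fQ hf).mpr hy⟩, one_smul _ _⟩

/-- The Chinese remainder theorem. -/
theorem exists_dvd_eval_mul {m n : ℕ} (h : m.Coprime n) :
    (∃ a : ℤ, ((m * n : ℕ) : ℤ) ∣ f.eval a) ↔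
      (∃ a : ℤ, (m : ℤ) ∣ f.eval a) ∧ ∃ a : ℤ, (n : ℤ) ∣ f.eval a := by
  constructor
  · rintro ⟨a, ha⟩
    rw [Nat.cast_mul] at ha
    exact ⟨⟨a, (dvd_mul_right _ _).trans ha⟩, ⟨a, (dvd_mul_left _ _).trans ha⟩⟩
  · rintro ⟨⟨a, ha⟩, ⟨b, hb⟩⟩
    obtain ⟨u, v, huv⟩ := Nat.isCoprime_iff_coprime.mpr h
    have key : ∀ (k : ℤ) (c d : ℤ), k ∣ c - d → k ∣ f.eval d → k ∣ f.eval c := by
      intro k c d h1 h2
      have h3 := h1.trans (sub_dvd_eval_sub c d f)
      have h4 := dvd_add h3 h2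
      rwa [sub_add_cancel] at h4
    refine ⟨a * (v * n) + b * (u * m), ?_⟩
    rw [Nat.cast_mul]
    refine (Nat.isCoprime_iff_coprime.mpr h).mul_dvd (key _ _ a ⟨(b - a) * u, ?_⟩ ha)
      (key _ _ b ⟨(a - b) * v, ?_⟩ hb)
    · linear_combination a * huv
    · linear_combination b * huv

open scoped Classical in
/-- **The integers modulo which a polynomial has a root.** `f ∈ ℤ[X]` of positive degree, `δ` the
proportion of the elements of the Galois group of `f` which fix a root of `f`: the primes `p` such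
that `f` has a root modulo `p` have natural density `δ`, and
`#{n ≤ x : f has a root modulo n} ~ C x (log x) ^ (δ - 1)`, `C > 0`. -/
theorem card_root (hd : 0 < f.natDegree) :
    HasNaturalDensity {p | ∃ a : ℤ, (p : ℤ) ∣ f.eval a}
      ((Nat.card (fixRoot f) : ℝ) / Nat.card (fQ f).Gal) ∧
    ∃ C : ℝ, 0 < C ∧ Tendsto (fun x : ℝ =>
      (((Finset.Ioc 0 ⌊x⌋₊).filter fun n : ℕ => ∃ a : ℤ, (n : ℤ) ∣ f.eval a).card : ℝ) *
        Real.log x ^ (1 - (Nat.card (fixRoot f) : ℝ) / Nat.card (fQ f).Gal) / x)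
      atTop (𝓝 C) := by
  have hf : f ≠ 0 := by
    rintro rfl
    simp at hd
  obtain ⟨B, hB⟩ := exists_bad hf
  refine card_frobenian (S := {n : ℕ | ∃ a : ℤ, (n : ℤ) ∣ f.eval a}) (T := fixRoot f)
    (Gal.restrict (fQ f) Ω) (Gal.restrict_surjective (fQ f) Ω) (restrict_level hf)
    (one_mem_fixRoot hd) fixRoot_conj_iff
    (fun g h hgh => ⟨fixRoot_of_zpowers hgh, fixRoot_of_zpowers hgh.symm⟩) B ?_ ?_ ?_ ?_
  · intro p hp hpB A hA σ hσ
    obtain ⟨hl, hbad⟩ := hB p hp hpB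
    refine restrict_eq_one hf fun y hy => ?_
    have h1 := (Fermat.Agent.Minkowski.sub_mem_nonunits_of_mem_inertia hσ
      (root_mem hp hA hl hy)).2
    refine hbad A hA _ _ ?_ hy h1
    have h2 : aeval (σ y) f = σ (aeval y f) :=
      aeval_algHom_apply (σ.toAlgHom.restrictScalars ℤ) y f
    rw [h2, hy, map_zero]
  · exact ⟨0, by rw [Nat.cast_one]; exact one_dvd _⟩
  · intro m n hmn
    exact exists_dvd_eval_mul hmn
  · intro p hp hpB A hA σ hσ
    obtain ⟨hl, hbad⟩ := hB p hp hpB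
    rw [restrict_mem_fixRoot hf]
    exact exists_root_iff hf hp hA hl (hbad A hA) hσ

/-! ### Irreducible polynomials -/

theorem card_rootSet_fQ (hirr : Irreducible (fQ f)) :
    Nat.card ((fQ f).rootSet Ω) = f.natDegree := by
  classical
  rw [Nat.card_eq_fintype_card, card_rootSet_eq_natDegree hirr.separable
    (IsAlgClosed.splits _), natDegree_map_eq_of_injective (algebraMap ℤ ℚ).injective_int]

/-- **Jordan**: `δ ≤ 1 - 1 / n` for an irreducible polynomial of degree `n ≥ 2`. -/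
theorem fixRoot_le (hirr : Irreducible (fQ f)) (h2 : 2 ≤ f.natDegree) :
    (Nat.card (fixRoot f) : ℝ) / Nat.card (fQ f).Gal ≤ 1 - 1 / f.natDegree := by
  classical
  have hpre := Gal.galAction_isPretransitive (fQ f) Ω hirr
  have h1 := Frob.card_le_fixedPointFree (G := (fQ f).Gal) (X := (fQ f).rootSet Ω)
    ((card_rootSet_fQ hirr).symm ▸ h2)
  rw [card_rootSet_fQ hirr] at h1
  have h3 : Nat.card (fixRoot f) +
      Nat.card {g : (fQ f).Gal // ∀ x : (fQ f).rootSet Ω, g • x ≠ x} = Nat.card (fQ f).Gal := by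
    have h4 : Nat.card {g : (fQ f).Gal // ∀ x : (fQ f).rootSet Ω, g • x ≠ x} =
        Nat.card ((fixRoot f)ᶜ : Set (fQ f).Gal) := by
      refine Nat.card_congr (Equiv.subtypeEquivRight fun g => ?_)
      rw [Set.mem_compl_iff, fixRoot, Set.mem_setOf_eq, not_exists]
    rw [h4, Nat.card_coe_set_eq, Nat.card_coe_set_eq, Set.ncard_add_ncard_compl]
  have hG : (0 : ℝ) < Nat.card (fQ f).Gal := by exact_mod_cast Nat.card_pos
  have hn : (0 : ℝ) < f.natDegree := by
    have : 0 < f.natDegree := by omega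
    exact_mod_cast this
  have h5 : (Nat.card (fixRoot f) : ℝ) +
      Nat.card {g : (fQ f).Gal // ∀ x : (fQ f).rootSet Ω, g • x ≠ x} =
      Nat.card (fQ f).Gal := by exact_mod_cast h3
  have h6 : (Nat.card (fQ f).Gal : ℝ) ≤ f.natDegree *
      Nat.card {g : (fQ f).Gal // ∀ x : (fQ f).rootSet Ω, g • x ≠ x} := by exact_mod_cast h1
  rw [div_le_iff₀ hG, sub_mul, one_mul, div_mul_eq_mul_div, one_mul, le_sub_iff_add_le,
    ← h5, add_le_add_iff_left, div_le_iff₀ hn, h5, mul_comm]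
  exact h6

/-- `1 / n ≤ δ` for an irreducible polynomial of degree `n`. -/
theorem le_fixRoot (hirr : Irreducible (fQ f)) (h2 : 0 < f.natDegree) :
    1 / (f.natDegree : ℝ) ≤ (Nat.card (fixRoot f) : ℝ) / Nat.card (fQ f).Gal := by
  classical
  have hpre := Gal.galAction_isPretransitive (fQ f) Ω hirr
  have hG : (0 : ℝ) < Nat.card (fQ f).Gal := by exact_mod_cast Nat.card_pos
  have hn : (0 : ℝ) < f.natDegree := by exact_mod_cast h2
  obtain ⟨y, -⟩ := one_mem_fixRoot (f := f) h2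
  have h3 := MulAction.index_stabilizer_of_transitive (fQ f).Gal y
  have h4 := (MulAction.stabilizer (fQ f).Gal y).card_mul_index
  have h5 : (MulAction.stabilizer (fQ f).Gal y).index = f.natDegree := by
    rw [h3, card_rootSet_fQ hirr]
  have h6 : Nat.card (MulAction.stabilizer (fQ f).Gal y) ≤ Nat.card (fixRoot f) := by
    refine Nat.card_mono (Set.toFinite _) ?_
    intro g hg
    exact ⟨y, hg⟩
  rw [h5] at h4
  have h7 : (Nat.card (fQ f).Gal : ℝ) ≤ Nat.card (fixRoot f) * f.natDegree := by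
    rw [← h4]
    push_cast
    exact mul_le_mul_of_nonneg_right (by exact_mod_cast h6) hn.le
  rw [div_le_div_iff₀ hn hG, one_mul]
  exact h7

open scoped Classical in
/-- `f ∈ ℤ[X]` irreducible over `ℚ` of degree `n ≥ 2`:
`#{m ≤ x : f has a root modulo m} ~ C x / (log x) ^ α` with `C > 0`, `1 / n ≤ α ≤ 1 - 1 / n`. -/
theorem card_root_irreducible (hirr : Irreducible (fQ f)) (h2 : 2 ≤ f.natDegree) :
    ∃ α : ℚ, 1 / (f.natDegree : ℝ) ≤ α ∧ (α : ℝ) ≤ 1 - 1 / f.natDegree ∧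
      HasNaturalDensity {p | ∃ a : ℤ, (p : ℤ) ∣ f.eval a} (1 - α) ∧
      ∃ C : ℝ, 0 < C ∧ Tendsto (fun x : ℝ =>
        (((Finset.Ioc 0 ⌊x⌋₊).filter fun n : ℕ => ∃ a : ℤ, (n : ℤ) ∣ f.eval a).card : ℝ) *
          Real.log x ^ (α : ℝ) / x) atTop (𝓝 C) := by
  obtain ⟨h3, h4⟩ := card_root (f := f) (by omega)
  have h5 := fixRoot_le hirr h2
  have h6 := le_fixRoot hirr (by omega)
  refine ⟨1 - (Nat.card (fixRoot f) : ℚ) / Nat.card (fQ f).Gal, ?_, ?_, ?_, ?_⟩
  · push_cast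
    linarith
  · push_cast
    linarith
  · have h7 : (1 : ℝ) - ((1 - (Nat.card (fixRoot f) : ℚ) / Nat.card (fQ f).Gal : ℚ) : ℝ) =
        (Nat.card (fixRoot f) : ℝ) / Nat.card (fQ f).Gal := by
      push_cast
      ring
    rw [h7]
    exact h3
  · have h7 : ((1 - (Nat.card (fixRoot f) : ℚ) / Nat.card (fQ f).Gal : ℚ) : ℝ) =
        1 - (Nat.card (fixRoot f) : ℝ) / Nat.card (fQ f).Gal := by
      push_cast
      ring
    rw [h7]
    exact h4

end Gal

open scoped Classical in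
/-- `d` not a square: `#{n ≤ x : d is a square modulo n} ~ C x / √(log x)`, `C > 0`. -/
theorem card_sq {d : ℤ} (hd : ¬ IsSquare d) :
    ∃ C : ℝ, 0 < C ∧ Tendsto (fun x : ℝ =>
      (((Finset.Ioc 0 ⌊x⌋₊).filter fun n : ℕ => ∃ a : ℤ, (n : ℤ) ∣ a ^ 2 - d).card : ℝ) *
        Real.sqrt (Real.log x) / x) atTop (𝓝 C) := by
  have h1 : fQ (X ^ 2 - C d) = X ^ 2 - C (d : ℚ) := by
    rw [fQ, Polynomial.map_sub, Polynomial.map_pow, map_X, map_C, eq_intCast]
  have hirr : Irreducible (fQ (X ^ 2 - C d)) := by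
    rw [h1]
    refine X_pow_sub_C_irreducible_of_prime Nat.prime_two fun b hb => hd ?_
    rw [← Rat.isSquare_intCast_iff]
    exact ⟨b, by rw [← hb, sq]⟩
  have hdeg : (X ^ 2 - C d : ℤ[X]).natDegree = 2 := natDegree_X_pow_sub_C
  obtain ⟨α, h2, h3, -, C', hC, h4⟩ := card_root_irreducible hirr hdeg.ge
  rw [hdeg] at h2 h3
  have h5 : (α : ℝ) = 1 / 2 := by
    push_cast at h2 h3
    linarith
  refine ⟨C', hC, h4.congr fun x => ?_⟩
  rw [h5, ← Real.sqrt_eq_rpow]
  simp only [eval_sub, eval_pow, eval_X, eval_C]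

end Fermat.Agent.Cor.Artin

end
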