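import Fermat.Agent.Corollaries.Artin.LogSum
import Fermat.Agent.Corollaries.WtOne.Density
import Fermat.Agent.LT.Period.Cheb

/-!
# Multiplicative sets given by Frobenius conditions, and the eigenforms of weight one

`landau_class`: `S ⊆ ℕ` multiplicative (`mn ∈ S ↔ m ∈ S ∧ n ∈ S` for coprime `m`, `n`), and `p ∈ S`
iff `Frob_p ∈ T` for the primes `p ∉ B`, `T` a subset of the finite Galois group `G` with `1 ∈ T`,
stable under conjugation and `g ↦ g^k`, `k` prime to the order. Then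
`#{n ≤ x : n ∈ S} ~ C x (log x)^(|T| / |G| - 1)`, `C > 0`.

`serre_asymptotic`: for every normalised eigenform `f` of weight one and level `N`,
`#{n ≤ x : (n, N) = 1, a_n(f) ≠ 0} ~ C x / (log x)^α`, `C > 0`, `α > 0` the density of the primes
with `a_p(f) = 0`.

Both over the logarithmic singularity of the sum over the primes (`ClassLogStmt`).
-/

set_option autoImplicit false

noncomputable section

open CongruenceSubgroup UpperHalfPlane Filter Topology
open Fermat.Agent.X1 Fermat.Agent.HeckePar ModularFormClass Fermat.Agent.LT.End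
open scoped MatrixGroups ModularForm

namespace Fermat.Agent.Cor.Artin

local notation "Γℚ" => (AlgebraicClosure ℚ ≃ₐ[ℚ] AlgebraicClosure ℚ)

/-- the sum over the primes of a rational class function -/
def ClassLogStmt : Prop := ∀ (G : Type) [Group G] [Fintype G] (r : Γℚ →* G),
  Function.Surjective r → GaloisFactorsThroughFiniteLevel r → ∀ c : G → ℝ,
  (∀ g x : G, c (x * g * x⁻¹) = c g) →
  (∀ g h : G, Subgroup.zpowers g = Subgroup.zpowers h → c g = c h) →
  ∀ (B : Finset ℕ) (f : ℕ → ℝ),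
  (∀ p : ℕ, p.Prime → p ∉ B → ∀ A : ValuationSubring (AlgebraicClosure ℚ),
    A.LiesOverPrime p → ∀ σ : Γℚ, A.IsFrobeniusAt σ p → f p = c (r σ)) →
  HasLog f ((∑ g, c g) / Fintype.card G)

open scoped Classical in
/-- **Multiplicative sets of integers given by Frobenius conditions** (Landau, Serre). -/
theorem landau_class (H : ClassLogStmt) {G : Type} [Group G] [Fintype G] (r : Γℚ →* G)
    (hsurj : Function.Surjective r) (hlev : GaloisFactorsThroughFiniteLevel r) {T : Set G}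
    (h1T : (1 : G) ∈ T) (hT : ∀ g x : G, x * g * x⁻¹ ∈ T ↔ g ∈ T)
    (hT' : ∀ g h : G, Subgroup.zpowers g = Subgroup.zpowers h → (g ∈ T ↔ h ∈ T))
    (B : Finset ℕ)
    (hun : ∀ p : ℕ, p.Prime → p ∉ B → ∀ A : ValuationSubring (AlgebraicClosure ℚ),
      A.LiesOverPrime p → ∀ σ ∈ A.inertiaSubgroupIn ℚ, r σ = 1)
    {S : Set ℕ} (h1 : 1 ∈ S) (hmul : ∀ m n : ℕ, m.Coprime n → (m * n ∈ S ↔ m ∈ S ∧ n ∈ S))
    (hS : ∀ p : ℕ, p.Prime → p ∉ B → ∀ A : ValuationSubring (AlgebraicClosure ℚ),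
      A.LiesOverPrime p → ∀ σ : Γℚ, A.IsFrobeniusAt σ p → (p ∈ S ↔ r σ ∈ T)) :
    HasNaturalDensity S ((Nat.card T : ℝ) / Nat.card G) ∧
    ∃ C : ℝ, 0 < C ∧ Tendsto (fun x : ℝ =>
      (((Finset.Ioc 0 ⌊x⌋₊).filter fun n => n ∈ S).card : ℝ) *
        Real.log x ^ (1 - (Nat.card T : ℝ) / Nat.card G) / x) atTop (𝓝 C) := by
  set τ : ℝ := (Nat.card T : ℝ) / Nat.card G with hτ
  set f : ℕ → ℝ := fun n => if n ∈ S then 1 else 0 with hf
  set c : G → ℝ := fun g => if g ∈ T then 1 else 0 with hc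
  have hG : 0 < Nat.card G := Nat.card_pos
  have hTpos : 0 < Nat.card T := by
    have : Nonempty T := ⟨⟨1, h1T⟩⟩
    exact Nat.card_pos
  have hτ0 : 0 < τ := div_pos (by exact_mod_cast hTpos) (by exact_mod_cast hG)
  have hsum : (∑ g, c g) / (Fintype.card G : ℝ) = τ := by
    rw [hc, Finset.sum_boole, hτ, Nat.card_eq_fintype_card, Nat.card_eq_fintype_card]
    congr 2
    rw [← Fintype.card_subtype]
  have hlog : HasLog f τ := by
    rw [← hsum]
    refine H G r hsurj hlev c (fun g x => ?_) (fun g h hgh => ?_) B f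
      fun p hp hpB A hA σ hσ => ?_
    · rw [hc]
      dsimp only
      simp only [hT g x]
    · rw [hc]
      dsimp only
      simp only [hT' g h hgh]
    · rw [hf, hc]
      dsimp only
      simp only [hS p hp hpB A hA σ hσ]
  have hdens : HasNaturalDensity S τ := by
    have hconj : ∀ g x : G, x ∈ T → g * x * g⁻¹ ∈ T := fun g x hx => (hT x g).mpr hx
    have h := chebotarev_nat r hsurj hlev T hconj
    refine h.congr_of_finset B fun p hp hpB => ?_
    obtain ⟨A, hA, σ, hσ⟩ := Frob.exists_frobenius p hp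
    rw [LT.Period.mem_FrobIn_iff r hconj hp hA (fun ι hι => hun p hp hpB A hA ι hι) hσ,
      hS p hp hpB A hA σ hσ]
  refine ⟨hdens, ?_⟩
  have D : LR.MulF f τ := by
    refine ⟨⟨fun n => ?_, fun n => ?_, ?_⟩, hτ0, ?_, fun m n hmn => ?_⟩
    · rw [hf]; dsimp only; split_ifs <;> norm_num
    · rw [hf]; dsimp only; split_ifs <;> norm_num
    · exact tendsto_theta_of_density hdens
    · rw [hf]
      dsimp only
      rw [if_pos h1]
    · have h2 := hmul m n hmn
      rw [hf]
      dsimp only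
      by_cases hm : m ∈ S
      · by_cases hn : n ∈ S
        · rw [if_pos hm, if_pos hn, if_pos (h2.mpr ⟨hm, hn⟩), mul_one]
        · rw [if_neg hn, if_neg (fun h => hn (h2.mp h).2), mul_zero]
      · rw [if_neg hm, if_neg (fun h => hm (h2.mp h).1), zero_mul]
  obtain ⟨-, c', hc'⟩ := hlog
  obtain ⟨C, hC, hlim⟩ := exists_tendsto_mean D hc'
  refine ⟨C, hC, hlim.congr' ?_⟩
  filter_upwards [eventually_gt_atTop 1] with x hx
  have hlx : 0 < Real.log x := Real.log_pos hx
  have e1 : (∑ n ∈ Finset.Ioc 0 ⌊x⌋₊, f n) =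
      (((Finset.Ioc 0 ⌊x⌋₊).filter fun n => n ∈ S).card : ℝ) := by
    rw [hf, Finset.sum_boole]
  rw [e1, show τ - 1 = -(1 - τ) by ring, Real.rpow_neg hlx.le]
  field_simp

/-! ### Elements of trace zero -/

/-- Trace zero only depends on the cyclic group generated by an element of `GL₂(ℂ)`. -/
theorem trace_zero_of_zpowers {g h : GL (Fin 2) ℂ}
    (hgh : Subgroup.zpowers g = Subgroup.zpowers h) (h0 : g.1.trace = 0) : h.1.trace = 0 := by
  -- the scalar matrices
  set Z : Subgroup (GL (Fin 2) ℂ) :=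
    (Units.map (algebraMap ℂ (Matrix (Fin 2) (Fin 2) ℂ) : ℂ →* _)).range with hZ
  have hZt : ∀ z ∈ Z, ∃ a : ℂ, z.1 = algebraMap ℂ (Matrix (Fin 2) (Fin 2) ℂ) a := by
    rintro z ⟨a, rfl⟩
    exact ⟨a.1, rfl⟩
  have hsq : g * g ∈ Z := by
    have hdet : g.1.det ≠ 0 := (Matrix.isUnits_det_units g).ne_zero
    refine ⟨-(Units.mk0 g.1.det hdet), Units.ext ?_⟩
    have ht : g.1 1 1 = -g.1 0 0 := by
      rw [Matrix.trace_fin_two] at h0
      linear_combination h0
    change algebraMap ℂ (Matrix (Fin 2) (Fin 2) ℂ) (-g.1.det) = g.1 * g.1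
    rw [Matrix.det_fin_two, Algebra.algebraMap_eq_smul_one]
    ext i j
    fin_cases i <;> fin_cases j <;>
      simp [Matrix.mul_apply, Fin.sum_univ_two, Matrix.smul_apply] <;> rw [ht] <;> ring
  have h1 : h ∈ Subgroup.zpowers g := by rw [hgh]; exact Subgroup.mem_zpowers h
  have h2 : g ∈ Subgroup.zpowers h := by rw [← hgh]; exact Subgroup.mem_zpowers g
  obtain ⟨k, hk⟩ := Subgroup.mem_zpowers_iff.mp h1
  obtain ⟨l, hl⟩ := Subgroup.mem_zpowers_iff.mp h2
  rcases Int.even_or_odd' k with ⟨m, hm | hm⟩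
  · exfalso
    have h3 : h ∈ Z := by
      rw [← hk, hm, two_mul, zpow_add, ← (Commute.refl g).mul_zpow]
      exact Z.zpow_mem hsq m
    have h4 : g ∈ Z := by
      rw [← hl]
      exact Z.zpow_mem h3 l
    obtain ⟨a, ha⟩ := hZt g h4
    rw [ha, Algebra.algebraMap_eq_smul_one, Matrix.trace_smul, Matrix.trace_one, Fintype.card_fin,
      smul_eq_mul] at h0
    have ha0 : a = 0 := by
      rcases mul_eq_zero.mp h0 with h5 | h5
      · exact h5
      · norm_num at h5
    rw [ha0, map_zero] at ha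
    exact g.ne_zero ha
  · have h3 : h = (g * g) ^ m * g := by
      rw [← hk, hm, zpow_add_one, two_mul, zpow_add, ← (Commute.refl g).mul_zpow]
    obtain ⟨a, ha⟩ := hZt _ (Z.zpow_mem hsq m)
    rw [h3, Units.val_mul, ha, Algebra.algebraMap_eq_smul_one, smul_mul_assoc, one_mul,
      Matrix.trace_smul, h0, smul_zero]

/-! ### Weight one -/

variable {N : ℕ} [NeZero N] {ε : DirichletCharacter ℂ N} {f : CuspForm (Gamma1 N) 1}

omit [NeZero N] in
/-- The coefficients prime to the level are multiplicative. -/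
theorem qCoeff_mul_of_coprime (hf : WtOne.IsNormEigen ε f) {m n : ℕ} (hm0 : m ≠ 0)
    (hm : m.Coprime N) (hmn : m.Coprime n) : qCoeff f (m * n) = qCoeff f m * qCoeff f n := by
  have key : m ≠ 0 ∧ m.Coprime N → ∀ n : ℕ, m.Coprime n →
      qCoeff f (m * n) = qCoeff f m * qCoeff f n := by
    rintro ⟨hm0, hm⟩
    refine WtOne.induction_coprime (N := N) (P := fun m => ∀ n : ℕ, m.Coprime n →
      qCoeff f (m * n) = qCoeff f m * qCoeff f n) ?_ ?_ hm0 hm
    · intro n _
      rw [one_mul, hf.one, one_mul]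
    · intro p hp hpN k hk m hm0 hpm hmN ih n hn
      have hpn : ¬ p ∣ n := by
        have h1 : (p ^ k).Coprime n := Nat.Coprime.coprime_mul_right hn
        exact (Nat.Prime.coprime_iff_not_dvd hp).mp
          (Nat.Coprime.coprime_dvd_left (dvd_pow_self p hk) h1)
      have hmn : m.Coprime n := Nat.Coprime.coprime_mul_left hn
      have hpmn : ¬ p ∣ m * n := fun h => (hp.dvd_mul.mp h).elim hpm hpn
      have e1 := hf.toRel.mul_of_not_dvd hf.one hp hpN hpmn k
      have e2 := hf.toRel.mul_of_not_dvd hf.one hp hpN hpm k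
      rw [mul_assoc, e1, ih n hmn, e2]
      ring
  exact key ⟨hm0, hm⟩ n hmn

open scoped Classical in
/-- **Serre's asymptotic formula for the eigenforms of weight one.** -/
theorem serre_asymptotic_of (H : ClassLogStmt) (hf : WtOne.IsNormEigen ε f) :
    ∃ α : ℚ, 0 < α ∧ α < 1 ∧ HasNaturalDensity {p | ¬ p ∣ N ∧ qCoeff f p = 0} α ∧
      ∃ C : ℝ, 0 < C ∧ Tendsto (fun x : ℝ =>
        (((Finset.Ioc 0 ⌊x⌋₊).filter fun n => n.Coprime N ∧ qCoeff f n ≠ 0).card : ℝ) *
          Real.log x ^ (α : ℝ) / x) atTop (𝓝 C) := by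
  obtain ⟨r, hr⟩ := WtOne.exists_attached hf
  have hfin : Finite r.range := hr.finite_range
  have : Fintype r.range := Fintype.ofFinite _
  set T : Set r.range := {g | (g : GL (Fin 2) ℂ).1.trace ≠ 0} with hT
  set S : Set ℕ := {n | n.Coprime N ∧ qCoeff f n ≠ 0} with hS
  have h1T : (1 : r.range) ∈ T := by
    rw [hT, Set.mem_ofPred_eq, Subgroup.coe_one, Units.val_one, Matrix.trace_one,
      Fintype.card_fin]
    norm_num
  have hNp : ∀ p : ℕ, p.Prime → p ∉ N.primeFactors → ¬ p ∣ N := fun p hp h1 h2 =>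
    h1 (Nat.mem_primeFactors.mpr ⟨hp, h2, NeZero.ne N⟩)
  have a1 : ∀ g x : r.range, x * g * x⁻¹ ∈ T ↔ g ∈ T := by
    intro g x
    rw [hT, Set.mem_ofPred_eq, Set.mem_ofPred_eq, Subgroup.coe_mul, Subgroup.coe_mul,
      Subgroup.coe_inv, WtOne.trace_conj]
  have a2 : ∀ g h : r.range, Subgroup.zpowers g = Subgroup.zpowers h → (g ∈ T ↔ h ∈ T) := by
    intro g h hgh
    have h2 : Subgroup.zpowers (g : GL (Fin 2) ℂ) = Subgroup.zpowers (h : GL (Fin 2) ℂ) := by
      have h3 := congrArg (Subgroup.map r.range.subtype) hgh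
      rwa [MonoidHom.map_zpowers, MonoidHom.map_zpowers] at h3
    rw [hT, Set.mem_ofPred_eq, Set.mem_ofPred_eq, not_iff_not]
    exact ⟨trace_zero_of_zpowers h2, trace_zero_of_zpowers h2.symm⟩
  have a3 : ∀ p : ℕ, p.Prime → p ∉ N.primeFactors →
      ∀ A : ValuationSubring (AlgebraicClosure ℚ), A.LiesOverPrime p →
      ∀ σ ∈ A.inertiaSubgroupIn ℚ, r.rangeRestrict σ = 1 := fun p hp hpB A hA σ hσ =>
    Subtype.ext (hr.unr p hp (hNp p hp hpB) A hA σ hσ)
  have a4 : 1 ∈ S := by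
    refine ⟨Nat.coprime_one_left N, ?_⟩
    rw [hf.one]
    exact one_ne_zero
  have a5 : ∀ m n : ℕ, m.Coprime n → (m * n ∈ S ↔ m ∈ S ∧ n ∈ S) := by
    intro m n hmn
    rw [hS, Set.mem_ofPred_eq, Set.mem_ofPred_eq, Set.mem_ofPred_eq, Nat.coprime_mul_iff_left]
    constructor
    · rintro ⟨⟨hm, hn⟩, h0⟩
      rcases eq_or_ne m 0 with rfl | hm0
      · have hn1 : n = 1 := by rwa [Nat.coprime_zero_left] at hmn
        subst hn1
        rw [mul_one] at h0
        exact ⟨⟨hm, h0⟩, hn, by rw [hf.one]; exact one_ne_zero⟩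
      · rw [qCoeff_mul_of_coprime hf hm0 hm hmn] at h0
        exact ⟨⟨hm, left_ne_zero_of_mul h0⟩, hn, right_ne_zero_of_mul h0⟩
    · rintro ⟨⟨hm, h0⟩, hn, h0'⟩
      refine ⟨⟨hm, hn⟩, ?_⟩
      rcases eq_or_ne m 0 with rfl | hm0
      · have hn1 : n = 1 := by rwa [Nat.coprime_zero_left] at hmn
        subst hn1
        rwa [mul_one]
      · rw [qCoeff_mul_of_coprime hf hm0 hm hmn]
        exact mul_ne_zero h0 h0'
  have a6 : ∀ p : ℕ, p.Prime → p ∉ N.primeFactors →
      ∀ A : ValuationSubring (AlgebraicClosure ℚ), A.LiesOverPrime p →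
      ∀ σ : Γℚ, A.IsFrobeniusAt σ p → (p ∈ S ↔ r.rangeRestrict σ ∈ T) := by
    intro p hp hpB A hA σ hσ
    have hpN := hNp p hp hpB
    have hcop : p.Coprime N := (Nat.Prime.coprime_iff_not_dvd hp).mpr hpN
    have h2 : (r σ).1.trace = qCoeff f p := hr.trace p hp hpN A hA σ hσ
    rw [hS, hT, Set.mem_ofPred_eq, Set.mem_ofPred_eq]
    change _ ↔ (r σ).1.trace ≠ 0
    rw [h2]
    exact ⟨fun h => h.2, fun h => ⟨hcop, h⟩⟩
  obtain ⟨hd, C, hC, hlim⟩ := landau_class H r.rangeRestrict r.rangeRestrict_surjective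
    (DS.factors_rangeRestrict hr.factors) h1T a1 a2 N.primeFactors a3 a4 a5 a6
  have hG : 0 < Nat.card r.range := Nat.card_pos
  set q : ℚ := (Nat.card T : ℚ) / Nat.card r.range with hq
  have hqR : (q : ℝ) = (Nat.card T : ℝ) / Nat.card r.range := by
    rw [hq]
    push_cast
    rfl
  rw [← hqR] at hd hlim
  have hTpos : 0 < Nat.card T := by
    have : Nonempty T := ⟨⟨1, h1T⟩⟩
    exact Nat.card_pos
  have hq0 : 0 < q := div_pos (by exact_mod_cast hTpos) (by exact_mod_cast hG)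
  have hq1 : q < 1 := by
    rw [hq, div_lt_one (by exact_mod_cast hG)]
    have h2 : T ≠ Set.univ := by
      intro h3
      have h4 : (⟨r complexConjugation, ⟨_, rfl⟩⟩ : r.range) ∈ T := by
        rw [h3]
        exact Set.mem_univ _
      exact h4 (hr.trace_cc hf)
    have h3 : T.ncard < (Set.univ : Set r.range).ncard :=
      Set.ncard_lt_ncard (Set.ssubset_univ_iff.mpr h2) (Set.toFinite _)
    rw [Set.ncard_univ] at h3
    exact_mod_cast h3
  have e : ((1 - q : ℚ) : ℝ) = 1 - (q : ℝ) := by push_cast; rfl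
  refine ⟨1 - q, by linarith, by linarith, ?_, C, hC, ?_⟩
  · have h2 := hd.compl
    rw [e]
    refine h2.congr_of_finset N.primeFactors fun p hp hpB => ?_
    have hpN := hNp p hp hpB
    have hcop : p.Coprime N := (Nat.Prime.coprime_iff_not_dvd hp).mpr hpN
    rw [Set.mem_compl_iff, hS, Set.mem_ofPred_eq, Set.mem_ofPred_eq]
    constructor
    · intro h
      refine ⟨hpN, ?_⟩
      by_contra h0
      exact h ⟨hcop, h0⟩
    · rintro ⟨-, h0⟩ ⟨-, h3⟩
      exact h3 h0
  · rw [e]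
    refine hlim.congr fun x => ?_
    congr 4
    ext n
    simp only [Finset.mem_filter]
    rfl

end Fermat.Agent.Cor.Artin

end
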