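import Fermat.Agent.Corollaries.Artin.Defs
import Fermat.Agent.LT.End.Eigen
import Fermat.Agent.LT.End.Galois
import Fermat.Agent.Classic.Level.StepStart

/-!
# From a vector of the eigenspace to a start of the same primes

`exists_normalised_primes`: the modular half of the end game, with control of the primes of the
level. `start_of_vector`: a non-zero form of level `M` whose `T_p`-eigenvalues at almost all `p` are
`±2` if `ρ(Frob_p) = ±1` gives a start at a level with the same primes as `M`; in particular the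
traces at **all** `p ∤ M` are those of `Ψ ∘ ρ` (Deligne--Serre).
-/

set_option autoImplicit false

noncomputable section

open CongruenceSubgroup UpperHalfPlane EisensteinWeightOne ModularFormClass WeierstrassCurve
open Fermat.Agent.X1 Fermat.Agent.LT.End Fermat.Agent.Classic FLT.ExplicitLift
open scoped MatrixGroups ModularForm

namespace Fermat.Agent.Cor.Artin

local notation "Γℚ" => (AlgebraicClosure ℚ ≃ₐ[ℚ] AlgebraicClosure ℚ)

/-- The modular half of the end game: a normalised, depleted eigenform at a level with the same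
primes. -/
theorem exists_normalised_primes {M : ℕ} [NeZero M] (f : CuspForm (Gamma1 M) 1) (hf : f ≠ 0)
    (P : Set ℕ) (x : ℕ → ℂ)
    (hP : ∀ (p : ℕ) (_ : Fact p.Prime), ¬ p ∣ M → p ∈ P →
      tCusp M (Gamma1 M) 1 p f = x p • f) :
    ∃ (N' : ℕ) (_ : NeZero N') (ε : DirichletCharacter ℂ N') (g : CuspForm (Gamma1 N') 1),
      M ∣ N' ∧ (∀ q : ℕ, q.Prime → (q ∣ N' ↔ q ∣ M)) ∧ qCoeff g 1 = 1 ∧
      (∀ p : ℕ, p.Prime → ¬ p ∣ N' → ∀ n : ℕ,
        qCoeff g (p * n) + ε (p : ZMod N') * (if p ∣ n then qCoeff g (n / p) else 0) =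
          qCoeff g p * qCoeff g n) ∧
      (∀ n : ℕ, ¬ n.Coprime N' → qCoeff g n = 0) ∧
      ∀ p : ℕ, p.Prime → ¬ p ∣ N' → p ∈ P → qCoeff g p = x p := by
  classical
  obtain ⟨t, ψ, v, hv0, hv, hx⟩ := exists_isEig f hf P x hP
  obtain ⟨w, hw, hw1⟩ := exists_first hv0 hv
  obtain ⟨ε, hε⟩ := exists_character hv0 hv
  have hM0 : M ≠ 0 := NeZero.ne M
  obtain ⟨N', hN', h1, h2, h3, g, hg⟩ := exists_deplete M.primeFactors
    (fun r hr => Nat.prime_of_mem_primeFactors hr) M w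
  have hdvd : ∀ p : ℕ, p.Prime → (p ∣ N' ↔ p ∈ M.primeFactors) := by
    intro p hp
    refine ⟨fun h => ?_, fun h => h2 p h⟩
    rcases h3 p hp h with h | h
    · exact Nat.mem_primeFactors.mpr ⟨hp, h, hM0⟩
    · exact h
  have hbad : ∀ n : ℕ, (∃ r ∈ M.primeFactors, r ∣ n) ↔ ¬ n.Coprime N' := by
    intro n
    rw [Nat.Prime.not_coprime_iff_dvd]
    constructor
    · rintro ⟨r, hr, hrn⟩
      exact ⟨r, Nat.prime_of_mem_primeFactors hr, hrn, h2 r hr⟩
    · rintro ⟨r, hr, hrn, hrN⟩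
      exact ⟨r, (hdvd r hr).mp hrN, hrn⟩
  have hgc : ∀ n : ℕ, qCoeff g n = if n.Coprime N' then qCoeff w n else 0 := by
    intro n
    rw [hg n]
    by_cases hc : n.Coprime N'
    · rw [if_pos hc, if_neg]
      rw [hbad]
      exact fun h => h hc
    · rw [if_neg hc, if_pos ((hbad n).mpr hc)]
  have hε' : ∀ p : ℕ, p.Prime → ¬ p ∣ N' → (DirichletCharacter.changeLevel h1 ε) (p : ZMod N') =
      ψ (pUnit M p) := by
    intro p hp hpN'
    have hcop : p.Coprime N' := (Nat.Prime.coprime_iff_not_dvd hp).mpr hpN'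
    have hpN : ¬ p ∣ M := fun h => hpN' (h.trans h1)
    have hcop' : p.Coprime M := (Nat.Prime.coprime_iff_not_dvd hp).mpr hpN
    rw [← hε, coe_pUnit hcop', ← ZMod.coe_unitOfCoprime p hcop,
      DirichletCharacter.changeLevel_eq_cast_of_dvd]
    congr 1
    rw [ZMod.coe_unitOfCoprime, ZMod.cast_natCast h1]
  have hwp : ∀ p : ℕ, p.Prime → ¬ p ∣ M → t p = qCoeff w p := by
    intro p hp hpN
    have hpF : Fact p.Prime := ⟨hp⟩
    have h4 := hw.coeff p hpN 1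
    rw [if_neg hp.not_dvd_one, mul_zero, add_zero, mul_one, hw1, mul_one] at h4
    exact h4.symm
  refine ⟨N', hN', DirichletCharacter.changeLevel h1 ε, g, h1, ?_, ?_, ?_, ?_, ?_⟩
  · intro q hq
    rw [hdvd q hq, Nat.mem_primeFactors]
    exact ⟨fun h => h.2.1, fun h => ⟨hq, h, hM0⟩⟩
  · rw [hgc, if_pos (Nat.coprime_one_left N'), hw1]
  · intro p hp hpN' n
    have hpF : Fact p.Prime := ⟨hp⟩
    have hpN : ¬ p ∣ M := fun h => hpN' (h.trans h1)
    have hcop : p.Coprime N' := (Nat.Prime.coprime_iff_not_dvd hp).mpr hpN'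
    have h4 := hw.coeff p hpN n
    rw [hε' p hp hpN', hgc (p * n), hgc p, hgc n, if_pos hcop, ← hwp p hp hpN]
    by_cases hn : n.Coprime N'
    · rw [if_pos hn, if_pos (Nat.Coprime.mul_left hcop hn)]
      have h5 : (if p ∣ n then qCoeff g (n / p) else 0) =
          if p ∣ n then qCoeff w (n / p) else 0 := by
        split_ifs with hpn
        · rw [hgc, if_pos (Nat.Coprime.coprime_div_left hn hpn)]
        · rfl
      rw [h5]
      exact h4
    · rw [if_neg hn, if_neg (fun h => hn (Nat.Coprime.coprime_mul_left h)), mul_zero, zero_add]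
      split_ifs with hpn
      · rw [hgc, if_neg, mul_zero]
        intro hc
        apply hn
        have h6 := Nat.Coprime.mul_left hcop hc
        rwa [Nat.mul_div_cancel' hpn] at h6
      · rw [mul_zero]
  · intro n hn
    rw [hgc, if_neg hn]
  · intro p hp hpN' hpP
    have hcop : p.Coprime N' := (Nat.Prime.coprime_iff_not_dvd hp).mpr hpN'
    have hpN : ¬ p ∣ M := fun h => hpN' (h.trans h1)
    rw [hgc, if_pos hcop, ← hwp p hp hpN, hx p hp hpN hpP]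

variable {ρ : Γℚ →* GL (Fin 2) (ZMod 3)} {Ψ : GL (Fin 2) (ZMod 3) →* GL (Fin 2) (ℤ√(-2))}

/-- The Galois half of the end game with a finite exceptional set, and with the level kept. -/
theorem galois_half_set (hρ : Continuous ρ) (hsurj : Function.Surjective ρ)
    (hdet : ∀ σ : Γℚ, Matrix.GeneralLinearGroup.det (ρ σ) = modThreeCyclotomicChar σ)
    (hΨ : ∀ g, Matrix.GeneralLinearGroup.map red (Ψ g) = g)
    {N : ℕ} [NeZero N] (h3 : 3 ∣ N) (ε : DirichletCharacter ℂ N) (g : CuspForm (Gamma1 N) 1)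
    (h1 : qCoeff g 1 = 1)
    (hT : ∀ p : ℕ, p.Prime → ¬ p ∣ N → ∀ n : ℕ,
      qCoeff g (p * n) + ε (p : ZMod N) * (if p ∣ n then qCoeff g (n / p) else 0) =
        qCoeff g p * qCoeff g n)
    (hdep : ∀ n : ℕ, ¬ n.Coprime N → qCoeff g n = 0) (B : Finset ℕ)
    (hx : ∀ p : ℕ, p.Prime → ¬ p ∣ N → p ∉ B → ∀ A : ValuationSubring (AlgebraicClosure ℚ),
      A.LiesOverPrime p → ∀ σ : Γℚ, A.IsFrobeniusAt σ p →
        (ρ σ = 1 → qCoeff g p = 2) ∧ (ρ σ = -1 → qCoeff g p = -2)) :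
    ∃ (b : ℕ → ℤ√(-2)),
      FormalHecke.IsEigensystem
        (fun ℓ => if ℓ ∣ N then 0 else ((chiNegThree ℓ : ℤ) : ℤ√(-2))) b ∧
      CuspForm.IsWeightOneChiNegThreeRealized N b ∧
      ∀ p : ℕ, p.Prime → ¬ p ∣ N →
        ∀ A : ValuationSubring (AlgebraicClosure ℚ), A.LiesOverPrime p →
          ∀ σ : Γℚ, A.IsFrobeniusAt σ p →
            b p = ((Ψ (ρ σ) : GL (Fin 2) (ℤ√(-2))) :
              Matrix (Fin 2) (Fin 2) (ℤ√(-2))).trace := by
  classical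
  obtain ⟨r, hr, -, hrp⟩ := S48.result N ε g h1 hT
  obtain ⟨S, hS, hSr⟩ := exists_factor_of_frobenius hρ hsurj hr (N.primeFactors ∪ B) (by
    intro p hp hpT A hA σ hσ
    rw [Finset.mem_union, not_or] at hpT
    have hpN : ¬ p ∣ N := fun h => hpT.1 (Nat.mem_primeFactors.mpr ⟨hp, h, NeZero.ne N⟩)
    have h2 := ((hrp p hp hpN A hA).2 σ hσ).1
    rw [h2]
    exact hx p hp hpN hpT.2 A hA σ hσ)
  obtain ⟨ι, hι⟩ := exists_embedding Ψ hΨ hS
  have hinj := embedding_injective ι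
  -- the eigenvalues
  have htr : ∀ p : ℕ, p.Prime → ¬ p ∣ N → ∀ A : ValuationSubring (AlgebraicClosure ℚ),
      A.LiesOverPrime p → ∀ σ : Γℚ, A.IsFrobeniusAt σ p →
        qCoeff g p = ι (Ψ (ρ σ)).1.trace := by
    intro p hp hpN A hA σ hσ
    rw [← hι, tr, hSr]
    exact ((hrp p hp hpN A hA).2 σ hσ).1.symm
  -- the character
  have hε : ∀ p : ℕ, p.Prime → ¬ p ∣ N → ε (p : ZMod N) = ((chiNegThree p : ℤ) : ℂ) := by
    intro p hp hpN
    obtain ⟨A, hA, σ, hσ⟩ := Frob.exists_frobenius p hp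
    have hp3 : p ≠ 3 := fun h => hpN (h ▸ h3)
    have h4 : ε (p : ZMod N) = dt S (ρ σ) := by
      rw [dt, hSr]
      exact ((hrp p hp hpN A hA).2 σ hσ).2.symm
    have h5 : (ρ σ).1.det = (p : ZMod 3) := by
      rw [← modThree_frobenius hp hp3 hA hσ, ← hdet]
      rfl
    rcases dt_eq hS (ρ σ) with h | h
    · rw [h4, h.1, chi_eq_one (h5.symm.trans h.2), Int.cast_one]
    · rw [h4, h.1, chi_eq_neg_one (h5.symm.trans h.2), Int.cast_neg, Int.cast_one]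
  -- the eigensystem
  have hc : ∀ ℓ : ℕ, ∃ t : ℤ√(-2), (ℓ.Prime → ¬ ℓ ∣ N → qCoeff g ℓ = ι t) ∧ (ℓ ∣ N → t = 0) := by
    intro ℓ
    by_cases hℓ : ℓ.Prime ∧ ¬ ℓ ∣ N
    · obtain ⟨A, hA, σ, hσ⟩ := Frob.exists_frobenius ℓ hℓ.1
      exact ⟨_, fun hp hpN => htr ℓ hp hpN A hA σ hσ, fun h => absurd h hℓ.2⟩
    · exact ⟨0, fun hp hpN => absurd ⟨hp, hpN⟩ hℓ, fun _ => rfl⟩
  choose c hc1 hc2 using hc
  obtain ⟨b, hb0, hb, hbc⟩ := Ext.E46.exists_eigensystem
    (fun ℓ => if ℓ ∣ N then 0 else ((chiNegThree ℓ : ℤ) : ℤ√(-2))) c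
  have hN1 : N ≠ 1 := by
    rintro rfl
    exact absurd h3 (by decide)
  have hbad : ∀ ℓ n : ℕ, ℓ.Prime → ℓ ∣ N → ℓ ∣ n → qCoeff g n = 0 := by
    intro ℓ n hℓ hℓN hℓn
    exact hdep n (Nat.not_coprime_of_dvd_of_dvd hℓ.one_lt hℓn hℓN)
  have hq : ∀ n : ℕ, qCoeff g n = ι (b n) := by
    have h4 := Ext.E46.isEigensystem_map ι hb
    refine Ext.E46.eigensystem_unique (e := fun n => ι (if n ∣ N then 0 else
      ((chiNegThree n : ℤ) : ℤ√(-2)))) ⟨h1, fun ℓ hℓ n => ?_⟩ h4 ?_ fun ℓ hℓ => ?_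
    · by_cases hd : ℓ ∣ N
      · simp only [if_pos hd, map_zero, zero_mul, add_zero]
        rw [hbad ℓ (ℓ * n) hℓ hd (dvd_mul_right ℓ n), hbad ℓ ℓ hℓ hd dvd_rfl, zero_mul]
      · simp only [if_neg hd, map_intCast]
        rw [← hε ℓ hℓ hd]
        exact hT ℓ hℓ hd n
    · rw [hb0, map_zero]
      exact hdep 0 (by rwa [Nat.coprime_zero_left])
    · rw [hbc ℓ hℓ]
      by_cases hd : ℓ ∣ N
      · rw [hc2 ℓ hd, map_zero, hbad ℓ ℓ hℓ hd dvd_rfl]
      · exact hc1 ℓ hℓ hd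
  refine ⟨b, hb, ⟨ι, g, hq⟩, fun p hp hpN A hA σ hσ => hinj ?_⟩
  rw [← hq]
  exact htr p hp hpN A hA σ hσ

/-- **A start from a vector of the eigenspace**, at a level with the same primes. -/
theorem start_of_vector (hρ : Continuous ρ) (hsurj : Function.Surjective ρ)
    (hdet : ∀ σ : Γℚ, Matrix.GeneralLinearGroup.det (ρ σ) = modThreeCyclotomicChar σ)
    (hΨ : ∀ g, Matrix.GeneralLinearGroup.map red (Ψ g) = g)
    {M : ℕ} [NeZero M] (h3 : 3 ∣ M) (G : CuspForm (Gamma1 M) 1) (hG : G ≠ 0)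
    (hneb : Z3.HasNeb M G) (B : Finset ℕ) (t : ℕ → ℂ)
    (hrel : ∀ p : ℕ, p.Prime → ¬ p ∣ M → p ∉ B → Rel G p (t p))
    (ht : ∀ p : ℕ, p.Prime → ¬ p ∣ M → p ∉ B → ∀ A : ValuationSubring (AlgebraicClosure ℚ),
      A.LiesOverPrime p → ∀ σ : Γℚ, A.IsFrobeniusAt σ p →
        (ρ σ = 1 → t p = 2) ∧ (ρ σ = -1 → t p = -2))
    (hunr : ∀ p : ℕ, p.Prime → ¬ p ∣ M → Level.UnrAt ρ p) :
    ∃ (N' : ℕ) (_ : NeZero N') (ι : ℤ√(-2) →+* ℂ) (b : ℕ → ℤ√(-2)) (f : CuspForm (Gamma1 N') 1),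
      (∀ p : ℕ, p.Prime → (p ∣ N' ↔ p ∣ M)) ∧ Level.Start ρ Ψ N' ι b f := by
  obtain ⟨N₀, hN₀, ε, g, hMN, hpr, h1, hT, hdep, hx⟩ := exists_normalised_primes G hG
    {p | p ∉ B} t (fun p hp hpM hpB => Z3.tCusp_of_rel h3 hneb p hpM fun n =>
      hrel p hp.out hpM hpB n)
  obtain ⟨b₀, hb₀, hr₀, ht₀⟩ := galois_half_set hρ hsurj hdet hΨ (h3.trans hMN) ε g h1 hT hdep B
    (fun p hp hpN hpB A hA σ hσ => by
      rw [hx p hp hpN hpB]
      exact ht p hp (fun h => hpN ((hpr p hp).mpr h)) hpB A hA σ hσ)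
  obtain ⟨N, hN, hN₀N, -, hprN, hsq, hb, ι, f, hf⟩ := Z3.depleteStmt N₀ 1 one_ne_zero b₀ hb₀ hr₀
  set b : ℕ → ℤ√(-2) := fun n => if n.Coprime N then b₀ n else 0 with hbdef
  obtain ⟨h3', hneb'⟩ := Classic.neb f ι b hf hb
  have hiff : ∀ p : ℕ, p.Prime → (p ∣ N ↔ p ∣ M) := by
    intro p hp
    constructor
    · intro h
      have h4 := hprN p hp h
      rw [mul_one] at h4
      exact (hpr p hp).mp h4
    · intro h
      exact ((hpr p hp).mpr h).trans hN₀N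
  refine ⟨N, hN, ι, b, f, hiff, ⟨h3', hsq, hb, fun n hn => if_neg hn, hf, hneb',
    fun p hp hpN => hunr p hp fun h => hpN ((hiff p hp).mpr h), ?_⟩⟩
  intro p hp hpN A hA σ hσ
  have h5 : p.Coprime N := (Nat.Prime.coprime_iff_not_dvd hp).mpr hpN
  rw [hbdef]
  simp only [if_pos h5]
  exact ht₀ p hp (fun h => hpN (h.trans hN₀N)) A hA σ hσ

end Fermat.Agent.Cor.Artin

end
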