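import Fermat.Agent.Corollaries.Artin.Growth
import Fermat.Agent.Corollaries.Artin.NonVan
import Fermat.Agent.Classic.Level.Z3.MellinFE

/-!
# Bounds for the `L`-function of Artin and for the completed `L`-function of a cusp form
-/

set_option autoImplicit false

noncomputable section

open CongruenceSubgroup ModularFormClass EisensteinWeightOne WeierstrassCurve Filter
open Fermat.Agent.Classic Fermat.Agent.Classic.Level Fermat.Agent.X1 Fermat.Agent.LT.End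
open scoped MatrixGroups ModularForm ComplexConjugate Topology

namespace Fermat.Agent.Cor.Artin

local notation "Γℚ" => (AlgebraicClosure ℚ ≃ₐ[ℚ] AlgebraicClosure ℚ)

/-- The completed `L`-function of a cusp form is bounded on vertical strips. -/
theorem exists_bound_Λ {N : ℕ} [NeZero N] (f : CuspForm (Gamma1 N) 1) (a b : ℝ) :
    ∃ C : ℝ, ∀ s : ℂ, a ≤ s.re → s.re ≤ b → ‖ModularForm.Λ one_pos f s‖ ≤ C := by
  have h := CuspForm.isStrongFEPair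
    (Γ := ((Gamma1 N : Subgroup SL(2, ℤ)) : Subgroup (GL (Fin 2) ℝ))) (k := 1) one_pos f
  rw [CuspForm.Λ_eq_mellin]
  exact exists_bound_mellin (h.hasMellin (a : ℂ)).1 (h.hasMellin (b : ℂ)).1

theorem norm_three_cpow_le {s : ℂ} (hs : 1 ≤ s.re) : ‖(3 : ℂ) ^ (-s)‖ ≤ 1 / 3 := by
  have h1 := Complex.norm_natCast_cpow_of_pos (n := 3) (by norm_num) (-s)
  rw [Nat.cast_ofNat, Complex.neg_re] at h1
  rw [h1]
  calc (3 : ℝ) ^ (-s.re) ≤ (3 : ℝ) ^ (-1 : ℝ) :=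
        Real.rpow_le_rpow_of_exponent_le (by norm_num) (by linarith)
    _ = 1 / 3 := by rw [Real.rpow_neg_one]; norm_num

/-- a linear factor is bounded from below -/
theorem norm_one_sub_ge {μ : ℂ} (hμ : μ = 0 ∨ μ = 1 ∨ μ = -1) {s : ℂ} (hs : 1 ≤ s.re) :
    1 / 2 ≤ ‖1 - μ * (3 : ℂ) ^ (-s)‖ := by
  have h1 : ‖μ‖ ≤ 1 := by rcases hμ with rfl | rfl | rfl <;> simp
  have h2 := norm_three_cpow_le hs
  have h3 : ‖μ * (3 : ℂ) ^ (-s)‖ ≤ 1 / 3 := by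
    rw [norm_mul]
    calc ‖μ‖ * ‖(3 : ℂ) ^ (-s)‖ ≤ 1 * (1 / 3) := by gcongr
      _ = 1 / 3 := one_mul _
  have h4 := norm_sub_norm_le (1 : ℂ) (μ * (3 : ℂ) ^ (-s))
  rw [norm_one] at h4
  linarith

/-- A Dirichlet series is bounded on a half plane. -/
theorem exists_bound_LSeries {a : ℕ → ℂ} (ha : LSeriesSummable a 2) :
    ∃ Z : ℝ, ∀ s : ℂ, 2 ≤ s.re → ‖LSeries a s‖ ≤ Z := by
  refine ⟨∑' n, ‖LSeries.term a 2 n‖, fun s hs => ?_⟩
  have h1 : ∀ n, ‖LSeries.term a s n‖ ≤ ‖LSeries.term a 2 n‖ := fun n =>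
    LSeries.norm_term_le_of_re_le_re a (by simpa using hs) n
  have h2 : Summable fun n => ‖LSeries.term a 2 n‖ := ha.norm
  have h3 : Summable fun n => ‖LSeries.term a s n‖ :=
    h2.of_nonneg_of_le (fun _ => norm_nonneg _) h1
  exact (norm_tsum_le_tsum_norm h3).trans (h3.tsum_le_tsum h1 h2)

variable {ρ : Γℚ →* GL (Fin 2) (ZMod 3)} {Ψ : GL (Fin 2) (ZMod 3) →* GL (Fin 2) (ℤ√(-2))}
  {N : ℕ} {ι ι₀ : ℤ√(-2) →+* ℂ} {b : ℕ → ℤ√(-2)} {L : ℂ → ℂ}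

/-- **The Euler factor at `3`** is `1 - μ X`, `μ ∈ {0, 1, -1}`. -/
theorem exists_mu
    (hdet : ∀ σ : Γℚ, Matrix.GeneralLinearGroup.det (ρ σ) = modThreeCyclotomicChar σ)
    (hΨ : ∀ g, Matrix.GeneralLinearGroup.map FLT.ExplicitLift.red (Ψ g) = g)
    (ι₀ : ℤ√(-2) →+* ℂ) :
    ∃ μ : ℂ, (μ = 0 ∨ μ = 1 ∨ μ = -1) ∧
      ∀ B : ValuationSubring (AlgebraicClosure ℚ), B.LiesOverPrime 3 →
        ∀ φ : Γℚ, B.IsFrobeniusAt φ 3 →
          eulerPoly ((rep Ψ ι₀).comp ρ) B φ = 1 - Polynomial.C μ * Polynomial.X := by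
  by_cases h3 : ∀ A : ValuationSubring (AlgebraicClosure ℚ), A.LiesOverPrime 3 →
      invI ((rep Ψ ι₀).comp ρ) A = ⊥
  · refine ⟨0, Or.inl rfl, fun B hB φ hφ => ?_⟩
    obtain ⟨hσ, -⟩ := hφ
    rw [eulerPoly_of_bot _ hσ (h3 _ hB)]
    simp
  · push Not at h3
    obtain ⟨A₀, hA₀, h3⟩ := h3
    obtain ⟨δ, hδ, h⟩ := exists_delta hdet hΨ ι₀ hA₀ h3
    exact ⟨δ, Or.inr hδ, h⟩

/-- The `L`-function of Artin as a Dirichlet series, up to the Euler factor at `3`. -/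
theorem IsArtinL.exists_LSeries (hρ : Continuous ρ) (hs : Function.Surjective ρ)
    (hdet : ∀ σ : Γℚ, Matrix.GeneralLinearGroup.det (ρ σ) = modThreeCyclotomicChar σ)
    (hΨ : ∀ g, Matrix.GeneralLinearGroup.map FLT.ExplicitLift.red (Ψ g) = g)
    (h : IsArtinL ρ Ψ ι₀ L) :
    ∃ (a : ℕ → ℂ) (μ : ℂ), a 1 = 1 ∧ (μ = 0 ∨ μ = 1 ∨ μ = -1) ∧ ∀ s : ℂ, 1 < s.re →
      LSeriesSummable a s ∧ L s * (1 - μ * (3 : ℂ) ^ (-s)) = LSeries a s := by
  obtain ⟨N, hN, ι, b, f, hram, hst⟩ := exists_start hρ hs hdet hΨ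
  obtain ⟨μ, hμ, hP⟩ := exists_mu hdet hΨ ι₀ (ρ := ρ) (Ψ := Ψ)
  refine ⟨fun n => ι₀ (b n), μ, ?_, hμ, fun s hs' => ⟨?_, ?_⟩⟩
  · simp only []
    rw [hst.eig.1, map_one]
  · exact (hasProd_start₀ hdet hΨ hst ι₀ hs').1
  · have h1 := h.mul_eq hdet hΨ hst hram (P := 1 - Polynomial.C μ * Polynomial.X)
      (fun s hs => by
        simp only [Polynomial.eval_sub, Polynomial.eval_one, Polynomial.eval_mul,
          Polynomial.eval_C, Polynomial.eval_X]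
        intro h0
        have h2 : ‖μ * (3 : ℂ) ^ (-s)‖ = 1 := by rw [← sub_eq_zero.mp h0, norm_one]
        have h3 : ‖μ‖ ≤ 1 := by rcases hμ with rfl | rfl | rfl <;> simp
        have h4 : ‖(3 : ℂ) ^ (-s)‖ < 1 := by
          have h5 := Complex.norm_natCast_cpow_of_pos (n := 3) (by norm_num) (-s)
          rw [Nat.cast_ofNat, Complex.neg_re] at h5
          rw [h5]
          exact Real.rpow_lt_one_of_one_lt_of_neg (by norm_num) (by linarith)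
        rw [norm_mul] at h2
        have h6 : ‖μ‖ * ‖(3 : ℂ) ^ (-s)‖ ≤ 1 * ‖(3 : ℂ) ^ (-s)‖ :=
          mul_le_mul_of_nonneg_right h3 (norm_nonneg _)
        linarith) hP hs'
    simpa only [Polynomial.eval_sub, Polynomial.eval_one, Polynomial.eval_mul,
          Polynomial.eval_C, Polynomial.eval_X] using h1

/-- The `L`-function is bounded for `re s ≥ 2`. -/
theorem IsArtinL.exists_bound (hρ : Continuous ρ) (hs : Function.Surjective ρ)
    (hdet : ∀ σ : Γℚ, Matrix.GeneralLinearGroup.det (ρ σ) = modThreeCyclotomicChar σ)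
    (hΨ : ∀ g, Matrix.GeneralLinearGroup.map FLT.ExplicitLift.red (Ψ g) = g)
    (h : IsArtinL ρ Ψ ι₀ L) : ∃ Z : ℝ, ∀ s : ℂ, 2 ≤ s.re → ‖L s‖ ≤ Z := by
  obtain ⟨a, μ, -, hμ, ha⟩ := h.exists_LSeries hρ hs hdet hΨ
  obtain ⟨Z, hZ⟩ := exists_bound_LSeries (ha 2 (by norm_num)).1
  refine ⟨2 * Z, fun s hs' => ?_⟩
  have h1 := hZ s hs'
  have h2 := norm_one_sub_ge hμ (s := s) (by linarith)
  rw [← (ha s (by linarith)).2, norm_mul] at h1
  nlinarith [norm_nonneg (L s)]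

theorem tendsto_three_cpow : Tendsto (fun x : ℝ => (3 : ℂ) ^ (-(x : ℂ))) atTop (𝓝 0) := by
  rw [tendsto_zero_iff_norm_tendsto_zero]
  have h1 : ∀ x : ℝ, ‖(3 : ℂ) ^ (-(x : ℂ))‖ = ((3 : ℝ)⁻¹) ^ x := by
    intro x
    have h5 := Complex.norm_natCast_cpow_of_pos (n := 3) (by norm_num) (-(x : ℂ))
    rw [Nat.cast_ofNat, Complex.neg_re, Complex.ofReal_re] at h5
    rw [h5, Real.rpow_neg (by norm_num), Real.inv_rpow (by norm_num)]
    norm_num
  simp_rw [h1]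
  exact tendsto_rpow_atTop_of_base_lt_one _ (by norm_num) (by norm_num)

/-- `L(x) → 1` for `x → +∞`. -/
theorem IsArtinL.tendsto (hρ : Continuous ρ) (hs : Function.Surjective ρ)
    (hdet : ∀ σ : Γℚ, Matrix.GeneralLinearGroup.det (ρ σ) = modThreeCyclotomicChar σ)
    (hΨ : ∀ g, Matrix.GeneralLinearGroup.map FLT.ExplicitLift.red (Ψ g) = g)
    (h : IsArtinL ρ Ψ ι₀ L) : Tendsto (fun x : ℝ => L (x : ℂ)) atTop (𝓝 1) := by
  obtain ⟨a, μ, ha1, hμ, ha⟩ := h.exists_LSeries hρ hs hdet hΨ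
  have habs : LSeries.abscissaOfAbsConv a < ⊤ :=
    lt_of_le_of_lt (ha 2 (by norm_num)).1.abscissaOfAbsConv_le (EReal.coe_lt_top _)
  have h1 := LSeries.tendsto_atTop habs
  rw [ha1] at h1
  have h2 : Tendsto (fun x : ℝ => 1 - μ * (3 : ℂ) ^ (-(x : ℂ))) atTop (𝓝 1) := by
    have := (tendsto_three_cpow.const_mul μ).const_sub 1
    rwa [mul_zero, sub_zero] at this
  have h3 := h1.div h2 one_ne_zero
  rw [div_one] at h3
  refine h3.congr' ?_
  filter_upwards [eventually_gt_atTop (2 : ℝ)] with x hx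
  have hre : 1 < ((x : ℝ) : ℂ).re := by rw [Complex.ofReal_re]; linarith
  have h4 := norm_one_sub_ge hμ (s := (x : ℂ)) hre.le
  have h5 : (1 : ℂ) - μ * (3 : ℂ) ^ (-(x : ℂ)) ≠ 0 := by
    intro h0
    rw [h0, norm_zero] at h4
    linarith
  rw [Pi.div_apply, ← (ha _ hre).2, mul_div_cancel_right₀ _ h5]

end Fermat.Agent.Cor.Artin

end
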