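import Fermat.Agent.Corollaries.Artin.Lead

/-!
# A rigidity of functional equations

If `A * B^♯ = B * A^♯` for arithmetic functions with `A(1) = B(1) = 1` and `F^♯(n) = n F(n)`, then
`A = B`. With the comparison of the functional equations of the four zeta functions and of
`b ↔ c`, where `c` is `b̄` up to one linear factor at `3`, this gives the exact conductor and
the exact Euler factors (`exists_identity`).
-/

set_option autoImplicit false

noncomputable section

open Complex
open scoped LSeries.notation ComplexConjugate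

namespace Fermat.Agent.Cor.Artin

open Fermat.Agent.Classic.Lvl Fermat.Agent.Classic.Zeta

/-- multiplication by `n` -/
def tw (F : ArithmeticFunction ℂ) : ArithmeticFunction ℂ := ⟨fun n => n * F n, by simp⟩

theorem tw_apply (F : ArithmeticFunction ℂ) (n : ℕ) : tw F n = n * F n := rfl

theorem tw_mul (F G : ArithmeticFunction ℂ) : tw (F * G) = tw F * tw G := by
  ext n
  rw [tw_apply, ArithmeticFunction.mul_apply, ArithmeticFunction.mul_apply, Finset.mul_sum]
  refine Finset.sum_congr rfl fun x hx => ?_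
  rw [tw_apply, tw_apply, ← (Nat.mem_divisorsAntidiagonal.mp hx).1]
  push_cast
  ring

theorem tw_one : tw 1 = 1 := by
  ext n
  rw [tw_apply, ArithmeticFunction.one_apply]
  split_ifs with h
  · rw [h, Nat.cast_one, one_mul]
  · rw [mul_zero]

theorem tw_lin {ν : ℕ} (hν : ν ≠ 0) (z : ℂ) : tw (lin ν z) = lin ν (ν * z) := by
  ext n
  rw [tw_apply, lin_apply hν, lin_apply hν, mul_sub]
  congr 1
  · split_ifs with h
    · rw [h, Nat.cast_one, one_mul]
    · rw [mul_zero]
  · split_ifs with h
    · rw [h]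
    · rw [mul_zero]

theorem tw_linProd {U : List ℕ} (hU : ∀ ν ∈ U, 2 ≤ ν) :
    tw (linProd U fun _ => 1) = linProd U fun n => n := by
  induction U with
  | nil => rw [linProd_nil, linProd_nil, tw_one]
  | cons ν U ih =>
    have hν := hU ν (by simp)
    rw [linProd_cons, linProd_cons, tw_mul, ih fun μ hμ => hU μ (by simp [hμ]),
      tw_lin (by omega), mul_one]

/-- complex conjugation -/
def cj (F : ArithmeticFunction ℂ) : ArithmeticFunction ℂ := ⟨fun n => conj (F n), by simp⟩

theorem cj_apply (F : ArithmeticFunction ℂ) (n : ℕ) : cj F n = conj (F n) := rfl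

theorem cj_mul (F G : ArithmeticFunction ℂ) : cj (F * G) = cj F * cj G := by
  ext n
  rw [cj_apply, ArithmeticFunction.mul_apply, ArithmeticFunction.mul_apply, map_sum]
  exact Finset.sum_congr rfl fun x _ => map_mul _ _ _

theorem cj_toAr (c : ℕ → ℂ) : cj (toAr c) = toAr fun n => conj (c n) := by
  ext n
  rcases eq_or_ne n 0 with rfl | hn
  · rw [ArithmeticFunction.map_zero, ArithmeticFunction.map_zero]
  · rw [cj_apply, toAr_apply c hn, toAr_apply _ hn]

theorem cj_lin {ν : ℕ} (hν : ν ≠ 0) (z : ℂ) : cj (lin ν z) = lin ν (conj z) := by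
  ext n
  rw [cj_apply, lin_apply hν, lin_apply hν, map_sub]
  congr 1
  · split_ifs <;> simp
  · split_ifs <;> simp

theorem cj_sing {D : ℕ} (hD : D ≠ 0) (z : ℂ) : cj (sing D z) = sing D (conj z) := by
  ext n
  rw [cj_apply, sing_apply hD, sing_apply hD]
  split_ifs <;> simp

theorem sing_mul_apply' {D : ℕ} (hD : D ≠ 0) (κ : ℂ) (F : ArithmeticFunction ℂ) {n : ℕ}
    (hn : n ≠ 0) : (sing D κ * F) n = κ * (if D ∣ n then F (n / D) else 0) := by
  have h : toAr (fun n => F n) = F := by
    ext m
    rcases eq_or_ne m 0 with rfl | hm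
    · rw [ArithmeticFunction.map_zero, ArithmeticFunction.map_zero]
    · rw [toAr_apply _ hm]
  have h1 := sing_mul_toAr hD κ (fun n => F n) hn
  rwa [h] at h1

theorem sing_mul_sing_one {D : ℕ} (hD : D ≠ 0) (x y : ℂ) :
    sing D x * sing 1 y = sing D (x * y) := by
  ext n
  rcases eq_or_ne n 0 with rfl | hn
  · rw [ArithmeticFunction.map_zero, ArithmeticFunction.map_zero]
  · rw [sing_mul_apply' hD x _ hn, sing_apply hD]
    by_cases h : n = D
    · rw [if_pos h, h, if_pos dvd_rfl, Nat.div_self (Nat.pos_of_ne_zero hD),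
        sing_apply one_ne_zero, if_pos rfl]
    · rw [if_neg h]
      split_ifs with hd
      · rw [sing_apply one_ne_zero, if_neg, mul_zero]
        intro h1
        exact h (Nat.eq_of_dvd_of_div_eq_one hd h1).symm
      · rw [mul_zero]

theorem lin_one {ν : ℕ} (hν : 2 ≤ ν) (z : ℂ) : lin ν z 1 = 1 := by
  rw [lin_apply (by omega), if_pos rfl, if_neg (by omega), sub_zero]

theorem lin_zero {ν : ℕ} (hν : 2 ≤ ν) : lin ν 0 = 1 := by
  ext n
  rw [lin_apply (by omega), ArithmeticFunction.one_apply]
  split_ifs <;> simp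

theorem linProd_apply_one {U : List ℕ} (hU : ∀ ν ∈ U, 2 ≤ ν) (z : ℕ → ℂ) :
    linProd U z 1 = 1 := by
  induction U with
  | nil => rw [linProd_nil, ArithmeticFunction.one_apply, if_pos rfl]
  | cons ν U ih =>
    rw [linProd_cons, ArithmeticFunction.mul_apply_one, lin_one (hU ν (by simp)),
      ih fun μ hμ => hU μ (by simp [hμ]), one_mul]

theorem ne_zero_of_one {F : ArithmeticFunction ℂ} (h : F 1 = 1) : F ≠ 0 := by
  rintro rfl
  rw [ArithmeticFunction.zero_apply] at h
  exact zero_ne_one h

/-- the first value of a product -/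
theorem mul_apply_of_first {F G : ArithmeticFunction ℂ} {n : ℕ} (hn : n ≠ 0)
    (h : ∀ m < n, F m = 0) : (F * G) n = F n * G 1 := by
  rw [ArithmeticFunction.mul_apply, Finset.sum_eq_single (n, 1)]
  · rintro ⟨d, e⟩ hde hne
    rw [Nat.mem_divisorsAntidiagonal] at hde
    simp only at hde ⊢
    have he : e ≠ 0 := by
      rintro rfl
      exact hde.2 (by rw [← hde.1, mul_zero])
    rw [h d, zero_mul]
    rcases lt_or_eq_of_le (Nat.le_of_dvd (Nat.pos_of_ne_zero hn) ⟨e, hde.1.symm⟩) with h1 | h1
    · exact h1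
    · exfalso
      apply hne
      rw [h1] at hde ⊢
      have h2 : e = 1 := by
        have h3 : n * e = n * 1 := by rw [hde.1, mul_one]
        exact Nat.eq_of_mul_eq_mul_left (Nat.pos_of_ne_zero hn) h3
      rw [h2]
  · intro h1
    exact absurd (Nat.mem_divisorsAntidiagonal.mpr ⟨mul_one n, hn⟩) h1

/-- **Rigidity.** -/
theorem eq_of_tw {F G : ArithmeticFunction ℂ} (hF : F 1 = 1) (hG : G 1 = 1)
    (h : F * tw G = G * tw F) : F = G := by
  classical
  by_contra hne
  have hex : ∃ n, (F - G) n ≠ 0 := by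
    by_contra hno
    push Not at hno
    refine hne (sub_eq_zero.mp ?_)
    ext n
    rw [hno n, ArithmeticFunction.zero_apply]
  set H := F - G with hH
  have hlt : ∀ m < Nat.find hex, H m = 0 := fun m hm => by
    by_contra h0
    exact Nat.find_min hex hm h0
  have hsp := Nat.find_spec hex
  generalize Nat.find hex = n at hlt hsp
  have hn0 : n ≠ 0 := by
    rintro rfl
    exact hsp ArithmeticFunction.map_zero
  have htw : tw F = tw G + tw H := by
    ext m
    rw [ArithmeticFunction.add_apply, tw_apply, tw_apply, tw_apply, hH, sub_eq_add_neg,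
      ArithmeticFunction.add_apply, ArithmeticFunction.neg_apply]
    ring
  have hFG : F = G + H := by rw [hH]; ring
  have key : H * tw G = tw H * G := by
    rw [htw] at h
    nth_rewrite 1 [hFG] at h
    linear_combination h
  have h1 := congrArg (fun K : ArithmeticFunction ℂ => K n) key
  rw [mul_apply_of_first hn0 hlt, mul_apply_of_first hn0 fun m hm => by
    rw [tw_apply, hlt m hm, mul_zero], tw_apply, tw_apply, hG, Nat.cast_one, mul_one, mul_one,
    mul_one] at h1
  have h2 : ((n : ℂ) - 1) * H n = 0 := by linear_combination -h1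
  rcases mul_eq_zero.mp h2 with h3 | h3
  · have h4 : n = 1 := by exact_mod_cast sub_eq_zero.mp h3
    subst h4
    apply hsp
    rw [hH, sub_eq_add_neg, ArithmeticFunction.add_apply, ArithmeticFunction.neg_apply, hF, hG]
    ring
  · exact hsp h3

/-- Comparison of two shifts. -/
theorem sing_cancel {D₁ D₂ : ℕ} (h₁ : D₁ ≠ 0) (h₂ : D₂ ≠ 0) {κ : ℂ} (hκ : κ ≠ 0)
    {A B : ArithmeticFunction ℂ} (hA : A 1 = 1) {β : ℂ} (hβ : β ≠ 0) (hB : B 1 = β)
    (h : sing D₂ 1 * A = sing D₁ κ * B) : D₁ = D₂ ∧ κ * β = 1 ∧ A = sing 1 κ * B := by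
  have e2 : D₁ ∣ D₂ := by
    have h1 := congrArg (fun K : ArithmeticFunction ℂ => K D₂) h
    rw [sing_mul_apply' h₂ 1 _ h₂, sing_mul_apply' h₁ κ _ h₂, if_pos dvd_rfl,
      Nat.div_self (Nat.pos_of_ne_zero h₂), hA] at h1
    by_contra hn
    rw [if_neg hn, mul_zero, one_mul] at h1
    exact one_ne_zero h1
  have e1 : D₂ ∣ D₁ := by
    have h1 := congrArg (fun K : ArithmeticFunction ℂ => K D₁) h
    rw [sing_mul_apply' h₂ 1 _ h₁, sing_mul_apply' h₁ κ _ h₁, if_pos dvd_rfl,
      Nat.div_self (Nat.pos_of_ne_zero h₁), hB] at h1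
    by_contra hn
    rw [if_neg hn, mul_zero] at h1
    exact mul_ne_zero hκ hβ h1.symm
  have e := Nat.dvd_antisymm e2 e1
  subst e
  have h3 : A = sing 1 κ * B := by
    have h4 : sing D₁ κ = sing D₁ 1 * sing 1 κ := by rw [sing_mul_sing_one h₁, one_mul]
    rw [h4, mul_assoc] at h
    exact cancel_left (by
      intro h0
      have h5 := congrArg (fun K : ArithmeticFunction ℂ => K D₁) h0
      simp only [sing_apply h₁, ArithmeticFunction.zero_apply, if_true] at h5
      exact one_ne_zero h5) h
  refine ⟨rfl, ?_, h3⟩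
  have h5 := congrArg (fun K : ArithmeticFunction ℂ => K 1) h3
  rw [hA, sing_mul_apply' one_ne_zero κ _ one_ne_zero, if_pos dvd_rfl, Nat.div_self one_pos,
    hB] at h5
  exact h5.symm

end Fermat.Agent.Cor.Artin

end
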