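import Fermat.Agent.Corollaries.Artin.Landau
import Mathlib.NumberTheory.LSeries.Injectivity

/-!
# Uniqueness of the octahedral newform

A cusp form `g` of weight one (any level) with `L(s, g) = L(s, r)` is unique as a `q`-expansion
(`qCoeff_eq_of_isArtinL`), so all properties hold for every such `g`: the Euler factors, the
densities of the primes with a given coefficient, the number of non-zero coefficients.
-/

set_option autoImplicit false

noncomputable section

open NumberField NumberField.InfinitePlace IsDedekindDomain WeierstrassCurve Filter Topology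
open CongruenceSubgroup ModularFormClass EisensteinWeightOne UpperHalfPlane
open Fermat.Agent.Classic Fermat.Agent.Classic.Level Fermat.Agent.X1 Fermat.Agent.LT.End
open Fermat.Agent.Frob Fermat.Agent.Classic.Disc
open scoped MatrixGroups ModularForm ComplexConjugate

namespace Fermat.Agent.Cor.Artin

local notation "Γℚ" => (AlgebraicClosure ℚ ≃ₐ[ℚ] AlgebraicClosure ℚ)

variable {ρ : Γℚ →* GL (Fin 2) (ZMod 3)} {Ψ : GL (Fin 2) (ZMod 3) →* GL (Fin 2) (ℤ√(-2))}
  {κ : ℤ√(-2) →+* ℂ}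

theorem abscissa_qCoeff_lt_top {N : ℕ} [NeZero N] (g : CuspForm (Gamma1 N) 1) :
    LSeries.abscissaOfAbsConv (qCoeff ⇑g) < ⊤ := by
  have h : LSeriesSummable (qCoeff ⇑g) (3 : ℂ) := (Z3.lsum g (s := 3) (by norm_num)).1
  exact h.abscissaOfAbsConv_le.trans_lt (by
    rw [show ((3 : ℂ).re : EReal) = ((3 : ℝ) : EReal) by norm_num]
    exact EReal.coe_lt_top 3)

/-- **Uniqueness of the newform**: two cusp forms of weight one (of any levels) with the
`L`-function `L(s, r)` have the same `q`-expansion. -/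
theorem qCoeff_eq_of_isArtinL {N N' : ℕ} [NeZero N] [NeZero N'] {g : CuspForm (Gamma1 N) 1}
    {g' : CuspForm (Gamma1 N') 1} (h : IsArtinL ρ Ψ κ (ModularForm.L one_pos g))
    (h' : IsArtinL ρ Ψ κ (ModularForm.L one_pos g')) : qCoeff ⇑g = qCoeff ⇑g' := by
  funext n
  rcases eq_or_ne n 0 with rfl | hn
  · rw [qCoeff_cusp_zero' (M := N) (Γ := Gamma1 N) (k := 1) g,
      qCoeff_cusp_zero' (M := N') (Γ := Gamma1 N') (k := 1) g']
  · refine LSeries.eq_of_LSeries_eventually_eq (abscissa_qCoeff_lt_top g)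
      (abscissa_qCoeff_lt_top g') ?_ hn
    filter_upwards [eventually_gt_atTop 2] with x hx
    have hx' : 2 < (x : ℂ).re := by rwa [Complex.ofReal_re]
    rw [(Z3.lsum g hx').2, (Z3.lsum g' hx').2, h.unique h']

/-- **The octahedral newform of `r = κ ∘ Ψ ∘ ρ`, with all its properties**: level `N` = the Artin
conductor, nebentypus `χ₋₃`, `L(s, g) = L(s, r)` with all Euler factors, the possible coefficients
at the primes with their natural densities, and the number of non-zero coefficients. -/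
theorem exists_newform_complete (hρ : Continuous ρ) (hs : Function.Surjective ρ)
    (hdet : ∀ σ : Γℚ, Matrix.GeneralLinearGroup.det (ρ σ) = modThreeCyclotomicChar σ)
    (hΨ : ∀ g, Matrix.GeneralLinearGroup.map FLT.ExplicitLift.red (Ψ g) = g)
    (κ : ℤ√(-2) →+* ℂ) :
    ∃ (N : ℕ) (_ : NeZero N) (g : CuspForm (Gamma1 N) 1) (b : ℕ → ℤ√(-2)),
      Z3.HasNeb N g ∧ b 1 = 1 ∧ (∀ n, qCoeff ⇑g n = κ (b n)) ∧
      IsArtinL ρ Ψ κ (ModularForm.L one_pos g) ∧
      (∀ p : ℕ, p.Prime → (p ∣ N ↔ ¬ UnrAt ρ p)) ∧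
      (∀ (T24 : FixField ρ C2) (T12 : FixField ρ V4) (T8 : FixField ρ S3) (T4 : FixField ρ B3),
        (discr T24.F).natAbs * (discr T4.F).natAbs ^ 2 =
          (discr T12.F).natAbs * (discr T8.F).natAbs ^ 2 * N ^ 2) ∧
      (∀ p : ℕ, p.Prime → ∀ A : ValuationSubring (AlgebraicClosure ℚ), A.LiesOverPrime p →
        ∀ σ : Γℚ, A.IsFrobeniusAt σ p → eulerPoly ((rep Ψ κ).comp ρ) A σ =
          1 - Polynomial.C (κ (b p)) * Polynomial.X +
            Polynomial.C (if p ∣ N then 0 else ((chiNegThree p : ℤ) : ℂ)) * Polynomial.X ^ 2) ∧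
      (∀ p : ℕ, p.Prime → ¬ p ∣ N → b p ∈
        ({0, 1, -1, 2, -2, ⟨0, 1⟩, ⟨0, -1⟩} : Set (ℤ√(-2)))) ∧
      HasNaturalDensity {p | b p = 0} (3 / 8) ∧
      HasNaturalDensity {p | b p = 1} (1 / 6) ∧
      HasNaturalDensity {p | b p = -1} (1 / 6) ∧
      HasNaturalDensity {p | b p = 2} (1 / 48) ∧
      HasNaturalDensity {p | b p = -2} (1 / 48) ∧
      HasNaturalDensity {p | b p = ⟨0, 1⟩} (1 / 8) ∧
      HasNaturalDensity {p | b p = ⟨0, -1⟩} (1 / 8) ∧
      ∃ C : ℝ, 0 < C ∧ Tendsto (fun x : ℝ =>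
        (((Finset.Ioc 0 ⌊x⌋₊).filter fun n => b n ≠ 0).card : ℝ) *
          Real.log x ^ (3 / 8 : ℝ) / x) atTop (𝓝 C) := by
  classical
  obtain ⟨N, hN, g, b, a1, a2, a3, a4, a5, a6, a7, -⟩ :=
    exists_newform_local hρ hs hdet hΨ κ
  obtain ⟨N', hN', g', b', -, -, c3, c4, c5, c6, c7⟩ := exists_newform_density hρ hs hdet hΨ κ
  obtain ⟨N'', hN'', g'', -, -, d4, -, C, hC, hlim⟩ := exists_newform_landau hρ hs hdet hΨ κ
  have hinj := embedding_injective κ
  have hb : b' = b := funext fun n => hinj (by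
    rw [← c3, ← a3, qCoeff_eq_of_isArtinL c4 a4])
  subst hb
  have hg : qCoeff ⇑g'' = fun n => κ (b' n) := by
    rw [qCoeff_eq_of_isArtinL d4 a4]
    exact funext a3
  refine ⟨N, hN, g, b', a1, a2, a3, a4, a5, a6, a7, fun p hp hpN => c6 p hp fun h => hpN ?_,
    c7.1, c7.2.1, c7.2.2.1, c7.2.2.2.1, c7.2.2.2.2.1, c7.2.2.2.2.2.1, c7.2.2.2.2.2.2, C, hC, ?_⟩
  · exact (a5 p hp).mpr ((c5 p hp).mp h)
  · refine hlim.congr fun x => ?_
    congr 4
    refine Finset.filter_congr fun n _ => ?_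
    rw [hg]
    exact not_congr (map_eq_zero_iff κ hinj)

open scoped Classical in
/-- **The number of non-zero coefficients**, for every cusp form of weight one (of any level) with
the `L`-function `L(s, r)`. -/
theorem landau_of_isArtinL (hρ : Continuous ρ) (hs : Function.Surjective ρ)
    (hdet : ∀ σ : Γℚ, Matrix.GeneralLinearGroup.det (ρ σ) = modThreeCyclotomicChar σ)
    (hΨ : ∀ g, Matrix.GeneralLinearGroup.map FLT.ExplicitLift.red (Ψ g) = g)
    {N : ℕ} [NeZero N] {g : CuspForm (Gamma1 N) 1}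
    (h : IsArtinL ρ Ψ κ (ModularForm.L one_pos g)) :
    ∃ C : ℝ, 0 < C ∧ Tendsto (fun x : ℝ =>
        (((Finset.Ioc 0 ⌊x⌋₊).filter fun n => qCoeff ⇑g n ≠ 0).card : ℝ) *
          Real.log x ^ (3 / 8 : ℝ) / x) atTop (𝓝 C) := by
  obtain ⟨N', hN', g', -, -, h4, -, h6⟩ := exists_newform_landau hρ hs hdet hΨ κ
  rwa [← qCoeff_eq_of_isArtinL h h4] at h6

end Fermat.Agent.Cor.Artin

end
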