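import Fermat.Agent.Corollaries.Artin.AL

/-!
# The Atkin-Lehner operator at `3 ‖ N` in weight one with nebentypus `χ₋₃`

`w = (3 x, y; N, 3)`, `3 x - M y = 1`, `N = 3 M`.  Here the nebentypus `χ = χ₋₃` is ramified at the
prime of the operator.  For `g` of level `N` and nebentypus `χ` the form `g ∣ w` is of the same kind,
`g ∣ w ∣ w = -g / 3`, `T_p (g ∣ w) = χ(p) (T_p g) ∣ w` for `p ∤ N`, and

  `((U₃ g) ∣ w) ∣ U₃ = g ∣ w`.

Hence `U₃` is injective, and if `U₃ g = λ g`, then `U₃ (g ∣ w) = λ⁻¹ (g ∣ w)`.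
-/

set_option autoImplicit false

noncomputable section

open CongruenceSubgroup Matrix.SpecialLinearGroup UpperHalfPlane EisensteinWeightOne
open scoped MatrixGroups ModularForm Manifold

namespace Fermat.Agent.Cor.Artin

open Fermat.Agent.X1 Fermat.Agent.HeckePar Fermat.Agent.Oldforms Fermat.Agent.Classic
open Fermat.Agent.Classic.Fri ModularFormClass

variable {N M : ℕ} (D : ALData N M 3)

include D in
theorem w3_three_dvd : 3 ∣ N := ⟨M, D.hN⟩

include D in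
theorem w3_h : 3 * D.x - M * D.y = 1 := by
  have h := D.h
  push_cast at h
  exact h

include D in
theorem w3_hN : (N : ℤ) = 3 * M := by
  have h := D.hNZ
  push_cast at h
  exact h

include D in
theorem w3_not_dvd : ¬ (3 : ℤ) ∣ (M : ℤ) := by
  intro h
  have h1 := w3_h D
  have h4 : (3 : ℤ) ∣ 1 := by
    rw [← h1]
    exact dvd_sub (dvd_mul_right _ _) (h.mul_right _)
  omega

/-- `w` normalises `Γ₀(N)` and keeps the character. -/
theorem w3_exists_mul (g : SL(2, ℤ)) (hg : g ∈ Gamma0 N) :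
    ∃ g' ∈ Gamma0 N, chi3 (g' 1 1) = chi3 (g 1 1) ∧ D.W * mapGL ℝ g = mapGL ℝ g' * D.W := by
  obtain ⟨g', hg', h⟩ := D.exists_W_mul g hg
  refine ⟨g', hg', ?_, h⟩
  rw [ALData.GL_eq_iff_int D.val_W (val_mapGL g) (val_mapGL g') D.val_W] at h
  have h1 := congrFun (congrFun h 1) 0
  simp only [Matrix.mul_apply, Fin.sum_univ_two, ALData.intW, Matrix.of_apply, Matrix.cons_val',
    Matrix.cons_val_zero, Matrix.cons_val_one, Matrix.cons_val_fin_one] at h1
  have h5 : (3 : ℤ) ∣ g' 1 0 := three_dvd_of_mem_Gamma0 (w3_three_dvd D) hg'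
  have h6 : (3 : ℤ) ∣ g 1 0 := three_dvd_of_mem_Gamma0 (w3_three_dvd D) hg
  rw [w3_hN D] at h1
  push_cast at h1
  have h7 : (3 : ℤ) ∣ (M : ℤ) * (g' 1 1 - g 0 0) := by
    have e : (M : ℤ) * (g' 1 1 - g 0 0) = g 1 0 - g' 1 0 * D.x := by
      have : (3 : ℤ) * ((M : ℤ) * (g' 1 1 - g 0 0)) = 3 * (g 1 0 - g' 1 0 * D.x) := by
        linear_combination -h1
      linarith
    rw [e]
    exact dvd_sub h6 (h5.mul_right _)
  rw [← Fri.chi3_00 (w3_three_dvd D) hg]
  exact chi3_congr ((Int.prime_three.dvd_or_dvd h7).resolve_left (w3_not_dvd D))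

theorem w3_neb {F : ℍ → ℂ} (hF : Neb N F) : Neb N (F ∣[(1 : ℤ)] D.W) := by
  intro g hg
  obtain ⟨g', hg', h1, h2⟩ := w3_exists_mul D g hg
  rw [SL_slash', ← SlashAction.slash_mul, h2, SlashAction.slash_mul, ← SL_slash', hF g' hg',
    smul_slash_W, h1]

/-- the Atkin-Lehner transform at `3` of a cusp form of nebentypus `χ₋₃`. -/
def w3Cusp [NeZero N] (f : CuspForm (Gamma1 N) 1) (hf : Neb N f) : CuspForm (Gamma1 N) 1 where
  toFun := ⇑f ∣[(1 : ℤ)] D.W
  slash_action_eq' := by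
    rintro _ ⟨g, hg, rfl⟩
    have h0 : g ∈ Gamma0 N := Gamma1_in_Gamma0 N hg
    have h1 := w3_neb D hf g h0
    have h2 : chi3 (g 1 1) = 1 := chi3_11_of_Gamma1 (w3_three_dvd D) hg
    rw [h2, Int.cast_one, one_smul] at h1
    exact h1
  holo' := (CuspFormClass.holo f).slash 1 D.W
  zero_at_cusps' := by
    intro c hc
    have hq : ((3 : ℕ) : ℤ) ≠ 0 := by norm_num
    have hA : D.intW.det = ((3 : ℕ) : ℤ) := by
      rw [ALData.intW, Matrix.det_fin_two_of, D.hNZ]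
      linear_combination (((3 : ℕ) : ℤ)) * D.h
    have h1 : D.W = toGLR hq D.intW hA := by
      rw [← Units.val_inj, val_toGLR, D.val_W]
    have h2 := isZeroAt_slash_toGLR f hq _ hA hc
    rw [← h1] at h2
    exact h2

theorem coe_w3Cusp [NeZero N] (f : CuspForm (Gamma1 N) 1) (hf : Neb N f) :
    ⇑(w3Cusp D f hf) = ⇑f ∣[(1 : ℤ)] D.W := rfl

/-- `g ∣ w ∣ w = - g / 3`. -/
theorem w3_slash_slash {F : ℍ → ℂ} (hF : Neb N F) :
    (F ∣[(1 : ℤ)] D.W) ∣[(1 : ℤ)] D.W = (-(3 : ℂ)⁻¹) • F := by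
  have h := w3_h D
  have hN := w3_hN D
  set g : SL(2, ℤ) := ⟨!![3 * D.x ^ 2 + D.y * M, D.y * (D.x + 1); (N : ℤ) * (D.x + 1),
    M * D.y + 3], by
      rw [Matrix.det_fin_two_of, hN]
      linear_combination ((1 : ℤ) + 3 * D.x - M * D.y) * h⟩ with hg
  have hgN : g ∈ Gamma0 N :=
    Gamma0_mem.mpr ((ZMod.intCast_zmod_eq_zero_iff_dvd _ _).mpr ⟨D.x + 1, rfl⟩)
  have hWW : D.W * D.W = scal 3 D.hq.ne_zero * mapGL ℝ g := by
    refine ALData.GL_eq_of_int D.val_W D.val_W (val_scal _) (val_mapGL _) ?_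
    ext i j
    fin_cases i <;> fin_cases j <;>
      simp [ALData.intW, hg, Matrix.mul_apply, Fin.sum_univ_two] <;> try rw [hN]
    · ring
    · ring
    · ring
    · ring
  have h11 : chi3 (g 1 1) = -1 := by
    rw [← chi3_neg_one]
    refine chi3_congr ?_
    have e : g 1 1 - (-1) = 3 * (D.x + 1) := by
      rw [hg]
      simp
      linear_combination -h
    rw [e]
    exact dvd_mul_right _ _
  rw [← SlashAction.slash_mul, hWW, SlashAction.slash_mul, slash_scal_one, ← SL_slash',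
    ModularForm.SL_smul_slash, hF g hgN, h11, smul_smul]
  congr 1
  push_cast
  ring

/-! ### Hecke operators outside `N` -/

/-- `T_p (F ∣ w) = χ(p) (T_p F) ∣ w`. -/
theorem w3_tChi {F : ℍ → ℂ} (hF : Neb N F) {p : ℕ} [hp : Fact p.Prime] (hpN : ¬ p ∣ N) :
    tChi p (F ∣[(1 : ℤ)] D.W) = ((chi3 p : ℤ) : ℂ) • (tChi p F ∣[(1 : ℤ)] D.W) := by
  classical
  have h3N := w3_three_dvd D
  have h3N' : (3 : ℤ) ∣ (N : ℤ) := by exact_mod_cast h3N
  have hpq : p ≠ 3 := fun h => hpN (h ▸ D.dvdqN)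
  have hp3 : ¬ (3 : ℤ) ∣ (p : ℤ) := by
    intro h
    have h5 : 3 ∣ p := by exact_mod_cast h
    have h6 := (Nat.prime_dvd_prime_iff_eq Nat.prime_three hp.out).mp h5
    exact hpN (h6 ▸ h3N)
  have hpp : chi3 p * chi3 p = 1 := chi3_mul_self hp3
  have key : ∀ x : Option (ZMod p), ∃ y : Option (ZMod p), ∃ g' ∈ Gamma0 N,
      hrep p x * D.W = mapGL ℝ g' * (D.W * hrep p y) ∧
        chi3 p * (wt p x * chi3 (g' 1 1)) = wt p y := by
    intro x
    obtain ⟨y, g', hg', h⟩ := D.exists_hecke_W hp.out hpq ⟨x, fun h => absurd h hpN⟩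
    refine ⟨y.1, g', hg', h, ?_⟩
    have hint : intRep p x * D.intW = (g' : Matrix (Fin 2) (Fin 2) ℤ) * (D.intW * intRep p y.1) := by
      have h2 := congrArg (fun A : GL (Fin 2) ℝ => (A : Matrix (Fin 2) (Fin 2) ℝ)) h
      simp only [Units.val_mul] at h2
      rw [val_hrep hp.out.ne_zero, val_hrep hp.out.ne_zero, val_mapGL, D.val_W, ← map_intCast_mul,
        ← map_intCast_mul, ← map_intCast_mul] at h2
      exact map_intCast_injective h2
    have h5 : (3 : ℤ) ∣ g' 1 0 := three_dvd_of_mem_Gamma0 h3N hg'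
    have hg3 : chi3 (g' 1 1) * chi3 (g' 1 1) = 1 := chi3_mul_self (not_three_dvd_of_mem h5)
    have h1 := congrFun (congrFun hint 1) 0
    simp only [Matrix.mul_apply, Fin.sum_univ_two] at h1
    have e00 : D.intW 0 0 = 3 * D.x := rfl
    have e01 : D.intW 0 1 = D.y := rfl
    have e10 : D.intW 1 0 = N := rfl
    have e11 : D.intW 1 1 = 3 := rfl
    rw [e00, e01, e10, e11, w3_hN D] at h1
    have hx10 : intRep p x 1 0 = 0 := by rcases x with _ | j <;> rfl
    have hy10 : intRep p y.1 1 0 = 0 := by rcases y.1 with _ | j <;> rfl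
    rw [hx10, hy10, zero_mul, zero_add, mul_zero, mul_zero, add_zero, add_zero] at h1
    -- the congruence mod 3
    have h6 : (3 : ℤ) ∣ (M : ℤ) * (intRep p x 1 1 - g' 1 1 * intRep p y.1 0 0) := by
      have e : (M : ℤ) * (intRep p x 1 1 - g' 1 1 * intRep p y.1 0 0) =
          g' 1 0 * (D.x * intRep p y.1 0 0) := by
        have : (3 : ℤ) * ((M : ℤ) * (intRep p x 1 1 - g' 1 1 * intRep p y.1 0 0)) =
            3 * (g' 1 0 * (D.x * intRep p y.1 0 0)) := by
          linear_combination h1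
        linarith
      rw [e]
      exact h5.mul_right _
    have h7 := (Int.prime_three.dvd_or_dvd h6).resolve_left (w3_not_dvd D)
    have h8 : chi3 (intRep p x 1 1) = chi3 (g' 1 1) * chi3 (intRep p y.1 0 0) := by
      rw [← chi3_mul]
      exact chi3_congr h7
    have hw : ∀ z : Option (ZMod p), wt p z = chi3 p * chi3 (intRep p z 1 1) := by
      intro z
      rcases z with _ | j
      · show chi3 p = chi3 p * chi3 1
        rw [chi3_one, mul_one]
      · show (1 : ℤ) = chi3 p * chi3 p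
        rw [hpp]
    have hw' : ∀ z : Option (ZMod p), wt p z = chi3 (intRep p z 0 0) := by
      intro z
      rcases z with _ | j
      · rfl
      · show (1 : ℤ) = chi3 1
        rw [chi3_one]
    rw [hw x, hw' y.1, h8]
    linear_combination (chi3 (g' 1 1) * chi3 (g' 1 1) * chi3 (intRep p y.1 0 0)) * hpp +
      chi3 (intRep p y.1 0 0) * hg3
  choose σ g hg hσ hwt using key
  have hinj : Function.Injective σ := by
    intro x x' hxx'
    have h1 := hσ x
    have h2 := hσ x'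
    rw [hxx'] at h1
    apply ALData.hrep_unique hp.out (g := g x * (g x')⁻¹)
    apply mul_right_cancel (b := D.W)
    rw [h1, mul_assoc, h2, map_mul, map_inv]
    group
  have hbij : Function.Bijective σ := Finite.injective_iff_bijective.mp hinj
  rw [tChi_eq_sum, tChi_eq_sum, SlashAction.sum_slash, ← hbij.sum_comp, Finset.smul_sum]
  refine Finset.sum_congr rfl fun x _ => ?_
  have hdet : 0 < ((D.W * hrep p (σ x)).det : ℝ) := by
    rw [map_mul, Units.val_mul]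
    refine mul_pos D.det_W_pos ?_
    rcases σ x with _ | j
    · exact ModularForm.det_heckeDiagMatrix_pos _
    · exact ModularForm.det_heckeMatrix_pos _ _
  have e1 : (F ∣[(1 : ℤ)] hrep p x) ∣[(1 : ℤ)] D.W =
      ((chi3 (g x 1 1) : ℤ) : ℂ) • ((F ∣[(1 : ℤ)] D.W) ∣[(1 : ℤ)] hrep p (σ x)) := by
    rw [← SlashAction.slash_mul, hσ x, SlashAction.slash_mul, ← SL_slash', hF _ (hg x),
      ModularForm.smul_slash, UpperHalfPlane.σ, if_pos hdet, SlashAction.slash_mul]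
    rfl
  rw [smul_slash_W, e1, smul_smul, smul_smul, ← hwt x]
  congr 1
  push_cast
  ring

/-! ### `U₃` -/

/-- data with `3 ∣ x`. -/
theorem exists_w3Data (hN : N = 3 * M) (h : ¬ 3 ∣ M) :
    ∃ (D : ALData N M 3) (x' y' : ℤ), D.x = 3 * x' ∧ D.y = 3 * y' - M := by
  have hcop : IsCoprime (3 : ℤ) (M : ℤ) := by
    have := Nat.isCoprime_iff_coprime.mpr ((Nat.Prime.coprime_iff_not_dvd Nat.prime_three).mpr h)
    exact_mod_cast this
  obtain ⟨u, v, huv⟩ := hcop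
  have h3 : (3 : ℤ) ∣ 1 - (M : ℤ) ^ 2 := by
    have h4 : ¬ (3 : ℤ) ∣ (M : ℤ) := by exact_mod_cast h
    have h5 : (M : ℤ) % 3 = 1 ∨ (M : ℤ) % 3 = 2 := by omega
    have h6 : (1 - (M : ℤ) ^ 2) % 3 = 0 := by
      rcases h5 with h5 | h5 <;> simp [Int.sub_emod, pow_two, Int.mul_emod, h5]
    exact Int.dvd_of_emod_eq_zero h6
  obtain ⟨c, hc⟩ := h3
  refine ⟨⟨Nat.prime_three, hN, 3 * (u * c), 3 * (-(v * c)) - M, ?_⟩, u * c, -(v * c), rfl, rfl⟩
  push_cast
  linear_combination 3 * c * huv - hc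

theorem val_mul_of_int {A B : GL (Fin 2) ℝ} {a b : Matrix (Fin 2) (Fin 2) ℤ}
    (hA : (A : Matrix (Fin 2) (Fin 2) ℝ) = a.map (Int.cast))
    (hB : (B : Matrix (Fin 2) (Fin 2) ℝ) = b.map (Int.cast)) :
    ((A * B : GL (Fin 2) ℝ) : Matrix (Fin 2) (Fin 2) ℝ) = (a * b).map (Int.cast) := by
  rw [Units.val_mul, hA, hB, map_intCast_mul]

theorem val_hecke3 (i : ℕ) : ((ModularForm.heckeMatrix 3 i : GL (Fin 2) ℝ) :
    Matrix (Fin 2) (Fin 2) ℝ) = (!![1, (i : ℤ); 0, 3] : Matrix (Fin 2) (Fin 2) ℤ).map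
      (Int.cast) := by
  rw [ModularForm.val_heckeMatrix (by norm_num)]
  ext i j
  fin_cases i <;> fin_cases j <;> simp

theorem smul_slash_hecke3 (c : ℂ) (F : ℍ → ℂ) (i : ℕ) :
    (c • F) ∣[(1 : ℤ)] ModularForm.heckeMatrix 3 i =
      c • (F ∣[(1 : ℤ)] ModularForm.heckeMatrix 3 i) := by
  rw [ModularForm.smul_slash, ModularForm.σ_heckeMatrix, ContinuousAlgEquiv.refl_apply]

/-- the terms with a unit in the upper left corner. -/
theorem w3_term {F : ℍ → ℂ} (hF : Neb N F) {x' y' : ℤ} (hx : D.x = 3 * x')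
    (hy : D.y = 3 * y' - M) (i j t : ℕ) (k : ℤ) (hk : (i : ℤ) * (j - t) = 1 + 3 * k) :
    ((F ∣[(1 : ℤ)] ModularForm.heckeMatrix 3 i) ∣[(1 : ℤ)] D.W) ∣[(1 : ℤ)]
        ModularForm.heckeMatrix 3 j =
      ((3 : ℂ)⁻¹ * ((chi3 (M * (j - t)) : ℤ) : ℂ)) •
        (F ∣[(1 : ℤ)] ModularForm.heckeMatrix 3 t) := by
  have h := w3_h D
  have hN := w3_hN D
  rw [hx, hy] at h
  set g : SL(2, ℤ) := ⟨!![3 * x' + M * i, x' * (j - t) + y' + i + M * k; (N : ℤ),
    M * (j - t) + 3], by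
      rw [Matrix.det_fin_two_of, hN]
      linear_combination h + (M : ℤ) ^ 2 * hk⟩ with hg
  have hgN : g ∈ Gamma0 N :=
    Gamma0_mem.mpr ((ZMod.intCast_zmod_eq_zero_iff_dvd _ _).mpr (dvd_refl _))
  have h11 : chi3 (g 1 1) = chi3 (M * (j - t)) := by
    refine chi3_congr ?_
    have e : g 1 1 - (M : ℤ) * (j - t) = 3 := by
      rw [hg]
      simp
    rw [e]
  have hmat : ModularForm.heckeMatrix 3 i * D.W * ModularForm.heckeMatrix 3 j =
      scal 3 D.hq.ne_zero * mapGL ℝ g * ModularForm.heckeMatrix 3 t := by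
    refine ALData.GL_eq_of_int (val_mul_of_int (val_hecke3 i) D.val_W) (val_hecke3 j)
      (val_mul_of_int (val_scal _) (val_mapGL _)) (val_hecke3 t) ?_
    ext a b
    fin_cases a <;> fin_cases b <;>
      simp [ALData.intW, hg, Matrix.mul_apply, Fin.sum_univ_two, hx, hy] <;> try rw [hN]
    · ring
    · linear_combination (3 * (M : ℤ)) * hk
    · ring
  rw [← SlashAction.slash_mul, ← SlashAction.slash_mul, ← mul_assoc, hmat, SlashAction.slash_mul,
    SlashAction.slash_mul, slash_scal_one, ← SL_slash', ModularForm.SL_smul_slash, hF g hgN, h11,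
    smul_smul, smul_slash_hecke3]
  push_cast
  rfl

/-- the terms without a unit in the upper left corner. -/
theorem w3_term_zero {F : ℍ → ℂ} (hF : Neb N F) {x' : ℤ} (hx : D.x = 3 * x') (j : ℕ) :
    ((F ∣[(1 : ℤ)] ModularForm.heckeMatrix 3 0) ∣[(1 : ℤ)] D.W) ∣[(1 : ℤ)]
        ModularForm.heckeMatrix 3 j = (3 : ℂ)⁻¹ • (F ∣[(1 : ℤ)] D.W) := by
  have h := w3_h D
  have hN := w3_hN D
  rw [hx] at h
  set g : SL(2, ℤ) := ⟨!![3 * x' - M * (3 * x' * j + D.y),
      -x' * D.y + 3 * (3 * x' * j + D.y) * x'; (N : ℤ) * (-M * j - 2),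
      -M * D.y + 9 * x' * (M * j + 3)], by
      rw [Matrix.det_fin_two_of, hN]
      linear_combination (3 * (3 * x') - M * D.y + 1) * h⟩ with hg
  have hgN : g ∈ Gamma0 N :=
    Gamma0_mem.mpr ((ZMod.intCast_zmod_eq_zero_iff_dvd _ _).mpr (dvd_mul_right _ _))
  have h11 : chi3 (g 1 1) = 1 := by
    refine (chi3_congr ?_).trans chi3_one
    have e : g 1 1 - 1 = 3 * (-3 * x' + 3 * x' * (M * j + 3)) := by
      rw [hg]
      simp
      linear_combination h
    rw [e]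
    exact dvd_mul_right _ _
  have hmat : ModularForm.heckeMatrix 3 0 * D.W * ModularForm.heckeMatrix 3 j =
      scal 3 D.hq.ne_zero * mapGL ℝ g * D.W := by
    refine ALData.GL_eq_of_int (val_mul_of_int (val_hecke3 0) D.val_W) (val_hecke3 j)
      (val_mul_of_int (val_scal _) (val_mapGL _)) D.val_W ?_
    ext a b
    fin_cases a <;> fin_cases b <;>
      simp [ALData.intW, hg, Matrix.mul_apply, Fin.sum_univ_two, hx] <;> try rw [hN]
    · linear_combination (-9 * x') * h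
    · linear_combination (-9 * x' * j - 3 * D.y) * h
    · linear_combination (-9 * (M : ℤ)) * h
    · linear_combination (-9 * (M : ℤ) * j - 27) * h
  rw [← SlashAction.slash_mul, ← SlashAction.slash_mul, ← mul_assoc, hmat, SlashAction.slash_mul,
    SlashAction.slash_mul, slash_scal_one, ← SL_slash', ModularForm.SL_smul_slash, hF g hgN, h11,
    Int.cast_one, one_smul, smul_slash_W]
  push_cast
  rfl

/-- **`((U₃ F) ∣ w) ∣ U₃ = F ∣ w`.** -/
theorem w3_hecke {F : ℍ → ℂ} (hF : Neb N F) {x' y' : ℤ} (hx : D.x = 3 * x')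
    (hy : D.y = 3 * y' - M) :
    ModularForm.heckeU 1 3 (ModularForm.heckeU 1 3 F ∣[(1 : ℤ)] D.W) = F ∣[(1 : ℤ)] D.W := by
  have e1 : chi3 ((M : ℤ) * (-2)) = chi3 M := chi3_congr ⟨-M, by ring⟩
  have e2 : chi3 ((M : ℤ) * (-1)) = - chi3 M := by
    rw [chi3_mul, chi3_neg_one]
    ring
  have e3 : chi3 ((M : ℤ) * 2) = - chi3 M := by
    rw [← e2]
    exact chi3_congr ⟨M, by ring⟩
  have t10 := w3_term D hF hx hy 1 0 2 (-1) (by norm_num)
  have t11 := w3_term D hF hx hy 1 1 0 0 (by norm_num)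
  have t12 := w3_term D hF hx hy 1 2 1 0 (by norm_num)
  have t20 := w3_term D hF hx hy 2 0 1 (-1) (by norm_num)
  have t21 := w3_term D hF hx hy 2 1 2 (-1) (by norm_num)
  have t22 := w3_term D hF hx hy 2 2 0 1 (by norm_num)
  have t00 := w3_term_zero D hF hx 0
  have t01 := w3_term_zero D hF hx 1
  have t02 := w3_term_zero D hF hx 2
  rw [ModularForm.heckeU_def 1 3 F, SlashAction.sum_slash, ModularForm.heckeU_def]
  simp only [Finset.sum_range_succ, Finset.sum_range_zero, zero_add, SlashAction.add_slash]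
  rw [t10, t11, t12, t20, t21, t22, t00, t01, t02]
  push_cast
  norm_num only
  rw [e1, e2, e3, mul_one]
  push_cast
  funext τ
  simp only [Pi.add_apply, Pi.smul_apply, smul_eq_mul]
  ring

/-- `U_q`, `q ∣ N`, keeps the nebentypus. -/
theorem neb_heckeU (h3 : 3 ∣ N) {q : ℕ} [hq : Fact q.Prime] (hqN : q ∣ N) {F : ℍ → ℂ}
    (hF : Neb N F) : Neb N (ModularForm.heckeU 1 q F) := by
  classical
  intro g hg
  have key : ∀ j : ZMod q, ∃ t : ZMod q, ∃ c ∈ Gamma0 N, chi3 (c 1 1) = chi3 (g 1 1) ∧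
      hrep q (some j) * mapGL ℝ g = mapGL ℝ c * hrep q (some t) := by
    intro j
    obtain ⟨⟨y, hy⟩, ⟨c, hc⟩, h⟩ := exists_act hq.out ⟨g, hg⟩ ⟨some j, fun _ => by simp⟩
    rcases y with _ | t
    · exact absurd rfl (hy hqN)
    · refine ⟨t, c, hc, ?_, h⟩
      have h1 := (hrep_mul_iota_eq_iff hq.out.ne_zero (some j) (some t) ⟨g, hg⟩ ⟨c, hc⟩).mp h
      have h10 := congrFun (congrFun h1 1) 0
      have h11 := congrFun (congrFun h1 1) 1
      simp only [intRep_some, Matrix.mul_apply, Fin.sum_univ_two, Matrix.of_apply,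
        Matrix.cons_val', Matrix.cons_val_zero, Matrix.cons_val_one, Matrix.cons_val_fin_one,
        zero_mul, zero_add, mul_one, mul_zero, add_zero] at h10 h11
      have hq0 : (q : ℤ) ≠ 0 := by exact_mod_cast hq.out.ne_zero
      have e : c 1 1 - g 1 1 = -(g 1 0 * t.val) := by
        refine mul_left_cancel₀ hq0 ?_
        rw [← h10] at h11
        linear_combination -h11
      refine chi3_congr ?_
      rw [e]
      exact ((three_dvd_of_mem_Gamma0 h3 hg).mul_right _).neg_right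
  choose σ c hc hcc hσ using key
  have hinj : Function.Injective σ := by
    intro x x' hxx'
    have h1 := hσ x
    have h2 := hσ x'
    rw [hxx'] at h1
    have h4 : (some x : Option (ZMod q)) = some x' := by
      apply ALData.hrep_unique hq.out (g := c x * (c x')⁻¹)
      apply mul_right_cancel (b := mapGL ℝ g)
      rw [h1, mul_assoc, h2, map_mul, map_inv]
      group
    exact Option.some_injective _ h4
  have hbij : Function.Bijective σ := Finite.injective_iff_bijective.mp hinj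
  rw [ModularForm.heckeU_def, sum_range_eq_sum_zmod, SlashAction.sum_slash, Finset.smul_sum,
    ← hbij.sum_comp (fun j => ((chi3 (g 1 1) : ℤ) : ℂ) •
      (F ∣[(1 : ℤ)] ModularForm.heckeMatrix q j.val))]
  refine Finset.sum_congr rfl fun x _ => ?_
  have h5 : (F ∣[(1 : ℤ)] hrep q (some x)) ∣[(1 : ℤ)] mapGL ℝ g =
      ((chi3 (g 1 1) : ℤ) : ℂ) • (F ∣[(1 : ℤ)] hrep q (some (σ x))) := by
    rw [← SlashAction.slash_mul, hσ x, SlashAction.slash_mul, ← SL_slash', hF _ (hc x), hcc x]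
    exact (ModularForm.smul_slash ..).trans (by
      rw [hrep, ModularForm.σ_heckeMatrix, ContinuousAlgEquiv.refl_apply])
  exact h5

section Forms

variable [NeZero N]

theorem coe_tCusp_three (h3 : 3 ∣ N) (f : CuspForm (Gamma1 N) 1) :
    ⇑(tCusp N (Gamma1 N) 1 3 f) = ModularForm.heckeU 1 3 ⇑f := by
  rw [coe_tCusp, slashSum_hecke_of_dvd 1 3 h3]

theorem qCoeff_tCusp_three (h3 : 3 ∣ N) (f : CuspForm (Gamma1 N) 1) (n : ℕ) :
    qCoeff ⇑(tCusp N (Gamma1 N) 1 3 f) n = qCoeff ⇑f (3 * n) := by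
  rw [mul_comm 3 n]
  exact qCoeff_tCusp_of_dvd (Gamma1 N) 1 3 h3 f n

/-- `U₃` in terms of coefficients -/
theorem tCusp_three_eq_iff (h3 : 3 ∣ N) (f g : CuspForm (Gamma1 N) 1) :
    tCusp N (Gamma1 N) 1 3 f = g ↔ ∀ n, qCoeff ⇑f (3 * n) = qCoeff ⇑g n := by
  constructor
  · rintro rfl n
    rw [qCoeff_tCusp_three h3]
  · intro h
    apply DFunLike.coe_injective
    refine (qGood_of_modularFormClass N (Gamma1 N) 1 (tCusp N (Gamma1 N) 1 3 f)).ext
      (qGood_of_modularFormClass N (Gamma1 N) 1 g) fun n => ?_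
    rw [qCoeff_tCusp_three h3, h]

theorem neb_tCusp_three (h3 : 3 ∣ N) {f : CuspForm (Gamma1 N) 1} (hf : Neb N f) :
    Neb N (tCusp N (Gamma1 N) 1 3 f) := by
  rw [coe_tCusp_three h3]
  exact neb_heckeU h3 h3 hf

/-- **`U₃ w U₃ = w`** on forms. -/
theorem w3_U3 {x' y' : ℤ} (hx : D.x = 3 * x') (hy : D.y = 3 * y' - M)
    (f : CuspForm (Gamma1 N) 1) (hf : Neb N f) :
    tCusp N (Gamma1 N) 1 3 (w3Cusp D (tCusp N (Gamma1 N) 1 3 f)
      (neb_tCusp_three (w3_three_dvd D) hf)) = w3Cusp D f hf := by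
  apply DFunLike.coe_injective
  rw [coe_tCusp_three (w3_three_dvd D), coe_w3Cusp, coe_tCusp_three (w3_three_dvd D), coe_w3Cusp,
    w3_hecke D hf hx hy]

omit [NeZero N] in
include D in
/-- `g ∣ w ≠ 0`. -/
theorem w3_ne_zero {F : ℍ → ℂ} (hF : Neb N F) (h0 : F ≠ 0) : F ∣[(1 : ℤ)] D.W ≠ 0 := by
  intro h
  have h1 := w3_slash_slash D hF
  rw [h, SlashAction.zero_slash] at h1
  rcases smul_eq_zero.mp h1.symm with h2 | h2
  · norm_num at h2
  · exact h0 h2

end Forms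

/-- **`U₃` is injective** on `S₁(Γ₀(3M), χ₋₃)`, `3 ∤ M`. -/
theorem U3_injective {M : ℕ} [NeZero (3 * M)] (hM : ¬ 3 ∣ M) {g : CuspForm (Gamma1 (3 * M)) 1}
    (hg : Z3.HasNeb (3 * M) g) (h : ∀ n, qCoeff ⇑g (3 * n) = 0) : g = 0 := by
  obtain ⟨D, x', y', hx, hy⟩ := exists_w3Data (N := 3 * M) rfl hM
  have h3 : 3 ∣ 3 * M := dvd_mul_right 3 M
  have hgN : Neb (3 * M) ⇑g := hg
  have h1 : tCusp (3 * M) (Gamma1 (3 * M)) 1 3 g = 0 := by
    rw [tCusp_three_eq_iff h3]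
    intro n
    have h2 : qCoeff ⇑((0 : ℂ) • g) n = 0 := by
      rw [qCoeff_cusp_smul (3 * M) (Gamma1 (3 * M)) 1, zero_mul]
    rw [zero_smul] at h2
    rw [h, h2]
  have h2 := w3_hecke D hgN hx hy
  rw [← coe_tCusp_three h3, h1] at h2
  by_contra h0
  refine w3_ne_zero D hgN (fun h4 => h0 (DFunLike.coe_injective h4)) ?_
  rw [← h2]
  have h5 : (⇑(0 : CuspForm (Gamma1 (3 * M)) 1) : ℍ → ℂ) = 0 := rfl
  rw [h5, SlashAction.zero_slash, ModularForm.heckeU_def]
  simp [SlashAction.zero_slash]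

/-- **Atkin-Lehner at `3 ‖ N` in weight one with nebentypus `χ₋₃`.** -/
theorem exists_w3 {M : ℕ} [NeZero (3 * M)] (hM : ¬ 3 ∣ M) (g : CuspForm (Gamma1 (3 * M)) 1)
    (hg : Z3.HasNeb (3 * M) g) :
    ∃ g' : CuspForm (Gamma1 (3 * M)) 1, Z3.HasNeb (3 * M) g' ∧ (g ≠ 0 → g' ≠ 0) ∧
      (∀ p : ℕ, p.Prime → ¬ p ∣ 3 * M → ∀ t : ℂ, Rel g p t →
        Rel g' p (((chiNegThree p : ℤ) : ℂ) * t)) ∧
      ∀ t : ℂ, g ≠ 0 → (∀ n, qCoeff ⇑g (3 * n) = t * qCoeff ⇑g n) →
        t ≠ 0 ∧ ∀ n, qCoeff ⇑g' (3 * n) = t⁻¹ * qCoeff ⇑g' n := by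
  obtain ⟨D, x', y', hx, hy⟩ := exists_w3Data (N := 3 * M) rfl hM
  have h3 : 3 ∣ 3 * M := dvd_mul_right 3 M
  have hgN : Neb (3 * M) ⇑g := hg
  have hg'N : Neb (3 * M) ⇑(w3Cusp D g hgN) := w3_neb D hgN
  have hne : g ≠ 0 → w3Cusp D g hgN ≠ 0 := by
    intro h0 h
    exact w3_ne_zero D hgN (fun h4 => h0 (DFunLike.coe_injective h4))
      (congrArg (fun f : CuspForm (Gamma1 (3 * M)) 1 => (⇑f : ℍ → ℂ)) h)
  refine ⟨w3Cusp D g hgN, hg'N, hne, ?_, ?_⟩
  · intro p hp hpN t ht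
    have : Fact p.Prime := ⟨hp⟩
    rw [rel_iff h3 hgN hpN] at ht
    rw [rel_iff h3 hg'N hpN, coe_w3Cusp, w3_tChi D hgN hpN, ht, smul_slash_W, smul_smul,
      chi3_natCast]
  · intro t h0 ht
    have ht0 : t ≠ 0 := by
      rintro rfl
      exact h0 (U3_injective hM hg fun n => by rw [ht, zero_mul])
    refine ⟨ht0, ?_⟩
    have h1 : tCusp (3 * M) (Gamma1 (3 * M)) 1 3 g = t • g := by
      rw [tCusp_three_eq_iff h3]
      intro n
      rw [ht, qCoeff_cusp_smul (3 * M) (Gamma1 (3 * M)) 1]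
    have h2 := w3_hecke D hgN hx hy
    rw [← coe_tCusp_three h3, h1] at h2
    have h4 : (⇑(t • g) : ℍ → ℂ) ∣[(1 : ℤ)] D.W = ⇑(t • w3Cusp D g hgN) := by
      change (t • (⇑g : ℍ → ℂ)) ∣[(1 : ℤ)] D.W = t • (⇑g ∣[(1 : ℤ)] D.W)
      exact smul_slash_W D t g
    rw [h4, ← coe_tCusp_three h3, ← coe_w3Cusp D g hgN] at h2
    have h5 := (tCusp_three_eq_iff h3 (t • w3Cusp D g hgN) (w3Cusp D g hgN)).mp
      (DFunLike.coe_injective h2)
    intro n
    have h6 := h5 n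
    rw [qCoeff_cusp_smul (3 * M) (Gamma1 (3 * M)) 1] at h6
    rw [← h6, ← mul_assoc, inv_mul_cancel₀ ht0, one_mul]

end Fermat.Agent.Cor.Artin
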