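import Fermat.Agent.Corollaries.Artin.FunEqMain
import Fermat.Agent.Corollaries.Artin.Strip

/-!
# The zeros of the `L`-function of Artin of `r = κ ∘ Ψ ∘ ρ`

* `artin_trivial_zeros`, `artin_order_trivial`: outside `0 < re s < 1` the zeros are exactly
  `s = 0, -1, -2, …`, all simple. (At `s = 0` this is the order of vanishing predicted by Stark:
  `dim V^{c} = 1`.)
* `artin_infinite_zeros`: infinitely many zeros in the critical strip `0 < re s < 1`.
* `artin_zero_symm`: they are symmetric with respect to the critical line `re s = 1/2`.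
-/

set_option autoImplicit false

noncomputable section

open NumberField NumberField.InfinitePlace IsDedekindDomain WeierstrassCurve Filter
open CongruenceSubgroup ModularFormClass EisensteinWeightOne
open Fermat.Agent.Classic Fermat.Agent.Classic.Level Fermat.Agent.X1 Fermat.Agent.LT.End
open scoped MatrixGroups ModularForm ComplexConjugate Topology

namespace Fermat.Agent.Cor.Artin

local notation "Γℚ" => (AlgebraicClosure ℚ ≃ₐ[ℚ] AlgebraicClosure ℚ)

variable {ρ : Γℚ →* GL (Fin 2) (ZMod 3)} {Ψ : GL (Fin 2) (ZMod 3) →* GL (Fin 2) (ℤ√(-2))}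
  {κ : ℤ√(-2) →+* ℂ} {L : ℂ → ℂ}

/-- The completed `L`-function is bounded on vertical strips. -/
theorem exists_bound_lamN {N : ℕ} [NeZero N] (g : CuspForm (Gamma1 N) 1) (a b : ℝ) :
    ∃ C : ℝ, ∀ s : ℂ, a ≤ s.re → s.re ≤ b → ‖lamN N g s‖ ≤ C := by
  obtain ⟨C, hC⟩ := exists_bound_Λ g a b
  have hN : 0 < N := Nat.pos_of_ne_zero (NeZero.ne N)
  have h1N : (1 : ℝ) ≤ N := by exact_mod_cast hN
  refine ⟨(N : ℝ) ^ (b / 2) * (2 * C), fun s h1 h2 => ?_⟩
  have h3 := hC s h1 h2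
  have h4 : ‖(N : ℂ) ^ (s / 2)‖ ≤ (N : ℝ) ^ (b / 2) := by
    rw [Complex.norm_natCast_cpow_of_pos hN]
    refine Real.rpow_le_rpow_of_exponent_le h1N ?_
    rw [show (s / 2 : ℂ) = ((2⁻¹ : ℝ) : ℂ) * s by push_cast; ring, Complex.re_ofReal_mul]
    linarith
  rw [lamN, norm_mul, norm_mul, Complex.norm_ofNat]
  gcongr

/-- The functional equation for a given `L`-function of Artin. -/
theorem IsArtinL.exists_degTwo (hρ : Continuous ρ) (hs : Function.Surjective ρ)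
    (hdet : ∀ σ : Γℚ, Matrix.GeneralLinearGroup.det (ρ σ) = modThreeCyclotomicChar σ)
    (hΨ : ∀ g, Matrix.GeneralLinearGroup.map FLT.ExplicitLift.red (Ψ g) = g)
    (h : IsArtinL ρ Ψ κ L) :
    ∃ (N : ℕ) (W : ℂ) (L' Λ Λ' : ℂ → ℂ), DegTwo N W L L' Λ Λ' ∧
      IsArtinL ρ Ψ ((starRingEnd ℂ).comp κ) L' ∧ (∀ s : ℂ, Λ' s = conj (Λ (conj s))) ∧
      ∀ a b : ℝ, ∃ C : ℝ, ∀ s : ℂ, a ≤ s.re → s.re ≤ b → ‖Λ s‖ ≤ C := by
  obtain ⟨N, hN, g, g', W, -, -, -, -, h5, h6, h7, hW, hfe⟩ :=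
    artin_fe_newform hρ hs hdet hΨ κ
  have hL : L = ModularForm.L one_pos g := h.unique h6
  refine ⟨N, W, ModularForm.L one_pos g', lamN N g, lamN N g', ?_, h7, lamN_conj h5,
    exists_bound_lamN g⟩
  refine ⟨Nat.pos_of_ne_zero (NeZero.ne N), ?_, differentiable_lamN g, differentiable_lamN g',
    h.entire, fun s hs => ?_, fun s hs => lamN_eq g' hs, hfe⟩
  · intro h0
    rw [h0, norm_zero] at hW
    exact zero_ne_one hW
  · rw [hL]
    exact lamN_eq g hs

/-- **The trivial zeros**: outside of the critical strip the zeros are exactly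
`s = 0, -1, -2, …`. -/
theorem artin_trivial_zeros (hρ : Continuous ρ) (hs : Function.Surjective ρ)
    (hdet : ∀ σ : Γℚ, Matrix.GeneralLinearGroup.det (ρ σ) = modThreeCyclotomicChar σ)
    (hΨ : ∀ g, Matrix.GeneralLinearGroup.map FLT.ExplicitLift.red (Ψ g) = g)
    (h : IsArtinL ρ Ψ κ L) {s : ℂ} (hs' : s.re ≤ 0 ∨ 1 ≤ s.re) :
    L s = 0 ↔ ∃ n : ℕ, s = -n := by
  obtain ⟨N, W, L', Λ, Λ', hD, hL', -, -⟩ := h.exists_degTwo hρ hs hdet hΨ
  exact hD.trivial_iff (fun s hs' => artin_ne_zero hρ hs hdet hΨ h hs')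
    (fun s hs' => artin_ne_zero hρ hs hdet hΨ hL' hs') hs'

/-- **The trivial zeros are simple.** -/
theorem artin_order_trivial (hρ : Continuous ρ) (hs : Function.Surjective ρ)
    (hdet : ∀ σ : Γℚ, Matrix.GeneralLinearGroup.det (ρ σ) = modThreeCyclotomicChar σ)
    (hΨ : ∀ g, Matrix.GeneralLinearGroup.map FLT.ExplicitLift.red (Ψ g) = g)
    (h : IsArtinL ρ Ψ κ L) (n : ℕ) : analyticOrderAt L (-(n : ℂ)) = 1 := by
  obtain ⟨N, W, L', Λ, Λ', hD, hL', -, -⟩ := h.exists_degTwo hρ hs hdet hΨ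
  exact hD.trivial_order (fun s hs' => artin_ne_zero hρ hs hdet hΨ h hs')
    (fun s hs' => artin_ne_zero hρ hs hdet hΨ hL' hs') n

/-- **Infinitely many zeros in the critical strip.** -/
theorem artin_infinite_zeros (hρ : Continuous ρ) (hs : Function.Surjective ρ)
    (hdet : ∀ σ : Γℚ, Matrix.GeneralLinearGroup.det (ρ σ) = modThreeCyclotomicChar σ)
    (hΨ : ∀ g, Matrix.GeneralLinearGroup.map FLT.ExplicitLift.red (Ψ g) = g)
    (h : IsArtinL ρ Ψ κ L) : {s : ℂ | 0 < s.re ∧ s.re < 1 ∧ L s = 0}.Infinite := by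
  obtain ⟨N, W, L', Λ, Λ', hD, hL', -, hB⟩ := h.exists_degTwo hρ hs hdet hΨ
  obtain ⟨B, hB⟩ := hB (-1) 2
  obtain ⟨Z, hZ⟩ := h.exists_bound hρ hs hdet hΨ
  obtain ⟨Z', hZ'⟩ := hL'.exists_bound hρ hs hdet hΨ
  exact hD.infinite_zeros (fun s hs' => artin_ne_zero hρ hs hdet hΨ h hs')
    (fun s hs' => artin_ne_zero hρ hs hdet hΨ hL' hs') hB (Z := max Z Z')
    (fun s hs' => (hZ s hs').trans (le_max_left _ _))
    (fun s hs' => (hZ' s hs').trans (le_max_right _ _)) (h.tendsto hρ hs hdet hΨ)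

/-- **The zeros in the critical strip are symmetric with respect to the critical line.** -/
theorem artin_zero_symm (hρ : Continuous ρ) (hs : Function.Surjective ρ)
    (hdet : ∀ σ : Γℚ, Matrix.GeneralLinearGroup.det (ρ σ) = modThreeCyclotomicChar σ)
    (hΨ : ∀ g, Matrix.GeneralLinearGroup.map FLT.ExplicitLift.red (Ψ g) = g)
    (h : IsArtinL ρ Ψ κ L) {s : ℂ} (h0 : 0 < s.re) (h1 : s.re < 1) :
    L (1 - conj s) = 0 ↔ L s = 0 := by
  obtain ⟨N, W, L', Λ, Λ', hD, hL', hc, -⟩ := h.exists_degTwo hρ hs hdet hΨ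
  have key := hD.zero_iff (fun s hs' => artin_ne_zero hρ hs hdet hΨ h hs')
    (fun s hs' => artin_ne_zero hρ hs hdet hΨ hL' hs')
  have h2 : 0 < (1 - conj s).re ∧ (1 - conj s).re < 1 := by
    rw [Complex.sub_re, Complex.one_re, Complex.conj_re]
    constructor <;> linarith
  have h3 : Λ (1 - conj s) = W * conj (Λ s) := by
    rw [hD.fe, hc, Complex.conj_conj]
  have h4 : L (1 - conj s) = 0 ↔ Λ (1 - conj s) = 0 := by
    rw [key]
    exact ⟨fun h => ⟨h2.1, h2.2, h⟩, fun h => h.2.2⟩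
  have h5 : L s = 0 ↔ Λ s = 0 := by
    rw [key]
    exact ⟨fun h => ⟨h0, h1, h⟩, fun h => h.2.2⟩
  rw [h4, h5, h3, mul_eq_zero, or_iff_right hD.root, map_eq_zero]

end Fermat.Agent.Cor.Artin

end
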